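/-
S55 package E4, island GS, Layer A, leaf A-Two (helper19): `Stmt_BrTwoG`.

`stmt_BrTwoG_of : Stmt_BrTwo → Stmt_BrOne → Stmt_BrHasse → Stmt_BrTwoG`
(the leaves DEG-GROW, SHL, SHL-inf are used in their proved forms `H96.stmt_DegGrow`,
`H58.stmt_SHL`, `H58.stmt_InfJvInj`).

Route (docstring of `Stmt_BrTwoG`): `L = K(ζ_{p^{M₁+1}})` with `p ∣` local degree at `v₁`
(DEG-GROW); `b ∈ H²(G, (K_{v₁} ⊗ L)ˣ)` of order `p` (SHL + Cauchy); BR-Two gives `x'` over
`N' = L(ζ_{p^{M'}})` with `loc_{v₁} x' = inf b ≠ 0` (SHL-inf) and trivial components outside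
`{v₁, v₂}`; `p x'` is locally trivial outside `v₂`, hence everywhere (BR-One), hence `0`
(BR-Hasse).  `N'` is a model of `K(ζ_{p^{M₀}})`, `M₀ = max (M₁ + 1) M'`; for `M ≥ M₀` every model
`N` of `K(ζ_{p^M})` contains a copy of `N'`: inflate `x'` along `N' → N`.
-/
import Fermat.Agent.S55.CFT.Defs_GS2
import Fermat.Agent.S55.CFT.H56_LocNat
import Fermat.Agent.S55.CFT.H96_DegGrow
import Fermat.Agent.S55.CFT.H58_SHL
import Fermat.Agent.S55.CFT.H58_InfJv

set_option autoImplicit false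
set_option linter.style.haveILetI false
set_option linter.unusedSectionVars false

open NumberField TensorProduct CategoryTheory

noncomputable section

namespace Fermat.Agent.S55.CFT.GS.H19

open Fermat.Agent.S55.CFT groupCohomology

/-! ### Cyclotomic towers -/

/-- `K(ζ_{p^a})(ζ_{p^b}) = K(ζ_{p^{max a b}})`. -/
theorem isCyclotomicExtension_tower (p a b : ℕ) (hp : p.Prime) (K L N : Type) [Field K]
    [Field L] [Field N] [Algebra K L] [Algebra K N] [Algebra L N] [IsScalarTower K L N]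
    [IsCyclotomicExtension {p ^ a} K L] [IsCyclotomicExtension {p ^ b} L N] :
    IsCyclotomicExtension {p ^ max a b} K N := by
  haveI : NeZero (p ^ a) := ⟨pow_ne_zero _ hp.ne_zero⟩
  haveI : NeZero (p ^ b) := ⟨pow_ne_zero _ hp.ne_zero⟩
  have h1 : IsCyclotomicExtension ({p ^ a} ∪ {p ^ b}) K N :=
    IsCyclotomicExtension.trans {p ^ a} {p ^ b} K L N (algebraMap L N).injective
  rcases le_total a b with hab | hab
  · rw [max_eq_right hab]
    rw [Set.union_comm] at h1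
    exact (IsCyclotomicExtension.iff_union_of_dvd (S := {p ^ b}) (n := p ^ a) K N
      ⟨p ^ b, rfl, pow_ne_zero _ hp.ne_zero, pow_dvd_pow p hab⟩).2 h1
  · rw [max_eq_left hab]
    exact (IsCyclotomicExtension.iff_union_of_dvd (S := {p ^ a}) (n := p ^ b) K N
      ⟨p ^ a, rfl, pow_ne_zero _ hp.ne_zero, pow_dvd_pow p hab⟩).2 h1

/-- For `M₂ ≤ M`, a model of `K(ζ_{p^{M₂}})` embeds into every model of `K(ζ_{p^M})`. -/
theorem exists_algHom_of_le (p M₂ M : ℕ) (hp : p.Prime) (hM : M₂ ≤ M) (K N' N : Type) [Field K]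
    [Field N'] [Field N] [Algebra K N'] [Algebra K N] [IsCyclotomicExtension {p ^ M₂} K N']
    [IsCyclotomicExtension {p ^ M} K N] : Nonempty (N' →ₐ[K] N) := by
  haveI : NeZero (p ^ M) := ⟨pow_ne_zero _ hp.ne_zero⟩
  haveI : NeZero (p ^ M₂) := ⟨pow_ne_zero _ hp.ne_zero⟩
  haveI : Algebra.IsIntegral K N := IsCyclotomicExtension.integral {p ^ M} K N
  have hζ := IsCyclotomicExtension.zeta_spec (p ^ M) K N
  have hζ' : IsPrimitiveRoot (IsCyclotomicExtension.zeta (p ^ M) K N ^ (p ^ (M - M₂)))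
      (p ^ M₂) := by
    refine hζ.pow (pow_pos hp.pos _) ?_
    rw [← pow_add]
    congr 1
    omega
  haveI := hζ'.intermediateField_adjoin_isCyclotomicExtension K
  exact ⟨(IntermediateField.val _).comp
    (IsCyclotomicExtension.algEquiv {p ^ M₂} K N'
      ↥(IntermediateField.adjoin K
        {IsCyclotomicExtension.zeta (p ^ M) K N ^ (p ^ (M - M₂))})).toAlgHom⟩

/-! ### The core -/

theorem brTwoG_core (hTwo : Stmt_BrTwo) (hOne : Stmt_BrOne) (hHasse : Stmt_BrHasse)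
    (p M₁ : ℕ) (K L : Type) [Field K] [Field L] [NumberField K] [NumberField L] [Algebra K L]
    (hp : p.Prime) (hodd : p ≠ 2) (hz : ∃ ζ : K, IsPrimitiveRoot ζ p)
    [hcyc : IsCyclotomicExtension {p ^ (M₁ + 1)} K L] (v₁ v₂ : Place K) (hne : v₁ ≠ v₂)
    (hdeg : p * Nat.card (MaximalSpectrum (LocAlg K L v₁)) ∣ Module.finrank K L) :
    ∃ M₀ : ℕ, ∀ M : ℕ, M₀ ≤ M → ∀ (N : Type) [Field N] [NumberField N] [Algebra K N],
      IsCyclotomicExtension {p ^ M} K N →
      ∃ x : groupCohomology (repL K N) 2, (p : ℤ) • x = 0 ∧ locMap K N v₁ 2 x ≠ 0 ∧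
        ∀ v : Place K, v ≠ v₁ → v ≠ v₂ → locMap K N v 2 x = 0 := by
  classical
  haveI : Fact p.Prime := ⟨hp⟩
  haveI hgL : IsGalois K L := IsCyclotomicExtension.isGalois {p ^ (M₁ + 1)} K L
  haveI : Normal K L := hgL.to_normal
  obtain ⟨m, hm⟩ := H96.finrank_eq_prime_pow p M₁ hp K L hz
  have h3 : Hyp3 K L p m := ⟨hp, hodd, hz, hgL, hm⟩
  -- a local class of order `p`
  obtain ⟨-, hfin, hcard, -, -⟩ := H58.stmt_SHL p m K L h3 v₁
  haveI := hfin
  have hpd : p ∣ Nat.card (groupCohomology (repJv K L v₁) 2) := by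
    have hpos : 0 < Nat.card (MaximalSpectrum (LocAlg K L v₁)) := by
      rcases Nat.eq_zero_or_pos (Nat.card (MaximalSpectrum (LocAlg K L v₁))) with h0 | h0
      · rw [h0, mul_zero] at hcard
        exact absurd hcard.symm (Module.finrank_pos).ne'
      · exact h0
    rw [← hcard] at hdeg
    exact Nat.dvd_of_mul_dvd_mul_right hpos hdeg
  obtain ⟨b, hb⟩ := exists_prime_addOrderOf_dvd_card' p hpd
  have hb0 : b ≠ 0 := by
    rintro rfl
    rw [addOrderOf_zero] at hb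
    exact hp.one_lt.ne hb
  have hpb : p • b = 0 := by
    rw [← hb]
    exact addOrderOf_nsmul_eq_zero b
  -- the global class over `N' = L(ζ_{p^{M'}})`
  obtain ⟨M', hneM', x', hx1, hx2⟩ := hTwo p m K L h3 v₁ v₂ hne b
  haveI := hneM'
  haveI hcycN' : IsCyclotomicExtension {p ^ max (M₁ + 1) M'} K (CyclotomicField (p ^ M') L) :=
    isCyclotomicExtension_tower p (M₁ + 1) M' hp K L (CyclotomicField (p ^ M') L)
  haveI hgN' : IsGalois K (CyclotomicField (p ^ M') L) :=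
    IsCyclotomicExtension.isGalois {p ^ max (M₁ + 1) M'} K (CyclotomicField (p ^ M') L)
  haveI : Normal K (CyclotomicField (p ^ M') L) := hgN'.to_normal
  obtain ⟨m', hm'⟩ : ∃ m', Module.finrank K (CyclotomicField (p ^ M') L) = p ^ m' := by
    obtain ⟨M₂, hM₂⟩ : ∃ M₂, max (M₁ + 1) M' = M₂ + 1 :=
      ⟨max (M₁ + 1) M' - 1, (Nat.sub_add_cancel (le_trans (Nat.le_add_left 1 M₁)
        (le_max_left _ _))).symm⟩
    haveI : IsCyclotomicExtension {p ^ (M₂ + 1)} K (CyclotomicField (p ^ M') L) := by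
      rw [← hM₂]
      exact hcycN'
    exact H96.finrank_eq_prime_pow p M₂ hp K (CyclotomicField (p ^ M') L) hz
  have h3' : Hyp3 K (CyclotomicField (p ^ M') L) p m' := ⟨hp, hodd, hz, hgN', hm'⟩
  have hinj := H58.stmt_InfJvInj K L (CyclotomicField (p ^ M') L) hgL hgN' v₁
  have hloc1 : locMap K (CyclotomicField (p ^ M') L) v₁ 2 x' ≠ 0 := by
    rw [hx1]
    intro h0
    exact hb0 (hinj (h0.trans (map_zero _).symm))
  have hout : ∀ v : Place K, v ≠ v₂ →
      locMap K (CyclotomicField (p ^ M') L) v 2 ((p : ℤ) • x') = 0 := by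
    intro v hv
    rw [map_zsmul]
    by_cases hv1 : v = v₁
    · subst hv1
      rw [hx1, ← map_zsmul, natCast_zsmul, hpb, map_zero]
    · rw [hx2 v hv1 hv]
      exact zsmul_zero _
  have hpx' : (p : ℤ) • x' = 0 := by
    apply hHasse p m' K (CyclotomicField (p ^ M') L) h3'
    intro v
    by_cases hv : v = v₂
    · subst hv
      exact hOne p m' K (CyclotomicField (p ^ M') L) h3' _ v hout
    · exact hout v hv
  -- inflation to the models of `K(ζ_{p^M})`, `M ≥ M₀`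
  refine ⟨max (M₁ + 1) M', fun M hM N _ _ _ hcycN => ?_⟩
  haveI := hcycN
  obtain ⟨φ⟩ := exists_algHom_of_le p (max (M₁ + 1) M') M hp hM K (CyclotomicField (p ^ M') L) N
  letI : Algebra (CyclotomicField (p ^ M') L) N := φ.toRingHom.toAlgebra
  haveI : IsScalarTower K (CyclotomicField (p ^ M') L) N :=
    IsScalarTower.of_algebraMap_eq (fun x => (φ.commutes x).symm)
  haveI hgN : IsGalois K N := IsCyclotomicExtension.isGalois {p ^ M} K N
  refine ⟨infL K (CyclotomicField (p ^ M') L) N 2 x', ?_, ?_, ?_⟩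
  · rw [← map_zsmul, hpx', map_zero]
  · rw [H56.locMap_infL]
    intro h0
    exact hloc1 (H58.stmt_InfJvInj K (CyclotomicField (p ^ M') L) N hgN' hgN v₁
      (h0.trans (map_zero _).symm))
  · intro v h1 h2
    rw [H56.locMap_infL, hx2 v h1 h2, map_zero]

/-- **A-Two**: `Stmt_BrTwoG` from BR-Two, BR-One and BR-Hasse. -/
theorem stmt_BrTwoG_of (hTwo : Stmt_BrTwo) (hOne : Stmt_BrOne) (hHasse : Stmt_BrHasse) :
    Stmt_BrTwoG := by
  intro p K _ _ hp hodd hz v₁ v₂ hne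
  obtain ⟨M₁, hM₁⟩ := H96.stmt_DegGrow p 1 K hp hz v₁
  haveI : NeZero (p ^ (M₁ + 1)) := ⟨pow_ne_zero _ hp.ne_zero⟩
  have hdeg := hM₁ (M₁ + 1) (Nat.le_succ _) (CyclotomicField (p ^ (M₁ + 1)) K) inferInstance
  rw [pow_one] at hdeg
  exact brTwoG_core hTwo hOne hHasse p M₁ K (CyclotomicField (p ^ (M₁ + 1)) K) hp hodd hz
    v₁ v₂ hne hdeg

end Fermat.Agent.S55.CFT.GS.H19

end
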