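/-
S55 package E4, island GS, leaf **GS-H90** (helper6): Hilbert 90 at level `S`.

`stmt_GS_H90 : Stmt_GS_H90` : a level-`S` 1-cocycle of `G_K` with values in `Ωˣ = K_Sˣ` is
`g ↦ g t / t` with `t ∈ Ωˣ`.

Route: the cocycle takes finitely many values (it factors through `G_ℚ / G_{K F}`, `F` the level
field); let `N` be a normal field of level `S` containing `K`, `F` and the values
(`H48.exists_normal_level`).  Then the cocycle is inflated from `Gal(N/K)` and Mathlib's
Hilbert 90 (`isMulCoboundary₁_of_isMulCocycle₁_of_aut_to_units`) applies.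
-/
import Fermat.Agent.S55.CFT.Defs_GS
import Fermat.Agent.S55.H48_NC

set_option autoImplicit false

noncomputable section

namespace Fermat.Agent.S55.CFT.GS.H6

open Fermat.Agent.S55 Fermat.Agent.S55.Top groupCohomology

/-- Hilbert 90 for a finite normal extension `L / K`, for cochains on a group `G` mapping onto
`Gal(L/K)`. -/
theorem hilbert90_abstract {K L G : Type*} [Field K] [Field L] [Algebra K L]
    [FiniteDimensional K L] [Group G]
    (res : G →* Gal(L/K)) (hsurj : Function.Surjective res) (b : G → L) (hb0 : ∀ g, b g ≠ 0)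
    (hfac : ∀ g g', res g = res g' → b g = b g')
    (hcoc : ∀ g h, b (g * h) = res g (b h) * b g) :
    ∃ β : L, β ≠ 0 ∧ ∀ g, b g * β = res g β := by
  let lift : Gal(L/K) → G := fun τ => (hsurj τ).choose
  have hlift : ∀ τ, res (lift τ) = τ := fun τ => (hsurj τ).choose_spec
  let f : Gal(L/K) → Lˣ := fun τ => Units.mk0 (b (lift τ)) (hb0 _)
  have hf_val : ∀ g : G, ((f (res g) : Lˣ) : L) = b g := by
    intro g
    show b (lift (res g)) = b g
    exact hfac _ _ (hlift _)
  have hfcoc : IsMulCocycle₁ f := by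
    intro τ τ'
    apply Units.ext
    have h1 : τ * τ' = res (lift τ * lift τ') := by rw [map_mul, hlift, hlift]
    have h2 : ((f (τ * τ') : Lˣ) : L) = b (lift τ * lift τ') := by
      rw [h1]; exact hf_val _
    rw [h2, hcoc, hlift]
    rfl
  obtain ⟨β, hβ⟩ := isMulCoboundary₁_of_isMulCocycle₁_of_aut_to_units f hfcoc
  refine ⟨(β : L), β.ne_zero, fun g => ?_⟩
  have h1 : ((res g • β / β : Lˣ) : L) = ((f (res g) : Lˣ) : L) :=
    congrArg (fun u : Lˣ => (u : L)) (hβ (res g))
  rw [hf_val] at h1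
  rw [← h1, Units.val_div_eq_div_val, div_mul_cancel₀ _ β.ne_zero]
  rfl

local notation "Qb" => AlgebraicClosure ℚ

theorem qb_isAlgebraic : Algebra.IsAlgebraic ℚ Qb := AlgebraicClosure.isAlgebraic ℚ

attribute [local instance] qb_isAlgebraic

theorem qb_isAlgClosure : IsAlgClosure ℚ Qb := ⟨inferInstance, inferInstance⟩

attribute [local instance] qb_isAlgClosure

theorem qb_normal : Normal ℚ Qb := IsAlgClosure.normal ℚ Qb

attribute [local instance] qb_normal

theorem qb_isGalois : IsGalois ℚ Qb := ⟨⟩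

attribute [local instance] qb_isGalois

section core

variable (K N : IntermediateField ℚ Qb)

/-- `N` is stable under `G_ℚ` if its fixing subgroup is normal. -/
theorem map_mem_of_normal (hN : N.fixingSubgroup.Normal) (σ : GQ) (x : Qb) (hx : x ∈ N) :
    σ x ∈ N := by
  have hG : IsGalois ℚ N := (InfiniteGalois.normal_iff_isGalois N).mp hN
  have hn : Normal ℚ N := IsGalois.to_normal
  have h := (IntermediateField.normal_iff_forall_map_le' (K := N)).mp hn σ
  exact h ⟨x, hx, rfl⟩

variable {K N} (hKN : K ≤ N)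

/-- `N` as an intermediate field of `ℚ̄ / K`. -/
abbrev NK : IntermediateField K Qb := IntermediateField.extendScalars hKN

theorem normal_NK (hN : N.fixingSubgroup.Normal) : Normal K (NK hKN) := by
  have : Normal K Qb := Normal.tower_top_of_normal ℚ K Qb
  rw [IntermediateField.normal_iff_forall_map_le']
  rintro σ _ ⟨x, hx, rfl⟩
  exact map_mem_of_normal N hN (σ.restrictScalars ℚ) x hx

theorem finiteDimensional_NK [FiniteDimensional ℚ N] : FiniteDimensional K (NK hKN) := by
  have : FiniteDimensional ℚ (NK hKN) := ‹FiniteDimensional ℚ N›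
  exact FiniteDimensional.right ℚ K (NK hKN)

include hKN in
/-- **Hilbert 90 for `N / K` in the language of `G_K`-cochains.** -/
theorem hilbert90_core [FiniteDimensional ℚ N] (hN : N.fixingSubgroup.Normal)
    (b : ↥K.fixingSubgroup → Qbˣ)
    (hlev : ∀ g s : ↥K.fixingSubgroup, (s : GQ) ∈ N.fixingSubgroup → b (g * s) = b g)
    (hval : ∀ g, (b g : Qb) ∈ N) (hcoc : mOne b = 1) :
    ∃ t : Qbˣ, (t : Qb) ∈ N ∧ ∀ g, b g = g • t / t := by
  have := normal_NK hKN hN
  have := finiteDimensional_NK hKN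
  -- the restriction map `G_K → Gal(N/K)`
  let e : ↥K.fixingSubgroup ≃* (Qb ≃ₐ[K] Qb) := IntermediateField.fixingSubgroupEquiv K
  let res : ↥K.fixingSubgroup →* (NK hKN ≃ₐ[K] NK hKN) :=
    (AlgEquiv.restrictNormalHom (F := K) (K₁ := Qb) (NK hKN)).comp e.toMonoidHom
  have hres_apply : ∀ (g : ↥K.fixingSubgroup) (x : NK hKN),
      ((res g x : NK hKN) : Qb) = (g : GQ) (x : Qb) := by
    intro g x
    exact AlgEquiv.restrictNormal_commutes (e g) (NK hKN) x
  have hres_surj : Function.Surjective res := by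
    intro τ
    obtain ⟨σ, hσ⟩ := AlgEquiv.restrictNormalHom_surjective (F := K) (K₁ := NK hKN) Qb τ
    exact ⟨e.symm σ, by simpa [res] using hσ⟩
  -- `b` factors through `res`
  have hfac : ∀ g g' : ↥K.fixingSubgroup, res g = res g' → b g = b g' := by
    intro g g' h
    have hs : ((g⁻¹ * g' : ↥K.fixingSubgroup) : GQ) ∈ N.fixingSubgroup := by
      rw [IntermediateField.mem_fixingSubgroup_iff]
      intro x hx
      have h1 : res (g⁻¹ * g') = 1 := by rw [map_mul, map_inv, h, inv_mul_cancel]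
      have h2 := hres_apply (g⁻¹ * g') ⟨x, hx⟩
      rw [h1] at h2
      exact h2.symm
    have := hlev g (g⁻¹ * g') hs
    rw [mul_inv_cancel_left] at this
    exact this.symm
  -- the cocycle relation
  have hcoc' : ∀ g h : ↥K.fixingSubgroup, b (g * h) = g • b h * b g := by
    intro g h
    have h1 := congrFun hcoc (g, h)
    simp only [mOne, Pi.one_apply] at h1
    rw [div_mul_eq_mul_div, div_eq_one] at h1
    exact h1.symm
  obtain ⟨β, hβ0, hβ⟩ := hilbert90_abstract res hres_surj
    (fun g => (⟨(b g : Qb), (hval g : (b g : Qb) ∈ NK hKN)⟩ : NK hKN))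
    (fun g h => (b g).ne_zero (congrArg Subtype.val h))
    (fun g g' h => Subtype.ext (congrArg (fun u : Qbˣ => (u : Qb)) (hfac g g' h)))
    (fun g h => by
      apply Subtype.ext
      show (b (g * h) : Qb) = ((res g ⟨(b h : Qb), hval h⟩ : NK hKN) : Qb) * (b g : Qb)
      rw [hres_apply, hcoc']
      rfl)
  have hβ0' : (β : Qb) ≠ 0 := fun h => hβ0 (Subtype.ext h)
  refine ⟨Units.mk0 (β : Qb) hβ0', β.2, fun g => ?_⟩
  apply Units.ext
  rw [Units.val_div_eq_div_val, eq_div_iff (by exact hβ0')]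
  have h1 := congrArg Subtype.val (hβ g)
  rw [hres_apply] at h1
  exact h1

end core

section level

variable (S : Finset Nat.Primes)

/-- Finitely many elements of `Ω` lie in one field of level `S`. -/
theorem exists_level_of_finite (T : Set Qb) (hT : T.Finite) (h : ∀ x ∈ T, InOm S x) :
    ∃ N : IntermediateField ℚ Qb, N.IsUnramifiedOutside S ∧ ∀ x ∈ T, x ∈ N := by
  induction T, hT using Set.Finite.induction_on with
  | empty => exact ⟨⊥, IntermediateField.isUnramifiedOutside_bot S, fun x hx => absurd hx (by simp)⟩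
  | @insert a s _ _ ih =>
    obtain ⟨N, hN, hsN⟩ := ih (fun x hx => h x (Set.mem_insert_of_mem a hx))
    obtain ⟨F, hF, haF⟩ := h a (Set.mem_insert a s)
    refine ⟨N ⊔ F, hN.sup hF, fun x hx => ?_⟩
    rcases hx with rfl | hx
    · exact (le_sup_right : F ≤ N ⊔ F) haF
    · exact (le_sup_left : N ≤ N ⊔ F) (hsN x hx)

/-- A level-`S` function on `G_K` takes finitely many values. -/
theorem finite_range_of_isLevK₁ {X : Type*} (K : IntermediateField ℚ Qb)
    (hK : K.IsUnramifiedOutside S) (b : ↥K.fixingSubgroup → X) (hlev : IsLevK₁ S K b) :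
    (Set.range b).Finite := by
  classical
  obtain ⟨F, hF, hb⟩ := hlev
  have hM : (K ⊔ F).IsUnramifiedOutside S := hK.sup hF
  have hfd := hM.1
  have hfin : Finite (GQ ⧸ (K ⊔ F).fixingSubgroup) :=
    Subgroup.quotient_finite_of_isOpen (K ⊔ F).fixingSubgroup (K ⊔ F).fixingSubgroup_isOpen
  let π : ↥K.fixingSubgroup → GQ ⧸ (K ⊔ F).fixingSubgroup := fun g => ((g : GQ) : GQ ⧸ _)
  have hπ : ∀ g g' : ↥K.fixingSubgroup, π g = π g' → b g = b g' := by
    intro g g' h
    have h1 : (g : GQ)⁻¹ * (g' : GQ) ∈ (K ⊔ F).fixingSubgroup := QuotientGroup.eq.mp h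
    have h2 : ((g⁻¹ * g' : ↥K.fixingSubgroup) : GQ) ∈ F.fixingSubgroup :=
      IntermediateField.fixingSubgroup_antitone (le_sup_right : F ≤ K ⊔ F) h1
    have := hb g (g⁻¹ * g') h2
    rw [mul_inv_cancel_left] at this
    exact this.symm
  rcases isEmpty_or_nonempty X with hX | ⟨⟨x₀⟩⟩
  · exact Set.toFinite _
  let c : GQ ⧸ (K ⊔ F).fixingSubgroup → X := fun x =>
    if h : ∃ g, π g = x then b h.choose else x₀
  refine (Set.finite_range c).subset ?_
  rintro _ ⟨g, rfl⟩
  refine ⟨π g, ?_⟩
  have hex : ∃ g', π g' = π g := ⟨g, rfl⟩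
  show (if h : ∃ g', π g' = π g then b h.choose else x₀) = b g
  rw [dif_pos hex]
  exact hπ _ _ hex.choose_spec

end level

/-- **GS-H90** : Hilbert 90 at level `S`. -/
theorem stmt_GS_H90 : Stmt_GS_H90 := by
  intro S K hK b hlev hval hcoc
  -- the values of `b`
  have hfin : (Set.range (fun g => (b g : Qb))).Finite := by
    have := finite_range_of_isLevK₁ S K hK b hlev
    have h2 : Set.range (fun g => (b g : Qb)) = (fun u : Qbˣ => (u : Qb)) '' Set.range b := by
      ext x
      constructor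
      · rintro ⟨g, rfl⟩
        exact ⟨b g, ⟨g, rfl⟩, rfl⟩
      · rintro ⟨_, ⟨g, rfl⟩, rfl⟩
        exact ⟨g, rfl⟩
    rw [h2]
    exact this.image _
  obtain ⟨N₁, hN₁, hval₁⟩ := exists_level_of_finite S _ hfin (by
    rintro _ ⟨g, rfl⟩
    exact hval g)
  obtain ⟨F, hF, hb⟩ := hlev
  obtain ⟨N, hle, hNS, hNn⟩ := Fermat.Agent.S55.H48.exists_normal_level S (K ⊔ F ⊔ N₁)
    ((hK.sup hF).sup hN₁)
  have hKN : K ≤ N := (le_sup_left.trans le_sup_left).trans hle
  have hFN : F ≤ N := (le_sup_right.trans le_sup_left).trans hle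
  have hN₁N : N₁ ≤ N := le_sup_right.trans hle
  have := hNS.1
  obtain ⟨t, htN, ht⟩ := hilbert90_core hKN hNn b
    (fun g s hs => hb g s (IntermediateField.fixingSubgroup_antitone hFN hs))
    (fun g => hN₁N (hval₁ _ ⟨g, rfl⟩)) hcoc
  exact ⟨t, ⟨N, hNS, htN⟩, ht⟩

end Fermat.Agent.S55.CFT.GS.H6
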