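/-
S55 package E4, island GS, LAYER B (owner-planner: helper64): interfaces of the bridge packages
REAL and CYC.  Plan: NOTES/plan/S55_GSB.md.

SETTING.  `K ≤ N` intermediate fields of `ℚ̄/ℚ`, both finite over `ℚ`, `N/K` Galois.  The abstract
fields are `↥K` and `↥(H6.NK hKN)` (`GS/H6_H90.lean`; the same carrier as `N`, as an extension of
`K`).  `NumberField` and `IsGalois` enter the statements as instance hypotheses
(`numberField_base`, `numberField_top`, `isGalois_top` provide them).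

* `resG hKN : G_K →* Gal(N/K)` (restriction), `valU hKN : Nˣ →* ℚ̄ˣ` (inclusion);
* `Real₂ hKN c x` : the 2-cochain `c` on `G_K` with values in `ℚ̄ˣ` is the inflation of a 2-cocycle
  of `Gal(N/K)` with values in `Nˣ` whose class is `x`;  `Real₃` likewise in degree 3;
* `IsLevN₁/₂/₃ K N f` : `f` is constant modulo `G_N` and has values in `N`.

PACKAGE REAL: `Stmt_R2_ex, _surj, _uniq, _mul, _zero, _cob, _inf` and `Stmt_R3_ex, _mul, _zero,
_inf`.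
PACKAGE CYC: `Stmt_CycBase`, `Stmt_CycTop` (models of the cyclotomic extensions inside `ℚ̄`).
-/
import Fermat.Agent.S55.CFT.Defs_GS4
import Fermat.Agent.S55.CFT.GS.H6_H90

set_option autoImplicit false

open CategoryTheory groupCohomology ExtCitation

open scoped Pointwise

noncomputable section

namespace Fermat.Agent.S55.CFT.GS.Bri

open Fermat.Agent.S55 Fermat.Agent.S55.Top Fermat.Agent.S55.CFT

local notation "Qb" => AlgebraicClosure ℚ

/-! ### The abstract fields -/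

section fields

variable {K N N' : IntermediateField ℚ Qb}

theorem numberField_base (K : IntermediateField ℚ Qb) [FiniteDimensional ℚ K] :
    NumberField ↥K := ⟨⟩

theorem numberField_top (hKN : K ≤ N) [FiniteDimensional ℚ N] : NumberField ↥(H6.NK hKN) :=
  @NumberField.mk _ _ inferInstance ‹FiniteDimensional ℚ N›

theorem isGalois_top (hKN : K ≤ N) (hN : N.fixingSubgroup.Normal) :
    IsGalois ↥K ↥(H6.NK hKN) := by
  have := H6.normal_NK hKN hN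
  exact ⟨⟩

/-- The restriction `G_K → Gal(N/K)`. -/
def resG (hKN : K ≤ N) [Normal ↥K ↥(H6.NK hKN)] :
    ↥K.fixingSubgroup →* (↥(H6.NK hKN) ≃ₐ[↥K] ↥(H6.NK hKN)) :=
  (AlgEquiv.restrictNormalHom (F := ↥K) (K₁ := Qb) ↥(H6.NK hKN)).comp
    (IntermediateField.fixingSubgroupEquiv K).toMonoidHom

/-- The inclusion `Nˣ → ℚ̄ˣ`. -/
def valU (hKN : K ≤ N) : (↥(H6.NK hKN))ˣ →* Qbˣ :=
  Units.map ((H6.NK hKN).val : ↥(H6.NK hKN) →* Qb)

/-- The `↥N`-algebra structure of `↥N'` for `N ≤ N'` (inclusion). -/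
@[reducible] def algIncl (hKN : K ≤ N) (hNN' : N ≤ N') :
    Algebra ↥(H6.NK hKN) ↥(H6.NK (hKN.trans hNN')) :=
  (IntermediateField.inclusion
    (show H6.NK hKN ≤ H6.NK (hKN.trans hNN') from hNN')).toRingHom.toAlgebra

theorem isScalarTower_incl (hKN : K ≤ N) (hNN' : N ≤ N') :
    letI := algIncl hKN hNN'
    IsScalarTower ↥K ↥(H6.NK hKN) ↥(H6.NK (hKN.trans hNN')) := by
  let _ := algIncl hKN hNN'
  exact IsScalarTower.of_algebraMap_eq (fun x => rfl)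

end fields

/-! ### Level conditions relative to a level field -/

section level

variable (K N : IntermediateField ℚ Qb)

/-- `f` is constant modulo `G_N` and has values in `N`. -/
def IsLevN₁ (f : ↥K.fixingSubgroup → Qbˣ) : Prop :=
  (∀ g s : ↥K.fixingSubgroup, (s : GQ) ∈ N.fixingSubgroup → f (g * s) = f g) ∧
    ∀ g, (f g : Qb) ∈ N

/-- `f` is constant modulo `G_N` and has values in `N`. -/
def IsLevN₂ (f : ↥K.fixingSubgroup × ↥K.fixingSubgroup → Qbˣ) : Prop :=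
  (∀ g₁ g₂ s₁ s₂ : ↥K.fixingSubgroup, (s₁ : GQ) ∈ N.fixingSubgroup →
      (s₂ : GQ) ∈ N.fixingSubgroup → f (g₁ * s₁, g₂ * s₂) = f (g₁, g₂)) ∧
    ∀ t, (f t : Qb) ∈ N

/-- `f` is constant modulo `G_N` and has values in `N`. -/
def IsLevN₃ (f : ↥K.fixingSubgroup × ↥K.fixingSubgroup × ↥K.fixingSubgroup → Qbˣ) : Prop :=
  (∀ g₁ g₂ g₃ s₁ s₂ s₃ : ↥K.fixingSubgroup, (s₁ : GQ) ∈ N.fixingSubgroup →
      (s₂ : GQ) ∈ N.fixingSubgroup → (s₃ : GQ) ∈ N.fixingSubgroup →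
      f (g₁ * s₁, g₂ * s₂, g₃ * s₃) = f (g₁, g₂, g₃)) ∧
    ∀ t, (f t : Qb) ∈ N

/-- `d³` (multiplicative). -/
def mThree {Δ : Type} [Group Δ] {X : Type} [CommGroup X] [MulDistribMulAction Δ X]
    (a : Δ × Δ × Δ → X) : Δ × Δ × Δ × Δ → X :=
  fun t => t.1 • a (t.2.1, t.2.2.1, t.2.2.2) / a (t.1 * t.2.1, t.2.2.1, t.2.2.2) *
    a (t.1, t.2.1 * t.2.2.1, t.2.2.2) / a (t.1, t.2.1, t.2.2.1 * t.2.2.2) *
    a (t.1, t.2.1, t.2.2.1)

end level

/-! ### Realisation of cochains on `G_K` as classes -/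

section real

variable {K N N' : IntermediateField ℚ Qb} (hKN : K ≤ N)
  [NumberField ↥K] [NumberField ↥(H6.NK hKN)] [Normal ↥K ↥(H6.NK hKN)]

/-- The inflation to `G_K` (with values in `ℚ̄ˣ`) of a 2-cochain of `Gal(N/K)` with values in
`Nˣ`. -/
def infl₂ (f : (↥(H6.NK hKN) ≃ₐ[↥K] ↥(H6.NK hKN)) × (↥(H6.NK hKN) ≃ₐ[↥K] ↥(H6.NK hKN)) →
      (repL ↥K ↥(H6.NK hKN))) :
    ↥K.fixingSubgroup × ↥K.fixingSubgroup → Qbˣ :=
  fun t => valU hKN (Additive.toMul (f (resG hKN t.1, resG hKN t.2)))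

/-- The inflation to `G_K` of an `n`-cochain of `Gal(N/K)` with values in `Nˣ`
(`Fin n`-indexed form). -/
def inflN (n : ℕ) (f : (Fin n → (↥(H6.NK hKN) ≃ₐ[↥K] ↥(H6.NK hKN))) → (repL ↥K ↥(H6.NK hKN))) :
    (Fin n → ↥K.fixingSubgroup) → Qbˣ :=
  fun t => valU hKN (Additive.toMul (f (fun i => resG hKN (t i))))

/-- `x ∈ H²(Gal(N/K), Nˣ)` is the class of the cocycle `c` on `G_K`. -/
def Real₂ (c : ↥K.fixingSubgroup × ↥K.fixingSubgroup → Qbˣ)
    (x : groupCohomology (repL ↥K ↥(H6.NK hKN)) 2) : Prop :=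
  ∃ f : cocycles₂ (repL ↥K ↥(H6.NK hKN)), infl₂ hKN f.1 = c ∧ H2π _ f = x

/-- `x ∈ H³(Gal(N/K), Nˣ)` is the class of the cocycle `c` on `G_K`. -/
def Real₃ (c : ↥K.fixingSubgroup × ↥K.fixingSubgroup × ↥K.fixingSubgroup → Qbˣ)
    (x : groupCohomology (repL ↥K ↥(H6.NK hKN)) 3) : Prop :=
  ∃ z : cocycles (repL ↥K ↥(H6.NK hKN)) 3,
    (∀ g₁ g₂ g₃, inflN hKN 3 (iCocycles _ 3 z) ![g₁, g₂, g₃] = c (g₁, g₂, g₃)) ∧ π _ 3 z = x

end real

/-! ### Package REAL (cochains on `G_K` ↔ classes) -/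

section realStmts

/-- **R2-ex**: a level-`N`, `N`-valued 2-cocycle on `G_K` has a class in `H²(Gal(N/K), Nˣ)`. -/
def Stmt_R2_ex : Prop :=
  ∀ (K N : IntermediateField ℚ Qb) (hKN : K ≤ N) [NumberField ↥K] [NumberField ↥(H6.NK hKN)]
    [IsGalois ↥K ↥(H6.NK hKN)] (c : ↥K.fixingSubgroup × ↥K.fixingSubgroup → Qbˣ),
    IsLevN₂ K N c → mTwo c = 1 → ∃ x, Real₂ hKN c x

/-- **R2-surj**: every class of `H²(Gal(N/K), Nˣ)` is the class of a level-`N`, `N`-valued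
2-cocycle on `G_K`. -/
def Stmt_R2_surj : Prop :=
  ∀ (K N : IntermediateField ℚ Qb) (hKN : K ≤ N) [NumberField ↥K] [NumberField ↥(H6.NK hKN)]
    [IsGalois ↥K ↥(H6.NK hKN)] (x : groupCohomology (repL ↥K ↥(H6.NK hKN)) 2),
    ∃ c, IsLevN₂ K N c ∧ mTwo c = 1 ∧ Real₂ hKN c x

/-- **R2-uniq**: the class of a cocycle is unique. -/
def Stmt_R2_uniq : Prop :=
  ∀ (K N : IntermediateField ℚ Qb) (hKN : K ≤ N) [NumberField ↥K] [NumberField ↥(H6.NK hKN)]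
    [IsGalois ↥K ↥(H6.NK hKN)] (c : ↥K.fixingSubgroup × ↥K.fixingSubgroup → Qbˣ)
    (x x' : groupCohomology (repL ↥K ↥(H6.NK hKN)) 2),
    Real₂ hKN c x → Real₂ hKN c x' → x = x'

/-- **R2-mul**: products of cocycles ↔ sums of classes; powers ↔ multiples. -/
def Stmt_R2_mul : Prop :=
  ∀ (K N : IntermediateField ℚ Qb) (hKN : K ≤ N) [NumberField ↥K] [NumberField ↥(H6.NK hKN)]
    [IsGalois ↥K ↥(H6.NK hKN)] (c c' : ↥K.fixingSubgroup × ↥K.fixingSubgroup → Qbˣ)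
    (x x' : groupCohomology (repL ↥K ↥(H6.NK hKN)) 2),
    Real₂ hKN c x → Real₂ hKN c' x' →
      Real₂ hKN (fun t => c t * c' t) (x + x') ∧ Real₂ hKN (fun t => c t / c' t) (x - x') ∧
        ∀ n : ℕ, Real₂ hKN (fun t => c t ^ n) ((n : ℤ) • x)

/-- **R2-zero**: the class of `c` vanishes iff `c = d b` with `b` of level `N` with values in
`N`. -/
def Stmt_R2_zero : Prop :=
  ∀ (K N : IntermediateField ℚ Qb) (hKN : K ≤ N) [NumberField ↥K] [NumberField ↥(H6.NK hKN)]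
    [IsGalois ↥K ↥(H6.NK hKN)] (c : ↥K.fixingSubgroup × ↥K.fixingSubgroup → Qbˣ)
    (x : groupCohomology (repL ↥K ↥(H6.NK hKN)) 2), Real₂ hKN c x →
      (x = 0 ↔ ∃ b : ↥K.fixingSubgroup → Qbˣ, IsLevN₁ K N b ∧ ∀ t, c t = mOne b t)

/-- **R2-inf**: inflation is invisible on the `G_K`-side. -/
def Stmt_R2_inf : Prop :=
  ∀ (K N N' : IntermediateField ℚ Qb) (hKN : K ≤ N) (hNN' : N ≤ N') [NumberField ↥K]
    [NumberField ↥(H6.NK hKN)] [NumberField ↥(H6.NK (hKN.trans hNN'))]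
    [IsGalois ↥K ↥(H6.NK hKN)] [IsGalois ↥K ↥(H6.NK (hKN.trans hNN'))]
    (c : ↥K.fixingSubgroup × ↥K.fixingSubgroup → Qbˣ)
    (x : groupCohomology (repL ↥K ↥(H6.NK hKN)) 2), Real₂ hKN c x →
      letI := algIncl hKN hNN'
      haveI := isScalarTower_incl hKN hNN'
      Real₂ (hKN.trans hNN') c (infL ↥K ↥(H6.NK hKN) ↥(H6.NK (hKN.trans hNN')) 2 x)

/-- **R3-ex**. -/
def Stmt_R3_ex : Prop :=
  ∀ (K N : IntermediateField ℚ Qb) (hKN : K ≤ N) [NumberField ↥K] [NumberField ↥(H6.NK hKN)]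
    [IsGalois ↥K ↥(H6.NK hKN)]
    (c : ↥K.fixingSubgroup × ↥K.fixingSubgroup × ↥K.fixingSubgroup → Qbˣ),
    IsLevN₃ K N c → mThree c = 1 → ∃ x, Real₃ hKN c x

/-- **R3-mul**: powers ↔ multiples (and uniqueness of the class). -/
def Stmt_R3_mul : Prop :=
  ∀ (K N : IntermediateField ℚ Qb) (hKN : K ≤ N) [NumberField ↥K] [NumberField ↥(H6.NK hKN)]
    [IsGalois ↥K ↥(H6.NK hKN)]
    (c : ↥K.fixingSubgroup × ↥K.fixingSubgroup × ↥K.fixingSubgroup → Qbˣ)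
    (x : groupCohomology (repL ↥K ↥(H6.NK hKN)) 3), Real₃ hKN c x →
      (∀ x', Real₃ hKN c x' → x = x') ∧ ∀ n : ℕ, Real₃ hKN (fun t => c t ^ n) ((n : ℤ) • x)

/-- **R3-zero**: the class of `c` vanishes iff `c = d y` with `y` of level `N` with values in
`N`. -/
def Stmt_R3_zero : Prop :=
  ∀ (K N : IntermediateField ℚ Qb) (hKN : K ≤ N) [NumberField ↥K] [NumberField ↥(H6.NK hKN)]
    [IsGalois ↥K ↥(H6.NK hKN)]
    (c : ↥K.fixingSubgroup × ↥K.fixingSubgroup × ↥K.fixingSubgroup → Qbˣ)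
    (x : groupCohomology (repL ↥K ↥(H6.NK hKN)) 3), Real₃ hKN c x →
      (x = 0 ↔ ∃ y : ↥K.fixingSubgroup × ↥K.fixingSubgroup → Qbˣ, IsLevN₂ K N y ∧
        ∀ t, c t = mTwo y t)

/-- **R3-inf**. -/
def Stmt_R3_inf : Prop :=
  ∀ (K N N' : IntermediateField ℚ Qb) (hKN : K ≤ N) (hNN' : N ≤ N') [NumberField ↥K]
    [NumberField ↥(H6.NK hKN)] [NumberField ↥(H6.NK (hKN.trans hNN'))]
    [IsGalois ↥K ↥(H6.NK hKN)] [IsGalois ↥K ↥(H6.NK (hKN.trans hNN'))]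
    (c : ↥K.fixingSubgroup × ↥K.fixingSubgroup × ↥K.fixingSubgroup → Qbˣ)
    (x : groupCohomology (repL ↥K ↥(H6.NK hKN)) 3), Real₃ hKN c x →
      letI := algIncl hKN hNN'
      haveI := isScalarTower_incl hKN hNN'
      Real₃ (hKN.trans hNN') c (infL ↥K ↥(H6.NK hKN) ↥(H6.NK (hKN.trans hNN')) 3 x)

end realStmts

/-! ### Package CYC (cyclotomic models inside `ℚ̄`) -/

section cyc

/-- **CYC-Base**: `K(ζ_{p^M}) ⊆ ℚ̄` is a model of the cyclotomic extension of `↥K`, Galois over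
`K` and unramified outside `S ∋ p`. -/
def Stmt_CycBase : Prop :=
  ∀ (p : ℕ) [Fact p.Prime] (S : Finset Nat.Primes), pPrime p ∈ S →
    ∀ K : IntermediateField ℚ Qb, K.IsUnramifiedOutside S → ∀ M : ℕ,
    ∃ (N : IntermediateField ℚ Qb) (hKN : K ≤ N), N.IsUnramifiedOutside S ∧
      IsGalois ↥K ↥(H6.NK hKN) ∧ IsCyclotomicExtension {p ^ M} ↥K ↥(H6.NK hKN)

/-- **CYC-Top**: for `N/K` Galois, `N(ζ_{p^M}) ⊆ ℚ̄` is a model of the cyclotomic extension of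
`↥N`, Galois over `K` and unramified outside `S ∋ p`. -/
def Stmt_CycTop : Prop :=
  ∀ (p : ℕ) [Fact p.Prime] (S : Finset Nat.Primes), pPrime p ∈ S →
    ∀ (K N : IntermediateField ℚ Qb) (hKN : K ≤ N), N.IsUnramifiedOutside S →
    IsGalois ↥K ↥(H6.NK hKN) → ∀ M : ℕ,
    ∃ (N' : IntermediateField ℚ Qb) (hNN' : N ≤ N'), N'.IsUnramifiedOutside S ∧
      IsGalois ↥K ↥(H6.NK (hKN.trans hNN')) ∧
      letI := algIncl hKN hNN'
      IsCyclotomicExtension {p ^ M} ↥(H6.NK hKN) ↥(H6.NK (hKN.trans hNN'))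

end cyc

/-! ### Places of `↥K` from elements of `G_ℚ` -/

section places

variable (K : IntermediateField ℚ Qb) [NumberField ↥K] (q : Nat.Primes) (σ : GQ)

/-- `j_σ = ι_q ∘ σ : K → ℚ̄_q`. -/
def jσ :
    haveI := fact_primes q
    ↥K →+* PadicAlgCl (q : ℕ) :=
  haveI := fact_primes q
  ((padicEmbedding (q : ℕ)).toRingHom.comp
    ((σ : Qb →ₐ[ℚ] Qb) : Qb →+* Qb)).comp (algebraMap ↥K Qb)

/-- `ℚ_q ⊗ K → ℚ̄_q`, `a ⊗ x ↦ a · ι_q(σ x)`. -/
def φσ :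
    haveI := fact_primes q
    SemiLocal ↥K q →ₐ[Qp q] PadicAlgCl (q : ℕ) :=
  haveI := fact_primes q
  Algebra.TensorProduct.lift (Algebra.ofId (Qp q) (PadicAlgCl (q : ℕ)))
    (jσ K q σ).toRatAlgHom (fun _ _ => Commute.all _ _)

theorem ker_φσ_isMaximal : (RingHom.ker (φσ K q σ)).IsMaximal := by
  have := fact_primes q
  have : IsArtinianRing (SemiLocal ↥K q) := IsArtinianRing.of_finite (Qp q) _
  have : (RingHom.ker (φσ K q σ)).IsPrime := RingHom.ker_isPrime _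
  exact IsArtinianRing.isMaximal_of_isPrime _

/-- The place of `↥K` over `q` defined by `σ ∈ G_ℚ`: the kernel of `ℚ_q ⊗ K → ℚ̄_q`,
`a ⊗ x ↦ a · ι_q(σ x)`; the corresponding place of `ℚ̄` is `σ⁻¹ • primeLocalPlace q`. -/
def plσ : Place ↥K := ⟨q, ⟨RingHom.ker (φσ K q σ), ker_φσ_isMaximal K q σ⟩⟩

end places

/-! ### Package PL (dictionary of places) -/

section plStmts

/-- **PL-ex**: every place of `↥K` comes from some `σ ∈ G_ℚ`. -/
def Stmt_PlEx : Prop :=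
  ∀ (K : IntermediateField ℚ Qb) [NumberField ↥K] (v : Place ↥K), ∃ σ : GQ, v = plσ K v.1 σ

/-- **PL-eq**: `σ`, `σ'` define the same place over `q` iff they lie in the same double coset
of `rl q (Gl q) \ G_ℚ / G_K`. -/
def Stmt_PlEq : Prop :=
  ∀ (K : IntermediateField ℚ Qb) [NumberField ↥K] (q : Nat.Primes) (σ σ' : GQ),
    plσ K q σ = plσ K q σ' ↔
      ∃ (h : Gl q) (g : GQ), g ∈ K.fixingSubgroup ∧ σ' = rl q h * σ * g

/-- **PL-S**: for a place system `𝔓`, `w ↦ v(q, w) = plσ K q σ_w` is a bijection from `𝔓.W q`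
onto the places of `↥K` over `q`. -/
def Stmt_PlS : Prop :=
  ∀ (S : Finset Nat.Primes) (K : IntermediateField ℚ Qb) [NumberField ↥K] (𝔓 : PlaceSys S K),
    (∀ (q : ↥S) (w w' : 𝔓.W q), plσ K q.1 (𝔓.σ q w) = plσ K q.1 (𝔓.σ q w') → w = w') ∧
    ∀ (q : ↥S) (v : Place ↥K), v.1 = q.1 → ∃ w : 𝔓.W q, v = plσ K q.1 (𝔓.σ q w)

end plStmts

/-! ### Packages LOC-S and LOC-OUT -/

section locStmts

/-- **LOC-S**: for a class `x ∈ H²(Gal(N/K), Nˣ)` with cocycle `c` on `G_K` and a place `w ∣ q` of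
a place system: the local component of `x` at `v(q, w)` vanishes iff `c` is locally trivial at
`w`.
(`⟹`: project `LocAlg K N v → ℚ̄_q`, `a ⊗ y ↦ a · ι_q(σ_w y)`, equivariant for
`Γ_w → G_K → Gal(N/K)`.  `⟸`: Shapiro `CFT/H58_SHL*.lean`, the decomposition group of the kernel of
the projection is the image of `Γ_w`; local inflation is injective (Hilbert 90 for a finite
Galois extension of `K_w` containing the values of `β`).) -/
def Stmt_LocS : Prop :=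
  ∀ (S : Finset Nat.Primes) (K N : IntermediateField ℚ Qb) (hKN : K ≤ N) [NumberField ↥K]
    [NumberField ↥(H6.NK hKN)] [IsGalois ↥K ↥(H6.NK hKN)] (𝔓 : PlaceSys S K) (q : ↥S)
    (w : 𝔓.W q) (c : ↥K.fixingSubgroup × ↥K.fixingSubgroup → Qbˣ)
    (x : groupCohomology (repL ↥K ↥(H6.NK hKN)) 2), Real₂ hKN c x →
      (locMap ↥K ↥(H6.NK hKN) (plσ K q.1 (𝔓.σ q w)) 2 x = 0 ↔ LocTrivS 𝔓 q w c)

/-- **LOC-OUT**: for a `p`-torsion class (`cᵖ = d b`) of level `N` unramified outside `S`, and a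
place `A = σ⁻¹ • primeLocalPlace q` of `ℚ̄` over `q ∉ S`: the local component at `plσ K q σ`
vanishes iff the residue at `A` vanishes.
(`H²(D, N_Aˣ) ≅ H²(D, ℤ)` for the unramified extension `N_A/K_A`, `D` cyclic;
`⟹`: `ord_A ∘` projection, `ord b - p · ord β` is a homomorphism from a finite group to `ℤ`;
`⟸`: Shapiro + `H²(D, units) = 0` + the cyclic invariant `∏ c(φⁱ, φ)`.) -/
def Stmt_LocOut : Prop :=
  ∀ (p : ℕ) [Fact p.Prime] (S : Finset Nat.Primes) (K N : IntermediateField ℚ Qb) (hKN : K ≤ N)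
    [NumberField ↥K] [NumberField ↥(H6.NK hKN)] [IsGalois ↥K ↥(H6.NK hKN)],
    N.IsUnramifiedOutside S → ∀ q : Nat.Primes, q ∉ S →
    ∀ (A : ValuationSubring Qb) (σ : GQ), σ • A = primeLocalPlace q →
    ∀ (c : ↥K.fixingSubgroup × ↥K.fixingSubgroup → Qbˣ) (b : ↥K.fixingSubgroup → Qbˣ)
      (x : groupCohomology (repL ↥K ↥(H6.NK hKN)) 2), Real₂ hKN c x → IsLevN₁ K N b →
      (∀ t, c t ^ p = mOne b t) →
      (locMap ↥K ↥(H6.NK hKN) (plσ K q σ) 2 x = 0 ↔ ResTrivAt p K A (q : ℕ) b)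

end locStmts

end Fermat.Agent.S55.CFT.GS.Bri

end
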