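/-
S55 package E4, island GS, Layer B, package CYC (helper19): the cyclotomic models inside `ℚ̄`.

* `stmt_CycBase : Bri.Stmt_CycBase` : `K(ζ_{p^M}) ⊆ ℚ̄` is a model of the cyclotomic extension of
  `↥K`, Galois over `K` and unramified outside `S ∋ p`;
* `stmt_CycTop : Bri.Stmt_CycTop` : for `N/K` Galois, `N(ζ_{p^M}) ⊆ ℚ̄` is a model of the cyclotomic
  extension of `↥N`, Galois over `K` and unramified outside `S ∋ p`.
-/
import Fermat.Agent.S55.CFT.GS.H64_BriDefs
import Fermat.Agent.S55.CFT.GS.H24_KumUnr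

set_option autoImplicit false
set_option linter.style.haveILetI false
set_option linter.unusedSectionVars false

open CategoryTheory groupCohomology ExtCitation

noncomputable section

namespace Fermat.Agent.S55.CFT.GS.H19

open Fermat.Agent.S55 Fermat.Agent.S55.Top Fermat.Agent.S55.CFT Fermat.Agent.S55.CFT.GS

local notation "Qb" => AlgebraicClosure ℚ

/-! ### Roots of unity of `p`-power order are unramified outside `p` -/

/-- Inertia at a place prime to `p` fixes the roots of unity of `p`-power order. -/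
theorem inertia_fix_ppow_root (A : ValuationSubring Qb) {p : ℕ} (hp : p.Prime)
    (hAp : A.valuation (p : Qb) = 1) {σ : GQ} (hσ : σ ∈ A.inertiaSubgroupIn ℚ) :
    ∀ (M : ℕ) (t : Qb), t ^ (p ^ M) = 1 → σ t = t := by
  intro M
  induction M with
  | zero =>
    intro t ht
    rw [pow_zero, pow_one] at ht
    rw [ht, map_one]
  | succ M ih =>
    intro t ht
    have h1 : (t ^ p) ^ (p ^ M) = 1 := by
      rw [← pow_mul, ← pow_succ']
      exact ht
    have hfix : σ (t ^ p) = t ^ p := ih _ h1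
    have hv : A.valuation (t ^ p) = 1 := by
      have h2 : A.valuation (t ^ p) ^ (p ^ M) = 1 := by rw [← map_pow, h1, map_one]
      exact H24.val_eq_one_of_pow A (pow_ne_zero _ hp.ne_zero) h2
    exact H24.inertia_fix_root A hp hAp hσ hv hfix

/-- `ℚ(ζ)`, `ζ` a root of unity of `p`-power order, is unramified outside `S ∋ p`. -/
theorem isUnramifiedOutside_adjoin_root {p : ℕ} [Fact p.Prime] {S : Finset Nat.Primes}
    (hp : pPrime p ∈ S) (M : ℕ) {ζ : Qb} (hζ : ζ ^ (p ^ M) = 1) :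
    (IntermediateField.adjoin ℚ {ζ}).IsUnramifiedOutside S := by
  have hint : IsIntegral ℚ ζ := (AlgebraicClosure.isAlgebraic ℚ).isAlgebraic ζ |>.isIntegral
  refine ⟨IntermediateField.adjoin.finiteDimensional hint, fun q hq A hA => ?_⟩
  rw [← IntermediateField.le_iff_le, IntermediateField.adjoin_simple_le_iff,
    IntermediateField.mem_fixedField_iff]
  intro σ hσ
  exact inertia_fix_ppow_root A (Fact.out : p.Prime) (H24.val_p_eq_one hp hq hA) hσ M ζ hζ

/-- A primitive `p^M`-th root of unity in `ℚ̄`. -/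
theorem exists_primitiveRoot_ppow (p M : ℕ) (hp : p.Prime) :
    ∃ ζ : Qb, IsPrimitiveRoot ζ (p ^ M) := by
  haveI : NeZero (p ^ M) := ⟨pow_ne_zero _ hp.ne_zero⟩
  haveI : NeZero ((p ^ M : ℕ) : Qb) := ⟨Nat.cast_ne_zero.mpr (NeZero.ne _)⟩
  exact HasEnoughRootsOfUnity.exists_primitiveRoot Qb (p ^ M)

/-! ### CYC-Base -/

/-- **CYC-Base**. -/
theorem stmt_CycBase : Bri.Stmt_CycBase := by
  intro p _ S hpS K hK M
  have hp : p.Prime := Fact.out
  haveI : NeZero (p ^ M) := ⟨pow_ne_zero _ hp.ne_zero⟩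
  obtain ⟨ζ, hζ⟩ := exists_primitiveRoot_ppow p M hp
  have hKN : K ≤ K ⊔ IntermediateField.adjoin ℚ ({ζ} : Set Qb) := le_sup_left
  have h := IntermediateField.restrictScalars_adjoin_eq_sup ℚ K ({ζ} : Set Qb)
  have hNK : H6.NK hKN = IntermediateField.adjoin ↥K ({ζ} : Set Qb) :=
    IntermediateField.restrictScalars_injective ℚ h.symm
  haveI : Algebra.IsAlgebraic ℚ Qb := AlgebraicClosure.isAlgebraic ℚ
  haveI : Algebra.IsAlgebraic ↥K Qb := Algebra.IsAlgebraic.tower_top (K := ℚ) ↥K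
  haveI : IsCyclotomicExtension {p ^ M} ↥K ↥(IntermediateField.adjoin ↥K ({ζ} : Set Qb)) :=
    hζ.intermediateField_adjoin_isCyclotomicExtension ↥K
  refine ⟨K ⊔ IntermediateField.adjoin ℚ ({ζ} : Set Qb), hKN, ?_, ?_, ?_⟩
  · exact hK.sup (isUnramifiedOutside_adjoin_root hpS M hζ.pow_eq_one)
  · rw [hNK]
    exact IsCyclotomicExtension.isGalois {p ^ M} ↥K _
  · rw [hNK]
    infer_instance

/-! ### CYC-Top -/

/-- `N(ζ) = N ⊔ K(ζ)` as intermediate fields of `ℚ̄ / K`. -/
theorem NK_sup_adjoin {K N : IntermediateField ℚ Qb} (hKN : K ≤ N) (ζ : Qb)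
    (hNN' : N ≤ N ⊔ IntermediateField.adjoin ℚ ({ζ} : Set Qb)) :
    H6.NK (hKN.trans hNN') = H6.NK hKN ⊔ IntermediateField.adjoin ↥K ({ζ} : Set Qb) := by
  apply le_antisymm
  · rw [IntermediateField.extendScalars_le_iff]
    refine sup_le ?_ ?_
    · intro x hx
      exact (le_sup_left : H6.NK hKN ≤ H6.NK hKN ⊔ IntermediateField.adjoin ↥K ({ζ} : Set Qb))
        (show x ∈ H6.NK hKN from hx)
    · rw [IntermediateField.adjoin_le_iff, Set.singleton_subset_iff]
      exact (le_sup_right : IntermediateField.adjoin ↥K ({ζ} : Set Qb) ≤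
        H6.NK hKN ⊔ IntermediateField.adjoin ↥K ({ζ} : Set Qb))
        (IntermediateField.mem_adjoin_simple_self ↥K ζ)
  · refine sup_le ?_ ?_
    · exact fun x hx => hNN' hx
    · rw [IntermediateField.adjoin_le_iff, Set.singleton_subset_iff]
      exact (le_sup_right : IntermediateField.adjoin ℚ ({ζ} : Set Qb) ≤
        N ⊔ IntermediateField.adjoin ℚ ({ζ} : Set Qb))
        (IntermediateField.mem_adjoin_simple_self ℚ ζ)

/-- **CYC-Top**. -/
theorem stmt_CycTop : Bri.Stmt_CycTop := by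
  intro p _ S hpS K N hKN hN hgal M
  have hp : p.Prime := Fact.out
  haveI : NeZero (p ^ M) := ⟨pow_ne_zero _ hp.ne_zero⟩
  obtain ⟨ζ, hζ⟩ := exists_primitiveRoot_ppow p M hp
  have hNN' : N ≤ N ⊔ IntermediateField.adjoin ℚ ({ζ} : Set Qb) := le_sup_left
  haveI : Algebra.IsAlgebraic ℚ Qb := AlgebraicClosure.isAlgebraic ℚ
  haveI : Algebra.IsAlgebraic ↥K Qb := Algebra.IsAlgebraic.tower_top (K := ℚ) ↥K
  haveI : Algebra.IsAlgebraic ↥(H6.NK hKN) Qb := Algebra.IsAlgebraic.tower_top (K := ↥K) _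
  have h := NK_sup_adjoin hKN ζ hNN'
  refine ⟨N ⊔ IntermediateField.adjoin ℚ ({ζ} : Set Qb), hNN',
    hN.sup (isUnramifiedOutside_adjoin_root hpS M hζ.pow_eq_one), ?_, ?_⟩
  · rw [h]
    haveI : Normal ↥K ↥(H6.NK hKN) := hgal.to_normal
    haveI : IsCyclotomicExtension {p ^ M} ↥K ↥(IntermediateField.adjoin ↥K ({ζ} : Set Qb)) :=
      hζ.intermediateField_adjoin_isCyclotomicExtension ↥K
    haveI : IsGalois ↥K ↥(IntermediateField.adjoin ↥K ({ζ} : Set Qb)) :=
      IsCyclotomicExtension.isGalois {p ^ M} ↥K _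
    haveI : Normal ↥K ↥(IntermediateField.adjoin ↥K ({ζ} : Set Qb)) := IsGalois.to_normal
    haveI : Normal ↥K ↥(H6.NK hKN ⊔ IntermediateField.adjoin ↥K ({ζ} : Set Qb)) :=
      inferInstance
    exact ⟨⟩
  · letI := Bri.algIncl hKN hNN'
    haveI hcyc : IsCyclotomicExtension {p ^ M} ↥(H6.NK hKN)
        ↥(IntermediateField.adjoin ↥(H6.NK hKN) ({ζ} : Set Qb)) :=
      hζ.intermediateField_adjoin_isCyclotomicExtension ↥(H6.NK hKN)
    have h2 : (IntermediateField.adjoin ↥(H6.NK hKN) ({ζ} : Set Qb)).restrictScalars ↥K =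
        H6.NK (hKN.trans hNN') := by
      rw [h]
      exact IntermediateField.restrictScalars_adjoin_eq_sup ↥K (H6.NK hKN) ({ζ} : Set Qb)
    have hB1 : ∀ x : Qb, x ∈ IntermediateField.adjoin ↥(H6.NK hKN) ({ζ} : Set Qb) →
        x ∈ H6.NK (hKN.trans hNN') := by
      intro x hx
      rw [← h2]
      exact hx
    have hB2 : ∀ x : Qb, x ∈ H6.NK (hKN.trans hNN') →
        x ∈ IntermediateField.adjoin ↥(H6.NK hKN) ({ζ} : Set Qb) := by
      intro x hx
      rw [← h2] at hx
      exact hx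
    let g : ↥(IntermediateField.adjoin ↥(H6.NK hKN) ({ζ} : Set Qb)) →ₐ[↥(H6.NK hKN)]
        ↥(H6.NK (hKN.trans hNN')) :=
      { toFun := fun x => ⟨x.1, hB1 x.1 x.2⟩
        map_one' := rfl
        map_mul' := fun _ _ => rfl
        map_zero' := rfl
        map_add' := fun _ _ => rfl
        commutes' := fun _ => rfl }
    have hg : Function.Bijective g :=
      ⟨fun x y hxy => Subtype.ext
          (congrArg (fun z : ↥(H6.NK (hKN.trans hNN')) => (z : Qb)) hxy),
        fun y => ⟨⟨y.1, hB2 y.1 y.2⟩, rfl⟩⟩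
    exact IsCyclotomicExtension.equiv {p ^ M} ↥(H6.NK hKN) _ (AlgEquiv.ofBijective g hg)

end Fermat.Agent.S55.CFT.GS.H19

end
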