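/-
S55/E4 island GS, Layer B (helper24): PSEX' = place systems through a given `σ`.

For every finite `K`, prime `q` and `σ ∈ G_ℚ` there is a place system `𝔓'` of `K` for `S' = {q}`
and a place `w` of it with `𝔓'.σ q w = σ * g`, `g ∈ G_K`.  (`g` cannot be avoided: the
representative of the base coset is `1`.)  Used to deduce `Bri.Stmt_LocOut` from `Bri.Stmt_LocS`.
-/
import Fermat.Agent.S55.Top.PlaceEx
import Fermat.Agent.S55.CFT.Defs_GS3

set_option autoImplicit false
set_option linter.unusedSectionVars false
set_option linter.unusedVariables false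
set_option linter.style.haveILetI false

open CategoryTheory groupCohomology ExtCitation

noncomputable section

namespace Fermat.Agent.S55.CFT.GS.H24

open Fermat.Agent.S55 Fermat.Agent.S55.Top Fermat.Agent.S55.CFT

local notation "Qb" => AlgebraicClosure ℚ

section orbit

variable (Γ : Type) [Group Γ] (X : Type) [MulAction Γ X]

/-- Orbit data with a prescribed representative `x₁` of its orbit. -/
def orbitDataAt (x₁ : X) : OrbitData Γ X (MulAction.orbitRel.Quotient Γ X) := by
  classical
  let rep : MulAction.orbitRel.Quotient Γ X → X := fun r =>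
    if r = Quotient.mk (MulAction.orbitRel Γ X) x₁ then x₁ else Quotient.out r
  have hrep : ∀ r, Quotient.mk (MulAction.orbitRel Γ X) (rep r) = r := by
    intro r
    by_cases h : r = Quotient.mk (MulAction.orbitRel Γ X) x₁
    · show Quotient.mk _ (if r = Quotient.mk (MulAction.orbitRel Γ X) x₁ then x₁
        else Quotient.out r) = r
      rw [if_pos h, h]
    · show Quotient.mk _ (if r = Quotient.mk (MulAction.orbitRel Γ X) x₁ then x₁
        else Quotient.out r) = r
      rw [if_neg h]
      exact Quotient.out_eq r
  have hex : ∀ x : X, ∃ g : Γ, g • rep (Quotient.mk (MulAction.orbitRel Γ X) x) = x := by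
    intro x
    have h := hrep (Quotient.mk (MulAction.orbitRel Γ X) x)
    have h2 := Quotient.exact h.symm
    obtain ⟨g, hg⟩ := (MulAction.orbitRel_apply.1 h2)
    exact ⟨g, hg⟩
  exact
  { rep := rep
    o := fun x => Quotient.mk (MulAction.orbitRel Γ X) x
    t := fun x => if x = rep (Quotient.mk (MulAction.orbitRel Γ X) x) then 1
      else (hex x).choose
    t_smul := fun x => by
      by_cases h : x = rep (Quotient.mk (MulAction.orbitRel Γ X) x)
      · rw [if_pos h, one_smul]; exact h.symm
      · rw [if_neg h]; exact (hex x).choose_spec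
    o_smul := fun γ x => by
      apply Quotient.sound
      exact MulAction.orbitRel_apply.2 ⟨γ, rfl⟩
    o_rep := fun r => hrep r
    t_rep := fun r => by
      have h : rep r = rep (Quotient.mk (MulAction.orbitRel Γ X) (rep r)) := by
        rw [hrep r]
      rw [if_pos h] }

theorem orbitDataAt_rep (x₁ : X) :
    (orbitDataAt Γ X x₁).rep (Quotient.mk (MulAction.orbitRel Γ X) x₁) = x₁ := by
  classical
  show (if Quotient.mk (MulAction.orbitRel Γ X) x₁ = Quotient.mk (MulAction.orbitRel Γ X) x₁
    then x₁ else Quotient.out _) = x₁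
  rw [if_pos rfl]

end orbit

section psex

attribute [local instance] locAct

variable (K : IntermediateField ℚ Qb) [Finite (XK K)] (q : Nat.Primes)

/-- The place system for `S' = {q}` through `σ`. -/
def placeSysAt (σ : GQ) : PlaceSys ({q} : Finset Nat.Primes) K where
  glob := globData K
  glob_rep := rfl
  W := fun q' => MulAction.orbitRel.Quotient (Gl q'.1) (XK K)
  fin := fun q' => by
    haveI : Finite (MulAction.orbitRel.Quotient (Gl q'.1) (XK K)) := Quotient.finite _
    exact Fintype.ofFinite _
  loc := fun q' => orbitDataAt (Gl q'.1) (XK K) (σ • x0 K)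

/-- The index `q` of `S' = {q}`. -/
def qS : ↥({q} : Finset Nat.Primes) := ⟨q, Finset.mem_singleton_self q⟩

/-- The place through `σ`. -/
def wAt (σ : GQ) : (placeSysAt K q σ).W (qS q) :=
  Quotient.mk (MulAction.orbitRel (Gl q) (XK K)) (σ • x0 K)

/-- **PSEX'**. -/
theorem psex (σ : GQ) :
    ∃ g : GQ, g ∈ K.fixingSubgroup ∧ (placeSysAt K q σ).σ (qS q) (wAt K q σ) = σ * g := by
  have h1 : ((placeSysAt K q σ).loc (qS q)).rep (wAt K q σ) = σ • x0 K :=
    orbitDataAt_rep (Gl q) (XK K) (σ • x0 K)
  have h2 := (placeSysAt K q σ).σ_smul (qS q) (wAt K q σ)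
  rw [h1] at h2
  refine ⟨σ⁻¹ * (placeSysAt K q σ).σ (qS q) (wAt K q σ), ?_, by group⟩
  apply mem_fix_of_smul_x0
  rw [mul_smul, h2, inv_smul_smul]

end psex

end Fermat.Agent.S55.CFT.GS.H24

end
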