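/-
S55/E4 island GS, Layer B (helper24): package PL = the dictionary of places,
`Stmt_PlEx`, `Stmt_PlEq`, `Stmt_PlS` of `GS/H64_BriDefs.lean`.

`plσ K q σ` is the kernel of `φσ : ℚ_q ⊗ K → ℚ̄_q`, `a ⊗ x ↦ a · ι_q(σ x)`.
* `φσ_tmul`, `φσ_ext` : `φσ` is the unique `ℚ_q`-algebra map with `1 ⊗ x ↦ ι_q(σ x)`;
* `plEx` : every maximal ideal is such a kernel (embed the residue field into `ℚ̄_q`; the image of
  `K` is algebraic over `ℚ`, hence in `ι_q(ℚ̄)`; extend `K → ℚ̄` to `G_ℚ`);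
* `plEq` : equal kernels iff `σ' = rl h · σ · g` (two embeddings of the residue field differ by an
  automorphism of `ℚ̄_q`);
* `plS` : place systems.
-/
import Fermat.Agent.S55.CFT.GS.H64_BriDefs
import Fermat.Agent.S55.CFT.LOC.H5_Krasner
import Fermat.Agent.S55.CFT.LOC.H45_Places
import Fermat.Agent.S55.Top.PlaceEx

set_option autoImplicit false
set_option linter.unusedSectionVars false
set_option linter.unusedVariables false
set_option linter.style.haveILetI false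

open CategoryTheory groupCohomology ExtCitation TensorProduct

open scoped Pointwise

noncomputable section

namespace Fermat.Agent.S55.CFT.GS.H24

open Fermat.Agent.S55 Fermat.Agent.S55.Top Fermat.Agent.S55.CFT Fermat.Agent.S55.CFT.GS.Bri

local notation "Qb" => AlgebraicClosure ℚ

section phi

variable (K : IntermediateField ℚ Qb) [NumberField ↥K] (q : Nat.Primes)

theorem φσ_tmul (σ : GQ) (a : Qp q) (x : ↥K) :
    haveI := fact_primes q
    φσ K q σ (a ⊗ₜ[ℚ] x) =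
      algebraMap (Qp q) (PadicAlgCl (q : ℕ)) a * padicEmbedding (q : ℕ) (σ (x : Qb)) := by
  haveI := fact_primes q
  unfold φσ
  rw [Algebra.TensorProduct.lift_tmul]
  rfl

/-- A `ℚ_q`-algebra map on `ℚ_q ⊗ K` is determined by its values on `1 ⊗ x`. -/
theorem semiLocal_algHom_ext
    {ψ ψ' : haveI := fact_primes q; SemiLocal ↥K q →ₐ[Qp q] PadicAlgCl (q : ℕ)}
    (h : ∀ x : ↥K, ψ ((1 : Qp q) ⊗ₜ[ℚ] x) = ψ' ((1 : Qp q) ⊗ₜ[ℚ] x)) : ψ = ψ' := by
  haveI := fact_primes q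
  apply Algebra.TensorProduct.ext'
  intro a x
  have e : (a ⊗ₜ[ℚ] x : SemiLocal ↥K q) = a • ((1 : Qp q) ⊗ₜ[ℚ] x) := by
    rw [TensorProduct.smul_tmul']
    congr 1
    exact (mul_one a).symm
  rw [e, map_smul, map_smul, h]

/-- A ring map `K → ℚ̄_q` comes from an element of `G_ℚ`. -/
theorem exists_gal_of_hom
    (j : haveI := fact_primes q; ↥K →ₐ[ℚ] PadicAlgCl (q : ℕ)) :
    haveI := fact_primes q
    ∃ σ : GQ, ∀ x : ↥K, padicEmbedding (q : ℕ) (σ (x : Qb)) = j x := by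
  haveI := fact_primes q
  have hint : ∀ x : ↥K, IsIntegral ℚ (j x) := fun x =>
    (Algebra.IsIntegral.isIntegral (R := ℚ) x).map j
  have hrange : ∀ x : ↥K, j x ∈ (padicEmbedding (q : ℕ)).range := by
    intro x
    obtain ⟨y, hy⟩ := LOC.H5.exists_padicEmbedding_eq (q : ℕ) (j x) (hint x)
    exact ⟨y, hy⟩
  let e := AlgEquiv.ofInjective (padicEmbedding (q : ℕ)) (padicEmbedding (q : ℕ)).injective
  let τ : ↥K →ₐ[ℚ] Qb := (e.symm : (padicEmbedding (q : ℕ)).range →ₐ[ℚ] Qb).comp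
    (j.codRestrict (padicEmbedding (q : ℕ)).range hrange)
  have hτ : ∀ x : ↥K, padicEmbedding (q : ℕ) (τ x) = j x := by
    intro x
    have h1 : e (τ x) = j.codRestrict (padicEmbedding (q : ℕ)).range hrange x := by
      show e (e.symm (j.codRestrict (padicEmbedding (q : ℕ)).range hrange x)) = _
      rw [AlgEquiv.apply_symm_apply]
    have h2 := congrArg Subtype.val h1
    exact h2
  have := h49_qbar_isGalois
  have hn : Normal ℚ Qb := IsGalois.to_normal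
  let σ₀ : Qb →ₐ[ℚ] Qb := τ.liftNormal Qb
  have hσ₀ : ∀ x : ↥K, σ₀ (x : Qb) = τ x := fun x => τ.liftNormal_commutes Qb x
  let σ : GQ := AlgEquiv.ofBijective σ₀ (AlgHom.normal_bijective ℚ Qb Qb σ₀)
  refine ⟨σ, fun x => ?_⟩
  have : σ (x : Qb) = σ₀ (x : Qb) := rfl
  rw [this, hσ₀, hτ]

/-- **PL-ex**. -/
theorem plEx : Stmt_PlEx := by
  intro K _ v
  obtain ⟨q, M⟩ := v
  haveI := fact_primes q
  have hmax : M.asIdeal.IsMaximal := M.2
  letI : Field (SemiLocal ↥K q ⧸ M.asIdeal) := Ideal.Quotient.field M.asIdeal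
  haveI : Algebra.IsAlgebraic (Qp q) (SemiLocal ↥K q ⧸ M.asIdeal) :=
    Algebra.IsAlgebraic.of_finite (Qp q) _
  let e : (SemiLocal ↥K q ⧸ M.asIdeal) →ₐ[Qp q] PadicAlgCl (q : ℕ) := IsAlgClosed.lift
  let ψ : SemiLocal ↥K q →ₐ[Qp q] PadicAlgCl (q : ℕ) :=
    e.comp (Ideal.Quotient.mkₐ (Qp q) M.asIdeal)
  have hker : RingHom.ker ψ = M.asIdeal := by
    ext z
    rw [RingHom.mem_ker]
    show e (Ideal.Quotient.mk M.asIdeal z) = 0 ↔ _
    rw [map_eq_zero_iff e e.toRingHom.injective, Ideal.Quotient.eq_zero_iff_mem]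
  let j : ↥K →ₐ[ℚ] PadicAlgCl (q : ℕ) :=
    (ψ.restrictScalars ℚ).comp (Algebra.TensorProduct.includeRight : ↥K →ₐ[ℚ] SemiLocal ↥K q)
  obtain ⟨σ, hσ⟩ := exists_gal_of_hom K q j
  have hφ : φσ K q σ = ψ := by
    apply semiLocal_algHom_ext
    intro x
    rw [φσ_tmul, map_one, one_mul, hσ]
    rfl
  refine ⟨σ, ?_⟩
  show (⟨q, M⟩ : Place ↥K) = plσ K q σ
  unfold plσ
  congr 1
  apply MaximalSpectrum.ext
  show M.asIdeal = RingHom.ker (φσ K q σ)
  rw [hφ]
  exact hker.symm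

/-- The kernel of `φσ` determines the place. -/
theorem plσ_eq_iff (σ σ' : GQ) :
    plσ K q σ = plσ K q σ' ↔ RingHom.ker (φσ K q σ) = RingHom.ker (φσ K q σ') := by
  constructor
  · intro h
    unfold plσ at h
    have h1 := eq_of_heq (Sigma.mk.inj h).2
    exact congrArg MaximalSpectrum.asIdeal h1
  · intro h
    unfold plσ
    congr 1
    exact MaximalSpectrum.ext h

/-- `ι_q ∘ rl h = h ∘ ι_q`. -/
theorem padicEmbedding_rl (h : Gl q) (x : Qb) :
    haveI := fact_primes q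
    padicEmbedding (q : ℕ) (rl q h x) = glAut q h (padicEmbedding (q : ℕ) x) := by
  haveI := fact_primes q
  exact padicEmbedding_localGaloisToGlobal (q : ℕ) (glAut q h) x

/-- **PL-eq**, the easy direction. -/
theorem plσ_eq_of_double (σ : GQ) (h : Gl q) (g : GQ) (hg : g ∈ K.fixingSubgroup) :
    plσ K q (rl q h * σ * g) = plσ K q σ := by
  haveI := fact_primes q
  rw [plσ_eq_iff]
  have hφ : φσ K q (rl q h * σ * g) = (glAut q h : PadicAlgCl (q : ℕ) →ₐ[Qp q] PadicAlgCl (q : ℕ)).comp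
      (φσ K q σ) := by
    apply semiLocal_algHom_ext
    intro x
    rw [φσ_tmul, map_one, one_mul]
    have hgx : g (x : Qb) = x := (IntermediateField.mem_fixingSubgroup_iff K g).mp hg _ x.2
    have e1 : (rl q h * σ * g) (x : Qb) = rl q h (σ (x : Qb)) := by
      simp only [AlgEquiv.mul_apply, hgx]
    rw [e1, padicEmbedding_rl]
    show _ = glAut q h (φσ K q σ ((1 : Qp q) ⊗ₜ[ℚ] x))
    rw [φσ_tmul, map_one, one_mul]
  ext z
  rw [RingHom.mem_ker, RingHom.mem_ker, hφ]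
  show glAut q h (φσ K q σ z) = 0 ↔ _
  rw [map_eq_zero_iff _ (glAut q h).injective]

/-- **PL-eq**. -/
theorem plEq : Stmt_PlEq := by
  intro K _ q σ σ'
  haveI := fact_primes q
  constructor
  · intro h
    rw [plσ_eq_iff] at h
    have hmax : (RingHom.ker (φσ K q σ)).IsMaximal := ker_φσ_isMaximal K q σ
    letI : Field (SemiLocal ↥K q ⧸ RingHom.ker (φσ K q σ)) :=
      Ideal.Quotient.field (RingHom.ker (φσ K q σ))
    let f : (SemiLocal ↥K q ⧸ RingHom.ker (φσ K q σ)) →ₐ[Qp q] PadicAlgCl (q : ℕ) :=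
      Ideal.Quotient.liftₐ (RingHom.ker (φσ K q σ)) (φσ K q σ) (fun a ha => ha)
    let f' : (SemiLocal ↥K q ⧸ RingHom.ker (φσ K q σ)) →ₐ[Qp q] PadicAlgCl (q : ℕ) :=
      Ideal.Quotient.liftₐ (RingHom.ker (φσ K q σ)) (φσ K q σ') (fun a ha => by
        rw [h] at ha
        exact ha)
    letI : Algebra (SemiLocal ↥K q ⧸ RingHom.ker (φσ K q σ)) (PadicAlgCl (q : ℕ)) :=
      f.toRingHom.toAlgebra
    haveI : IsScalarTower (Qp q) (SemiLocal ↥K q ⧸ RingHom.ker (φσ K q σ))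
        (PadicAlgCl (q : ℕ)) :=
      IsScalarTower.of_algebraMap_eq (fun a => (f.commutes a).symm)
    haveI : Normal (Qp q) (PadicAlgCl (q : ℕ)) :=
      IsAlgClosure.normal (Qp q) (PadicAlgCl (q : ℕ))
    let h₀ : PadicAlgCl (q : ℕ) →ₐ[Qp q] PadicAlgCl (q : ℕ) := f'.liftNormal (PadicAlgCl (q : ℕ))
    have hh₀ : ∀ z : SemiLocal ↥K q, h₀ (φσ K q σ z) = φσ K q σ' z := by
      intro z
      have := f'.liftNormal_commutes (PadicAlgCl (q : ℕ))
        (Ideal.Quotient.mk (RingHom.ker (φσ K q σ)) z)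
      exact this
    let hh : Gl q := AlgEquiv.ofBijective h₀ (AlgHom.normal_bijective (Qp q) _ _ h₀)
    have hx : ∀ x : ↥K, σ' (x : Qb) = (rl q hh * σ) (x : Qb) := by
      intro x
      apply (padicEmbedding (q : ℕ)).injective
      have e1 := hh₀ ((1 : Qp q) ⊗ₜ[ℚ] x)
      rw [φσ_tmul, φσ_tmul, map_one, one_mul, one_mul] at e1
      show padicEmbedding (q : ℕ) (σ' (x : Qb)) =
        padicEmbedding (q : ℕ) (rl q hh (σ (x : Qb)))
      rw [padicEmbedding_rl]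
      exact e1.symm
    refine ⟨hh, (rl q hh * σ)⁻¹ * σ', ?_, by group⟩
    rw [IntermediateField.mem_fixingSubgroup_iff]
    intro x hxK
    have := hx ⟨x, hxK⟩
    show ((rl q hh * σ)⁻¹ * σ') x = x
    rw [AlgEquiv.mul_apply, this]
    show (rl q hh * σ)⁻¹ ((rl q hh * σ) x) = x
    exact (rl q hh * σ).symm_apply_apply x
  · rintro ⟨h, g, hg, rfl⟩
    exact (plσ_eq_of_double K q σ h g hg).symm

end phi

section sys

attribute [local instance] locAct

/-- **PL-S**. -/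
theorem plS : Stmt_PlS := by
  intro S K _ 𝔓
  refine ⟨fun q w w' h => ?_, fun q v hv => ?_⟩
  · obtain ⟨h₁, g, hg, e⟩ := (plEq K q.1 (𝔓.σ q w) (𝔓.σ q w')).1 h
    have h1 : (𝔓.loc q).rep w' = h₁ • (𝔓.loc q).rep w := by
      rw [← 𝔓.σ_smul q w', e, mul_smul, mul_smul, smul_x0_of_mem_fix hg, 𝔓.σ_smul q w]
      rfl
    have h2 := (𝔓.loc q).o_smul h₁ ((𝔓.loc q).rep w)
    rw [← h1, (𝔓.loc q).o_rep, (𝔓.loc q).o_rep] at h2
    exact h2.symm
  · obtain ⟨q', M⟩ := v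
    have hq : q' = q.1 := hv
    subst hq
    obtain ⟨σ, hσ⟩ := plEx K ⟨q.1, M⟩
    set x : XK K := σ • x0 K with hx
    have ht := (𝔓.loc q).t_smul x
    set w := (𝔓.loc q).o x with hw
    set t := (𝔓.loc q).t x with htdef
    refine ⟨w, ?_⟩
    rw [hσ]
    show plσ K q.1 σ = plσ K q.1 (𝔓.σ q w)
    have h1 : ((rl q.1 t * 𝔓.σ q w)⁻¹ * σ) • x0 K = x0 K := by
      rw [mul_smul, ← hx, ← ht, inv_smul_eq_iff, mul_smul, 𝔓.σ_smul q w]
      rfl
    have h2 := mem_fix_of_smul_x0 h1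
    have e : σ = rl q.1 t * 𝔓.σ q w * ((rl q.1 t * 𝔓.σ q w)⁻¹ * σ) := by group
    rw [e]
    exact plσ_eq_of_double K q.1 (𝔓.σ q w) t _ h2

end sys

end Fermat.Agent.S55.CFT.GS.H24

end
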