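/-
S55 package E4, island GS, leaf **GS-CD** (`Stmt_GS_ClassDim`), owner helper6: interfaces of the
split.

`Stmt_GS_ClassDim` : `[T : T ∩ Kˣ W] ≤ [V_S : V_S ∩ U_K Kˣᵖ] < ∞`.

Route.  `P` = the primes of `𝓞 K` under the valuation subrings `A` of `ℚ̄` over the primes
`q ∉ S`, `D = P →₀ ℤ` (divisors of `K` outside `S`), `ε : Ωˣ → D`, `ε t v = ord_{A_v} t` for a
chosen `A_v` over `v` (`ord_A t` = the integer `k` with `|t|_A = |q|_A ^ k`, which exists because
`Ω` is unramified at `q`: `R/H6_UnrFix.lean`).  Then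
* **CD-ABS** (`Stmt_CD_ABS`, pure group theory): the inequality follows from
  (a) `D / ε(Kˣ)` finite, (b) for `t ∈ T`: `t ∈ W ↔ ε t ∈ p D`, (c) for `a ∈ Kˣ`: `a ∈ U_K ↔ ε a = 0`;
  proof: `V_S / (V_S ∩ U_K Kˣᵖ) ≅ C[p]` and `T / (T ∩ Kˣ W) ↪ C / p C`, `C = D / ε(Kˣ)` finite.
* **CD-NF** (`Stmt_CD_NF`, Mathlib class group): for a number field `K` and ANY set `P` of primes
  of `𝓞 K` the cokernel of `Kˣ → (P →₀ ℤ)` is finite (it is a quotient of the class group).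
* **CD-K** (Kummer criterion), **CD-B** (bridge `ord_A = ord_v` on `K`, finite support,
  conjugacy of the places over `v` under `G_K`) and the assembly: helper6, files `H6_CD_*.lean`.
-/
import Fermat.Agent.S55.CFT.Defs_GS

set_option autoImplicit false

open scoped NumberField

noncomputable section

namespace Fermat.Agent.S55.CFT.GS.H6

open IsDedekindDomain

/-- The order of `a` at the prime `v` (`0` for `a = 0`). -/
def ordAt {K : Type} [Field K] [NumberField K] (v : HeightOneSpectrum (𝓞 K)) (a : K) : ℤ :=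
  -WithZero.log (v.valuation K a)

/-- **CD-ABS** (pure group theory).  `G` a commutative group with subgroups `Kx, W ≤ T` and `U`,
`D` an additive group without `p`-torsion, `ε : G → D` additive on `T` with `D / ε(Kx)` finite,
such that `t ∈ W ↔ ε t ∈ p D` on `T` and `a ∈ U ↔ ε a = 0` on `Kx`.  Then
`[T : T ∩ Kx W] ≤ [Kx ∩ W : (Kx ∩ W) ∩ U Kxᵖ] < ∞`. -/
def Stmt_CD_ABS : Prop :=
  ∀ (G D : Type) [CommGroup G] [AddCommGroup D] (p : ℕ), p.Prime →
    ∀ (Kx W T U : Subgroup G), Kx ≤ T → W ≤ T → U ≤ Kx →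
    ∀ (ε : G → D), (∀ x ∈ T, ∀ y ∈ T, ε (x * y) = ε x + ε y) →
      (∀ x : D, p • x = 0 → x = 0) →
      (∃ F : Finset D, ∀ x : D, ∃ f ∈ F, ∃ a ∈ Kx, x = f + ε a) →
      (∀ t ∈ T, (t ∈ W ↔ ∃ x : D, ε t = p • x)) →
      (∀ a ∈ Kx, (a ∈ U ↔ ε a = 0)) →
      ∀ V V' T' : Subgroup G,
        (∀ x, x ∈ V ↔ x ∈ Kx ∧ x ∈ W) →
        (∀ x, x ∈ V' ↔ ∃ u b, u ∈ U ∧ b ∈ Kx ∧ x = u * b ^ p) →
        (∀ x, x ∈ T' ↔ ∃ c s, c ∈ Kx ∧ s ∈ W ∧ x = c * s) →
        V'.relIndex V ≠ 0 ∧ T'.relIndex T ≠ 0 ∧ T'.relIndex T ≤ V'.relIndex V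

/-- **CD-NF** (finiteness of the class group, divisor form).  For a number field `K` and any set
`P` of primes of `𝓞 K` there are finitely many divisors `f` supported on `P` such that every
divisor supported on `P` is `f + div a` for one of them and some `a ∈ Kˣ`. -/
def Stmt_CD_NF : Prop :=
  ∀ (K : Type) [Field K] [NumberField K] (P : Set (HeightOneSpectrum (𝓞 K))),
    ∃ F : Finset (P →₀ ℤ), ∀ x : P →₀ ℤ, ∃ f ∈ F, ∃ a : K, a ≠ 0 ∧
      ∀ v : P, x v = f v + ordAt v.1 a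

end Fermat.Agent.S55.CFT.GS.H6
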