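/-
S55 package E4, island GS, leaf GS-CD, part **CD-K** (helper6): orders at the places outside `S`
and the Kummer criterion.
-/
import Fermat.Agent.S55.CFT.GS.H6_CD_Defs
import Fermat.Agent.R.H6_UnrFix
import Fermat.Agent.Lib.InertiaBridge

set_option autoImplicit false

open scoped Pointwise

noncomputable section

namespace Fermat.Agent.S55.CFT.GS.H6

open Fermat.Agent.S55 Fermat.Agent.S55.Top Fermat.Agent.Lib.FrobExists
  Fermat.Agent.Lib.InertiaBridge

local notation "Qb" => AlgebraicClosure ℚ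

/-! ### Roots of unity are distinct modulo a place of different residue characteristic -/

theorem valuation_le_one_of_pow_eq_one (A : ValuationSubring Qb) (ζ : Qb) (n : ℕ) (hn : n ≠ 0)
    (hζ : ζ ^ n = 1) : A.valuation ζ = 1 := by
  have h := congrArg A.valuation hζ
  rw [map_pow, map_one] at h
  rcases pow_eq_one_iff.mp h with h1 | h1
  · exact h1
  · exact absurd h1 hn

/-- A `p`-th root of unity congruent to `1` modulo a place over `q ≠ p` is `1`. -/
theorem eq_one_of_pow_eq_one (A : ValuationSubring Qb) (q p : ℕ) (hq : q.Prime) (hp : p.Prime)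
    (hpq : p ≠ q) (hA : A.LiesOverPrime q) (ζ : Qb) (hζ : ζ ^ p = 1)
    (h : A.valuation (ζ - 1) < 1) : ζ = 1 := by
  by_contra hne
  have hprim : IsPrimitiveRoot ζ p := by
    have hF : Fact p.Prime := ⟨hp⟩
    have h1 := IsPrimitiveRoot.orderOf ζ
    rwa [orderOf_eq_prime hζ hne] at h1
  obtain ⟨n, rfl⟩ : ∃ n, p = n + 2 := ⟨p - 2, by have := hp.two_le; omega⟩
  have hprod := IsPrimitiveRoot.prod_one_sub_pow_eq_order (n := n + 1) hprim
  have hζ1 : A.valuation ζ = 1 := valuation_le_one_of_pow_eq_one A ζ (n + 2) (by omega) hζ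
  have hfac : ∀ k : ℕ, A.valuation (1 - ζ ^ (k + 1)) ≤ 1 := by
    intro k
    have h1 : A.valuation (1 - ζ ^ (k + 1)) ≤ max (A.valuation 1) (A.valuation (ζ ^ (k + 1))) :=
      A.valuation.map_sub _ _
    rw [map_one, map_pow, hζ1, one_pow, max_self] at h1
    exact h1
  have hlt : A.valuation (∏ k ∈ Finset.range (n + 1), (1 - ζ ^ (k + 1))) < 1 := by
    rw [Finset.prod_range_succ', map_mul, zero_add, pow_one]
    have h0 : A.valuation (1 - ζ) < 1 := by
      rw [← neg_sub, Valuation.map_neg]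
      exact h
    have h1 : A.valuation (∏ k ∈ Finset.range n, (1 - ζ ^ (k + 1 + 1))) ≤ 1 := by
      rw [map_prod]
      exact Finset.prod_le_one' fun k _ => hfac (k + 1)
    calc A.valuation (∏ k ∈ Finset.range n, (1 - ζ ^ (k + 1 + 1))) * A.valuation (1 - ζ)
        ≤ 1 * A.valuation (1 - ζ) := mul_le_mul_left h1 _
      _ = A.valuation (1 - ζ) := one_mul _
      _ < 1 := h0
  rw [hprod] at hlt
  have hnd : ¬ (q : ℤ) ∣ ((n + 2 : ℕ) : ℤ) := by
    intro hdvd
    have h1 : q ∣ n + 2 := by exact_mod_cast hdvd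
    exact hpq ((Nat.prime_dvd_prime_iff_eq hq hp).mp h1).symm
  have h1 := valuation_intCast_eq_one A q hq hA ((n + 2 : ℕ) : ℤ) hnd
  have h2 : (((n + 2 : ℕ) : ℤ) : Qb) = ((n + 1 : ℕ) : Qb) + 1 := by push_cast; ring
  rw [h2] at h1
  rw [h1] at hlt
  exact lt_irrefl _ hlt

/-! ### Orders -/

/-- `k` is the order of `x` at `A` (a place over `q`): `|x|_A = |q|_A ^ k`. -/
def IsOrd (A : ValuationSubring Qb) (q : ℕ) (x : Qb) (k : ℤ) : Prop :=
  A.valuation x = A.valuation (q : Qb) ^ k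

theorem valuation_eq_one_iff_mem (A : ValuationSubring Qb) (x : Qb) (hx : x ≠ 0) :
    A.valuation x = 1 ↔ x ∈ A ∧ x⁻¹ ∈ A := by
  rw [← A.valuation_le_one_iff, ← A.valuation_le_one_iff, map_inv₀]
  have h0 : A.valuation x ≠ 0 := (Valuation.ne_zero_iff _).mpr hx
  constructor
  · intro h
    rw [h]
    simp
  · rintro ⟨h1, h2⟩
    refine le_antisymm h1 ?_
    rwa [inv_le_one₀ (zero_lt_iff.mpr h0)] at h2

section ord

variable (A : ValuationSubring Qb) (q : ℕ)

theorem val_q_ne_zero (hq : q.Prime) : A.valuation (q : Qb) ≠ 0 :=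
  (Valuation.ne_zero_iff _).mpr (by exact_mod_cast hq.ne_zero)

theorem val_q_lt_one (hA : A.LiesOverPrime q) : A.valuation (q : Qb) < 1 :=
  A.mem_nonunits_iff.mp hA

variable {A q}

theorem IsOrd.unique (hq : q.Prime) (hA : A.LiesOverPrime q) {x : Qb} {k l : ℤ}
    (h : IsOrd A q x k) (h' : IsOrd A q x l) : k = l := by
  have h1 : A.valuation (q : Qb) ^ k = A.valuation (q : Qb) ^ l := h.symm.trans h'
  exact zpow_right_injective₀ (zero_lt_iff.mpr (val_q_ne_zero A q hq)) (val_q_lt_one A q hA).ne h1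

theorem IsOrd.ne_zero (hq : q.Prime) {x : Qb} {k : ℤ} (h : IsOrd A q x k) : x ≠ 0 := by
  intro hx
  rw [IsOrd, hx, map_zero] at h
  exact zpow_ne_zero k (val_q_ne_zero A q hq) h.symm

theorem isOrd_one : IsOrd A q 1 0 := by
  rw [IsOrd, map_one, zpow_zero]

theorem isOrd_q : IsOrd A q (q : Qb) 1 := by
  rw [IsOrd, zpow_one]

theorem IsOrd.mul (hq : q.Prime) {x y : Qb} {k l : ℤ} (h : IsOrd A q x k) (h' : IsOrd A q y l) :
    IsOrd A q (x * y) (k + l) := by
  rw [IsOrd, map_mul, h, h', zpow_add₀ (val_q_ne_zero A q hq)]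

theorem IsOrd.inv {x : Qb} {k : ℤ} (h : IsOrd A q x k) : IsOrd A q x⁻¹ (-k) := by
  rw [IsOrd, map_inv₀, h, zpow_neg]

theorem IsOrd.div (hq : q.Prime) {x y : Qb} {k l : ℤ} (h : IsOrd A q x k) (h' : IsOrd A q y l) :
    IsOrd A q (x / y) (k - l) := by
  rw [div_eq_mul_inv, sub_eq_add_neg]
  exact h.mul hq h'.inv

theorem IsOrd.pow {x : Qb} {k : ℤ} (h : IsOrd A q x k) (n : ℕ) :
    IsOrd A q (x ^ n) (n * k) := by
  rw [IsOrd, map_pow, h, ← zpow_natCast, ← zpow_mul, mul_comm]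

theorem IsOrd.zpow {x : Qb} {k : ℤ} (h : IsOrd A q x k) (n : ℤ) :
    IsOrd A q (x ^ n) (n * k) := by
  rw [IsOrd, map_zpow₀, h, ← zpow_mul, mul_comm]

theorem isOrd_zero_iff {x : Qb} : IsOrd A q x 0 ↔ A.valuation x = 1 := by
  rw [IsOrd, zpow_zero]

/-- `IsOrd` in terms of units: `x q^(-k)` is a unit of `A`. -/
theorem isOrd_iff_unit (hq : q.Prime) {x : Qb} {k : ℤ} :
    IsOrd A q x k ↔ A.valuation (x * (q : Qb) ^ (-k)) = 1 := by
  rw [IsOrd, map_mul, map_zpow₀, zpow_neg]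
  have h0 : A.valuation (q : Qb) ^ k ≠ 0 := zpow_ne_zero k (val_q_ne_zero A q hq)
  rw [mul_inv_eq_one₀ h0]

/-- Galois transport of orders. -/
theorem isOrd_smul_iff (hq : q.Prime) (g : GQ) {x : Qb} {k : ℤ} :
    IsOrd (g • A) q (g x) k ↔ IsOrd A q x k := by
  by_cases hx : x = 0
  · subst hx
    rw [map_zero]
    constructor
    · intro h; exact absurd rfl (h.ne_zero hq)
    · intro h; exact absurd rfl (h.ne_zero hq)
  have hq0 : (q : Qb) ≠ 0 := by exact_mod_cast hq.ne_zero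
  have hy : x * (q : Qb) ^ (-k) ≠ 0 := mul_ne_zero hx (zpow_ne_zero _ hq0)
  have hgy : g (x * (q : Qb) ^ (-k)) = g x * (q : Qb) ^ (-k) := by
    rw [map_mul, map_zpow₀, map_natCast]
  have hgy0 : g x * (q : Qb) ^ (-k) ≠ 0 := by
    rw [← hgy]
    exact (map_ne_zero g).mpr hy
  rw [isOrd_iff_unit hq, isOrd_iff_unit hq, valuation_eq_one_iff_mem _ _ hgy0,
    valuation_eq_one_iff_mem _ _ hy, ← hgy, ← map_inv₀]
  have h1 : ∀ y : Qb, g y ∈ g • A ↔ y ∈ A := fun y =>
    ValuationSubring.smul_mem_pointwise_smul_iff (g := g)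
  rw [h1, h1]

/-- Elements of `Ω` have an order at every place outside `S`. -/
theorem exists_isOrd (S : Finset Nat.Primes) (q' : Nat.Primes) (hqS : q' ∉ S)
    (A : ValuationSubring Qb) (hA : A.LiesOverPrime (q' : ℕ)) (x : Qb) (hx : x ≠ 0)
    (hΩ : InOm S x) : ∃ k : ℤ, IsOrd A (q' : ℕ) x k := by
  obtain ⟨F, hF, hxF⟩ := hΩ
  refine Fermat.Agent.R.H6.stmt_UnrFix (q' : ℕ) q'.2 A hA x hx fun σ hσ => ?_
  have h1 := hF.2 q' hqS A hA hσ
  exact (IntermediateField.mem_fixingSubgroup_iff F σ).mp h1 x hxF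

end ord

/-! ### The Kummer criterion -/

/-- An automorphism fixing `t` fixes `ℚ(t)`. -/
theorem mem_fixingSubgroup_adjoin (σ : GQ) (t : Qb) (h : σ t = t) :
    σ ∈ (IntermediateField.adjoin ℚ {t}).fixingSubgroup := by
  rw [IntermediateField.mem_fixingSubgroup_iff]
  have hle : IntermediateField.adjoin ℚ {t} ≤
      IntermediateField.fixedField (Subgroup.zpowers σ) := by
    rw [IntermediateField.adjoin_le_iff]
    intro y hy
    rw [Set.mem_singleton_iff] at hy
    subst hy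
    rw [SetLike.mem_coe, IntermediateField.mem_fixedField_iff]
    rintro τ ⟨n, rfl⟩
    have hmem : σ ∈ MulAction.stabilizer GQ y := h
    exact zpow_mem hmem n
  intro y hy
  have := hle hy
  rw [IntermediateField.mem_fixedField_iff] at this
  exact this σ (Subgroup.mem_zpowers σ)

/-- `Ω` is closed under `p`-th roots of elements whose orders outside `S` are divisible by `p`
(`p ∈ S`). -/
theorem inOm_of_pow (S : Finset Nat.Primes) (p : ℕ) (hp : p.Prime)
    (hpS : ∀ q : Nat.Primes, q ∉ S → (q : ℕ) ≠ p) (t x : Qb) (hx0 : x ≠ 0) (htx : t ^ p = x)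
    (hx : InOm S x)
    (hord : ∀ q : Nat.Primes, q ∉ S → ∀ A : ValuationSubring Qb, A.LiesOverPrime (q : ℕ) →
      ∃ m : ℤ, IsOrd A (q : ℕ) x (p * m)) : InOm S t := by
  obtain ⟨F, hF, hxF⟩ := hx
  have ht0 : t ≠ 0 := by
    rintro rfl
    rw [zero_pow hp.ne_zero] at htx
    exact hx0 htx.symm
  have hFfd := hF.1
  have hint : IsIntegral ℚ t := (AlgebraicClosure.isAlgebraic ℚ).isAlgebraic t |>.isIntegral
  have hfd2 : FiniteDimensional ℚ (IntermediateField.adjoin ℚ {t}) :=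
    IntermediateField.adjoin.finiteDimensional hint
  refine ⟨F ⊔ IntermediateField.adjoin ℚ {t},
    ⟨IntermediateField.finiteDimensional_sup F _, fun q hq A hA σ hσ => ?_⟩,
    (le_sup_right : IntermediateField.adjoin ℚ {t} ≤ _)
      (IntermediateField.mem_adjoin_simple_self ℚ t)⟩
  rw [IntermediateField.fixingSubgroup_sup]
  refine ⟨hF.2 q hq A hA hσ, mem_fixingSubgroup_adjoin σ t ?_⟩
  -- `σ x = x`
  have hσx : σ x = x :=
    (IntermediateField.mem_fixingSubgroup_iff F σ).mp (hF.2 q hq A hA hσ) x hxF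
  obtain ⟨m, hm⟩ := hord q hq A hA
  have hq0 : (q : Qb) ≠ 0 := by exact_mod_cast q.2.ne_zero
  -- the unit `u = t q^(-m)`
  set u : Qb := t * (q : Qb) ^ (-m) with hu
  have hup : u ^ p = x * (q : Qb) ^ (-((p : ℤ) * m)) := by
    rw [hu, mul_pow, htx, ← zpow_natCast, ← zpow_mul, neg_mul, mul_comm m]
  have hu1 : A.valuation u = 1 := by
    have h1 := (isOrd_iff_unit q.2).mp hm
    rw [← hup, map_pow] at h1
    rcases pow_eq_one_iff.mp h1 with h2 | h2
    · exact h2
    · exact absurd h2 hp.ne_zero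
  have huA : u ∈ A := (A.valuation_le_one_iff u).mp hu1.le
  have hlt := ((mem_inertiaSubgroupIn_iff_forall A σ).mp hσ).2 u huA
  -- `ζ = σ t / t`
  have hζp : (σ t / t) ^ p = 1 := by
    rw [div_pow, ← map_pow, htx, hσx, div_self hx0]
  have hσu : σ u - u = (σ t / t - 1) * u := by
    rw [hu, map_mul, map_zpow₀, map_natCast]
    field_simp
  rw [hσu, map_mul, hu1, mul_one] at hlt
  have hζ1 := eq_one_of_pow_eq_one A q p q.2 hp (fun h => hpS q hq h.symm) hA (σ t / t) hζp hlt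
  rwa [div_eq_one_iff_eq ht0] at hζ1

/-- **Kummer criterion**: `x ∈ Ωˣ` is a `p`-th power in `Ω` iff all its orders at the places
outside `S` are divisible by `p`. -/
theorem inW_iff (S : Finset Nat.Primes) (p : ℕ) (hp : p.Prime)
    (hpS : ∀ q : Nat.Primes, q ∉ S → (q : ℕ) ≠ p) (x : Qbˣ) (hx : InOm S (x : Qb)) :
    InW S p x ↔ ∀ q : Nat.Primes, q ∉ S → ∀ A : ValuationSubring Qb,
      A.LiesOverPrime (q : ℕ) → ∃ m : ℤ, IsOrd A (q : ℕ) (x : Qb) (p * m) := by
  constructor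
  · rintro ⟨t, ht, rfl⟩ q hq A hA
    obtain ⟨m, hm⟩ := exists_isOrd S q hq A hA (t : Qb) t.ne_zero ht
    refine ⟨m, ?_⟩
    have := hm.pow p
    rwa [Units.val_pow_eq_pow_val]
  · intro h
    obtain ⟨t, ht⟩ := IsAlgClosed.exists_pow_nat_eq (x : Qb) hp.pos
    have ht0 : t ≠ 0 := by
      rintro rfl
      rw [zero_pow hp.ne_zero] at ht
      exact x.ne_zero ht.symm
    refine ⟨Units.mk0 t ht0, inOm_of_pow S p hp hpS t x x.ne_zero ht hx h, ?_⟩
    apply Units.ext
    rw [Units.val_pow_eq_pow_val]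
    exact ht

end Fermat.Agent.S55.CFT.GS.H6
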