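/-
S55 package E4, island GS, leaf GS-CD, part **CD-B** (helper6): bridge between the places of `ℚ̄`
outside `S` and the primes of the base field `K`.
-/
import Fermat.Agent.S55.CFT.GS.H6_CD_K
import Fermat.Agent.Lib.UnramVal
import Fermat.Agent.Lib.InertiaLift

set_option autoImplicit false

open scoped Pointwise NumberField

noncomputable section

namespace Fermat.Agent.S55.CFT.GS.H6

open Fermat.Agent.S55 Fermat.Agent.S55.Top Fermat.Agent.Lib.FrobExists
  Fermat.Agent.Lib.InertiaBridge Fermat.Agent.Lib.Minkowski Fermat.Agent.Lib.UnramVal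
  IsDedekindDomain

local notation "Qb" => AlgebraicClosure ℚ

section bridge

variable (S : Finset Nat.Primes) (K : IntermediateField ℚ Qb) [FiniteDimensional ℚ K]

theorem numberField_K : NumberField K := ⟨⟩

attribute [local instance] numberField_K

variable {S K}

/-- `q` is a uniformizer at the prime of `K` under a place over `q ∉ S`. -/
theorem valuation_q_eq (hK : K.IsUnramifiedOutside S) (q : Nat.Primes) (hq : q ∉ S)
    (A : ValuationSubring Qb) (hA : A.LiesOverPrime (q : ℕ)) :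
    (vBelow K q q.2 A hA).valuation K ((q : ℕ) : K) = WithZero.exp (-1 : ℤ) := by
  set v := vBelow K q q.2 A hA with hv
  obtain ⟨π, hπ⟩ := v.intValuation_exists_uniformizer
  have hq0 : ((q : ℕ) : K) ≠ 0 := by exact_mod_cast q.2.ne_zero
  have hπ0 : π ≠ 0 := by
    rintro rfl
    rw [map_zero] at hπ
    exact WithZero.exp_ne_zero hπ.symm
  have hπK : v.valuation K (algebraMap (𝓞 K) K π) = WithZero.exp (-1 : ℤ) := by
    rw [HeightOneSpectrum.valuation_of_algebraMap]; exact hπ
  have hπK0 : (algebraMap (𝓞 K) K π) ≠ 0 := by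
    intro h
    exact hπ0 ((FaithfulSMul.algebraMap_eq_zero_iff (𝓞 K) K).mp h)
  have hvq : v.valuation K ((q : ℕ) : K) ≠ 0 := (Valuation.ne_zero_iff _).mpr hq0
  set e : ℤ := -WithZero.log (v.valuation K ((q : ℕ) : K)) with he
  have hvq' : v.valuation K ((q : ℕ) : K) = WithZero.exp (-e) := by
    rw [he, neg_neg, WithZero.exp_log hvq]
  -- `e ≥ 1`
  have hmem : ((q : ℕ) : 𝓞 K) ∈ primeBelow K A := natCast_mem_primeBelow K A q hA
  have he1 : 1 ≤ e := by
    have h1 : v.intValuation ((q : ℕ) : 𝓞 K) ≤ WithZero.exp (-((1 : ℕ) : ℤ)) := by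
      rw [HeightOneSpectrum.intValuation_le_pow_iff_mem, pow_one]
      exact hmem
    have hcast : ((q : ℕ) : K) = algebraMap (𝓞 K) K ((q : ℕ) : 𝓞 K) := by simp
    rw [hcast, HeightOneSpectrum.valuation_of_algebraMap] at hvq'
    rw [hvq', WithZero.exp_le_exp] at h1
    push_cast at h1
    omega
  -- the order of `π` at `A`
  obtain ⟨k, hk⟩ := Fermat.Agent.R.H6.stmt_UnrFix (q : ℕ) q.2 A hA
    ((algebraMap (𝓞 K) K π : K) : Qb) (by
      intro h
      exact hπK0 (Subtype.ext h)) (fun σ hσ => by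
      have h1 := hK.2 q hq A hA hσ
      exact (IntermediateField.mem_fixingSubgroup_iff K σ).mp h1 _ (algebraMap (𝓞 K) K π).2)
  -- `q π^(-e)` is a unit
  have hy : v.valuation K (((q : ℕ) : K) * (algebraMap (𝓞 K) K π) ^ (-e)) = 1 := by
    rw [map_mul, map_zpow₀, hvq', hπK, ← WithZero.exp_zsmul, ← WithZero.exp_add]
    simp
  have h1 := val_eq_one_of_valuation_eq_one K q q.2 A hA _ hy
  have h2 : ((((q : ℕ) : K) * (algebraMap (𝓞 K) K π) ^ (-e) : K) : Qb)
      = ((q : ℕ) : Qb) * ((algebraMap (𝓞 K) K π : K) : Qb) ^ (-e) := by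
    push_cast
    rfl
  rw [h2, map_mul, map_zpow₀, hk, ← zpow_mul] at h1
  have h3 : A.valuation ((q : ℕ) : Qb) ^ (1 + k * -e) = A.valuation ((q : ℕ) : Qb) ^ (0 : ℤ) := by
    rw [zpow_add₀ (val_q_ne_zero A q q.2), zpow_one, zpow_zero]
    exact h1
  have h4 : 1 + k * -e = 0 :=
    zpow_right_injective₀ (zero_lt_iff.mpr (val_q_ne_zero A q q.2)) (val_q_lt_one A q hA).ne h3
  have h5 : e = 1 := by
    have h6 : k * e = 1 := by linarith
    rcases Int.eq_one_or_neg_one_of_mul_eq_one' h6 with ⟨_, h7⟩ | ⟨_, h7⟩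
    · exact h7
    · omega
  rw [hvq', h5]

/-- **Bridge**: for `a ∈ Kˣ` the order at a place `A` over `q ∉ S` is the order at the prime of
`K` under `A`. -/
theorem isOrd_of_mem (hK : K.IsUnramifiedOutside S) (q : Nat.Primes) (hq : q ∉ S)
    (A : ValuationSubring Qb) (hA : A.LiesOverPrime (q : ℕ)) (a : K) (ha : a ≠ 0) :
    IsOrd A (q : ℕ) (a : Qb) (ordAt (vBelow K q q.2 A hA) a) := by
  set v := vBelow K q q.2 A hA with hv
  have hvq := valuation_q_eq hK q hq A hA
  have hva : v.valuation K a ≠ 0 := (Valuation.ne_zero_iff _).mpr ha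
  have hy : v.valuation K (a * ((q : ℕ) : K) ^ (-ordAt v a)) = 1 := by
    rw [map_mul, map_zpow₀, hvq, ← WithZero.exp_zsmul, ordAt, neg_neg]
    conv_lhs => rw [← WithZero.exp_log hva]
    rw [← WithZero.exp_add]
    simp
  have h1 := val_eq_one_of_valuation_eq_one K q q.2 A hA _ hy
  rw [isOrd_iff_unit q.2]
  have h2 : ((a * ((q : ℕ) : K) ^ (-ordAt v a) : K) : Qb)
      = (a : Qb) * ((q : ℕ) : Qb) ^ (-ordAt v a) := by
    push_cast
    rfl
  rw [← h2]
  exact h1

/-- An algebraic number is a unit at all places outside finitely many rational primes. -/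
theorem exists_bound_unit (x : Qb) (hx : x ≠ 0) :
    ∃ N : ℤ, N ≠ 0 ∧ ∀ (q : ℕ), q.Prime → ¬ (q : ℤ) ∣ N → ∀ A : ValuationSubring Qb,
      A.LiesOverPrime q → A.valuation x = 1 := by
  have key : ∀ y : Qb, ∃ N : ℤ, N ≠ 0 ∧ ∀ (q : ℕ), q.Prime → ¬ (q : ℤ) ∣ N →
      ∀ A : ValuationSubring Qb, A.LiesOverPrime q → A.valuation y ≤ 1 := by
    intro y
    obtain ⟨N, hN0, hNy⟩ := (isAlgebraic_int_qbar y).exists_integral_multiple
    refine ⟨N, hN0, fun q hq hqN A hA => ?_⟩
    have h1 : A.valuation (N • y) ≤ 1 := valuation_le_one_of_isIntegral A _ hNy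
    have h2 : A.valuation ((N : ℤ) : Qb) = 1 := valuation_intCast_eq_one A q hq hA N hqN
    rw [zsmul_eq_mul, map_mul, h2, one_mul] at h1
    exact h1
  obtain ⟨N₁, hN₁, h₁⟩ := key x
  obtain ⟨N₂, hN₂, h₂⟩ := key x⁻¹
  refine ⟨N₁ * N₂, mul_ne_zero hN₁ hN₂, fun q hq hqN A hA => ?_⟩
  have hd1 : ¬ (q : ℤ) ∣ N₁ := fun h => hqN (Dvd.dvd.mul_right h N₂)
  have hd2 : ¬ (q : ℤ) ∣ N₂ := fun h => hqN (Dvd.dvd.mul_left h N₁)
  have h3 := h₁ q hq hd1 A hA
  have h4 := h₂ q hq hd2 A hA
  rw [map_inv₀] at h4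
  have h0 : A.valuation x ≠ 0 := (Valuation.ne_zero_iff _).mpr hx
  refine le_antisymm h3 ?_
  rwa [inv_le_one₀ (zero_lt_iff.mpr h0)] at h4

end bridge

/-! ### Conjugacy of the places over a prime of `K` -/

section conj

open Fermat.Agent.Lib.InertiaLift

attribute [local instance] Fermat.Agent.Lib.InertiaLift.qbar_isAlgebraic'
  Fermat.Agent.Lib.InertiaLift.qbar_isAlgClosure' Fermat.Agent.Lib.InertiaLift.qbar_isGalois'
  Fermat.Agent.Lib.InertiaLift.intF_smulCommClass Fermat.Agent.Lib.InertiaLift.intF_isInvariant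
  Fermat.Agent.Lib.FrobIntegers.zbarTopologicalSpace
  Fermat.Agent.Lib.FrobIntegers.zbar_discreteTopology
  Fermat.Agent.Lib.InertiaLift.intF_continuousSMul

/-- If the prime of `ZBar` under `A'` is `g` times the prime under `A`, then `g` maps `A` into
`A'`. -/
theorem map_mem_of_primeUnder_smul (A A' : ValuationSubring Qb) (q : ℕ) (hq : q.Prime)
    (hA : A.LiesOverPrime q) (g : GQ) (hg : primeUnder A' = g • primeUnder A) (x : Qb)
    (hx : x ∈ A) : g x ∈ A' := by
  obtain ⟨y, s, hy, hs, hvs, hxs⟩ := exists_integral_frac A q hq hA x hx (isAlgebraic_int_qbar x)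
  have hgy : A'.valuation (g y) ≤ 1 :=
    valuation_le_one_of_isIntegral A' _ (map_isIntegral_int g hy)
  have hgs : A'.valuation (g s) = 1 := by
    refine le_antisymm (valuation_le_one_of_isIntegral A' _ (map_isIntegral_int g hs)) ?_
    by_contra hlt
    rw [not_le] at hlt
    have h1 : (g • (⟨s, hs⟩ : integralClosure ℤ Qb)) ∈ primeUnder A' := hlt
    rw [hg, Ideal.smul_mem_pointwise_smul_iff, mem_primeUnder] at h1
    rw [hvs] at h1
    exact lt_irrefl _ h1
  rw [← A'.valuation_le_one_iff]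
  have h2 : g x * g s = g y := by rw [← map_mul, hxs]
  have h3 := congrArg A'.valuation h2
  rw [map_mul, hgs, mul_one] at h3
  rw [h3]
  exact hgy

/-- Transport of orders along `g` with `primeUnder A' = g • primeUnder A`. -/
theorem isOrd_of_primeUnder_smul (A A' : ValuationSubring Qb) (q : ℕ) (hq : q.Prime)
    (hA : A.LiesOverPrime q) (g : GQ) (hg : primeUnder A' = g • primeUnder A) (x : Qb) (k : ℤ)
    (h : IsOrd A q x k) : IsOrd A' q (g x) k := by
  have hx : x ≠ 0 := h.ne_zero hq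
  have hq0 : (q : Qb) ≠ 0 := by exact_mod_cast hq.ne_zero
  have hy : x * (q : Qb) ^ (-k) ≠ 0 := mul_ne_zero hx (zpow_ne_zero _ hq0)
  have hgy : g (x * (q : Qb) ^ (-k)) = g x * (q : Qb) ^ (-k) := by
    rw [map_mul, map_zpow₀, map_natCast]
  have hgy0 : g x * (q : Qb) ^ (-k) ≠ 0 := by
    rw [← hgy]
    exact (map_ne_zero g).mpr hy
  rw [isOrd_iff_unit hq] at h ⊢
  rw [valuation_eq_one_iff_mem _ _ hy] at h
  rw [valuation_eq_one_iff_mem _ _ hgy0, ← hgy, ← map_inv₀]
  exact ⟨map_mem_of_primeUnder_smul A A' q hq hA g hg _ h.1,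
    map_mem_of_primeUnder_smul A A' q hq hA g hg _ h.2⟩

/-- Two places of `ℚ̄` over the same prime of `K` are conjugate under `G_K`. -/
theorem exists_fixing_smul (K : IntermediateField ℚ Qb) (A A' : ValuationSubring Qb)
    (h : primeBelow K A = primeBelow K A') :
    ∃ g : GQ, g ∈ K.fixingSubgroup ∧ primeUnder A' = g • primeUnder A := by
  have hP := primeUnder_isPrime A
  have hP' := primeUnder_isPrime A'
  have hunder : (primeUnder A).under (intF K) = (primeUnder A').under (intF K) := by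
    ext a
    rw [Ideal.under_def, Ideal.under_def, Ideal.mem_comap, Ideal.mem_comap, mem_primeUnder,
      mem_primeUnder]
    have haK : (((a : integralClosure ℤ Qb) : Qb)) ∈ K := a.2
    have hint : IsIntegral ℤ (⟨((a : integralClosure ℤ Qb) : Qb), haK⟩ : K) := by
      rw [← isIntegral_algebraMap_iff (FaithfulSMul.algebraMap_injective K Qb)]
      exact (a : integralClosure ℤ Qb).2
    let b : 𝓞 K := ⟨⟨((a : integralClosure ℤ Qb) : Qb), haK⟩, hint⟩
    have h1 : b ∈ primeBelow K A ↔ b ∈ primeBelow K A' := by rw [h]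
    rw [mem_primeBelow, mem_primeBelow] at h1
    exact h1
  obtain ⟨g, hg⟩ := Algebra.IsInvariant.exists_smul_of_under_eq_of_profinite
    (A := intF K) (G := Qb ≃ₐ[K] Qb) (primeUnder A) (primeUnder A') hunder
  refine ⟨toGal K g, ?_, ?_⟩
  · rw [IntermediateField.mem_fixingSubgroup_iff]
    intro x hx
    exact g.commutes ⟨x, hx⟩
  · rw [toGal_smul_ideal]
    exact hg

end conj

end Fermat.Agent.S55.CFT.GS.H6
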