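/-
S55 package E4, island GS, leaf **GS-UR** (`Stmt_GS_UnitRank`), owner helper6: interfaces of the
split.

`Stmt_GS_UnitRank` : `[U_K : U_Kᵖ] = p ^ n`, `2 n = [K : ℚ] + 2 #V`, `#V = nPl 𝔓`.

Route.  `S_K` = the primes of `𝓞 K` over the primes in `S`.
* **UR-TC** (`Stmt_UR_TC`): a number field with a primitive `p`-th root of unity, `p` odd, is
  totally complex, so `2 (rank + 1) = [K : ℚ]`.
* **UR-U** (`Stmt_UR_U`): `U_K` (valuation subrings of `ℚ̄`) is the group of `S_K`-units of the
  number field `K` (Mathlib `Set.unit`), so the two indices of `p`-th powers agree.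
* **UR-PL** (`Stmt_UR_PL`): for every prime `q` the orbits of the local Galois group `Gl q` on
  `G_ℚ / G_K` are in bijection with the primes of `𝓞 K` over `q`.
* assembly with helper12's `H12.stmt_SUnitRank`: helper6.
-/
import Fermat.Agent.S55.CFT.Defs_GS
import Fermat.Agent.S55.CFT.GS.H6_CD_B

set_option autoImplicit false

open scoped NumberField

noncomputable section

namespace Fermat.Agent.S55.CFT.GS.H6

open Fermat.Agent.S55 Fermat.Agent.S55.Top IsDedekindDomain ExtCitation

local notation "Qb" => AlgebraicClosure ℚ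

/-- **UR-TC**: a number field containing a primitive `p`-th root of unity, `p` odd, is totally
complex: `2 (rank of the units + 1) = [K : ℚ]`. -/
def Stmt_UR_TC : Prop :=
  ∀ (K : Type) [Field K] [NumberField K] (p : ℕ), p.Prime → p ≠ 2 →
    (∃ ζ : K, IsPrimitiveRoot ζ p) →
    2 * (NumberField.Units.rank K + 1) = Module.finrank ℚ K

/-- **UR-U**: for a finite extension `K` of `ℚ` inside `ℚ̄`, unramified outside `S`, and the
finite set `SK` of the primes of `𝓞 K` over the primes in `S`: `U_K` is the underlying set of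
a subgroup `H` of `ℚ̄ˣ` in which the `p`-th powers have the same index as in the group of
`SK`-units of `K`. -/
def Stmt_UR_U : Prop :=
  ∀ (S : Finset Nat.Primes) (K : IntermediateField ℚ Qb) [NumberField ↥K],
    K.IsUnramifiedOutside S →
    ∀ SK : Finset (HeightOneSpectrum (𝓞 ↥K)),
      (∀ v : HeightOneSpectrum (𝓞 ↥K), v ∈ SK ↔ ∃ q ∈ S, (((q : ℕ) : 𝓞 ↥K)) ∈ v.asIdeal) →
      ∀ p : ℕ, ∃ H : Subgroup Qbˣ, (H : Set Qbˣ) = UK S K ∧
        (powMonoidHom p : ↥H →* ↥H).range.index =
          (powMonoidHom p : ((SK : Set (HeightOneSpectrum (𝓞 ↥K))).unit ↥K) →*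
            ((SK : Set (HeightOneSpectrum (𝓞 ↥K))).unit ↥K)).range.index

/-- **UR-PL**: the orbits of the local Galois group at `q` on `G_ℚ / G_K` are as many as the
primes of `𝓞 K` over `q`. -/
def Stmt_UR_PL : Prop :=
  ∀ (K : IntermediateField ℚ Qb) [NumberField ↥K] (q : Nat.Primes) (W : Type) [Fintype W],
    @OrbitData (Gl q) _ (XK K) (locAct K q) W →
    Fintype.card W =
      {v : HeightOneSpectrum (𝓞 ↥K) | (((q : ℕ) : 𝓞 ↥K)) ∈ v.asIdeal}.ncard

end Fermat.Agent.S55.CFT.GS.H6
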