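/-
S55/E4 island GS (helper24), wave 2, Layer C: calculus of the residue cochain `resR`, for the
assembly `GS-AsmResOnto`.

* `ResHyp S p K b` : `b` is a level-`S` cochain with values in `Ωˣ` and coboundary in `W`;
* `resR_one`, `resR_pow_stab`, `resR_div_pow`;
* `resTrivAt_iff` : `ResTrivAt` in terms of `resR`;
* `IsBad b A` (nonzero residue at `A`), `isBad_smul`;
* `exists_cover` : the bad places lie in finitely many `G_K`-orbits.
-/
import Fermat.Agent.S55.CFT.GS.H24_ResInj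
import Fermat.Agent.S55.CFT.GS.H6_UR_PL

set_option autoImplicit false
set_option linter.unusedSectionVars false
set_option linter.unusedVariables false
set_option linter.style.haveILetI false

open CategoryTheory Module groupCohomology ExtCitation

open scoped Pointwise

noncomputable section

namespace Fermat.Agent.S55.CFT.GS.H24

open Fermat.Agent.S55 Fermat.Agent.S55.Top Fermat.Agent.S55.CFT.GS

local notation "Qb" => AlgebraicClosure ℚ

section abs

variable {G X M : Type} [Group G] [MulAction G X] [AddCommGroup M] {r : G → X → M}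

theorem coc_one (hr : ∀ g h x, r (g * h) x = r h (g⁻¹ • x) + r g x) (x : X) : r 1 x = 0 := by
  have h := hr 1 1 x
  rw [mul_one, inv_one, one_smul] at h
  exact (left_eq_add.mp h)

theorem coc_mul_stab (hr : ∀ g h x, r (g * h) x = r h (g⁻¹ • x) + r g x) (g h : G) (x : X)
    (hg : g • x = x) : r (g * h) x = r h x + r g x := by
  have e := hr g h x
  have hg' : g⁻¹ • x = x := by
    rw [inv_smul_eq_iff, hg]
  rw [hg'] at e
  exact e

theorem coc_pow_stab (hr : ∀ g h x, r (g * h) x = r h (g⁻¹ • x) + r g x) (g : G) (x : X)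
    (hg : g • x = x) (n : ℕ) : r (g ^ n) x = n • r g x := by
  induction n with
  | zero => simp [coc_one hr]
  | succ n ih =>
    have hgn : g ^ n • x = x := by
      clear ih
      induction n with
      | zero => simp
      | succ n ih => rw [pow_succ, mul_smul, hg, ih]
    rw [pow_succ, coc_mul_stab hr _ _ x hgn, ih, succ_nsmul, add_comm]

theorem coc_bad_smul (hr : ∀ g h x, r (g * h) x = r h (g⁻¹ • x) + r g x) {x : X}
    (h : ∃ g : G, g • x = x ∧ r g x ≠ 0) (k : G) :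
    ∃ g : G, g • (k • x) = k • x ∧ r g (k • x) ≠ 0 := by
  obtain ⟨g, hg, hne⟩ := h
  refine ⟨k * g * k⁻¹, ?_, ?_⟩
  · rw [mul_smul, inv_smul_smul, mul_smul, hg]
  · rw [resR_conj hr (coc_one hr) g k x hg]
    exact hne

end abs

section rcalc

variable {p : ℕ} [Fact p.Prime] {S : Finset Nat.Primes} {K : IntermediateField ℚ Qb}

/-- `b` is a level-`S` cochain with values in `Ωˣ` whose coboundary has values in `W`. -/
structure ResHyp (S : Finset Nat.Primes) (p : ℕ) (K : IntermediateField ℚ Qb)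
    (b : ↥K.fixingSubgroup → Qbˣ) : Prop where
  lev : IsLevK₁ S K b
  om : ∀ g, InOm S (b g : Qb)
  w : ∀ t, InW S p (mOne b t)

theorem resR_one (hp : pPrime p ∈ S) {b : ↥K.fixingSubgroup → Qbˣ} (hb : ResHyp S p K b)
    (A : ValuationSubring Qb) : resR S p b 1 A = 0 :=
  coc_one (resR_cocycle hp hb.om hb.w) A

theorem resR_pow_stab (hp : pPrime p ∈ S) {b : ↥K.fixingSubgroup → Qbˣ} (hb : ResHyp S p K b)
    (g : ↥K.fixingSubgroup) (A : ValuationSubring Qb) (hg : g • A = A) (n : ℕ) :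
    resR S p b (g ^ n) A = (n : ZMod p) * resR S p b g A := by
  rw [coc_pow_stab (resR_cocycle hp hb.om hb.w) g A hg n, nsmul_eq_mul]

/-- The residue cochain of `b / b₁ ^ k`. -/
theorem resR_div_pow {b b₁ : ↥K.fixingSubgroup → Qbˣ} (hbΩ : ∀ g, InOm S (b g : Qb))
    (hb₁Ω : ∀ g, InOm S (b₁ g : Qb)) (k : ℕ) (g : ↥K.fixingSubgroup)
    (A : ValuationSubring Qb) :
    resR S p (fun g => b g / b₁ g ^ k) g A =
      resR S p b g A - (k : ZMod p) * resR S p b₁ g A := by
  by_cases hA : H6.OutS S A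
  · rw [resR_of_outS _ hA, resR_of_outS _ hA, resR_of_outS _ hA]
    have e : ((b g / b₁ g ^ k : Qbˣ) : Qb) = (b g : Qb) / (b₁ g : Qb) ^ k := by
      rw [Units.val_div_eq_div_val, Units.val_pow_eq_pow_val]
    rw [e, H6.ordS_div hA (b g).ne_zero (hbΩ g) (pow_ne_zero _ (b₁ g).ne_zero)
      (inOm_pow (hb₁Ω g) k), H6.ordS_pow hA (b₁ g).ne_zero (hb₁Ω g)]
    push_cast
    ring
  · rw [resR_of_not_outS _ hA, resR_of_not_outS _ hA, resR_of_not_outS _ hA]
    ring

/-- `ResTrivAt` in terms of the residue cochain. -/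
theorem resTrivAt_iff {b : ↥K.fixingSubgroup → Qbˣ} (hbΩ : ∀ g, InOm S (b g : Qb))
    (q : Nat.Primes) (hq : q ∉ S) (A : ValuationSubring Qb) (hA : A.LiesOverPrime (q : ℕ)) :
    ResTrivAt p K A (q : ℕ) b ↔ ∀ g : ↥K.fixingSubgroup, g • A = A → resR S p b g A = 0 := by
  have hout : H6.OutS S A := ⟨q, hq, hA⟩
  constructor
  · intro h g hg
    rw [resR_of_outS _ hout]
    obtain ⟨k, hk⟩ := h g hg
    rw [H6.ordS_eq q hA hk]
    push_cast
    simp
  · intro h g hg
    have h1 := h g hg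
    rw [resR_of_outS _ hout, ZMod.intCast_zmod_eq_zero_iff_dvd] at h1
    obtain ⟨k, hk⟩ := h1
    refine ⟨k, ?_⟩
    have h2 := H6.isOrd_ordS q hq hA (b g).ne_zero (hbΩ g)
    rw [hk] at h2
    exact h2

/-- `A` is a bad place of `b`: the residue of `b` at `A` is not zero. -/
def IsBad (S : Finset Nat.Primes) (p : ℕ) (b : ↥K.fixingSubgroup → Qbˣ)
    (A : ValuationSubring Qb) : Prop :=
  ∃ g : ↥K.fixingSubgroup, g • A = A ∧ resR S p b g A ≠ 0

theorem IsBad.outS {b : ↥K.fixingSubgroup → Qbˣ} {A : ValuationSubring Qb}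
    (h : IsBad S p b A) : H6.OutS S A := by
  obtain ⟨g, _, hg⟩ := h
  by_contra hA
  exact hg (resR_of_not_outS _ hA)

theorem isBad_smul (hp : pPrime p ∈ S) {b : ↥K.fixingSubgroup → Qbˣ} (hb : ResHyp S p K b)
    {A : ValuationSubring Qb} (h : IsBad S p b A) (k : ↥K.fixingSubgroup) :
    IsBad S p b (k • A) :=
  coc_bad_smul (resR_cocycle hp hb.om hb.w) h k

theorem not_isBad_of_forall {b : ↥K.fixingSubgroup → Qbˣ}
    (h : ∀ A, ¬ IsBad S p b A) (g : ↥K.fixingSubgroup) (A : ValuationSubring Qb)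
    (hg : g • A = A) : resR S p b g A = 0 := by
  by_contra hne
  exact h A ⟨g, hg, hne⟩

/-- The bad places are covered by the `G_K`-orbits of the places in `T`. -/
def Covered (S : Finset Nat.Primes) (p : ℕ) (b : ↥K.fixingSubgroup → Qbˣ)
    (T : Finset (ValuationSubring Qb)) : Prop :=
  ∀ A, IsBad S p b A → ∃ A' ∈ T, ∃ k : ↥K.fixingSubgroup, k • A' = A

/-- The bad places lie in finitely many `G_K`-orbits. -/
theorem exists_cover (hK : K.IsUnramifiedOutside S) {b : ↥K.fixingSubgroup → Qbˣ}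
    (hb : ResHyp S p K b) : ∃ T : Finset (ValuationSubring Qb), Covered S p b T := by
  classical
  obtain ⟨N, hN0, hN⟩ := resR_support (p := p) hK hb.lev
  have hfd : FiniteDimensional ℚ K := hK.1
  have := h49_qbar_isGalois
  have hfin : Finite (GQ ⧸ K.fixingSubgroup) :=
    Subgroup.quotient_finite_of_isOpen K.fixingSubgroup K.fixingSubgroup_isOpen
  haveI : Fintype (GQ ⧸ K.fixingSubgroup) := Fintype.ofFinite _
  refine ⟨((finite_primes_dvd hN0).toFinset ×ˢ (Finset.univ : Finset (GQ ⧸ K.fixingSubgroup))).image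
    (fun x => (Quotient.out x.2 : GQ)⁻¹ • H6.urA0 x.1), ?_⟩
  intro A hA
  obtain ⟨q, hq, hAq⟩ := hA.outS
  obtain ⟨g, hg, hne⟩ := hA
  have hqN : ((q : ℕ) : ℤ) ∣ N := by
    by_contra h
    exact hne (hN q h A hAq g)
  obtain ⟨τ, hτ⟩ := H6.ur_exists_smul (H6.urA0 q) A (q : ℕ) q.2 (H6.urA0_lies q) hAq
  -- `τ = k (x.out)⁻¹`
  set x : GQ ⧸ K.fixingSubgroup := ((τ⁻¹ : GQ) : GQ ⧸ K.fixingSubgroup) with hx
  obtain ⟨k, hk⟩ := QuotientGroup.mk_out_eq_mul K.fixingSubgroup τ⁻¹
  refine ⟨(Quotient.out x : GQ)⁻¹ • H6.urA0 q, ?_, k, ?_⟩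
  · rw [Finset.mem_image]
    refine ⟨(q, x), ?_, rfl⟩
    rw [Finset.mem_product]
    exact ⟨by rw [Set.Finite.mem_toFinset]; exact hqN, Finset.mem_univ _⟩
  · have e : (Quotient.out x : GQ) = τ⁻¹ * k := hk
    rw [e, hτ]
    show (k : GQ) • (τ⁻¹ * (k : GQ))⁻¹ • H6.urA0 q = τ • H6.urA0 q
    rw [mul_inv_rev, inv_inv, mul_smul, smul_inv_smul]

end rcalc

end Fermat.Agent.S55.CFT.GS.H24

end
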