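/-
S55/E4 island GS, Layer B (helper24): conjugation invariance of the vanishing of residues,
without the hypothesis `p ∈ S`.

For a cochain `b` with values in `Ωˣ` whose coboundary is a `p`-th power in `Ωˣ`:
`ResTrivAt p K A q b ↔ ResTrivAt p K (k • A) q b` for `k ∈ G_K` (`A` over `q ∉ S`).
-/
import Fermat.Agent.S55.CFT.GS.H24_ResCalc

set_option autoImplicit false
set_option linter.unusedSectionVars false
set_option linter.unusedVariables false
set_option linter.style.haveILetI false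

open CategoryTheory Module groupCohomology ExtCitation

open scoped Pointwise

noncomputable section

namespace Fermat.Agent.S55.CFT.GS.H24

open Fermat.Agent.S55 Fermat.Agent.S55.Top Fermat.Agent.S55.CFT.GS

local notation "Qb" => AlgebraicClosure ℚ

section conj

variable {p : ℕ} [Fact p.Prime] {S : Finset Nat.Primes} {K : IntermediateField ℚ Qb}

/-- The cocycle identity of the residue cochain (no hypothesis on `p` and `S`). -/
theorem resR_cocycle' {b : ↥K.fixingSubgroup → Qbˣ}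
    (hbΩ : ∀ g, InOm S (b g : Qb)) (hW : ∀ t, InW S p (mOne b t))
    (g h : ↥K.fixingSubgroup) (A : ValuationSubring Qb) :
    resR S p b (g * h) A = resR S p b h (g⁻¹ • A) + resR S p b g A := by
  by_cases hA : H6.OutS S A
  · have hA' : H6.OutS S (g⁻¹ • A) := by
      rw [smul_def_K]
      exact hA.smul _
    rw [resR_of_outS _ hA, resR_of_outS _ hA, resR_of_outS _ hA']
    obtain ⟨t, htΩ, htp⟩ := hW (g, h)
    have h1 : (p : ℤ) ∣ H6.ordS A ((mOne b (g, h) : Qbˣ) : Qb) := by
      rw [← htp, Units.val_pow_eq_pow_val, H6.ordS_pow hA t.ne_zero htΩ]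
      exact dvd_mul_right _ _
    have e : ((mOne b (g, h) : Qbˣ) : Qb) =
        (g : GQ) (b h : Qb) / (b (g * h) : Qb) * (b g : Qb) := by
      rw [mOne_apply, Units.val_mul, Units.val_div_eq_div_val]
      rfl
    rw [e] at h1
    have hgb : InOm S ((g : GQ) (b h : Qb)) := inOm_map (hbΩ h) _
    have hgb0 : (g : GQ) (b h : Qb) ≠ 0 := by
      rw [Ne, map_eq_zero_iff _ (g : GQ).injective]
      exact (b h).ne_zero
    rw [H6.ordS_mul hA (div_ne_zero hgb0 (b (g * h)).ne_zero) (inOm_div hgb (hbΩ _))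
      (b g).ne_zero (hbΩ g), H6.ordS_div hA hgb0 hgb (b (g * h)).ne_zero (hbΩ _),
      H6.ordS_smul hA (g : GQ) (b h).ne_zero (hbΩ h)] at h1
    have h2 := (ZMod.intCast_zmod_eq_zero_iff_dvd _ p).2 h1
    push_cast at h2
    have e2 : (g⁻¹ : ↥K.fixingSubgroup) • A = ((g : GQ))⁻¹ • A := rfl
    rw [e2]
    linear_combination -h2
  · have hA' : ¬ H6.OutS S (g⁻¹ • A) := by
      rw [smul_def_K, outS_smul_iff]
      exact hA
    rw [resR_of_not_outS _ hA, resR_of_not_outS _ hA, resR_of_not_outS _ hA', add_zero]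

/-- Vanishing of the residue is invariant under conjugation, one direction. -/
theorem resTrivAt_smul {b : ↥K.fixingSubgroup → Qbˣ}
    (hbΩ : ∀ g, InOm S (b g : Qb)) (hW : ∀ t, InW S p (mOne b t))
    (q : Nat.Primes) (hq : q ∉ S) (A : ValuationSubring Qb) (hA : A.LiesOverPrime (q : ℕ))
    (k : ↥K.fixingSubgroup) (h : ResTrivAt p K A (q : ℕ) b) :
    ResTrivAt p K ((k : GQ) • A) (q : ℕ) b := by
  have hkA : ((k : GQ) • A).LiesOverPrime (q : ℕ) := H6.ur_liesOver_smul A (k : GQ) (q : ℕ) hA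
  rw [resTrivAt_iff hbΩ q hq _ hkA]
  rw [resTrivAt_iff hbΩ q hq A hA] at h
  intro g hg
  by_contra hne
  have hbad : ∃ g : ↥K.fixingSubgroup, g • (k • A) = k • A ∧ resR S p b g (k • A) ≠ 0 :=
    ⟨g, hg, hne⟩
  obtain ⟨g', hg', hne'⟩ := coc_bad_smul (resR_cocycle' hbΩ hW) hbad k⁻¹
  have key : ∀ B : ValuationSubring Qb, B = A → g' • B = B → resR S p b g' B ≠ 0 → False := by
    rintro B rfl h1 h2
    exact h2 (h g' h1)
  exact key _ (inv_smul_smul k A) hg' hne'

/-- Vanishing of the residue is invariant under conjugation. -/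
theorem resTrivAt_smul_iff {b : ↥K.fixingSubgroup → Qbˣ}
    (hbΩ : ∀ g, InOm S (b g : Qb)) (hW : ∀ t, InW S p (mOne b t))
    (q : Nat.Primes) (hq : q ∉ S) (A : ValuationSubring Qb) (hA : A.LiesOverPrime (q : ℕ))
    (k : GQ) (hk : k ∈ K.fixingSubgroup) :
    ResTrivAt p K (k • A) (q : ℕ) b ↔ ResTrivAt p K A (q : ℕ) b := by
  constructor
  · intro h
    have hkA : (k • A).LiesOverPrime (q : ℕ) := H6.ur_liesOver_smul A k (q : ℕ) hA
    have := resTrivAt_smul hbΩ hW q hq (k • A) hkA ⟨k⁻¹, inv_mem hk⟩ h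
    rwa [show ((⟨k⁻¹, inv_mem hk⟩ : ↥K.fixingSubgroup) : GQ) • k • A = A from
      inv_smul_smul k A] at this
  · intro h
    exact resTrivAt_smul hbΩ hW q hq A hA ⟨k, hk⟩ h

end conj

end Fermat.Agent.S55.CFT.GS.H24

end
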