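/-
S55 package E4, island GS, LAYER B (owner-planner: helper64): interfaces, part 2.
Plan: NOTES/plan/S55_GSB.md.

The package LOC-OUT (`Bri.Stmt_LocOut`) is reduced to LOC-S:  `Bri.Stmt_LocS` holds for ALL finite
sets `S'` and ALL place systems, in particular for `S' = {q}`, `q ∉ S`.  Hence
  `Stmt_LocOut ⟸ Stmt_LocS + Stmt_R2_lev + Stmt_ResLoc_fwd + Stmt_ResLoc_bwd`
(+ the place system of `{q}` whose representative is `σ` up to `G_K`, + invariance of the residues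
under `G_K`-conjugation; reduction: helper24).

* `Stmt_R2_lev`      : a realised cocycle is a level-`N`, `N`-valued cocycle (package REAL).
* `Stmt_ResLoc_fwd`  : at a place `w` over `q ∉ S`: `LocTrivS → ResTrivAt`.
* `Stmt_ResLoc_bwd`  : at a place `w` over `q ∉ S`: `ResTrivAt → LocTrivS`.
Both are statements inside `ℚ̄`, `ℚ̄_q` (no `groupCohomology`).
-/
import Fermat.Agent.S55.CFT.GS.H64_BriDefs

set_option autoImplicit false

open CategoryTheory groupCohomology ExtCitation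

open scoped Pointwise

noncomputable section

namespace Fermat.Agent.S55.CFT.GS.Bri

open Fermat.Agent.S55 Fermat.Agent.S55.Top Fermat.Agent.S55.CFT

local notation "Qb" => AlgebraicClosure ℚ

/-- **R2-lev**: a realised cocycle is a cocycle of level `N` with values in `N`. -/
def Stmt_R2_lev : Prop :=
  ∀ (K N : IntermediateField ℚ Qb) (hKN : K ≤ N) [NumberField ↥K] [NumberField ↥(H6.NK hKN)]
    [IsGalois ↥K ↥(H6.NK hKN)] (c : ↥K.fixingSubgroup × ↥K.fixingSubgroup → Qbˣ)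
    (x : groupCohomology (repL ↥K ↥(H6.NK hKN)) 2), Real₂ hKN c x →
      IsLevN₂ K N c ∧ mTwo c = 1

/-- **RESLOC (⟹)**: `K ≤ N` finite over `ℚ`, `N/K` normal, `N` unramified outside `S`; `w` a place
of `K` over `q ∉ S` (in a place system `𝔓` of any finite set `S'`), `A = σ_w⁻¹ • primeLocalPlace q`;
`c` a level-`N`, `N`-valued 2-cocycle with `cᵖ = d b`, `b` of level `N` with values in `N`.
If `c` is locally trivial at `w` then the residue of `b` at `A` vanishes.
(`β ↦ b'` with values in `E = ℚ_q(ι σ_w N)`, constant modulo `Gal(ℚ̄_q/E)`: `GS.Stmt_LocS_H90`;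
`E/ℚ_q` is unramified, so `|b'(h)| ∈ q^ℤ`; `h ↦ |ι σ_w b(ρ_w h)| / |b'(h)|ᵖ` is a homomorphism
`Γ_w → ℝ_{>0}` with finite image, hence trivial; every `g ∈ G_K` with `g • A = A` is `ρ_w h`
modulo `G_N`.) -/
def Stmt_ResLoc_fwd : Prop :=
  ∀ (p : ℕ) [Fact p.Prime] (S : Finset Nat.Primes) (K N : IntermediateField ℚ Qb), K ≤ N →
    N.IsUnramifiedOutside S →
    (∀ g : GQ, g ∈ K.fixingSubgroup → ∀ x : Qb, x ∈ N → g x ∈ N) →
    ∀ (S' : Finset Nat.Primes) (𝔓 : PlaceSys S' K) (q : ↥S') (w : 𝔓.W q), q.1 ∉ S →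
    ∀ A : ValuationSubring Qb, 𝔓.σ q w • A = primeLocalPlace q.1 →
    ∀ (c : ↥K.fixingSubgroup × ↥K.fixingSubgroup → Qbˣ) (b : ↥K.fixingSubgroup → Qbˣ),
      IsLevN₂ K N c → mTwo c = 1 → IsLevN₁ K N b → (∀ t, c t ^ p = mOne b t) →
      LocTrivS 𝔓 q w c → ResTrivAt p K A (q.1 : ℕ) b

/-- **RESLOC (⟸)**: in the same situation, if the residue of `b` at `A` vanishes then `c` is
locally trivial at `w`.
(`m(h) = ord(b(ρ_w h)) / p ∈ ℤ`; `c' = ι σ_w c(ρ_w ·, ρ_w ·) / d(q^m)` is a 2-cocycle with values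
in the units of `E = ℚ_q(ι σ_w N)`, inflated from the cyclic group `Gal(E/K_w)`; it is a
coboundary because units are norms in unramified extensions (`LOC.H68.stmt_UnramNormUnits`) and by
the periodicity of the cohomology of cyclic groups (`LOC/H68_CycCocycle.lean`).) -/
def Stmt_ResLoc_bwd : Prop :=
  ∀ (p : ℕ) [Fact p.Prime] (S : Finset Nat.Primes) (K N : IntermediateField ℚ Qb), K ≤ N →
    N.IsUnramifiedOutside S →
    (∀ g : GQ, g ∈ K.fixingSubgroup → ∀ x : Qb, x ∈ N → g x ∈ N) →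
    ∀ (S' : Finset Nat.Primes) (𝔓 : PlaceSys S' K) (q : ↥S') (w : 𝔓.W q), q.1 ∉ S →
    ∀ A : ValuationSubring Qb, 𝔓.σ q w • A = primeLocalPlace q.1 →
    ∀ (c : ↥K.fixingSubgroup × ↥K.fixingSubgroup → Qbˣ) (b : ↥K.fixingSubgroup → Qbˣ),
      IsLevN₂ K N c → mTwo c = 1 → IsLevN₁ K N b → (∀ t, c t ^ p = mOne b t) →
      ResTrivAt p K A (q.1 : ℕ) b → LocTrivS 𝔓 q w c

end Fermat.Agent.S55.CFT.GS.Bri

end
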