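/-
S55/E4 island GS, Layer B (helper24): the reduction of LOC-OUT to LOC-S,
  `locOut_of : Stmt_LocS → Stmt_R2_lev → Stmt_ResLoc_fwd → Stmt_ResLoc_bwd → Stmt_LocOut`.

`Bri.Stmt_LocS` is applied to the place system `placeSysAt K q σ` of `S' = {q}` through `σ`
(`GS/H24_PSEx.lean`); its representative is `σ * g`, `g ∈ G_K`; the place `plσ` does not change
(`plσ_eq_of_double`), the place `A` of `ℚ̄` is replaced by `g⁻¹ • A`, and the vanishing of the
residue is invariant under `G_K`-conjugation (`resTrivAt_smul_iff`).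
-/
import Fermat.Agent.S55.CFT.GS.H64_BriDefs2
import Fermat.Agent.S55.CFT.GS.H24_Pl
import Fermat.Agent.S55.CFT.GS.H24_PSEx
import Fermat.Agent.S55.CFT.GS.H24_ResConj

set_option autoImplicit false
set_option linter.unusedSectionVars false
set_option linter.unusedVariables false
set_option linter.style.haveILetI false

open CategoryTheory groupCohomology ExtCitation

open scoped Pointwise

noncomputable section

namespace Fermat.Agent.S55.CFT.GS.H24

open Fermat.Agent.S55 Fermat.Agent.S55.Top Fermat.Agent.S55.CFT Fermat.Agent.S55.CFT.GS.Bri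

local notation "Qb" => AlgebraicClosure ℚ

/-- `N/K` normal: `G_K` maps `N` to itself. -/
theorem map_mem_of_normal_rel {K N : IntermediateField ℚ Qb} (hKN : K ≤ N)
    [Normal ↥K ↥(H6.NK hKN)] (g : GQ) (hg : g ∈ K.fixingSubgroup) (x : Qb) (hx : x ∈ N) :
    g x ∈ N := by
  haveI : Normal ℚ Qb := H6.qb_normal
  haveI : Normal ↥K Qb := Normal.tower_top_of_normal ℚ ↥K Qb
  let g' : Qb ≃ₐ[↥K] Qb := IntermediateField.fixingSubgroupEquiv K ⟨g, hg⟩
  have h := (IntermediateField.normal_iff_forall_map_le' (K := H6.NK hKN)).mp inferInstance g'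
  have h1 : g' x ∈ (H6.NK hKN).map (g' : Qb →ₐ[↥K] Qb) := ⟨x, hx, rfl⟩
  exact h h1

/-- **LOC-OUT** from LOC-S and the local comparison RESLOC. -/
theorem locOut_of (hLocS : Stmt_LocS) (hLev : Stmt_R2_lev) (hFwd : Stmt_ResLoc_fwd)
    (hBwd : Stmt_ResLoc_bwd) : Stmt_LocOut := by
  intro p _ S K N hKN _ _ _ hNS q hq A σ hσA c b x hx hb hpow
  have hfd : FiniteDimensional ℚ ↥K := inferInstance
  have := h49_qbar_isGalois
  haveI : Finite (XK K) :=
    Subgroup.quotient_finite_of_isOpen K.fixingSubgroup K.fixingSubgroup_isOpen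
  obtain ⟨hcN, hcoc⟩ := hLev K N hKN c x hx
  obtain ⟨g, hg, hσ'⟩ := psex K q σ
  have hnorm : ∀ g : GQ, g ∈ K.fixingSubgroup → ∀ x : Qb, x ∈ N → g x ∈ N :=
    fun g hg x hx => map_mem_of_normal_rel hKN g hg x hx
  -- the place system through `σ`
  have h1 := hLocS ({q} : Finset Nat.Primes) K N hKN (placeSysAt K q σ) (qS q) (wAt K q σ) c x hx
  have hpl : plσ K (qS q).1 ((placeSysAt K q σ).σ (qS q) (wAt K q σ)) = plσ K q σ := by
    rw [hσ']
    have := plσ_eq_of_double K q σ 1 g hg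
    rwa [map_one, one_mul] at this
  rw [hpl] at h1
  rw [h1]
  -- the place `g⁻¹ • A`
  have hA' : (placeSysAt K q σ).σ (qS q) (wAt K q σ) • (g⁻¹ • A) = primeLocalPlace (qS q).1 := by
    rw [hσ', mul_smul, smul_inv_smul]
    exact hσA
  have hAq : A.LiesOverPrime (q : ℕ) := by
    have h2 : A = σ⁻¹ • primeLocalPlace q := by
      rw [← hσA, inv_smul_smul]
    rw [h2]
    exact H6.ur_liesOver_smul _ σ⁻¹ (q : ℕ) (H6.urA0_lies q)
  have hbΩ : ∀ g, InOm S (b g : Qb) := fun g => ⟨N, hNS, hb.2 g⟩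
  have hW : ∀ t, InW S p (mOne b t) := fun t => ⟨c t, ⟨N, hNS, hcN.2 t⟩, hpow t⟩
  have hconj := resTrivAt_smul_iff (p := p) hbΩ hW q hq A hAq g⁻¹ (inv_mem hg)
  rw [← hconj]
  constructor
  · intro h
    exact hFwd p S K N hKN hNS hnorm {q} (placeSysAt K q σ) (qS q) (wAt K q σ) hq (g⁻¹ • A) hA'
      c b hcN hcoc hb hpow h
  · intro h
    exact hBwd p S K N hKN hNS hnorm {q} (placeSysAt K q σ) (qS q) (wAt K q σ) hq (g⁻¹ • A) hA'
      c b hcN hcoc hb hpow h

end Fermat.Agent.S55.CFT.GS.H24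

end
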