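import Fermat.Agent.S55.CFT.GS.H72_HasseGLoc
import Fermat.Agent.S55.CFT.H58_CorRes

/-!
# S55/E4 island GS, Layer A, leaf A-Hasse (helper72)

`stmt_BrHasseG_of : Stmt_BrHasse → GS.Stmt_BrHasseG`: the Hasse principle for `p`-primary classes
of `H²(Gal(L/K), Lˣ)`, `L/K` any finite Galois extension.

Route: `P` a Sylow `p`-subgroup, `K' = L^P`; the restriction of `x` to `Gal(L/K')` is locally
trivial (`locMap_resL`), hence zero (`Stmt_BrHasse` for the `p`-extension `L/K'`); so
`[G : P] • x = cor (res x) = 0` (helper58, `H58.stmt_CorRes`), and `p ^ k • x = 0`.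
-/

set_option autoImplicit false
set_option linter.unusedSectionVars false

open NumberField TensorProduct CategoryTheory groupCohomology IntermediateField

noncomputable section

namespace Fermat.Agent.S55.CFT.GS.H72

open Fermat.Agent.S55.CFT

section sylow

variable (K L : Type) [Field K] [Field L] [NumberField K] [NumberField L] [Algebra K L]
  [IsGalois K L]

/-- `P → Gal(L / L^P)`. -/
def toGalFixed (P : Subgroup (L ≃ₐ[K] L)) : P →* (L ≃ₐ[fixedField P] L) where
  toFun h :=
    { (h : L ≃ₐ[K] L).toRingEquiv with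
      commutes' := fun x => x.2 h }
  map_one' := by
    ext x
    rfl
  map_mul' g h := by
    ext x
    rfl

lemma galRes_toGalFixed (P : Subgroup (L ≃ₐ[K] L)) (h : P) :
    galRes K (fixedField P) L (toGalFixed K L P h) = (h : L ≃ₐ[K] L) := by
  ext x
  rfl

/-- The identity of `Lˣ`, from the `Gal(L/L^P)`-module restricted to `P` to the
`Gal(L/K)`-module restricted to `P`. -/
def fixedRep (P : Subgroup (L ≃ₐ[K] L)) :
    Rep.res (toGalFixed K L P) (repL (fixedField P) L) ⟶ resSub (repL K L) P :=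
  Rep.ofHom (LinearMap.intertwiningMap_of_isIntertwiningMap _ _
    ((MonoidHom.id Lˣ).toAdditive.toIntLinearMap)
    (fun _ _ => rfl))

/-- A class whose restriction to `Gal(L / L^P)` vanishes restricts to zero on `P`. -/
theorem resMap_eq_zero_of_resL (P : Subgroup (L ≃ₐ[K] L)) (n : ℕ)
    (x : groupCohomology (repL K L) n) (hx : resL K (fixedField P) L n x = 0) :
    resMap (repL K L) P n x = 0 := by
  have h1 : groupCohomology.map (galRes K (fixedField P) L) (resRepL K (fixedField P) L) n ≫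
      groupCohomology.map (toGalFixed K L P) (fixedRep K L P) n =
      groupCohomology.map P.subtype (𝟙 (resSub (repL K L) P)) n := by
    rw [← groupCohomology.map_comp]
    apply groupCohomology.map_congr
    · ext h x
      rfl
    · rfl
  have h2 := congrArg (fun f => f.hom x) h1
  have h3 : (groupCohomology.map (toGalFixed K L P) (fixedRep K L P) n).hom
      (resL K (fixedField P) L n x) = resMap (repL K L) P n x := h2
  rw [← h3, hx, map_zero]

end sylow

/-- A class killed by two coprime numbers vanishes. -/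
theorem eq_zero_of_coprime_nsmul {X : Type} [AddCommGroup X] (m n : ℕ) (h : Nat.Coprime m n)
    (x : X) (hm : m • x = 0) (hn : n • x = 0) : x = 0 := by
  have h1 : ((m : ℤ) * Nat.gcdA m n + (n : ℤ) * Nat.gcdB m n) • x = x := by
    rw [← Nat.gcd_eq_gcd_ab, h]
    simp
  rw [← h1, add_smul, mul_comm (m : ℤ), mul_comm (n : ℤ), mul_smul, mul_smul, natCast_zsmul,
    natCast_zsmul, hm, hn, smul_zero, smul_zero, add_zero]

theorem eq_zero_of_index_of_pow {X : Type} [AddCommGroup X] (p k i : ℕ) (hp : p.Prime)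
    (hi : ¬ p ∣ i) (x : X) (h1 : ((p : ℤ) ^ k) • x = 0) (h2 : i • x = 0) : x = 0 := by
  have h3 : (p ^ k) • x = 0 := by
    rw [← natCast_zsmul, Nat.cast_pow]
    exact h1
  have hc : Nat.Coprime (p ^ k) i :=
    Nat.Coprime.pow_left k ((Nat.Prime.coprime_iff_not_dvd hp).2 hi)
  exact eq_zero_of_coprime_nsmul _ _ hc x h3 h2

/-- **A-Hasse**: the Hasse principle for `p`-primary classes, general Galois. -/
theorem stmt_BrHasseG_of (hH : Stmt_BrHasse) : Stmt_BrHasseG := by
  intro p K L _ _ _ _ _ hyp k x hpx hloc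
  have : Fact p.Prime := ⟨hyp.prime⟩
  have := hyp.gal
  obtain ⟨P⟩ : Nonempty (Sylow p (L ≃ₐ[K] L)) := inferInstance
  have hdeg : Module.finrank ↥(fixedField (P : Subgroup (L ≃ₐ[K] L))) L =
      Nat.card (P : Subgroup (L ≃ₐ[K] L)) :=
    IntermediateField.finrank_fixedField_eq_card _
  obtain ⟨m, hm⟩ := (IsPGroup.iff_card (p := p)).1 P.isPGroup'
  obtain ⟨ζ, hζ⟩ := hyp.zeta
  have hyp3 : Hyp3 ↥(fixedField (P : Subgroup (L ≃ₐ[K] L))) L p m :=
    ⟨hyp.prime, hyp.odd, ⟨algebraMap K _ ζ, hζ.map_of_injective (algebraMap K _).injective⟩,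
      inferInstance, by rw [hdeg, hm]⟩
  have h1 : resL K ↥(fixedField (P : Subgroup (L ≃ₐ[K] L))) L 2 x = 0 :=
    hH p m ↥(fixedField (P : Subgroup (L ≃ₐ[K] L))) L hyp3 _ (fun u => by
      rw [locMap_resL, hloc, map_zero])
  have h2 := resMap_eq_zero_of_resL K L (P : Subgroup (L ≃ₐ[K] L)) 2 x h1
  obtain ⟨cor, hcor⟩ := Fermat.Agent.S55.CFT.H58.stmt_CorRes (L ≃ₐ[K] L) (repL K L)
    (P : Subgroup (L ≃ₐ[K] L)) 2
  have h3 : (P : Subgroup (L ≃ₐ[K] L)).index • x = 0 := by
    rw [← hcor, h2, map_zero]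
  exact eq_zero_of_index_of_pow p k _ hyp.prime P.not_dvd_index x hpx h3

end Fermat.Agent.S55.CFT.GS.H72
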