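import Fermat.Agent.S55.CFT.Defs_GS2
import Fermat.Agent.S55.CFT.GS.H72_HasseG
import Fermat.Agent.S55.CFT.H58_CorRes
import Fermat.Agent.S55.CFT.H56_Hyp2

/-!
# S55/E4 island GS, Layer A, leaf A-H3 (helper31)

`stmt_BrH3G_of : Stmt_BrH3 → GS.Stmt_BrH3G`: `p`-primary classes of `H³(Gal(L/K), Lˣ)` die in the
cyclotomic tower, `L/K` any finite Galois extension.

Route: `P` a Sylow `p`-subgroup of `Gal(L/K)`, `K' = L^P`.  `Stmt_BrH3` for the `p`-extension
`L/K'` gives `M₁` with `inf_{L → L(ζ_{p^{M₁}})} = 0` on `H³(Gal(L/K'), Lˣ)`.  For `M ≥ M₁` and a model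
`N` of `L(ζ_{p^M})` there is an `L`-embedding `L(ζ_{p^{M₁}}) → N`, and inflation is transitive, so
`inf_{L → N} = 0` on `H³(Gal(L/K'), Lˣ)`.  Now `res_{K → K'} ∘ inf = inf ∘ res_{K → K'}`, hence the
restriction of `inf x` to `Gal(N/K')` vanishes, hence `[K' : K] • inf x = cor (res (inf x)) = 0`
(helper58), and `[K' : K] = [G : P]` is prime to `p`.
-/

set_option autoImplicit false
set_option linter.unusedSectionVars false

open NumberField TensorProduct CategoryTheory groupCohomology IntermediateField

noncomputable section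

namespace Fermat.Agent.S55.CFT.GS.H31

open Fermat.Agent.S55.CFT

/-! ### Transitivity of inflation -/

section trans

variable (K L N₁ N : Type) [Field K] [Field L] [Field N₁] [Field N] [NumberField K]
  [NumberField L] [NumberField N₁] [NumberField N] [Algebra K L] [Algebra K N₁] [Algebra K N]
  [Algebra L N₁] [Algebra L N] [Algebra N₁ N] [IsScalarTower K L N₁] [IsScalarTower K L N]
  [IsScalarTower K N₁ N] [IsScalarTower L N₁ N] [Normal K L] [Normal K N₁]

/-- Inflation is transitive. -/
theorem infL_infL (n : ℕ) (x : groupCohomology (repL K L) n) :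
    infL K N₁ N n (infL K L N₁ n x) = infL K L N n x := by
  have h1 : groupCohomology.map (AlgEquiv.restrictNormalHom (F := K) (K₁ := N₁) L)
        (infRepL K L N₁) n ≫
      groupCohomology.map (AlgEquiv.restrictNormalHom (F := K) (K₁ := N) N₁)
        (infRepL K N₁ N) n =
      groupCohomology.map (AlgEquiv.restrictNormalHom (F := K) (K₁ := N) L)
        (infRepL K L N) n := by
    rw [← groupCohomology.map_comp]
    apply groupCohomology.map_congr
    · exact (IsScalarTower.AlgEquiv.restrictNormalHom_comp K L N₁ N).symm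
    · ext x
      apply congrArg Additive.ofMul
      apply Units.ext
      exact (IsScalarTower.algebraMap_apply L N₁ N _).symm
  exact congrArg (fun f => f.hom x) h1

end trans

section embed

variable (K L N₁ N : Type) [Field K] [Field L] [Field N₁] [Field N] [NumberField K]
  [NumberField L] [NumberField N₁] [NumberField N] [Algebra K L] [Algebra K N₁] [Algebra K N]
  [Algebra L N₁] [Algebra L N] [IsScalarTower K L N₁] [IsScalarTower K L N]
  [Normal K L] [Normal K N₁]

/-- If a class dies in `N₁` and `N₁` embeds into `N` over `L`, then the class dies in `N`. -/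
theorem infL_eq_zero_of_algHom (f : N₁ →ₐ[L] N) (n : ℕ) (x : groupCohomology (repL K L) n)
    (h : infL K L N₁ n x = 0) : infL K L N n x = 0 := by
  letI : Algebra N₁ N := f.toRingHom.toAlgebra
  haveI : IsScalarTower L N₁ N := IsScalarTower.of_algebraMap_eq (fun y => (f.commutes y).symm)
  haveI : IsScalarTower K N₁ N := IsScalarTower.of_algebraMap_eq (fun y => by
    rw [IsScalarTower.algebraMap_apply K L N, IsScalarTower.algebraMap_apply K L N₁]
    exact (f.commutes _).symm)
  rw [← infL_infL K L N₁ N n x, h, map_zero]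

end embed

/-! ### Restriction commutes with inflation -/

section resinf

variable (K K' L N : Type) [Field K] [Field K'] [Field L] [Field N] [NumberField K]
  [NumberField K'] [NumberField L] [NumberField N] [Algebra K K'] [Algebra K L] [Algebra K N]
  [Algebra K' L] [Algebra K' N] [Algebra L N] [IsScalarTower K K' L] [IsScalarTower K K' N]
  [IsScalarTower K L N] [IsScalarTower K' L N] [Normal K L] [Normal K' L]

lemma restrictNormalHom_galRes (τ : N ≃ₐ[K'] N) :
    AlgEquiv.restrictNormalHom (F := K) (K₁ := N) L (galRes K K' N τ) =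
      galRes K K' L (AlgEquiv.restrictNormalHom (F := K') (K₁ := N) L τ) := by
  ext y
  apply (algebraMap L N).injective
  have h1 := AlgEquiv.restrictNormal_commutes (galRes K K' N τ) L y
  have h2 := AlgEquiv.restrictNormal_commutes τ L y
  exact h1.trans h2.symm

/-- `res ∘ inf = inf ∘ res`. -/
theorem resL_infL (n : ℕ) (x : groupCohomology (repL K L) n) :
    resL K K' N n (infL K L N n x) = infL K' L N n (resL K K' L n x) := by
  have h1 : groupCohomology.map (AlgEquiv.restrictNormalHom (F := K) (K₁ := N) L)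
        (infRepL K L N) n ≫
      groupCohomology.map (galRes K K' N) (resRepL K K' N) n =
      groupCohomology.map (galRes K K' L) (resRepL K K' L) n ≫
      groupCohomology.map (AlgEquiv.restrictNormalHom (F := K') (K₁ := N) L)
        (infRepL K' L N) n := by
    rw [← groupCohomology.map_comp, ← groupCohomology.map_comp]
    apply groupCohomology.map_congr
    · ext τ : 1
      exact restrictNormalHom_galRes K K' L N τ
    · rfl
  exact congrArg (fun f => f.hom x) h1

end resinf

/-! ### From `Gal(N/K')` to the subgroup of `Gal(N/K)` -/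

section sub

variable (K K' N : Type) [Field K] [Field K'] [Field N] [NumberField K]
  [NumberField K'] [NumberField N] [Algebra K K'] [Algebra K N]
  [Algebra K' N] [IsScalarTower K K' N]

/-- The subgroup `Gal(N/K')` of `Gal(N/K)`. -/
def galSub : Subgroup (N ≃ₐ[K] N) := (galRes K K' N).range

/-- `galSub → Gal(N/K')`. -/
def toGalSub : galSub K K' N →* (N ≃ₐ[K'] N) where
  toFun h :=
    { (h : N ≃ₐ[K] N).toRingEquiv with
      commutes' := fun x => by
        obtain ⟨s, hs⟩ := h.2
        change (h : N ≃ₐ[K] N) (algebraMap K' N x) = algebraMap K' N x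
        rw [← hs]
        exact s.commutes x }
  map_one' := by
    ext x
    rfl
  map_mul' g h := by
    ext x
    rfl

lemma galRes_toGalSub (h : galSub K K' N) :
    galRes K K' N (toGalSub K K' N h) = (h : N ≃ₐ[K] N) := by
  ext x
  rfl

/-- The identity of `Nˣ`, from the `Gal(N/K')`-module restricted to `galSub` to the
`Gal(N/K)`-module restricted to `galSub`. -/
def subRep : Rep.res (toGalSub K K' N) (repL K' N) ⟶ resSub (repL K N) (galSub K K' N) :=
  Rep.ofHom (LinearMap.intertwiningMap_of_isIntertwiningMap _ _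
    ((MonoidHom.id Nˣ).toAdditive.toIntLinearMap)
    (fun _ _ => rfl))

/-- A class whose restriction to `Gal(N/K')` vanishes restricts to zero on `galSub`. -/
theorem resMap_eq_zero_of_resL' (n : ℕ)
    (x : groupCohomology (repL K N) n) (hx : resL K K' N n x = 0) :
    resMap (repL K N) (galSub K K' N) n x = 0 := by
  have h1 : groupCohomology.map (galRes K K' N) (resRepL K K' N) n ≫
      groupCohomology.map (toGalSub K K' N) (subRep K K' N) n =
      groupCohomology.map (galSub K K' N).subtype (𝟙 (resSub (repL K N) (galSub K K' N))) n := by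
    rw [← groupCohomology.map_comp]
    apply groupCohomology.map_congr
    · ext h x
      rfl
    · rfl
  have h2 := congrArg (fun f => f.hom x) h1
  have h3 : (groupCohomology.map (toGalSub K K' N) (subRep K K' N) n).hom
      (resL K K' N n x) = resMap (repL K N) (galSub K K' N) n x := h2
  rw [← h3, hx, map_zero]

/-- The index of `Gal(N/K')` in `Gal(N/K)` is `[K' : K]`. -/
theorem index_galSub [IsGalois K N] : (galSub K K' N).index = Module.finrank K K' := by
  haveI : IsGalois K' N := IsGalois.tower_top_of_isGalois K K' N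
  have hinj : Function.Injective (galRes K K' N) := by
    intro s t hst
    ext x
    exact congrArg (fun f : N ≃ₐ[K] N => f x) hst
  have h1 : Nat.card (galSub K K' N) = Module.finrank K' N := by
    rw [← IsGalois.card_aut_eq_finrank K' N]
    exact (Nat.card_congr (Equiv.ofInjective _ hinj)).symm
  have h2 := (galSub K K' N).index_mul_card
  rw [h1, IsGalois.card_aut_eq_finrank K N, ← Module.finrank_mul_finrank K K' N] at h2
  have hpos : 0 < Module.finrank K' N := Module.finrank_pos
  exact Nat.eq_of_mul_eq_mul_right hpos h2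

end sub

/-! ### The abstract step -/

section step

variable (p : ℕ) (K K' L N₁ N : Type) [Field K] [Field K'] [Field L] [Field N₁] [Field N]
  [NumberField K] [NumberField K'] [NumberField L] [NumberField N₁] [NumberField N]
  [Algebra K K'] [Algebra K L] [Algebra K N] [Algebra K' L] [Algebra K' N₁] [Algebra K' N]
  [Algebra L N₁] [Algebra L N]
  [IsScalarTower K K' L] [IsScalarTower K K' N] [IsScalarTower K L N] [IsScalarTower K' L N]
  [IsScalarTower K' L N₁] [Normal K L] [Normal K' L] [Normal K' N₁] [IsGalois K N]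

theorem brH3G_step (hp : p.Prime) (hidx : ¬ p ∣ Module.finrank K K')
    (h1 : ∀ x' : groupCohomology (repL K' L) 3, infL K' L N₁ 3 x' = 0)
    (f : N₁ →ₐ[L] N) (k : ℕ) (x : groupCohomology (repL K L) 3) (hx : ((p : ℤ) ^ k) • x = 0) :
    infL K L N 3 x = 0 := by
  have h2 : resL K K' N 3 (infL K L N 3 x) = 0 := by
    rw [resL_infL]
    exact infL_eq_zero_of_algHom K' L N₁ N f 3 _ (h1 _)
  have h3 := resMap_eq_zero_of_resL' K K' N 3 _ h2
  obtain ⟨cor, hcor⟩ := Fermat.Agent.S55.CFT.H58.stmt_CorRes (N ≃ₐ[K] N) (repL K N)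
    (galSub K K' N) 3
  have h4 : (galSub K K' N).index • infL K L N 3 x = 0 := by
    rw [← hcor, h3, map_zero]
  rw [index_galSub] at h4
  have h5 : ((p : ℤ) ^ k) • infL K L N 3 x = 0 := by
    have h6 := congrArg (infL K L N 3) hx
    rw [map_zero] at h6
    rw [← h6]
    exact (map_zsmul (infL K L N 3) _ _).symm
  exact H72.eq_zero_of_index_of_pow p k _ hp hidx _ h5 h4

end step

/-! ### The embedding of cyclotomic extensions -/

section cyclo

open Polynomial

/-- A model of `L(ζ_{p^{M₁}})` embeds over `L` into every model of `L(ζ_{p^M})`, `M₁ ≤ M`. -/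
theorem exists_algHom_cyclo (p M₁ M : ℕ) (hp : p.Prime) (hM : M₁ ≤ M) (L N₁ N : Type) [Field L]
    [Field N₁] [Field N] [Algebra L N₁] [Algebra L N] [IsCyclotomicExtension {p ^ M₁} L N₁]
    [IsCyclotomicExtension {p ^ M} L N] : Nonempty (N₁ →ₐ[L] N) := by
  haveI : NeZero (p ^ M₁) := ⟨pow_ne_zero _ hp.ne_zero⟩
  haveI : NeZero (p ^ M) := ⟨pow_ne_zero _ hp.ne_zero⟩
  obtain ⟨ζ, hζ⟩ := IsCyclotomicExtension.exists_isPrimitiveRoot L N
    (Set.mem_singleton (p ^ M)) (pow_ne_zero _ hp.ne_zero)
  have hprod : p ^ M = p ^ (M - M₁) * p ^ M₁ := by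
    rw [← pow_add, Nat.sub_add_cancel hM]
  have hζ' : IsPrimitiveRoot (ζ ^ p ^ (M - M₁)) (p ^ M₁) :=
    hζ.pow (pow_pos hp.pos _) hprod
  haveI : IsSplittingField L N₁ (X ^ (p ^ M₁) - 1) :=
    IsCyclotomicExtension.isSplittingField_X_pow_sub_one (p ^ M₁) L N₁
  have hsplit : ((X ^ (p ^ M₁) - 1 : L[X]).map (algebraMap L N)).Splits := by
    have := X_pow_sub_one_splits hζ'
    simpa using this
  exact ⟨IsSplittingField.lift N₁ (X ^ (p ^ M₁) - 1 : L[X]) hsplit⟩

end cyclo

/-! ### The step for the model `CyclotomicField (p ^ M₁) L` -/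

section stepCyclo

variable (p M₁ M : ℕ) [NeZero (p ^ M₁)] (K K' L N : Type) [Field K] [Field K'] [Field L] [Field N]
  [NumberField K] [NumberField K'] [NumberField L] [NumberField N]
  [Algebra K K'] [Algebra K L] [Algebra K N] [Algebra K' L] [Algebra K' N] [Algebra L N]
  [IsScalarTower K K' L] [IsScalarTower K K' N] [IsScalarTower K L N] [IsScalarTower K' L N]
  [Normal K L] [Normal K' L] [IsGalois K N]

theorem brH3G_cyclo (hp : p.Prime) (hM : M₁ ≤ M) (hgal : IsGalois K' L)
    (hcyc : IsCyclotomicExtension {p ^ M} L N) (hidx : ¬ p ∣ Module.finrank K K')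
    (h1 : ∀ x' : groupCohomology (repL K' L) 3, infLCyc K' L p M₁ 3 x' = 0)
    (k : ℕ) (x : groupCohomology (repL K L) 3) (hx : ((p : ℤ) ^ k) • x = 0) :
    infL K L N 3 x = 0 := by
  haveI hgalN₁ : IsGalois K' (CyclotomicField (p ^ M₁) L) :=
    Fermat.Agent.S55.CFT.H56.isGalois_cyclo K' L (p ^ M₁)
  haveI : Normal K' (CyclotomicField (p ^ M₁) L) := hgalN₁.to_normal
  obtain ⟨f⟩ := exists_algHom_cyclo p M₁ M hp hM L (CyclotomicField (p ^ M₁) L) N
  exact brH3G_step p K K' L (CyclotomicField (p ^ M₁) L) N hp hidx h1 f k x hx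

end stepCyclo

/-! ### A-H3 -/

/-- **A-H3**: `p`-primary classes of `H³` die in the cyclotomic tower, general Galois. -/
theorem stmt_BrH3G_of (hH : Stmt_BrH3) : Stmt_BrH3G := by
  intro p K L _ _ _ _ _ hyp
  have : Fact p.Prime := ⟨hyp.prime⟩
  have := hyp.gal
  obtain ⟨P⟩ : Nonempty (Sylow p (L ≃ₐ[K] L)) := inferInstance
  have hdeg : Module.finrank ↥(fixedField (P : Subgroup (L ≃ₐ[K] L))) L =
      Nat.card (P : Subgroup (L ≃ₐ[K] L)) :=
    IntermediateField.finrank_fixedField_eq_card _
  obtain ⟨m, hm⟩ := (IsPGroup.iff_card (p := p)).1 P.isPGroup'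
  obtain ⟨ζ, hζ⟩ := hyp.zeta
  have hyp3 : Hyp3 ↥(fixedField (P : Subgroup (L ≃ₐ[K] L))) L p m :=
    ⟨hyp.prime, hyp.odd, ⟨algebraMap K _ ζ, hζ.map_of_injective (algebraMap K _).injective⟩,
      inferInstance, by rw [hdeg, hm]⟩
  obtain ⟨M₁, hne, hM₁⟩ := hH p m ↥(fixedField (P : Subgroup (L ≃ₐ[K] L))) L hyp3
  refine ⟨M₁, fun M hM N _ _ _ _ _ hgal hcyc k x hx => ?_⟩
  haveI hgalL : IsGalois ↥(fixedField (P : Subgroup (L ≃ₐ[K] L))) L := inferInstance
  haveI : Normal ↥(fixedField (P : Subgroup (L ≃ₐ[K] L))) L := hgalL.to_normal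
  have hidx : ¬ p ∣ Module.finrank K ↥(fixedField (P : Subgroup (L ≃ₐ[K] L))) := by
    have h1 := (P : Subgroup (L ≃ₐ[K] L)).index_mul_card
    rw [← hdeg, IsGalois.card_aut_eq_finrank K L,
      ← Module.finrank_mul_finrank K ↥(fixedField (P : Subgroup (L ≃ₐ[K] L))) L] at h1
    have hpos : 0 < Module.finrank ↥(fixedField (P : Subgroup (L ≃ₐ[K] L))) L := Module.finrank_pos
    rw [← Nat.eq_of_mul_eq_mul_right hpos h1]
    exact P.not_dvd_index
  exact brH3G_cyclo p M₁ M K ↥(fixedField (P : Subgroup (L ≃ₐ[K] L))) L N hyp.prime hM hgalL hcyc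
    hidx hM₁ k x hx

end Fermat.Agent.S55.CFT.GS.H31
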