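/-
S55 package E4, island GS, Layer B, package REAL (helper49): base lemmas.

For `K ≤ N` in `ℚ̄` with `N/K` normal: the restriction `resG hKN : G_K → Gal(N/K)` is onto, its
kernel is `G_N`; the inclusion `valU hKN : Nˣ → ℚ̄ˣ` is injective and equivariant, its image is
the set of units with value in `N`.
-/
import Fermat.Agent.S55.CFT.GS.H64_BriDefs

set_option autoImplicit false

open CategoryTheory groupCohomology ExtCitation

open scoped Pointwise

noncomputable section

namespace Fermat.Agent.S55.CFT.GS.H49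

open Fermat.Agent.S55 Fermat.Agent.S55.Top Fermat.Agent.S55.CFT Fermat.Agent.S55.CFT.GS.Bri

local notation "Qb" => AlgebraicClosure ℚ

attribute [local instance] H6.qb_isAlgebraic H6.qb_isAlgClosure H6.qb_normal H6.qb_isGalois

variable {K N : IntermediateField ℚ Qb} (hKN : K ≤ N)

/-- Shortcut instance (the instance search through the subfield structure is slow). -/
@[reducible] def smulGalUnits (hKN : K ≤ N) :
    SMul (↥(H6.NK hKN) ≃ₐ[↥K] ↥(H6.NK hKN)) (↥(H6.NK hKN))ˣ :=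
  AlgEquiv.instMulDistribMulActionUnits.toSMul

attribute [local instance 10000] smulGalUnits

section res

variable [Normal ↥K ↥(H6.NK hKN)]

theorem resG_apply (g : ↥K.fixingSubgroup) (x : ↥(H6.NK hKN)) :
    ((resG hKN g x : ↥(H6.NK hKN)) : Qb) = (g : GQ) (x : Qb) :=
  AlgEquiv.restrictNormal_commutes (IntermediateField.fixingSubgroupEquiv K g) (H6.NK hKN) x

theorem resG_surjective : Function.Surjective (resG hKN) := by
  intro τ
  have : Normal ↥K Qb := Normal.tower_top_of_normal ℚ ↥K Qb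
  obtain ⟨σ, hσ⟩ := AlgEquiv.restrictNormalHom_surjective (F := ↥K) (K₁ := ↥(H6.NK hKN)) Qb τ
  exact ⟨(IntermediateField.fixingSubgroupEquiv K).symm σ, by simpa [resG] using hσ⟩

theorem resG_eq_one_iff (g : ↥K.fixingSubgroup) :
    resG hKN g = 1 ↔ (g : GQ) ∈ N.fixingSubgroup := by
  rw [IntermediateField.mem_fixingSubgroup_iff]
  constructor
  · intro h x hx
    have h2 := resG_apply hKN g ⟨x, hx⟩
    rw [h] at h2
    exact h2.symm
  · intro h
    ext x
    rw [resG_apply]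
    exact h x x.2

theorem resG_eq_iff (g g' : ↥K.fixingSubgroup) :
    resG hKN g = resG hKN g' ↔ ((g⁻¹ * g' : ↥K.fixingSubgroup) : GQ) ∈ N.fixingSubgroup := by
  rw [← resG_eq_one_iff hKN, map_mul, map_inv, inv_mul_eq_one]

theorem resG_mul_of_mem (g s : ↥K.fixingSubgroup) (hs : (s : GQ) ∈ N.fixingSubgroup) :
    resG hKN (g * s) = resG hKN g := by
  rw [map_mul, (resG_eq_one_iff hKN s).2 hs, mul_one]

/-- A set-theoretic section of `resG`. -/
def liftG (τ : ↥(H6.NK hKN) ≃ₐ[↥K] ↥(H6.NK hKN)) : ↥K.fixingSubgroup :=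
  (resG_surjective hKN τ).choose

@[simp] theorem resG_liftG (τ : ↥(H6.NK hKN) ≃ₐ[↥K] ↥(H6.NK hKN)) :
    resG hKN (liftG hKN τ) = τ :=
  (resG_surjective hKN τ).choose_spec

/-- `liftG (resG g) = g * s` with `s ∈ G_N`. -/
theorem liftG_resG (g : ↥K.fixingSubgroup) :
    ∃ s : ↥K.fixingSubgroup, (s : GQ) ∈ N.fixingSubgroup ∧ liftG hKN (resG hKN g) = g * s := by
  refine ⟨g⁻¹ * liftG hKN (resG hKN g), ?_, by rw [mul_inv_cancel_left]⟩
  rw [← resG_eq_iff, resG_liftG]

end res

section val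

theorem valU_apply (u : (↥(H6.NK hKN))ˣ) :
    ((valU hKN u : Qbˣ) : Qb) = ((u : ↥(H6.NK hKN)) : Qb) := rfl

theorem valU_mem (u : (↥(H6.NK hKN))ˣ) : ((valU hKN u : Qbˣ) : Qb) ∈ N :=
  (u : ↥(H6.NK hKN)).2

theorem valU_injective : Function.Injective (valU hKN) := by
  intro u u' h
  apply Units.ext
  apply Subtype.ext
  exact congrArg (fun t : Qbˣ => (t : Qb)) h

/-- The unit of `N` defined by a unit of `ℚ̄` with value in `N`. -/
def unitOf (u : Qbˣ) (h : (u : Qb) ∈ N) : (↥(H6.NK hKN))ˣ :=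
  Units.mk0 (⟨(u : Qb), h⟩ : ↥(H6.NK hKN)) (fun h0 => u.ne_zero (congrArg Subtype.val h0))

@[simp] theorem valU_unitOf (u : Qbˣ) (h : (u : Qb) ∈ N) : valU hKN (unitOf hKN u h) = u :=
  Units.ext rfl

theorem unitOf_valU (u : (↥(H6.NK hKN))ˣ) : unitOf hKN (valU hKN u) (valU_mem hKN u) = u :=
  valU_injective hKN (valU_unitOf hKN _ _)

variable [Normal ↥K ↥(H6.NK hKN)]

theorem valU_smul (g : ↥K.fixingSubgroup) (u : (↥(H6.NK hKN))ˣ) :
    valU hKN (resG hKN g • u) = g • valU hKN u := by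
  apply Units.ext
  exact resG_apply hKN g (u : ↥(H6.NK hKN))

end val

end Fermat.Agent.S55.CFT.GS.H49

end
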