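/-
S55 package E4, island GS, Layer B, package REAL (helper49): degree 2.

`stmt_R2_ex`, `stmt_R2_surj`, `stmt_R2_uniq`, `stmt_R2_mul`, `stmt_R2_zero`, `stmt_R2_lev`
(interfaces: `GS/H64_BriDefs.lean`, `GS/H64_BriDefs2.lean`).
-/
import Fermat.Agent.S55.CFT.GS.H49_RealBase
import Fermat.Agent.S55.CFT.GS.H64_BriDefs2

set_option autoImplicit false
set_option linter.unusedSectionVars false

open CategoryTheory groupCohomology ExtCitation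

open scoped Pointwise

noncomputable section

namespace Fermat.Agent.S55.CFT.GS.H49

open Fermat.Agent.S55 Fermat.Agent.S55.Top Fermat.Agent.S55.CFT Fermat.Agent.S55.CFT.GS.Bri

local notation "Qb" => AlgebraicClosure ℚ

attribute [local instance 10000] smulGalUnits

variable {K N : IntermediateField ℚ Qb} (hKN : K ≤ N)
  [NumberField ↥K] [NumberField ↥(H6.NK hKN)] [Normal ↥K ↥(H6.NK hKN)]

/-! ### Inflation of 1- and 2-cochains -/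

omit [NumberField ↥K] [NumberField ↥(H6.NK hKN)] [Normal ↥K ↥(H6.NK hKN)] in
theorem val_add {L X : Type} [CommGroup L] [CommGroup X] (v : L →* X) (a b : Additive L) :
    v (Additive.toMul (a + b)) = v (Additive.toMul a) * v (Additive.toMul b) := by
  simp only [toMul_add, map_mul]

omit [NumberField ↥K] [NumberField ↥(H6.NK hKN)] [Normal ↥K ↥(H6.NK hKN)] in
theorem val_sub {L X : Type} [CommGroup L] [CommGroup X] (v : L →* X) (a b : Additive L) :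
    v (Additive.toMul (a - b)) = v (Additive.toMul a) / v (Additive.toMul b) := by
  simp only [toMul_sub, map_div]

omit [NumberField ↥K] [NumberField ↥(H6.NK hKN)] [Normal ↥K ↥(H6.NK hKN)] in
theorem val_nsmul {L X : Type} [CommGroup L] [CommGroup X] (v : L →* X) (n : ℕ)
    (a : Additive L) :
    v (Additive.toMul (n • a)) = v (Additive.toMul a) ^ n := by
  simp only [toMul_nsmul, map_pow]

omit [NumberField ↥K] [NumberField ↥(H6.NK hKN)] [Normal ↥K ↥(H6.NK hKN)] in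
theorem val_d2 {L X : Type} [CommGroup L] [CommGroup X] (v : L →* X) (a b c d : Additive L) :
    v (Additive.toMul (a - b + c - d)) =
      v (Additive.toMul a) / v (Additive.toMul b) * v (Additive.toMul c) /
        v (Additive.toMul d) := by
  simp only [toMul_sub, toMul_add, map_mul, map_div]

omit [NumberField ↥K] [NumberField ↥(H6.NK hKN)] [Normal ↥K ↥(H6.NK hKN)] in
theorem val_d1 {L X : Type} [CommGroup L] [CommGroup X] (v : L →* X) (a b c : Additive L) :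
    v (Additive.toMul (a - b + c)) =
      v (Additive.toMul a) / v (Additive.toMul b) * v (Additive.toMul c) := by
  simp only [toMul_sub, toMul_add, map_mul, map_div]

/-- The inflation to `G_K` of a 1-cochain of `Gal(N/K)` with values in `Nˣ`. -/
def infl₁ (b : (↥(H6.NK hKN) ≃ₐ[↥K] ↥(H6.NK hKN)) → (repL ↥K ↥(H6.NK hKN))) :
    ↥K.fixingSubgroup → Qbˣ :=
  fun g => valU hKN (Additive.toMul (b (resG hKN g)))

theorem infl₂_apply (f : (↥(H6.NK hKN) ≃ₐ[↥K] ↥(H6.NK hKN)) ×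
      (↥(H6.NK hKN) ≃ₐ[↥K] ↥(H6.NK hKN)) → (repL ↥K ↥(H6.NK hKN)))
    (g₁ g₂ : ↥K.fixingSubgroup) :
    infl₂ hKN f (g₁, g₂) = valU hKN (Additive.toMul (f (resG hKN g₁, resG hKN g₂))) := rfl

theorem infl₂_injective : Function.Injective (infl₂ hKN) := by
  intro f f' h
  funext ⟨τ₁, τ₂⟩
  have h1 := congrFun h (liftG hKN τ₁, liftG hKN τ₂)
  rw [infl₂_apply, infl₂_apply, resG_liftG, resG_liftG] at h1
  exact Additive.toMul.injective (valU_injective hKN h1)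

theorem isLevN₂_infl₂ (f : (↥(H6.NK hKN) ≃ₐ[↥K] ↥(H6.NK hKN)) ×
      (↥(H6.NK hKN) ≃ₐ[↥K] ↥(H6.NK hKN)) → (repL ↥K ↥(H6.NK hKN))) :
    IsLevN₂ K N (infl₂ hKN f) := by
  refine ⟨fun g₁ g₂ s₁ s₂ h₁ h₂ => ?_, fun t => valU_mem hKN _⟩
  rw [infl₂_apply, infl₂_apply, resG_mul_of_mem hKN g₁ s₁ h₁, resG_mul_of_mem hKN g₂ s₂ h₂]

theorem isLevN₁_infl₁ (b : (↥(H6.NK hKN) ≃ₐ[↥K] ↥(H6.NK hKN)) → (repL ↥K ↥(H6.NK hKN))) :
    IsLevN₁ K N (infl₁ hKN b) := by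
  refine ⟨fun g s h => ?_, fun t => valU_mem hKN _⟩
  show valU hKN _ = valU hKN _
  rw [resG_mul_of_mem hKN g s h]

/-- `d²` commutes with inflation. -/
theorem mTwo_infl₂ (f : (↥(H6.NK hKN) ≃ₐ[↥K] ↥(H6.NK hKN)) ×
      (↥(H6.NK hKN) ≃ₐ[↥K] ↥(H6.NK hKN)) → (repL ↥K ↥(H6.NK hKN)))
    (g₁ g₂ g₃ : ↥K.fixingSubgroup) :
    mTwo (infl₂ hKN f) (g₁, g₂, g₃) =
      valU hKN (Additive.toMul
        ((d₂₃ (repL ↥K ↥(H6.NK hKN))).hom f (resG hKN g₁, resG hKN g₂, resG hKN g₃))) := by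
  rw [d₂₃_hom_apply]
  refine Eq.trans ?_ (val_d2 (valU hKN) _ _ _ _).symm
  simp only [mTwo, infl₂_apply, map_mul]
  rw [← valU_smul]
  rfl

/-- `d¹` commutes with inflation. -/
theorem mOne_infl₁ (b : (↥(H6.NK hKN) ≃ₐ[↥K] ↥(H6.NK hKN)) → (repL ↥K ↥(H6.NK hKN)))
    (g₁ g₂ : ↥K.fixingSubgroup) :
    mOne (infl₁ hKN b) (g₁, g₂) =
      valU hKN (Additive.toMul
        ((d₁₂ (repL ↥K ↥(H6.NK hKN))).hom b (resG hKN g₁, resG hKN g₂))) := by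
  rw [d₁₂_hom_apply]
  refine Eq.trans ?_ (val_d1 (valU hKN) _ _ _).symm
  simp only [mOne, infl₁, map_mul]
  rw [← valU_smul]
  rfl

theorem mOne_infl₁' (b : (↥(H6.NK hKN) ≃ₐ[↥K] ↥(H6.NK hKN)) → (repL ↥K ↥(H6.NK hKN))) :
    mOne (infl₁ hKN b) = infl₂ hKN ((d₁₂ (repL ↥K ↥(H6.NK hKN))).hom b) := by
  funext ⟨g₁, g₂⟩
  rw [mOne_infl₁, infl₂_apply]

/-- A 2-cochain is a cocycle iff its inflation is. -/
theorem mem_cocycles₂_iff_mTwo (f : (↥(H6.NK hKN) ≃ₐ[↥K] ↥(H6.NK hKN)) ×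
      (↥(H6.NK hKN) ≃ₐ[↥K] ↥(H6.NK hKN)) → (repL ↥K ↥(H6.NK hKN))) :
    f ∈ cocycles₂ (repL ↥K ↥(H6.NK hKN)) ↔ mTwo (infl₂ hKN f) = 1 := by
  constructor
  · intro hf
    funext ⟨g₁, g₂, g₃⟩
    rw [mTwo_infl₂]
    have h0 : (d₂₃ (repL ↥K ↥(H6.NK hKN))).hom f = 0 := hf
    rw [h0]
    exact map_one (valU hKN)
  · intro h
    show (d₂₃ (repL ↥K ↥(H6.NK hKN))).hom f = 0
    funext ⟨τ₁, τ₂, τ₃⟩
    have h1 := congrFun h (liftG hKN τ₁, liftG hKN τ₂, liftG hKN τ₃)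
    rw [mTwo_infl₂, resG_liftG, resG_liftG, resG_liftG] at h1
    have h2 : valU hKN (Additive.toMul
        ((d₂₃ (repL ↥K ↥(H6.NK hKN))).hom f (τ₁, τ₂, τ₃))) = valU hKN 1 := by
      rw [h1, map_one]; rfl
    exact Additive.toMul.injective (valU_injective hKN h2)

/-! ### Descent of cochains of level `N` -/

/-- The 2-cochain of `Gal(N/K)` defined by an `N`-valued 2-cochain on `G_K`. -/
def desc₂ (c : ↥K.fixingSubgroup × ↥K.fixingSubgroup → Qbˣ) (hc : ∀ t, (c t : Qb) ∈ N) :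
    (↥(H6.NK hKN) ≃ₐ[↥K] ↥(H6.NK hKN)) × (↥(H6.NK hKN) ≃ₐ[↥K] ↥(H6.NK hKN)) →
      (repL ↥K ↥(H6.NK hKN)) :=
  fun t => Additive.ofMul (unitOf hKN (c (liftG hKN t.1, liftG hKN t.2)) (hc _))

/-- The 1-cochain of `Gal(N/K)` defined by an `N`-valued 1-cochain on `G_K`. -/
def desc₁ (b : ↥K.fixingSubgroup → Qbˣ) (hb : ∀ t, (b t : Qb) ∈ N) :
    (↥(H6.NK hKN) ≃ₐ[↥K] ↥(H6.NK hKN)) → (repL ↥K ↥(H6.NK hKN)) :=
  fun t => Additive.ofMul (unitOf hKN (b (liftG hKN t)) (hb _))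

theorem infl₂_desc₂ (c : ↥K.fixingSubgroup × ↥K.fixingSubgroup → Qbˣ) (hc : IsLevN₂ K N c) :
    infl₂ hKN (desc₂ hKN c hc.2) = c := by
  funext ⟨g₁, g₂⟩
  obtain ⟨s₁, hs₁, e₁⟩ := liftG_resG hKN g₁
  obtain ⟨s₂, hs₂, e₂⟩ := liftG_resG hKN g₂
  rw [infl₂_apply]
  show valU hKN (unitOf hKN _ _) = _
  rw [valU_unitOf]
  show c (liftG hKN (resG hKN g₁), liftG hKN (resG hKN g₂)) = c (g₁, g₂)
  rw [e₁, e₂]
  exact hc.1 g₁ g₂ s₁ s₂ hs₁ hs₂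

theorem infl₁_desc₁ (b : ↥K.fixingSubgroup → Qbˣ) (hb : IsLevN₁ K N b) :
    infl₁ hKN (desc₁ hKN b hb.2) = b := by
  funext g
  obtain ⟨s, hs, e⟩ := liftG_resG hKN g
  show valU hKN (unitOf hKN _ _) = _
  rw [valU_unitOf]
  show b (liftG hKN (resG hKN g)) = b g
  rw [e]
  exact hb.1 g s hs

/-! ### Additivity -/

theorem infl₂_add (f f' : (↥(H6.NK hKN) ≃ₐ[↥K] ↥(H6.NK hKN)) ×
      (↥(H6.NK hKN) ≃ₐ[↥K] ↥(H6.NK hKN)) → (repL ↥K ↥(H6.NK hKN))) :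
    infl₂ hKN (f + f') = fun t => infl₂ hKN f t * infl₂ hKN f' t := by
  funext ⟨g₁, g₂⟩
  exact val_add (valU hKN) _ _

theorem infl₂_sub (f f' : (↥(H6.NK hKN) ≃ₐ[↥K] ↥(H6.NK hKN)) ×
      (↥(H6.NK hKN) ≃ₐ[↥K] ↥(H6.NK hKN)) → (repL ↥K ↥(H6.NK hKN))) :
    infl₂ hKN (f - f') = fun t => infl₂ hKN f t / infl₂ hKN f' t := by
  funext ⟨g₁, g₂⟩
  exact val_sub (valU hKN) _ _

theorem infl₂_nsmul (n : ℕ) (f : (↥(H6.NK hKN) ≃ₐ[↥K] ↥(H6.NK hKN)) ×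
      (↥(H6.NK hKN) ≃ₐ[↥K] ↥(H6.NK hKN)) → (repL ↥K ↥(H6.NK hKN))) :
    infl₂ hKN (n • f) = fun t => infl₂ hKN f t ^ n := by
  funext ⟨g₁, g₂⟩
  exact val_nsmul (valU hKN) n _

end Fermat.Agent.S55.CFT.GS.H49

end
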