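/-
S55 package E4, island GS, Layer B, package REAL (helper49): `stmt_R2_inf`
(inflation is invisible on the `G_K`-side; interface `GS/H64_BriDefs.lean`).
-/
import Fermat.Agent.S55.CFT.GS.H49_Real2

set_option autoImplicit false
set_option linter.unusedSectionVars false
set_option linter.style.haveILetI false

open CategoryTheory groupCohomology ExtCitation

open scoped Pointwise

noncomputable section

namespace Fermat.Agent.S55.CFT.GS.H49

open Fermat.Agent.S55 Fermat.Agent.S55.Top Fermat.Agent.S55.CFT Fermat.Agent.S55.CFT.GS.Bri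

local notation "Qb" => AlgebraicClosure ℚ

attribute [local instance 10000] smulGalUnits

variable {K N N' : IntermediateField ℚ Qb} (hKN : K ≤ N) (hNN' : N ≤ N')

theorem algIncl_val (x : ↥(H6.NK hKN)) :
    letI := algIncl hKN hNN'
    ((algebraMap ↥(H6.NK hKN) ↥(H6.NK (hKN.trans hNN')) x : ↥(H6.NK (hKN.trans hNN'))) : Qb) =
      (x : Qb) := rfl

theorem valU_incl (u : (↥(H6.NK hKN))ˣ) :
    letI := algIncl hKN hNN'
    valU (hKN.trans hNN') (Units.map
      (algebraMap ↥(H6.NK hKN) ↥(H6.NK (hKN.trans hNN')) :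
        ↥(H6.NK hKN) →* ↥(H6.NK (hKN.trans hNN'))) u) = valU hKN u :=
  Units.ext rfl

variable [Normal ↥K ↥(H6.NK hKN)] [Normal ↥K ↥(H6.NK (hKN.trans hNN'))]

/-- Restrictions are compatible. -/
theorem restrict_resG (g : ↥K.fixingSubgroup) :
    letI := algIncl hKN hNN'
    haveI := isScalarTower_incl hKN hNN'
    AlgEquiv.restrictNormalHom (F := ↥K) (K₁ := ↥(H6.NK (hKN.trans hNN'))) ↥(H6.NK hKN)
      (resG (hKN.trans hNN') g) = resG hKN g := by
  letI := algIncl hKN hNN'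
  haveI := isScalarTower_incl hKN hNN'
  ext x
  rw [resG_apply]
  have h := AlgEquiv.restrictNormal_commutes (resG (hKN.trans hNN') g) ↥(H6.NK hKN) x
  have h2 := congrArg (fun y : ↥(H6.NK (hKN.trans hNN')) => (y : Qb)) h
  simp only [algIncl_val] at h2
  rw [resG_apply] at h2
  exact h2

omit [Normal ↥K ↥(H6.NK hKN)] [Normal ↥K ↥(H6.NK (hKN.trans hNN'))] in
/-- **R2-inf**. -/
theorem stmt_R2_inf : Stmt_R2_inf := by
  rintro K N N' hKN hNN' _ _ _ _ _ c x ⟨f, hf, hx⟩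
  letI := algIncl hKN hNN'
  haveI := isScalarTower_incl hKN hNN'
  refine ⟨mapCocycles₂ (AlgEquiv.restrictNormalHom (F := ↥K) (K₁ := ↥(H6.NK (hKN.trans hNN')))
    ↥(H6.NK hKN)) (infRepL ↥K ↥(H6.NK hKN) ↥(H6.NK (hKN.trans hNN'))) f, ?_, ?_⟩
  · rw [← hf]
    funext ⟨g₁, g₂⟩
    show valU (hKN.trans hNN') (Units.map
      (algebraMap ↥(H6.NK hKN) ↥(H6.NK (hKN.trans hNN')) :
        ↥(H6.NK hKN) →* ↥(H6.NK (hKN.trans hNN')))
      (Additive.toMul (f.1 (AlgEquiv.restrictNormalHom (F := ↥K)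
        (K₁ := ↥(H6.NK (hKN.trans hNN'))) ↥(H6.NK hKN) (resG (hKN.trans hNN') g₁),
        AlgEquiv.restrictNormalHom (F := ↥K)
        (K₁ := ↥(H6.NK (hKN.trans hNN'))) ↥(H6.NK hKN) (resG (hKN.trans hNN') g₂))))) =
      valU hKN (Additive.toMul (f.1 (resG hKN g₁, resG hKN g₂)))
    rw [restrict_resG, restrict_resG, valU_incl]
  · rw [← hx]
    exact (congrArg (fun φ => φ.hom f) (H2π_comp_map
      (AlgEquiv.restrictNormalHom (F := ↥K) (K₁ := ↥(H6.NK (hKN.trans hNN'))) ↥(H6.NK hKN))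
      (infRepL ↥K ↥(H6.NK hKN) ↥(H6.NK (hKN.trans hNN'))))).symm

end Fermat.Agent.S55.CFT.GS.H49

end
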