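/-
S55 package E4, island GS, Layer A, leaf A-Div (helper56), part 1: the inflation formula for the
cyclic cocycles.

`Δ → Δ'` a homomorphism of finite cyclic groups of orders `n = d n'` and `n'`, mapping the generator
`σ` to the generator `σ'`; `a` an invariant element.  Then
`inf [cyc_{Δ'} a] = d • [cyc_Δ a]` (`inf_cycCl`): the difference of the two cocycles is the
coboundary of `g ↦ ⌊e g / n'⌋ a`.
-/
import Fermat.Agent.S55.CFT.H19_CycAbs

set_option autoImplicit false
set_option linter.unusedSectionVars false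
set_option linter.unusedVariables false

noncomputable section

namespace Fermat.Agent.S55.CFT.GS.H56

open CategoryTheory groupCohomology Fermat.Agent.S55.CFT.H13 Fermat.Agent.S55.CFT.H19

variable {Δ Δ' : Type} [Group Δ] [Group Δ'] (A : Rep.{0} ℤ Δ') (B : Rep.{0} ℤ Δ)
  {σ : Δ} {n : ℕ} {e : Δ → ℕ} {σ' : Δ'} {n' : ℕ} {e' : Δ' → ℕ}

lemma dlog_map (h : DLog Δ σ n e) (h' : DLog Δ' σ' n' e') (f : Δ →* Δ') (hf : f σ = σ')
    (g : Δ) : e' (f g) = e g % n' := by
  conv_lhs => rw [← h.pow g, map_pow, hf]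
  exact h'.e_pow _

/-- The arithmetic of the two floor functions. -/
lemma floor_identity (n n' d : ℕ) (hn' : 0 < n') (hd : n = d * n') (i j : ℕ) :
    (i % n' + j % n') / n' + i / n' + j / n' = d * ((i + j) / n) + ((i + j) % n) / n' := by
  have h1 : (i + j) / n' = (i / n' + j / n') + (i % n' + j % n') / n' := by
    have e3 : i + j = n' * (i / n' + j / n') + (i % n' + j % n') := by
      have e1 := Nat.div_add_mod i n'
      have e2 := Nat.div_add_mod j n'
      rw [Nat.mul_add]
      omega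
    conv_lhs => rw [e3]
    exact Nat.mul_add_div hn' _ _
  have h2 : (i + j) / n' = d * ((i + j) / n) + ((i + j) % n) / n' := by
    have e3 : i + j = n' * (d * ((i + j) / n)) + (i + j) % n := by
      have e1 := Nat.div_add_mod (i + j) n
      calc i + j = n * ((i + j) / n) + (i + j) % n := e1.symm
        _ = n' * (d * ((i + j) / n)) + (i + j) % n := by rw [hd]; ring
    conv_lhs => rw [e3]
    exact Nat.mul_add_div hn' _ _
  rw [← h2, h1]
  ring

/-- **The inflation formula**: `inf [cyc_{Δ'} a] = d • [cyc_Δ (φ a)]`. -/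
theorem inf_cycCl (h : DLog Δ σ n e) (h' : DLog Δ' σ' n' e') (f : Δ →* Δ') (hf : f σ = σ')
    (d : ℕ) (hd : n = d * n') (φ : Rep.res f A ⟶ B) (a : A.V) (ha : ∀ g, A.ρ g a = a)
    (ha' : ∀ g, B.ρ g (φ.hom a) = φ.hom a) :
    (groupCohomology.map f φ 2).hom (cycCl A h' a ha) = d • cycCl B h (φ.hom a) ha' := by
  unfold cycCl
  have e1 := H2π_comp_map_apply f φ ⟨cyc A n' e' a, cyc_mem_cocycles₂ A h' a ha⟩
  rw [e1, ← map_nsmul, H2π_eq_iff]
  refine ⟨fun g => -((e g / n') • φ.hom a), ?_⟩
  funext p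
  obtain ⟨g, g'⟩ := p
  show B.ρ g (-((e g' / n') • φ.hom a)) - -((e (g * g') / n') • φ.hom a) +
      -((e g / n') • φ.hom a) =
    φ.hom (((e' (f g) + e' (f g')) / n') • a) - d • (((e g + e g') / n) • φ.hom a)
  rw [map_neg, map_nsmul, ha', map_nsmul, dlog_map h h' f hf g, dlog_map h h' f hf g',
    h.e_mul g g']
  have key := floor_identity n n' d h'.pos hd (e g) (e g')
  have key2 : ((e g % n' + e g' % n') / n') • φ.hom a + (e g / n') • φ.hom a +
      (e g' / n') • φ.hom a =
      d • (((e g + e g') / n) • φ.hom a) + (((e g + e g') % n) / n') • φ.hom a := by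
    rw [← add_nsmul, ← add_nsmul, key, add_nsmul, mul_nsmul']
  have key3 : ((e g % n' + e g' % n') / n') • φ.hom a =
      d • (((e g + e g') / n) • φ.hom a) + (((e g + e g') % n) / n') • φ.hom a -
        (e g / n') • φ.hom a - (e g' / n') • φ.hom a := by
    rw [← key2]
    abel
  rw [key3]
  abel

end Fermat.Agent.S55.CFT.GS.H56
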