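/-
S55 package E4, island GS, Layer A, leaf A-Div (helper56), part 3: functoriality of inflation.

* `infL_infL`: transitivity of inflation in a tower `K ⊆ F' ⊆ F'' ⊆ N`;
* `infL_resL`: inflation commutes with restriction, `K ⊆ K' ⊆ L ⊆ N`;
* `resMap_eq_map_resL`: restriction to the subgroup `Gal(N/K') ≤ Gal(N/K)` in terms of `resL`.
-/
import Fermat.Agent.S55.CFT.Defs_BR3

set_option autoImplicit false
set_option linter.unusedSectionVars false
set_option linter.style.haveILetI false

open NumberField TensorProduct CategoryTheory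

noncomputable section

namespace Fermat.Agent.S55.CFT.GS.H56

open Fermat.Agent.S55.CFT groupCohomology

/-! ### Transitivity of inflation -/

section trans

variable (K F' F'' N : Type) [Field K] [Field F'] [Field F''] [Field N] [NumberField K]
  [NumberField F'] [NumberField F''] [NumberField N] [Algebra K F'] [Algebra K F''] [Algebra K N]
  [Algebra F' F''] [Algebra F' N] [Algebra F'' N] [IsScalarTower K F' F''] [IsScalarTower K F' N]
  [IsScalarTower K F'' N] [IsScalarTower F' F'' N] [Normal K F'] [Normal K F'']

lemma restrictNormalHom_trans (τ : N ≃ₐ[K] N) :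
    AlgEquiv.restrictNormalHom (F := K) (K₁ := F'') F'
        (AlgEquiv.restrictNormalHom (F := K) (K₁ := N) F'' τ) =
      AlgEquiv.restrictNormalHom (F := K) (K₁ := N) F' τ := by
  apply AlgEquiv.ext
  intro x
  apply (algebraMap F' N).injective
  have h1 := AlgEquiv.restrictNormal_commutes τ F' x
  have h2 := AlgEquiv.restrictNormal_commutes τ F'' (algebraMap F' F'' x)
  have h3 := AlgEquiv.restrictNormal_commutes (AlgEquiv.restrictNormalHom (F := K) (K₁ := N) F'' τ)
    F' x
  change algebraMap F' N ((AlgEquiv.restrictNormal (AlgEquiv.restrictNormalHom (F := K) (K₁ := N)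
    F'' τ) F') x) = algebraMap F' N ((AlgEquiv.restrictNormal τ F') x)
  rw [h1, IsScalarTower.algebraMap_apply F' F'' N, h3]
  change algebraMap F'' N ((AlgEquiv.restrictNormal τ F'') (algebraMap F' F'' x)) = _
  rw [h2, ← IsScalarTower.algebraMap_apply F' F'' N]

/-- Transitivity of inflation. -/
theorem infL_infL (n : ℕ) (y : groupCohomology (repL K F') n) :
    infL K F'' N n (infL K F' F'' n y) = infL K F' N n y := by
  have h1 := groupCohomology.map_comp (A := repL K F') (B := repL K F'') (C := repL K N)
    (AlgEquiv.restrictNormalHom (F := K) (K₁ := F'') F')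
    (AlgEquiv.restrictNormalHom (F := K) (K₁ := N) F'')
    (infRepL K F' F'') (infRepL K F'' N) n
  have h2 : groupCohomology.map
      ((AlgEquiv.restrictNormalHom (F := K) (K₁ := F'') F').comp
        (AlgEquiv.restrictNormalHom (F := K) (K₁ := N) F''))
      ((Rep.resFunctor (AlgEquiv.restrictNormalHom (F := K) (K₁ := N) F'')).map
        (infRepL K F' F'') ≫ infRepL K F'' N) n =
      groupCohomology.map (AlgEquiv.restrictNormalHom (F := K) (K₁ := N) F')
        (infRepL K F' N) n := by
    apply groupCohomology.map_congr
    · ext τ : 1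
      exact restrictNormalHom_trans K F' F'' N τ
    · ext x
      apply congrArg Additive.ofMul
      apply Units.ext
      change algebraMap F'' N (algebraMap F' F'' ((Additive.toMul x : F'ˣ) : F')) =
        algebraMap F' N ((Additive.toMul x : F'ˣ) : F')
      rw [← IsScalarTower.algebraMap_apply F' F'' N]
  rw [h2] at h1
  have h3 := congrArg (fun f => f.hom y) h1
  exact h3.symm

end trans

/-! ### Inflation and restriction -/

section infres

variable (K K' L N : Type) [Field K] [Field K'] [Field L] [Field N] [NumberField K]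
  [NumberField K'] [NumberField L] [NumberField N] [Algebra K K'] [Algebra K L] [Algebra K N]
  [Algebra K' L] [Algebra K' N] [Algebra L N] [IsScalarTower K K' L] [IsScalarTower K K' N]
  [IsScalarTower K L N] [IsScalarTower K' L N] [Normal K L] [Normal K' L]

lemma restrictNormalHom_galRes (τ : N ≃ₐ[K'] N) :
    galRes K K' L (AlgEquiv.restrictNormalHom (F := K') (K₁ := N) L τ) =
      AlgEquiv.restrictNormalHom (F := K) (K₁ := N) L (galRes K K' N τ) := by
  apply AlgEquiv.ext
  intro x
  apply (algebraMap L N).injective
  have h1 := AlgEquiv.restrictNormal_commutes τ L x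
  have h2 := AlgEquiv.restrictNormal_commutes (galRes K K' N τ) L x
  change algebraMap L N ((AlgEquiv.restrictNormal τ L) x) =
    algebraMap L N ((AlgEquiv.restrictNormal (galRes K K' N τ) L) x)
  rw [h1, h2]
  rfl

/-- Inflation commutes with restriction. -/
theorem infL_resL (n : ℕ) (x : groupCohomology (repL K L) n) :
    infL K' L N n (resL K K' L n x) = resL K K' N n (infL K L N n x) := by
  have h1 := groupCohomology.map_comp (A := repL K L) (B := repL K' L) (C := repL K' N)
    (galRes K K' L) (AlgEquiv.restrictNormalHom (F := K') (K₁ := N) L)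
    (resRepL K K' L) (infRepL K' L N) n
  have h2 := groupCohomology.map_comp (A := repL K L) (B := repL K N) (C := repL K' N)
    (AlgEquiv.restrictNormalHom (F := K) (K₁ := N) L) (galRes K K' N)
    (infRepL K L N) (resRepL K K' N) n
  have h3 : groupCohomology.map
      ((galRes K K' L).comp (AlgEquiv.restrictNormalHom (F := K') (K₁ := N) L))
      ((Rep.resFunctor (AlgEquiv.restrictNormalHom (F := K') (K₁ := N) L)).map
        (resRepL K K' L) ≫ infRepL K' L N) n =
      groupCohomology.map
      ((AlgEquiv.restrictNormalHom (F := K) (K₁ := N) L).comp (galRes K K' N))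
      ((Rep.resFunctor (galRes K K' N)).map (infRepL K L N) ≫ resRepL K K' N) n := by
    apply groupCohomology.map_congr
    · ext τ : 1
      exact restrictNormalHom_galRes K K' L N τ
    · rfl
  rw [h1, h2] at h3
  exact congrArg (fun f => f.hom x) h3

end infres

/-! ### Restriction to a subgroup, abstractly -/

/-- If `ι ∘ t` is the inclusion of the subgroup `H` and the coefficient maps compose to the
identity, then `res_H = map t ∘ map ι` (generic coefficient ring). -/
theorem res_eq_map_map {k G Γ : Type} [CommRing k] [Group G] [Group Γ] (A : Rep.{0} k G)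
    (A' : Rep.{0} k Γ) (H : Subgroup G) (ι : Γ →* G) (t : H →* Γ)
    (hι : ∀ h : H, ι (t h) = (h : G))
    (ρ : Rep.res ι A ⟶ A') (φ : Rep.res t A' ⟶ Rep.res H.subtype A)
    (hφ : ∀ a : A.V, φ.hom (ρ.hom a) = a) (n : ℕ) (y : groupCohomology A n) :
    (groupCohomology.map H.subtype (𝟙 (Rep.res H.subtype A)) n).hom y =
      (groupCohomology.map t φ n).hom ((groupCohomology.map ι ρ n).hom y) := by
  have h1 := groupCohomology.map_comp (A := A) (B := A') (C := Rep.res H.subtype A) ι t ρ φ n
  have h2 : groupCohomology.map (ι.comp t) ((Rep.resFunctor t).map ρ ≫ φ) n =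
      groupCohomology.map H.subtype (𝟙 (Rep.res H.subtype A)) n := by
    apply groupCohomology.map_congr
    · ext h : 1
      exact hι h
    · apply LinearMap.ext
      intro a
      exact hφ a
  rw [h2] at h1
  exact congrArg (fun f => f.hom y) h1

theorem resMap_eq_map_map {G Γ : Type} [Group G] [Group Γ] (A : Rep ℤ G) (A' : Rep ℤ Γ)
    (H : Subgroup G) (ι : Γ →* G) (t : H →* Γ) (hι : ∀ h : H, ι (t h) = (h : G))
    (ρ : Rep.res ι A ⟶ A') (φ : Rep.res t A' ⟶ resSub A H)
    (hφ : ∀ a : A.V, φ.hom (ρ.hom a) = a) (n : ℕ) (y : groupCohomology A n) :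
    resMap A H n y = (groupCohomology.map t φ n).hom ((groupCohomology.map ι ρ n).hom y) :=
  res_eq_map_map A A' H ι t hι ρ φ hφ n y

end Fermat.Agent.S55.CFT.GS.H56
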