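import Fermat.Agent.S55.CFT.Defs_GS2

/-!
# S55/E4 island GS, Layer A, leaf A-Hasse (helper72), part 1: restriction and localisation

For a tower `K ⊆ K' ⊆ L` of number fields and a place `u` of `K'`, with `v = placeBelow u` the
place of `K` below `u`: `LocAlg K' L u` is a `Gal(L/K')`-equivariant quotient of `LocAlg K L v`
(`locQuot`), and restriction commutes with localisation (`locMap_resL`).
-/

set_option autoImplicit false
set_option linter.unusedSectionVars false

open NumberField TensorProduct CategoryTheory groupCohomology

noncomputable section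

namespace Fermat.Agent.S55.CFT.GS.H72

open Fermat.Agent.S55.CFT

section tower

variable (K K' L : Type) [Field K] [Field K'] [Field L] [NumberField K] [NumberField K']
  [NumberField L] [Algebra K K'] [Algebra K L] [Algebra K' L] [IsScalarTower K K' L]

instance semiLocal_artinian (q : Nat.Primes) : IsArtinianRing (SemiLocal K q) :=
  IsArtinianRing.of_finite (Qp q) _

/-- The place of `K` below a place of `K'`. -/
abbrev placeBelow (u : Place K') : Place K :=
  ⟨u.1, ⟨u.2.asIdeal.comap (semiLocalMap K K' u.1 : SemiLocal K u.1 →+* SemiLocal K' u.1),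
    haveI := u.2.isMaximal
    haveI : (u.2.asIdeal.comap
        (semiLocalMap K K' u.1 : SemiLocal K u.1 →+* SemiLocal K' u.1)).IsPrime :=
      Ideal.comap_isPrime _ _
    IsArtinianRing.isMaximal_of_isPrime _⟩⟩

lemma placeIdeal_below_le (u : Place K') :
    placeIdeal K L (placeBelow K K' u) ≤ placeIdeal K' L u := by
  rw [placeIdeal, Ideal.map_le_iff_le_comap]
  intro x hx
  rw [Ideal.mem_comap]
  have h1 : semiLocalMap K' L u.1 (semiLocalMap K K' u.1 x) = semiLocalMap K L u.1 x :=
    semiLocalMap_comp K K' L u.1 x
  change semiLocalMap K L u.1 x ∈ placeIdeal K' L u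
  rw [← h1]
  exact Ideal.mem_map_of_mem _ hx

/-- The quotient map `K_v ⊗_K L → K'_u ⊗_{K'} L`. -/
def locQuot (u : Place K') : LocAlg K L (placeBelow K K' u) →+* LocAlg K' L u :=
  Ideal.Quotient.factor (placeIdeal_below_le K K' L u)

lemma locQuot_mk (u : Place K') (x : SemiLocal L u.1) :
    locQuot K K' L u (Ideal.Quotient.mk _ x) = Ideal.Quotient.mk _ x :=
  Ideal.Quotient.factor_mk _ x

lemma semiLocalEquiv_galRes (q : Nat.Primes) (σ : L ≃ₐ[K'] L) (x : SemiLocal L q) :
    semiLocalEquiv K L q (galRes K K' L σ) x = semiLocalEquiv K' L q σ x := rfl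

lemma locQuot_smul (u : Place K') (σ : L ≃ₐ[K'] L) (y : LocAlg K L (placeBelow K K' u)) :
    locQuot K K' L u ((galRes K K' L σ) • y) = σ • locQuot K K' L u y := by
  obtain ⟨z, rfl⟩ := Ideal.Quotient.mk_surjective y
  change locQuot K K' L u (locAlgMap K L (placeBelow K K' u) (galRes K K' L σ) _) =
    locAlgMap K' L u σ (locQuot K K' L u _)
  rw [locAlgMap_mk, locQuot_mk, locQuot_mk, locAlgMap_mk, semiLocalEquiv_galRes]

/-- The quotient map on units as a morphism of `Gal(L/K')`-modules. -/
def locQuotRep (u : Place K') :
    Rep.res (galRes K K' L) (repJv K L (placeBelow K K' u)) ⟶ repJv K' L u :=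
  Rep.ofHom (LinearMap.intertwiningMap_of_isIntertwiningMap _ _
    ((Units.map (locQuot K K' L u : LocAlg K L (placeBelow K K' u) →* LocAlg K' L u)).toAdditive.toIntLinearMap)
    (fun σ x => congrArg Additive.ofMul (Units.ext
      (locQuot_smul K K' L u σ
        ((Additive.toMul x : (LocAlg K L (placeBelow K K' u))ˣ) :
          LocAlg K L (placeBelow K K' u))))))

/-- Restriction of the local component. -/
def resJv (u : Place K') (n : ℕ) :
    groupCohomology (repJv K L (placeBelow K K' u)) n →ₗ[ℤ] groupCohomology (repJv K' L u) n :=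
  (groupCohomology.map (galRes K K' L) (locQuotRep K K' L u) n).hom

/-- Restriction commutes with localisation. -/
theorem locMap_resL (u : Place K') (n : ℕ) (x : groupCohomology (repL K L) n) :
    locMap K' L u n (resL K K' L n x) = resJv K K' L u n (locMap K L (placeBelow K K' u) n x) := by
  have h1 : groupCohomology.map (galRes K K' L) (resRepL K K' L) n ≫
      groupCohomology.map (MonoidHom.id _) (locRep K' L u) n =
      groupCohomology.map (MonoidHom.id _) (locRep K L (placeBelow K K' u)) n ≫
        groupCohomology.map (galRes K K' L) (locQuotRep K K' L u) n := by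
    rw [← groupCohomology.map_comp, ← groupCohomology.map_comp]
    apply groupCohomology.map_congr
    · rfl
    · rfl
  exact congrArg (fun f => f.hom x) h1

end tower

end Fermat.Agent.S55.CFT.GS.H72
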