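import Fermat.Agent.S55.CFT.GS.H58_PTors
import Fermat.Agent.S55.CFT.GS.H72_HasseGLoc
import Fermat.Agent.S55.CFT.H58_InfJv

/-!
# GS Layer A (helper58), part 2: local splitting, general form

`locSplitG`: `K ⊆ L ⊆ N`, `N/K` finite Galois (any group), `L/K` a Galois `p`-extension
(`ζ_p ∈ K`), `u` a place of `L` above `v` with `p ∣` the local degree of `L/K` at `v`.  Then every
class of `H²(Gal(N/K), (K_v ⊗_K N)ˣ)` killed by `p` dies under restriction to
`H²(Gal(N/L), (L_u ⊗_L N)ˣ)`.

Route: the `p`-torsion of the semi-local `H²` is cyclic (`brauerPTors_place`), it contains the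
inflation of a class of order `p` of `L/K` (SHL + Cauchy + `stmt_InfJvInj`), and `res ∘ inf = 0`.
-/

set_option autoImplicit false
set_option linter.unusedSectionVars false

noncomputable section

namespace Fermat.Agent.S55.CFT.GS.H58

open CategoryTheory groupCohomology Rep NumberField TensorProduct
open Fermat.Agent.S55.CFT Fermat.Agent.S55.CFT.H58

/-- A map on `H²` induced by a trivial group homomorphism is zero. -/
theorem map_trivial_eq_zero {S Q : Type} [Group S] [Group Q] (A : Rep.{0} ℤ Q) (B : Rep.{0} ℤ S)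
    (f : S →* Q) (hf : ∀ s, f s = 1) (φ : Rep.res f A ⟶ B) (x : groupCohomology A 2) :
    (groupCohomology.map f φ 2).hom x = 0 := by
  induction x using H2_induction_on with | @h c =>
  have e1 : (groupCohomology.map f φ 2).hom (H2π A c) = H2π B (mapCocycles₂ f φ c) :=
    H2π_comp_map_apply f φ c
  rw [e1, H2π_eq_zero_iff]
  have hinv : ∀ s : S, B.ρ s (φ.hom (c (1, 1))) = φ.hom (c (1, 1)) := by
    intro s
    have h1 := Rep.hom_comm_apply φ s (c (1, 1))
    rw [← h1]
    show φ.hom (A.ρ (f s) (c (1, 1))) = _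
    rw [hf s, map_one]
    rfl
  refine ⟨fun _ => φ.hom (c (1, 1)), ?_⟩
  funext ⟨s, t⟩
  show B.ρ s (φ.hom (c (1, 1))) - φ.hom (c (1, 1)) + φ.hom (c (1, 1)) = φ.hom (c (f s, f t))
  rw [hinv s, hf s, hf t]
  abel

section Tower

variable (K L N : Type) [Field K] [Field L] [Field N] [NumberField K] [NumberField L]
  [NumberField N] [Algebra K L] [Algebra K N] [Algebra L N] [IsScalarTower K L N] [Normal K L]

/-- `res ∘ inf = 0` on the semi-local `H²`. -/
theorem resJv_infJv (u : Place L)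
    (η : groupCohomology (repJv K L (H72.placeBelow K L u)) 2) :
    H72.resJv K L N u 2 (infJv K L N (H72.placeBelow K L u) 2 η) = 0 := by
  have h1 := groupCohomology.map_comp (A := repJv K L (H72.placeBelow K L u))
    (B := repJv K N (H72.placeBelow K L u)) (C := repJv L N u)
    (AlgEquiv.restrictNormalHom (F := K) (K₁ := N) L) (galRes K L N)
    (infRepJv K L N (H72.placeBelow K L u)) (H72.locQuotRep K L N u) 2
  have h2 := congrArg (fun f => f.hom η) h1
  simp only [ModuleCat.hom_comp, LinearMap.coe_comp, Function.comp_apply] at h2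
  have h3 := map_trivial_eq_zero (repJv K L (H72.placeBelow K L u)) (repJv L N u)
    ((AlgEquiv.restrictNormalHom (F := K) (K₁ := N) L).comp (galRes K L N))
    (fun s => restrictNormalHom_restrictScalars' K L N s)
    ((Rep.resFunctor (galRes K L N)).map (infRepJv K L N (H72.placeBelow K L u)) ≫
      H72.locQuotRep K L N u) η
  rw [h3] at h2
  exact h2.symm

end Tower

lemma eq_zero_of_zsmul_of_not_dvd {X : Type} [AddCommGroup X] (p : ℕ)
    (hp : p.Prime) (b : ℤ) (hb : ¬ (p : ℤ) ∣ b) (x : X) (h1 : (p : ℤ) • x = 0)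
    (h2 : b • x = 0) : x = 0 := by
  have hcop : IsCoprime b (p : ℤ) := by
    rw [Int.isCoprime_iff_gcd_eq_one]
    have h3 := (Nat.Prime.coprime_iff_not_dvd hp).2 (fun h => hb (Int.natCast_dvd.2 h))
    rw [Int.gcd_comm]
    exact h3
  obtain ⟨s, t, hst⟩ := hcop
  have : x = (s * b + t * (p : ℤ)) • x := by rw [hst, one_smul]
  rw [this, add_smul, mul_smul, mul_smul, h1, h2, smul_zero, smul_zero, add_zero]

/-- Two elements killed by `p` and linearly dependent mod `p`, the second nonzero: the first is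
a multiple of the second. -/
lemma exists_zsmul_eq_of_rel {X : Type} [AddCommGroup X] (p : ℕ) (hp : p.Prime)
    (ξ ξ₀ : X) (hξ : (p : ℤ) • ξ = 0) (hξ₀ : (p : ℤ) • ξ₀ = 0) (hne : ξ₀ ≠ 0) (a b : ℤ)
    (hab : ¬ (p : ℤ) ∣ a ∨ ¬ (p : ℤ) ∣ b) (hrel : a • ξ + b • ξ₀ = 0) :
    ∃ c : ℤ, ξ = c • ξ₀ := by
  have ha : ¬ (p : ℤ) ∣ a := by
    intro hpa
    have hb : ¬ (p : ℤ) ∣ b := by
      rcases hab with h1 | h1
      · exact absurd hpa h1
      · exact h1
    obtain ⟨a', rfl⟩ := hpa
    rw [mul_smul, smul_comm, hξ, smul_zero, zero_add] at hrel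
    exact hne (eq_zero_of_zsmul_of_not_dvd p hp b hb ξ₀ hξ₀ hrel)
  have hcop : IsCoprime a (p : ℤ) := by
    rw [Int.isCoprime_iff_gcd_eq_one]
    have h3 := (Nat.Prime.coprime_iff_not_dvd hp).2 (fun h => ha (Int.natCast_dvd.2 h))
    rw [Int.gcd_comm]
    exact h3
  obtain ⟨s, t, hst⟩ := hcop
  refine ⟨-(s * b), ?_⟩
  have h1 : ξ = (s * a + t * (p : ℤ)) • ξ := by rw [hst, one_smul]
  have h2 : a • ξ = -(b • ξ₀) := eq_neg_of_add_eq_zero_left hrel
  rw [h1, add_smul, mul_smul, mul_smul, hξ, smul_zero, add_zero, h2, neg_smul, mul_smul,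
    smul_neg]

/-- **LOC-SPLIT, general form.** -/
theorem locSplitG (p m : ℕ) (K L N : Type) [Field K] [Field L] [Field N] [NumberField K]
    [NumberField L] [NumberField N] [Algebra K L] [Algebra K N] [Algebra L N]
    [IsScalarTower K L N] (h : Hyp3 K L p m) (hN : IsGalois K N) (u : Place L)
    (hdeg : p * Nat.card (MaximalSpectrum (LocAlg K L (H72.placeBelow K L u))) ∣
      Module.finrank K L)
    (ξ : groupCohomology (repJv K N (H72.placeBelow K L u)) 2) (hξ : (p : ℤ) • ξ = 0) :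
    H72.resJv K L N u 2 ξ = 0 := by
  classical
  have hgal : IsGalois K L := h.gal
  have hnorm : Normal K L := h.gal.to_normal
  have hp : p.Prime := h.prime
  have hpf : Fact p.Prime := ⟨hp⟩
  obtain ⟨-, hfin, hcard, -, -⟩ := H58.stmt_SHL p m K L h (H72.placeBelow K L u)
  -- `p ∣ #H²`
  have hpos : 0 < Nat.card (MaximalSpectrum (LocAlg K L (H72.placeBelow K L u))) := by
    have : Nonempty (MaximalSpectrum (LocAlg K L (H72.placeBelow K L u))) := by
      obtain ⟨M, hM⟩ := Ideal.exists_maximal (LocAlg K L (H72.placeBelow K L u))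
      exact ⟨⟨M, hM⟩⟩
    exact Nat.card_pos
  have hdvd : p ∣ Nat.card (groupCohomology (repJv K L (H72.placeBelow K L u)) 2) := by
    rw [← hcard] at hdeg
    exact Nat.dvd_of_mul_dvd_mul_right hpos hdeg
  -- a class of order `p`
  obtain ⟨η, hη⟩ := exists_prime_addOrderOf_dvd_card' (G := groupCohomology
    (repJv K L (H72.placeBelow K L u)) 2) p hdvd
  have hη0 : η ≠ 0 := by
    intro h0
    rw [h0, addOrderOf_zero] at hη
    exact hp.one_lt.ne hη
  have hpη : (p : ℤ) • η = 0 := by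
    rw [natCast_zsmul, ← hη]
    exact addOrderOf_nsmul_eq_zero η
  set ξ₀ := infJv K L N (H72.placeBelow K L u) 2 η with hξ₀def
  have hξ₀ : (p : ℤ) • ξ₀ = 0 := by
    rw [hξ₀def, ← map_zsmul, hpη, map_zero]
  have hξ₀ne : ξ₀ ≠ 0 := by
    intro h0
    apply hη0
    apply H58.stmt_InfJvInj K L N hgal hN (H72.placeBelow K L u)
    rw [map_zero]
    exact h0
  obtain ⟨a, b, hab, hrel⟩ := brauerPTors_place K N (H72.placeBelow K L u) p hp ξ ξ₀ hξ hξ₀
  obtain ⟨c, hc⟩ := exists_zsmul_eq_of_rel p hp ξ ξ₀ hξ hξ₀ hξ₀ne a b hab hrel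
  have hξeq : ξ = infJv K L N (H72.placeBelow K L u) 2 (c • η) := by
    rw [map_zsmul]
    exact hc
  rw [hξeq]
  exact resJv_infJv K L N u _

end Fermat.Agent.S55.CFT.GS.H58
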