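/-
S55 package E4, island GS, Layer A, leaf A-Div (helper56), part 4: the core of A-Div for a
`p`-extension `L/K`, with models `F' ⊆ F''` of `K(ζ_{p^{M₁}}) ⊆ K(ζ_{p^M})` inside a common Galois
`p`-extension `N` of `K`.

If at every place `v` of `K` either `loc_v x = 0` or `[L : K]` divides the local degree of `F'/K`,
then `res_{N/F'} inf x` is locally trivial (`Stmt_LocInfImage`, `res ∘ inf = 0`), hence zero
(`Stmt_BrHasse`), hence `inf x = inf x'` with `x' ∈ H²(Gal(F'/K), F'ˣ)` (`Stmt_InfResL`); `x'` is a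
cyclic class, and its inflation to `F''` is divisible by `[F'' : F']` (`inf_cycCl`).
-/
import Fermat.Agent.S55.CFT.GS.H56_CycInf
import Fermat.Agent.S55.CFT.GS.H56_InfTrans
import Fermat.Agent.S55.CFT.GS.H58_LocSplitG
import Fermat.Agent.S55.CFT.H56_LocNat
import Fermat.Agent.S55.CFT.H56_WOne

set_option autoImplicit false
set_option linter.unusedSectionVars false
set_option linter.style.haveILetI false

open NumberField TensorProduct CategoryTheory

noncomputable section

namespace Fermat.Agent.S55.CFT.GS.H56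

open Fermat.Agent.S55.CFT groupCohomology

variable (K L F' F'' N : Type) [Field K] [Field L] [Field F'] [Field F''] [Field N]
  [NumberField K] [NumberField L] [NumberField F'] [NumberField F''] [NumberField N]
  [Algebra K L] [Algebra K F'] [Algebra K F''] [Algebra K N] [Algebra L N] [Algebra F' N]
  [Algebra F'' N] [Algebra F' F''] [IsScalarTower K L N] [IsScalarTower K F' N]
  [IsScalarTower K F'' N] [IsScalarTower K F' F''] [IsScalarTower F' F'' N]

/-- The inflation of a class of the cyclic extension `F'/K` to the cyclic extension `F''/K` is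
divisible by `[F'' : F']`. -/
theorem infL_cyclic_dvd [IsGalois K F'] [IsGalois K F''] (hcyc : IsCyclic (F'' ≃ₐ[K] F''))
    (x' : groupCohomology (repL K F') 2) :
    ∃ c : groupCohomology (repL K F'') 2, infL K F' F'' 2 x' = Module.finrank F' F'' • c := by
  classical
  haveI : FiniteDimensional K F' := Module.Finite.of_restrictScalars_finite ℚ K F'
  haveI : FiniteDimensional K F'' := Module.Finite.of_restrictScalars_finite ℚ K F''
  obtain ⟨σ, hσ⟩ := hcyc.exists_generator
  have hsurj : Function.Surjective (AlgEquiv.restrictNormalHom (F := K) (K₁ := F'') F') :=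
    AlgEquiv.restrictNormalHom_surjective F''
  have hσ' : ∀ y : F' ≃ₐ[K] F',
      y ∈ Subgroup.zpowers (AlgEquiv.restrictNormalHom (F := K) (K₁ := F'') F' σ) := by
    intro y
    obtain ⟨g, rfl⟩ := hsurj y
    obtain ⟨k, rfl⟩ := Subgroup.mem_zpowers_iff.1 (hσ g)
    rw [map_zpow]
    exact Subgroup.zpow_mem_zpowers _ k
  obtain ⟨e, he⟩ := H13.exists_dlog σ hσ
  obtain ⟨e', he'⟩ := H13.exists_dlog _ hσ'
  have hn : Nat.card (F'' ≃ₐ[K] F'') = Module.finrank F' F'' * Nat.card (F' ≃ₐ[K] F') := by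
    rw [IsGalois.card_aut_eq_finrank, IsGalois.card_aut_eq_finrank,
      ← Module.finrank_mul_finrank K F' F'', mul_comm]
  obtain ⟨a, ha, rfl⟩ := H19.exists_cycCl (repL K F') he' x'
  have ha' : ∀ g, (repL K F'').ρ g ((infRepL K F' F'').hom a) = (infRepL K F' F'').hom a := by
    intro g
    rw [← Rep.hom_comm_apply]
    exact congrArg _ (ha _)
  exact ⟨H19.cycCl (repL K F'') he _ ha',
    inf_cycCl (repL K F') (repL K F'') he he' _ rfl _ hn (infRepL K F' F'') a ha ha'⟩

theorem brDiv_core (hHasse : Stmt_BrHasse) (hLII : Stmt_LocInfImage) (hIR : Stmt_InfResL)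
    (p m m' m'' M₁ M : ℕ) (h3 : Hyp3 K L p m) (h3N : Hyp3 K N p m') (h3F : Hyp3 F' N p m'')
    (hcyc' : IsCyclotomicExtension {p ^ M₁} K F') (hcyc'' : IsCyclotomicExtension {p ^ M} K F'')
    (hd : p ∣ Module.finrank F' F'')
    (x : groupCohomology (repL K L) 2)
    (hloc : ∀ v : Place K, locMap K L v 2 x = 0 ∨
      Module.finrank K L * Nat.card (MaximalSpectrum (LocAlg K F' v)) ∣ Module.finrank K F') :
    haveI : Normal K L := h3.gal.to_normal
    ∃ z : groupCohomology (repL K N) 2, (p : ℤ) • z = infL K L N 2 x := by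
  classical
  haveI hgL : IsGalois K L := h3.gal
  haveI : Normal K L := h3.gal.to_normal
  haveI hgN : IsGalois K N := h3N.gal
  have hp : p.Prime := h3.prime
  haveI : NeZero (p ^ M₁) := ⟨pow_ne_zero _ hp.ne_zero⟩
  haveI : NeZero (p ^ M) := ⟨pow_ne_zero _ hp.ne_zero⟩
  haveI hgF' : IsGalois K F' := IsCyclotomicExtension.isGalois {p ^ M₁} K F'
  haveI hgF'' : IsGalois K F'' := IsCyclotomicExtension.isGalois {p ^ M} K F''
  haveI : Normal K F' := hgF'.to_normal
  haveI : Normal K F'' := hgF''.to_normal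
  -- step 1: `res inf x` is locally trivial
  have h1 : ∀ u : Place F', locMap F' N u 2 (resL K F' N 2 (infL K L N 2 x)) = 0 := by
    intro u
    rw [H72.locMap_resL, Fermat.Agent.S55.CFT.H56.locMap_infL]
    rcases hloc (H72.placeBelow K F' u) with h0 | hdeg
    · rw [h0, map_zero, map_zero]
    · obtain ⟨b', hb'⟩ := hLII p m' K L F' N h3N hgL hgF' (H72.placeBelow K F' u) hdeg
        (locMap K L (H72.placeBelow K F' u) 2 x)
      rw [hb']
      exact H58.resJv_infJv K F' N u b'
  -- step 2: Hasse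
  have h2 : resL K F' N 2 (infL K L N 2 x) = 0 := hHasse p m'' F' N h3F _ h1
  -- step 3: inflation-restriction
  obtain ⟨x', hx'⟩ := hIR K F' N hgF' hgN _ h2
  -- step 4: the cyclic class
  have hcyclic : IsCyclic (F'' ≃ₐ[K] F'') :=
    Fermat.Agent.S55.CFT.H56.isCyclic_gal_cyclotomic K F'' p M hp h3.odd
  obtain ⟨c, hc⟩ := infL_cyclic_dvd K F' F'' hcyclic x'
  obtain ⟨d₀, hd₀⟩ := hd
  refine ⟨d₀ • infL K F'' N 2 c, ?_⟩
  rw [← hx', ← infL_infL K F' F'' N 2 x', hc, hd₀, map_nsmul, mul_nsmul', natCast_zsmul]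

end Fermat.Agent.S55.CFT.GS.H56
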