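/-
S55 package E4, island GS, Layer A, leaf A-Div (helper56), part 2: every class of
`H²(Gal(L/K), Lˣ)` comes from `H²(Gal(L/K), O_{L,T}ˣ)` for all large `T` (a cocycle has finitely
many values, and every element of `Lˣ` is a `T`-unit for large `T`).
-/
import Fermat.Agent.S55.CFT.H56_WOne

set_option autoImplicit false
set_option linter.unusedSectionVars false
set_option linter.style.haveILetI false

open NumberField TensorProduct CategoryTheory

noncomputable section

namespace Fermat.Agent.S55.CFT.GS.H56

open Fermat.Agent.S55.CFT groupCohomology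

/-- A class of `H²(G, B)` represented by a cocycle with values in the image of an injective
morphism `A → B` comes from `H²(G, A)`. -/
theorem exists_map_eq_of_values {k G : Type} [CommRing k] [Group G] (A B : Rep.{0} k G)
    (φ : A ⟶ B) (hφ : Function.Injective φ.hom) (c : cocycles₂ B)
    (hc : ∀ gh : G × G, ∃ a : A.V, φ.hom a = c gh) :
    ∃ e : groupCohomology A 2, (groupCohomology.map (MonoidHom.id G) φ 2).hom e = H2π B c := by
  choose cT hcT using hc
  have hcoc : cT ∈ cocycles₂ A := by
    rw [mem_cocycles₂_iff]
    intro g h j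
    apply hφ
    have h0 := (mem_cocycles₂_iff (c : G × G → B.V)).1 c.2 g h j
    rw [map_add, map_add, Rep.hom_comm_apply, hcT, hcT, hcT, hcT]
    exact h0
  refine ⟨H2π A ⟨cT, hcoc⟩, ?_⟩
  refine (H2π_comp_map_apply (MonoidHom.id G) φ ⟨cT, hcoc⟩).trans ?_
  congr 1
  apply Subtype.ext
  funext gh
  exact hcT gh

variable (K L : Type) [Field K] [Field L] [NumberField K] [NumberField L] [Algebra K L]

/-- Every class of `H²(Gal(L/K), Lˣ)` is the image of a class with values in the `T`-units, for
every `T` containing a suitable finite set. -/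
theorem exists_unitsMap_eq (x : groupCohomology (repL K L) 2) :
    ∃ T₀ : Finset Nat.Primes, ∀ T : Finset Nat.Primes, T₀ ⊆ T →
      ∃ e : groupCohomology (repE K L T) 2, unitsMap K L T 2 e = x := by
  classical
  haveI : FiniteDimensional K L := Module.Finite.of_restrictScalars_finite ℚ K L
  letI : Fintype (L ≃ₐ[K] L) := Fintype.ofFinite _
  induction x using H2_induction_on with
  | h c =>
    have hex : ∀ gh : (L ≃ₐ[K] L) × (L ≃ₐ[K] L), ∃ T₀ : Finset Nat.Primes,
        ∀ T : Finset Nat.Primes, T₀ ⊆ T → (Additive.toMul (c gh) : Lˣ) ∈ TUnits L T :=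
      fun gh => Fermat.Agent.S55.CFT.H56.exists_finset_forall_mem_TUnits L _
    choose T₀' hT₀' using hex
    refine ⟨Finset.univ.biUnion T₀', fun T hT => ?_⟩
    have hmem : ∀ gh, (Additive.toMul (c gh) : Lˣ) ∈ TUnits L T := fun gh =>
      hT₀' gh T ((Finset.subset_biUnion_of_mem T₀' (Finset.mem_univ gh)).trans hT)
    have hinj : Function.Injective (unitsToL K L T).hom := by
      intro a b hab
      have h1 : ((Additive.toMul a : TUnits L T) : Lˣ) = ((Additive.toMul b : TUnits L T) : Lˣ) :=
        congrArg Additive.toMul hab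
      exact congrArg Additive.ofMul (Subtype.ext h1)
    exact exists_map_eq_of_values (repE K L T) (repL K L) (unitsToL K L T) hinj c
      (fun gh => ⟨Additive.ofMul (⟨_, hmem gh⟩ : TUnits L T), rfl⟩)

end Fermat.Agent.S55.CFT.GS.H56
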