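/-
S55 package E4, island GS, Layer A, leaf A-Div (helper56), part 5: A-Div for `p`-extensions.

`L/K` a Galois `p`-extension, `x ∈ H²(Gal(L/K), Lˣ)`.  `x` comes from the `T`-units for an admissible
`T`, so its local components vanish outside `T` (`Stmt_UnitsUnram`); `M₁` such that `[L : K]`
divides the local degree of `K(ζ_{p^{M₁}})/K` at the finitely many places above `T`
(`Stmt_DegGrow`); `M₀ = M₁ + [K : ℚ] + 1`, so that `p` divides `[K(ζ_{p^M}) : K(ζ_{p^{M₁}})]` for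
`M ≥ M₀`; then `brDiv_core`.
-/
import Fermat.Agent.S55.CFT.GS.H56_BrDivCore
import Fermat.Agent.S55.CFT.GS.H56_CocUnits

set_option autoImplicit false
set_option linter.unusedSectionVars false
set_option linter.style.haveILetI false

open NumberField TensorProduct CategoryTheory

noncomputable section

namespace Fermat.Agent.S55.CFT.GS.H56

open Fermat.Agent.S55.CFT groupCohomology

/-- The degree of a cyclotomic extension does not depend on the model. -/
lemma finrank_cyclo_eq (n : ℕ) [NeZero n] (K F F₂ : Type) [Field K] [Field F] [Field F₂]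
    [Algebra K F] [Algebra K F₂] [IsCyclotomicExtension {n} K F] [IsCyclotomicExtension {n} K F₂] :
    Module.finrank K F = Module.finrank K F₂ :=
  (IsCyclotomicExtension.algEquiv {n} K F F₂).toLinearEquiv.finrank_eq

/-- `p` divides `[K(ζ_{p^M}) : K(ζ_{p^{M₁}})]` for `M ≥ M₁ + [K : ℚ] + 1`. -/
lemma prime_dvd_finrank_cyclo_tower (p : ℕ) (hp : p.Prime) (M₁ M : ℕ) (hM₁ : 0 < M₁)
    (K F' F'' : Type) [Field K] [Field F'] [Field F''] [NumberField K]
    [Algebra K F'] [Algebra K F''] [Algebra F' F''] [IsScalarTower K F' F'']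
    [IsCyclotomicExtension {p ^ M₁} K F'] [IsCyclotomicExtension {p ^ M} K F'']
    (hζ : ∃ ζ : K, IsPrimitiveRoot ζ p) (hM : M₁ + Module.finrank ℚ K + 1 ≤ M) :
    p ∣ Module.finrank F' F'' := by
  haveI : NeZero (p ^ M) := ⟨pow_ne_zero _ hp.ne_zero⟩
  haveI : NeZero (p ^ M₁) := ⟨pow_ne_zero _ hp.ne_zero⟩
  haveI : FiniteDimensional K F'' := IsCyclotomicExtension.finiteDimensional {p ^ M} K F''
  have a1 : Module.finrank K F' ∣ p ^ (M₁ - 1) :=
    Fermat.Agent.S55.CFT.H56.finrank_cyclo_dvd p hp M₁ hM₁ K F' hζ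
  have a2 : p ^ M₁ ∣ Module.finrank K F'' := by
    rw [finrank_cyclo_eq (p ^ M) K F'' (CyclotomicField (p ^ M) K)]
    exact Fermat.Agent.S55.CFT.H56.pow_dvd_finrank_cyclo p hp M₁ M K hζ hM
  obtain ⟨j, hj, hjeq⟩ := (Nat.dvd_prime_pow hp).1 a1
  have a3 : Module.finrank K F' * Module.finrank F' F'' = Module.finrank K F'' :=
    Module.finrank_mul_finrank K F' F''
  rw [← a3, hjeq] at a2
  have a4 : p ^ M₁ = p ^ j * p ^ (M₁ - j) := by
    rw [← pow_add]
    congr 1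
    omega
  rw [a4] at a2
  have a5 : p ^ (M₁ - j) ∣ Module.finrank F' F'' :=
    (Nat.mul_dvd_mul_iff_left (pow_pos hp.pos j)).1 a2
  have a6 : p ∣ p ^ (M₁ - j) := dvd_pow_self p (by omega)
  exact a6.trans a5

/-- **A-Div for `p`-extensions.** -/
theorem brDiv_pExt (hHasse : Stmt_BrHasse) (hLII : Stmt_LocInfImage) (hIR : Stmt_InfResL)
    (hUU : Stmt_UnitsUnram) (hDeg : Stmt_DegGrow)
    (p m : ℕ) (K L : Type) [Field K] [Field L] [NumberField K] [NumberField L] [Algebra K L]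
    (h3 : Hyp3 K L p m) (x : groupCohomology (repL K L) 2) :
    haveI : Normal K L := h3.gal.to_normal
    ∃ M₀ : ℕ, ∀ M : ℕ, M₀ ≤ M → ∀ (N : Type) [Field N] [NumberField N] [Algebra K N]
      [Algebra L N] [IsScalarTower K L N], IsGalois K N → IsCyclotomicExtension {p ^ M} L N →
      ∃ z : groupCohomology (repL K N) 2, (p : ℤ) • z = infL K L N 2 x := by
  classical
  haveI hgL : IsGalois K L := h3.gal
  haveI : Normal K L := h3.gal.to_normal
  have hp : p.Prime := h3.prime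
  have hcplx : IsTotallyComplex K :=
    Fermat.Agent.S55.CFT.H56.isTotallyComplex_of_primitiveRoot p hp h3.odd K h3.zeta
  obtain ⟨T₀, hT₀⟩ := exists_unitsMap_eq K L x
  obtain ⟨T, hTT, hadm⟩ :=
    Fermat.Agent.S55.CFT.H56.stmt_AdmissibleExists p K L T₀ hp h3.gal hcplx
  obtain ⟨e, he⟩ := hT₀ T hTT
  have hout : ∀ v : Place K, v.1 ∉ T → locMap K L v 2 x = 0 := by
    intro v hv
    rw [← he]
    exact hUU p K L T hadm e v hv
  have hM : ∀ ω : H80.PlaceT K T, ∃ M₀ : ℕ, ∀ M : ℕ, M₀ ≤ M →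
      ∀ (F : Type) [Field F] [NumberField F] [Algebra K F], IsCyclotomicExtension {p ^ M} K F →
        p ^ m * Nat.card (MaximalSpectrum (LocAlg K F ⟨ω.1.1, ω.2⟩)) ∣ Module.finrank K F :=
    fun ω => hDeg p m K hp h3.zeta ⟨ω.1.1, ω.2⟩
  choose Mω hMω using hM
  letI : Fintype (H80.PlaceT K T) := Fintype.ofFinite _
  obtain ⟨M₁, hM₁def⟩ : ∃ M₁ : ℕ, M₁ = Finset.univ.sup Mω + 1 := ⟨_, rfl⟩
  have hM₁pos : 0 < M₁ := by omega
  have hMωle : ∀ ω, Mω ω ≤ M₁ := by
    intro ω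
    have := Finset.le_sup (f := Mω) (Finset.mem_univ ω)
    omega
  refine ⟨M₁ + Module.finrank ℚ K + 1, ?_⟩
  intro M hM N _ _ _ _ _ hgN hcycN
  haveI := hgN
  haveI := hcycN
  haveI : NeZero (p ^ M) := ⟨pow_ne_zero _ hp.ne_zero⟩
  haveI : NeZero (p ^ M₁) := ⟨pow_ne_zero _ hp.ne_zero⟩
  have hM₁M : M₁ ≤ M := by omega
  obtain ⟨ζ, hζ⟩ : ∃ ζ : N, IsPrimitiveRoot ζ (p ^ M) :=
    ⟨_, IsCyclotomicExtension.zeta_spec (p ^ M) L N⟩
  have hζ₁ : IsPrimitiveRoot (ζ ^ p ^ (M - M₁)) (p ^ M₁) := by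
    apply hζ.pow (pow_pos hp.pos M)
    rw [← pow_add]
    congr 1
    omega
  have hle : IntermediateField.adjoin K {ζ ^ p ^ (M - M₁)} ≤ IntermediateField.adjoin K {ζ} := by
    rw [IntermediateField.adjoin_le_iff]
    rintro _ rfl
    exact pow_mem (IntermediateField.mem_adjoin_simple_self K ζ) _
  letI : Algebra ↥(IntermediateField.adjoin K {ζ ^ p ^ (M - M₁)})
      ↥(IntermediateField.adjoin K {ζ}) := (IntermediateField.inclusion hle).toRingHom.toAlgebra
  haveI : IsScalarTower K ↥(IntermediateField.adjoin K {ζ ^ p ^ (M - M₁)})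
      ↥(IntermediateField.adjoin K {ζ}) := IsScalarTower.of_algebraMap_eq (fun _ => rfl)
  haveI : IsScalarTower ↥(IntermediateField.adjoin K {ζ ^ p ^ (M - M₁)})
      ↥(IntermediateField.adjoin K {ζ}) N := IsScalarTower.of_algebraMap_eq (fun _ => rfl)
  haveI hcyc' : IsCyclotomicExtension {p ^ M₁} K
      ↥(IntermediateField.adjoin K {ζ ^ p ^ (M - M₁)}) :=
    hζ₁.intermediateField_adjoin_isCyclotomicExtension K
  haveI hcyc'' : IsCyclotomicExtension {p ^ M} K ↥(IntermediateField.adjoin K {ζ}) :=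
    hζ.intermediateField_adjoin_isCyclotomicExtension K
  haveI hgFN : IsGalois ↥(IntermediateField.adjoin K {ζ ^ p ^ (M - M₁)}) N :=
    IsGalois.tower_top_of_isGalois K _ _
  obtain ⟨m', hm'⟩ := H13.finrank_tower_prime_pow K L N p m M hp h3.zeta h3.deg
  have hdvd : Module.finrank ↥(IntermediateField.adjoin K {ζ ^ p ^ (M - M₁)}) N ∣ p ^ m' := by
    rw [← hm', ← Module.finrank_mul_finrank K ↥(IntermediateField.adjoin K {ζ ^ p ^ (M - M₁)}) N]
    exact dvd_mul_left _ _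
  obtain ⟨m'', -, hm''⟩ := (Nat.dvd_prime_pow hp).1 hdvd
  have h3N : Hyp3 K N p m' := ⟨hp, h3.odd, h3.zeta, hgN, hm'⟩
  have hzF : ∃ z : ↥(IntermediateField.adjoin K {ζ ^ p ^ (M - M₁)}), IsPrimitiveRoot z p := by
    obtain ⟨z, hz⟩ := h3.zeta
    exact ⟨algebraMap K _ z, hz.map_of_injective (algebraMap K _).injective⟩
  have h3F : Hyp3 ↥(IntermediateField.adjoin K {ζ ^ p ^ (M - M₁)}) N p m'' :=
    ⟨hp, h3.odd, hzF, hgFN, hm''⟩
  have hd : p ∣ Module.finrank ↥(IntermediateField.adjoin K {ζ ^ p ^ (M - M₁)})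
      ↥(IntermediateField.adjoin K {ζ}) :=
    prime_dvd_finrank_cyclo_tower p hp M₁ M hM₁pos K _ _ h3.zeta hM
  have hloc : ∀ v : Place K, locMap K L v 2 x = 0 ∨
      Module.finrank K L *
        Nat.card (MaximalSpectrum (LocAlg K ↥(IntermediateField.adjoin K {ζ ^ p ^ (M - M₁)}) v)) ∣
        Module.finrank K ↥(IntermediateField.adjoin K {ζ ^ p ^ (M - M₁)}) := by
    intro v
    by_cases hv : v.1 ∈ T
    · right
      rw [h3.deg]
      exact hMω ⟨⟨v.1, hv⟩, v.2⟩ M₁ (hMωle _) _ hcyc'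
    · left
      exact hout v hv
  exact brDiv_core K L ↥(IntermediateField.adjoin K {ζ ^ p ^ (M - M₁)})
    ↥(IntermediateField.adjoin K {ζ}) N hHasse hLII hIR p m m' m'' M₁ M h3 h3N h3F hcyc' hcyc''
    hd x hloc

end Fermat.Agent.S55.CFT.GS.H56
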