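/-
S55 package E4, island GS, Layer A, leaf A-Div (helper56), part 6: `Stmt_BrDivG`.

`L/K` any finite Galois extension, `P` a Sylow `p`-subgroup of `Gal(L/K)`, `K' = L^P`.  A-Div for
the `p`-extension `L/K'` (`brDiv_pExt`) gives `res_{N/K'} inf x = p z'`; corestriction
(`H58.stmt_CorRes`): `[K' : K] • inf x = p • cor z'`, and `[K' : K]` is prime to `p`.
-/
import Fermat.Agent.S55.CFT.GS.H56_BrDivP
import Fermat.Agent.S55.CFT.H58_CorRes

set_option autoImplicit false
set_option linter.unusedSectionVars false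
set_option linter.style.haveILetI false

open NumberField TensorProduct CategoryTheory IntermediateField

noncomputable section

namespace Fermat.Agent.S55.CFT.GS.H56

open Fermat.Agent.S55.CFT groupCohomology

section index

variable (K K' N : Type) [Field K] [Field K'] [Field N] [NumberField K] [NumberField K']
  [NumberField N] [Algebra K K'] [Algebra K N] [Algebra K' N] [IsScalarTower K K' N]

lemma galRes_injective : Function.Injective (galRes K K' N) :=
  AlgEquiv.restrictScalars_injective K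

/-- The index of `Gal(N/K')` in `Gal(N/K)` is `[K' : K]`. -/
lemma index_range_galRes [IsGalois K N] [IsGalois K' N] :
    (galRes K K' N).range.index = Module.finrank K K' := by
  haveI : FiniteDimensional K N := Module.Finite.of_restrictScalars_finite ℚ K N
  haveI : FiniteDimensional K' N := Module.Finite.of_restrictScalars_finite ℚ K' N
  have h1 := Subgroup.index_mul_card (galRes K K' N).range
  have h2 : Nat.card (galRes K K' N).range = Nat.card (N ≃ₐ[K'] N) :=
    Nat.card_congr (MonoidHom.ofInjective (galRes_injective K K' N)).toEquiv.symm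
  rw [h2, IsGalois.card_aut_eq_finrank, IsGalois.card_aut_eq_finrank,
    ← Module.finrank_mul_finrank K K' N] at h1
  exact Nat.eq_of_mul_eq_mul_right Module.finrank_pos h1

/-- The identity of `Nˣ`, from the `Gal(N/K')`-module restricted to the subgroup
`Gal(N/K') ≤ Gal(N/K)` to the restriction of the `Gal(N/K)`-module. -/
def rangeRep :
    Rep.res (MonoidHom.ofInjective (galRes_injective K K' N)).symm.toMonoidHom (repL K' N) ⟶
      resSub (repL K N) (galRes K K' N).range :=
  Rep.ofHom (LinearMap.intertwiningMap_of_isIntertwiningMap _ _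
    ((MonoidHom.id Nˣ).toAdditive.toIntLinearMap)
    (fun h x => by
      have h1 := MonoidHom.apply_ofInjective_symm (galRes_injective K K' N) h
      apply congrArg Additive.ofMul
      apply Units.ext
      change ((MonoidHom.ofInjective (galRes_injective K K' N)).symm h)
          ((Additive.toMul x : Nˣ) : N) = (h : N ≃ₐ[K] N) ((Additive.toMul x : Nˣ) : N)
      conv_rhs => rw [← h1]
      rfl))

/-- `res` to the subgroup `Gal(N/K') ≤ Gal(N/K)` in terms of `resL`. -/
theorem resMap_range (n : ℕ) (y : groupCohomology (repL K N) n) :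
    resMap (repL K N) (galRes K K' N).range n y =
      (groupCohomology.map (MonoidHom.ofInjective (galRes_injective K K' N)).symm.toMonoidHom
        (rangeRep K K' N) n).hom (resL K K' N n y) :=
  resMap_eq_map_map (repL K N) (repL K' N) (galRes K K' N).range (galRes K K' N)
    (MonoidHom.ofInjective (galRes_injective K K' N)).symm.toMonoidHom
    (fun h => MonoidHom.apply_ofInjective_symm (galRes_injective K K' N) h)
    (resRepL K K' N) (rangeRep K K' N) (fun _ => rfl) n y

end index

/-- If `i • y = p • w` with `i` prime to `p`, then `y` is divisible by `p`. -/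
lemma exists_zsmul_of_coprime {X : Type} [AddCommGroup X] (p i : ℕ) (hp : p.Prime)
    (hi : ¬ p ∣ i) (y w : X) (h : i • y = (p : ℤ) • w) : ∃ z : X, (p : ℤ) • z = y := by
  have hc : Nat.Coprime i p := (Nat.Coprime.symm ((Nat.Prime.coprime_iff_not_dvd hp).2 hi))
  have h1 : ((i : ℤ) * Nat.gcdA i p + (p : ℤ) * Nat.gcdB i p) • y = y := by
    rw [← Nat.gcd_eq_gcd_ab, hc]
    simp
  refine ⟨Nat.gcdA i p • w + Nat.gcdB i p • y, ?_⟩
  conv_rhs => rw [← h1]
  rw [smul_add, add_smul, smul_smul, smul_smul, mul_comm (i : ℤ), mul_smul (Nat.gcdA i p) (i : ℤ) y,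
    natCast_zsmul, h, smul_smul, mul_comm (Nat.gcdA i p) (p : ℤ)]

/-- **A-Div** (`Stmt_BrDivG`). -/
theorem stmt_BrDivG_of (hHasse : Stmt_BrHasse) (hLII : Stmt_LocInfImage) (hIR : Stmt_InfResL)
    (hUU : Stmt_UnitsUnram) (hDeg : Stmt_DegGrow) : Stmt_BrDivG := by
  intro p K L _ _ _ _ _ hyp x
  classical
  haveI : Fact p.Prime := ⟨hyp.prime⟩
  haveI hgL : IsGalois K L := hyp.gal
  haveI : Normal K L := hyp.gal.to_normal
  haveI : FiniteDimensional K L := Module.Finite.of_restrictScalars_finite ℚ K L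
  obtain ⟨P⟩ : Nonempty (Sylow p (L ≃ₐ[K] L)) := inferInstance
  have hdeg : Module.finrank ↥(fixedField (P : Subgroup (L ≃ₐ[K] L))) L =
      Nat.card (P : Subgroup (L ≃ₐ[K] L)) :=
    IntermediateField.finrank_fixedField_eq_card _
  obtain ⟨m, hm⟩ := (IsPGroup.iff_card (p := p)).1 P.isPGroup'
  obtain ⟨ζ, hζ⟩ := hyp.zeta
  have hyp3 : Hyp3 ↥(fixedField (P : Subgroup (L ≃ₐ[K] L))) L p m :=
    ⟨hyp.prime, hyp.odd, ⟨algebraMap K _ ζ, hζ.map_of_injective (algebraMap K _).injective⟩,
      inferInstance, by rw [hdeg, hm]⟩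
  obtain ⟨M₀, hM₀⟩ := brDiv_pExt hHasse hLII hIR hUU hDeg p m
    ↥(fixedField (P : Subgroup (L ≃ₐ[K] L))) L hyp3
    (resL K ↥(fixedField (P : Subgroup (L ≃ₐ[K] L))) L 2 x)
  refine ⟨M₀, ?_⟩
  intro M hM N _ _ _ _ _ hgN hcycN
  haveI := hgN
  haveI hgK'N : IsGalois ↥(fixedField (P : Subgroup (L ≃ₐ[K] L))) N :=
    IsGalois.tower_top_of_isGalois K _ N
  obtain ⟨z', hz'⟩ := hM₀ M hM N hgK'N hcycN
  rw [infL_resL K ↥(fixedField (P : Subgroup (L ≃ₐ[K] L))) L N 2 x] at hz'
  obtain ⟨cor, hcor⟩ := Fermat.Agent.S55.CFT.H58.stmt_CorRes (N ≃ₐ[K] N) (repL K N)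
    (galRes K ↥(fixedField (P : Subgroup (L ≃ₐ[K] L))) N).range 2
  have hidx : (galRes K ↥(fixedField (P : Subgroup (L ≃ₐ[K] L))) N).range.index •
      infL K L N 2 x = (p : ℤ) • cor ((groupCohomology.map
        (MonoidHom.ofInjective
          (galRes_injective K ↥(fixedField (P : Subgroup (L ≃ₐ[K] L))) N)).symm.toMonoidHom
        (rangeRep K ↥(fixedField (P : Subgroup (L ≃ₐ[K] L))) N) 2).hom z') := by
    rw [← hcor, resMap_range, ← hz', map_zsmul, map_zsmul]
  have hndvd : ¬ p ∣ (galRes K ↥(fixedField (P : Subgroup (L ≃ₐ[K] L))) N).range.index := by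
    rw [index_range_galRes]
    have h1 : Module.finrank K ↥(fixedField (P : Subgroup (L ≃ₐ[K] L))) *
        Nat.card (P : Subgroup (L ≃ₐ[K] L)) = Nat.card (L ≃ₐ[K] L) := by
      rw [← hdeg, Module.finrank_mul_finrank, IsGalois.card_aut_eq_finrank]
    have h2 := Subgroup.index_mul_card (P : Subgroup (L ≃ₐ[K] L))
    have h3 : Module.finrank K ↥(fixedField (P : Subgroup (L ≃ₐ[K] L))) =
        (P : Subgroup (L ≃ₐ[K] L)).index :=
      Nat.eq_of_mul_eq_mul_right Nat.card_pos (h1.trans h2.symm)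
    rw [h3]
    exact P.not_dvd_index
  exact exists_zsmul_of_coprime p _ hyp.prime hndvd _ _ hidx

end Fermat.Agent.S55.CFT.GS.H56
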