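/-
S55 package E4, island GS, Layer A, leaf A-Div (helper56), final wiring: `Stmt_BrDivG` from the
single open leaf VAL-c (`Stmt_UnitsUnram`); BR-Hasse (helper13 et al.), LOC-INF-IMAGE (helper58),
INF-RES (helper72), DEG-GROW (helper96) are landed unconditionally.
-/
import Fermat.Agent.S55.CFT.GS.H56_BrDiv
import Fermat.Agent.S55.CFT.H13_BRFinalOne
import Fermat.Agent.S55.CFT.H58_LocInfImage
import Fermat.Agent.S55.CFT.H72_InfResL
import Fermat.Agent.S55.CFT.H96_DegGrow

set_option autoImplicit false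

namespace Fermat.Agent.S55.CFT.GS.H56

open Fermat.Agent.S55.CFT

/-- **A-Div** from VAL-c. -/
theorem stmt_BrDivG_of_unitsUnram (hUU : Stmt_UnitsUnram) : Stmt_BrDivG :=
  stmt_BrDivG_of H13.stmt_BrHasse H58.stmt_LocInfImage H72.stmt_InfResL hUU H96.stmt_DegGrow

end Fermat.Agent.S55.CFT.GS.H56
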