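/-
S55 package E4, island GS, Layer A, leaf A-Div (helper56): `Stmt_BrDivG` UNCONDITIONAL
(VAL-c = `Stmt_UnitsUnram` landed by helper45).
-/
import Fermat.Agent.S55.CFT.GS.H56_BrDivFinal
import Fermat.Agent.S55.CFT.H45_ValC

set_option autoImplicit false

namespace Fermat.Agent.S55.CFT.GS.H56

open Fermat.Agent.S55.CFT

/-- **A-Div**, unconditional. -/
theorem stmt_BrDivG : Stmt_BrDivG :=
  stmt_BrDivG_of_unitsUnram H45.stmt_UnitsUnram

end Fermat.Agent.S55.CFT.GS.H56
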