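import Fermat.Agent.S55.CFT.GS.H58_LocSplitG
import Fermat.Agent.S55.CFT.GS.H72_HasseG
import Fermat.Agent.S55.CFT.H72_InfResL
import Fermat.Agent.S55.CFT.H96_DegGrow
import Fermat.Agent.S55.CFT.H61_WTwoLoc
import Fermat.Agent.S55.CFT.H56_Hyp2

/-!
# GS Layer A (helper58), leaf A-One: `Stmt_BrOneG`

`stmt_BrOneG_of : Stmt_BrHasse → Stmt_BrOne → Stmt_BrOneG`: a `p`-primary class of
`H²(Gal(L/K), Lˣ)` (`L/K` any finite Galois extension, `ζ_p ∈ K`) with at most one nonzero local
component is locally trivial.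

Route (`Defs_GS2.lean`): induction on the exponent with A-Hasse reduces to `p x = 0`; then
`N = L(ζ_{p^M})`, `L' = K(ζ_{p^M}) ⊆ N` with `p ∣` the local degree of `L'/K` at `v₀` (DEG-GROW);
`res_{N/L'} inf x` is locally trivial (`locSplitG` over `v₀`, restriction elsewhere), hence `0`
(A-Hasse for `N/L'`), hence `inf x = inf x'` (INF-RES); BR-One for the `p`-extension `L'/K`;
local inflation is injective.
-/

set_option autoImplicit false
set_option linter.unusedSectionVars false

noncomputable section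

namespace Fermat.Agent.S55.CFT.GS.H58

open CategoryTheory groupCohomology Rep NumberField TensorProduct
open Fermat.Agent.S55.CFT Fermat.Agent.S55.CFT.H58

/-- A-One in tower form, for classes killed by `p`. -/
theorem oneG_tower (hHasseG : Stmt_BrHasseG) (hOne : Stmt_BrOne) (p m' : ℕ)
    (K L L' N : Type) [Field K] [Field L] [Field L'] [Field N] [NumberField K] [NumberField L]
    [NumberField L'] [NumberField N] [Algebra K L] [Algebra K L'] [Algebra K N] [Algebra L N]
    [Algebra L' N] [IsScalarTower K L N] [IsScalarTower K L' N]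
    (hL : IsGalois K L) (hN : IsGalois K N) (hL' : Hyp3 K L' p m') (v₀ : Place K)
    (hdeg : p * Nat.card (MaximalSpectrum (LocAlg K L' v₀)) ∣ Module.finrank K L')
    (x : groupCohomology (repL K L) 2) (hx : (p : ℤ) • x = 0)
    (hloc : ∀ v : Place K, v ≠ v₀ → locMap K L v 2 x = 0) : locMap K L v₀ 2 x = 0 := by
  classical
  have hnL : Normal K L := hL.to_normal
  have hgL' : IsGalois K L' := hL'.gal
  have hnL' : Normal K L' := hL'.gal.to_normal
  have hgLN : IsGalois L' N := IsGalois.tower_top_of_isGalois K L' N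
  set X := infL K L N 2 x with hXdef
  have hpX : (p : ℤ) • X = 0 := by rw [hXdef, ← map_zsmul, hx, map_zero]
  have hXloc : ∀ v : Place K, locMap K N v 2 X = infJv K L N v 2 (locMap K L v 2 x) :=
    fun v => H61.locMap_infL K L N v 2 x
  -- the restriction to `N/L'` is locally trivial
  have hR : ∀ u : Place L', locMap L' N u 2 (resL K L' N 2 X) = 0 := by
    intro u
    rw [H72.locMap_resL K L' N u 2 X]
    by_cases hu : H72.placeBelow K L' u = v₀
    · subst hu
      apply locSplitG p m' K L' N hL' hN u hdeg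
      rw [← map_zsmul, hpX, map_zero]
    · rw [hXloc, hloc _ hu, map_zero, map_zero]
  have hR0 : resL K L' N 2 X = 0 := by
    obtain ⟨ζ, hζ⟩ := hL'.zeta
    refine hHasseG p L' N ⟨hL'.prime, hL'.odd,
      ⟨algebraMap K L' ζ, hζ.map_of_injective (algebraMap K L').injective⟩, hgLN⟩ 1 _ ?_ hR
    rw [pow_one, ← map_zsmul, hpX, map_zero]
  obtain ⟨x', hx'⟩ := H72.stmt_InfResL K L' N hgL' hN X hR0
  have hx'loc : ∀ v : Place K, v ≠ v₀ → locMap K L' v 2 x' = 0 := by
    intro v hv
    apply H58.stmt_InfJvInj K L' N hgL' hN v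
    rw [map_zero, ← H61.locMap_infL K L' N v 2 x', hx', hXloc, hloc v hv, map_zero]
  have h0 : locMap K L' v₀ 2 x' = 0 := hOne p m' K L' hL' x' v₀ hx'loc
  apply H58.stmt_InfJvInj K L N hL hN v₀
  rw [map_zero, ← hXloc, ← hx', H61.locMap_infL K L' N v₀ 2 x', h0, map_zero]

/-- A-One for classes killed by `p`. -/
theorem oneG_p (hHasseG : Stmt_BrHasseG) (hOne : Stmt_BrOne)
    (p : ℕ) (K L : Type) [Field K] [Field L] [NumberField K] [NumberField L] [Algebra K L]
    (h : HypG K L p) (x : groupCohomology (repL K L) 2) (v₀ : Place K) (hx : (p : ℤ) • x = 0)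
    (hloc : ∀ v : Place K, v ≠ v₀ → locMap K L v 2 x = 0) : locMap K L v₀ 2 x = 0 := by
  classical
  have hp : p.Prime := h.prime
  have hgal : IsGalois K L := h.gal
  obtain ⟨M₀, hM₀⟩ := H96.stmt_DegGrow p 1 K hp h.zeta v₀
  have hne : NeZero (p ^ (M₀ + 1)) := ⟨pow_ne_zero _ hp.ne_zero⟩
  have hgalN : IsGalois K (CyclotomicField (p ^ (M₀ + 1)) L) :=
    H56.isGalois_cyclo K L (p ^ (M₀ + 1))
  obtain ⟨ζ, hζ⟩ : ∃ ζ : CyclotomicField (p ^ (M₀ + 1)) L, IsPrimitiveRoot ζ (p ^ (M₀ + 1)) :=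
    ⟨_, IsCyclotomicExtension.zeta_spec (p ^ (M₀ + 1)) L _⟩
  have hcycK : IsCyclotomicExtension {p ^ (M₀ + 1)} K ↥(IntermediateField.adjoin K {ζ}) :=
    hζ.intermediateField_adjoin_isCyclotomicExtension K
  have hgalL' : IsGalois K ↥(IntermediateField.adjoin K {ζ}) :=
    IsCyclotomicExtension.isGalois {p ^ (M₀ + 1)} K _
  obtain ⟨m', hm'⟩ := H96.finrank_eq_prime_pow p M₀ hp K ↥(IntermediateField.adjoin K {ζ}) h.zeta
  have hL' : Hyp3 K ↥(IntermediateField.adjoin K {ζ}) p m' :=
    { prime := hp, odd := h.odd, zeta := h.zeta, gal := hgalL', deg := hm' }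
  have hdeg := hM₀ (M₀ + 1) (Nat.le_succ _) ↥(IntermediateField.adjoin K {ζ}) hcycK
  rw [pow_one] at hdeg
  exact oneG_tower hHasseG hOne p m' K L ↥(IntermediateField.adjoin K {ζ})
    (CyclotomicField (p ^ (M₀ + 1)) L) hgal hgalN hL' v₀ hdeg x hx hloc

/-- **A-One**: `Stmt_BrOneG` from BR-Hasse and BR-One (the `p`-extension forms). -/
theorem stmt_BrOneG_of (hHasse : Stmt_BrHasse) (hOne : Stmt_BrOne) : Stmt_BrOneG := by
  have hHasseG : Stmt_BrHasseG := H72.stmt_BrHasseG_of hHasse
  intro p K L _ _ _ _ _ h k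
  induction k with
  | zero =>
    intro x v₀ hx _
    rw [pow_zero, one_smul] at hx
    rw [hx, map_zero]
  | succ k ih =>
    intro x v₀ hx hloc
    -- `y = p ^ k • x` is killed by `p`
    have hy : (p : ℤ) • (((p : ℤ) ^ k) • x) = 0 := by
      rw [smul_smul, ← pow_succ']
      exact hx
    have hyloc : ∀ v : Place K, v ≠ v₀ → locMap K L v 2 (((p : ℤ) ^ k) • x) = 0 := by
      intro v hv
      rw [map_zsmul, hloc v hv]
      exact zsmul_zero _
    have hy0 := oneG_p hHasseG hOne p K L h _ v₀ hy hyloc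
    have hyall : ∀ v : Place K, locMap K L v 2 (((p : ℤ) ^ k) • x) = 0 := by
      intro v
      by_cases hv : v = v₀
      · rw [hv]; exact hy0
      · exact hyloc v hv
    have hzero : ((p : ℤ) ^ k) • x = 0 :=
      hHasseG p K L h 1 _ (by rw [pow_one]; exact hy) hyall
    exact ih x v₀ hzero hloc

end Fermat.Agent.S55.CFT.GS.H58
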