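/-
S55 package E4, island GS, LAYER B (helper64): the assemblies
`Stmt_GS_BriHasse`, `Stmt_GS_BriOne`, `Stmt_GS_BriTwoIn`, `Stmt_GS_BriTwoOut` from the packages
REAL, CYC, PL, LOC-S, LOC-OUT of `GS/H64_BriDefs.lean`.  Plan: NOTES/plan/S55_GSB.md.
-/
import Fermat.Agent.S55.CFT.GS.H64_BriDefs
import Fermat.Agent.S55.CFT.GS.H6_UR_PL
import Fermat.Agent.S55.H48_NC

set_option autoImplicit false

open CategoryTheory groupCohomology ExtCitation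

open scoped Pointwise

noncomputable section

namespace Fermat.Agent.S55.CFT.GS.H64

open Fermat.Agent.S55 Fermat.Agent.S55.Top Fermat.Agent.S55.CFT Fermat.Agent.S55.CFT.GS.Bri

local notation "Qb" => AlgebraicClosure ℚ

/-! ### Level fields -/

section level

variable (S : Finset Nat.Primes) (K : IntermediateField ℚ Qb)

/-- A level-`S` function on `G_K × G_K` takes finitely many values. -/
theorem finite_range_of_isLevK₂ {X : Type*} (hK : K.IsUnramifiedOutside S)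
    (c : ↥K.fixingSubgroup × ↥K.fixingSubgroup → X) (hlev : IsLevK₂ S K c) :
    (Set.range c).Finite := by
  obtain ⟨F, hF, hc⟩ := hlev
  -- the function `g ↦ c (g, ·)` is of level `S`
  have h1 : IsLevK₁ S K (fun g : ↥K.fixingSubgroup => fun h : ↥K.fixingSubgroup => c (g, h)) :=
    ⟨F, hF, fun g s hs => funext fun h => by
      have := hc g h s 1 hs (one_mem _)
      simpa using this⟩
  have hfin1 := H6.finite_range_of_isLevK₁ S K hK _ h1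
  have h2 : ∀ g : ↥K.fixingSubgroup, (Set.range (fun h : ↥K.fixingSubgroup => c (g, h))).Finite :=
    fun g => H6.finite_range_of_isLevK₁ S K hK _ ⟨F, hF, fun h s hs => by
      have := hc g h 1 s (one_mem _) hs
      simpa using this⟩
  have h3 : Set.range c ⊆ ⋃ φ ∈ Set.range
      (fun g : ↥K.fixingSubgroup => fun h : ↥K.fixingSubgroup => c (g, h)), Set.range φ := by
    rintro _ ⟨⟨g, h⟩, rfl⟩
    simp only [Set.mem_iUnion]
    exact ⟨_, ⟨g, rfl⟩, h, rfl⟩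
  refine (Set.Finite.biUnion hfin1 ?_).subset h3
  rintro _ ⟨g, rfl⟩
  exact h2 g

/-- A common normal level field for a 2-cochain and a 1-cochain. -/
theorem exists_levelField (hK : K.IsUnramifiedOutside S)
    (c : ↥K.fixingSubgroup × ↥K.fixingSubgroup → Qbˣ) (b : ↥K.fixingSubgroup → Qbˣ)
    (hc : IsLevK₂ S K c) (hcΩ : ∀ t, InOm S (c t : Qb))
    (hb : IsLevK₁ S K b) (hbΩ : ∀ g, InOm S (b g : Qb)) :
    ∃ N : IntermediateField ℚ Qb, K ≤ N ∧ N.IsUnramifiedOutside S ∧ N.fixingSubgroup.Normal ∧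
      IsLevN₂ K N c ∧ IsLevN₁ K N b := by
  have hfc : (Set.range (fun t => (c t : Qb))).Finite := by
    have := (finite_range_of_isLevK₂ S K hK c hc).image (fun u : Qbˣ => (u : Qb))
    refine this.subset ?_
    rintro _ ⟨t, rfl⟩
    exact ⟨c t, ⟨t, rfl⟩, rfl⟩
  have hfb : (Set.range (fun g => (b g : Qb))).Finite := by
    have := (H6.finite_range_of_isLevK₁ S K hK b hb).image (fun u : Qbˣ => (u : Qb))
    refine this.subset ?_
    rintro _ ⟨t, rfl⟩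
    exact ⟨b t, ⟨t, rfl⟩, rfl⟩
  obtain ⟨N₁, hN₁, hval⟩ := H6.exists_level_of_finite S _ (hfc.union hfb) (by
    rintro x (⟨t, rfl⟩ | ⟨g, rfl⟩)
    · exact hcΩ t
    · exact hbΩ g)
  obtain ⟨Fc, hFc, hc'⟩ := hc
  obtain ⟨Fb, hFb, hb'⟩ := hb
  obtain ⟨N, hle, hNS, hNn⟩ := Fermat.Agent.S55.H48.exists_normal_level S (K ⊔ Fc ⊔ Fb ⊔ N₁)
    (((hK.sup hFc).sup hFb).sup hN₁)
  have hKN : K ≤ N := ((le_sup_left.trans le_sup_left).trans le_sup_left).trans hle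
  have hFcN : Fc ≤ N := ((le_sup_right.trans le_sup_left).trans le_sup_left).trans hle
  have hFbN : Fb ≤ N := (le_sup_right.trans le_sup_left).trans hle
  have hN₁N : N₁ ≤ N := le_sup_right.trans hle
  refine ⟨N, hKN, hNS, hNn, ⟨fun g₁ g₂ s₁ s₂ h₁ h₂ => hc' g₁ g₂ s₁ s₂
    (IntermediateField.fixingSubgroup_antitone hFcN h₁)
    (IntermediateField.fixingSubgroup_antitone hFcN h₂), fun t => hN₁N (hval _ (Or.inl ⟨t, rfl⟩))⟩,
    ⟨fun g s hs => hb' g s (IntermediateField.fixingSubgroup_antitone hFbN hs),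
      fun g => hN₁N (hval _ (Or.inr ⟨g, rfl⟩))⟩⟩

variable {S K}

theorem IsLevN₂.isLevK₂ {N : IntermediateField ℚ Qb} (hN : N.IsUnramifiedOutside S)
    {c : ↥K.fixingSubgroup × ↥K.fixingSubgroup → Qbˣ} (hc : IsLevN₂ K N c) :
    IsLevK₂ S K c ∧ ∀ t, InOm S (c t : Qb) :=
  ⟨⟨N, hN, hc.1⟩, fun t => ⟨N, hN, hc.2 t⟩⟩

theorem IsLevN₁.isLevK₁ {N : IntermediateField ℚ Qb} (hN : N.IsUnramifiedOutside S)
    {b : ↥K.fixingSubgroup → Qbˣ} (hb : IsLevN₁ K N b) :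
    IsLevK₁ S K b ∧ ∀ g, InOm S (b g : Qb) :=
  ⟨⟨N, hN, hb.1⟩, fun g => ⟨N, hN, hb.2 g⟩⟩

/-- The primitive root of unity of a base field, in the abstract field. -/
theorem exists_zeta {p : ℕ} (hK : IsBaseField S p K) : ∃ ζ : ↥K, IsPrimitiveRoot ζ p := by
  obtain ⟨ζ, hζK, hζ⟩ := hK.2
  refine ⟨⟨ζ, hζK⟩, ?_⟩
  exact IsPrimitiveRoot.of_map_of_injective (f := algebraMap ↥K Qb) hζ
    (algebraMap ↥K Qb).injective

end level

/-! ### `p`-torsion -/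

section tors

variable {K N : IntermediateField ℚ Qb} (hKN : K ≤ N)
  [NumberField ↥K] [NumberField ↥(H6.NK hKN)] [IsGalois ↥K ↥(H6.NK hKN)]

/-- The class of a cocycle `c` with `cᵖ = d b` is killed by `p`. -/
theorem smul_eq_zero_of_pow (hmul : Stmt_R2_mul) (hzero : Stmt_R2_zero) (p : ℕ)
    (c : ↥K.fixingSubgroup × ↥K.fixingSubgroup → Qbˣ) (b : ↥K.fixingSubgroup → Qbˣ)
    (x : groupCohomology (repL ↥K ↥(H6.NK hKN)) 2) (hx : Real₂ hKN c x) (hb : IsLevN₁ K N b)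
    (hpow : ∀ t, c t ^ p = mOne b t) : (p : ℤ) • x = 0 :=
  (hzero K N hKN _ _ ((hmul K N hKN c c x x hx hx).2.2 p)).2 ⟨b, hb, hpow⟩

/-- A class killed by `p` with cocycle `c`: `cᵖ = d b`. -/
theorem exists_pow_of_smul_eq_zero (hmul : Stmt_R2_mul) (hzero : Stmt_R2_zero) (p : ℕ)
    (c : ↥K.fixingSubgroup × ↥K.fixingSubgroup → Qbˣ)
    (x : groupCohomology (repL ↥K ↥(H6.NK hKN)) 2) (hx : Real₂ hKN c x)
    (hpx : (p : ℤ) • x = 0) :
    ∃ b : ↥K.fixingSubgroup → Qbˣ, IsLevN₁ K N b ∧ ∀ t, c t ^ p = mOne b t :=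
  (hzero K N hKN _ _ ((hmul K N hKN c c x x hx hx).2.2 p)).1 hpx

end tors

/-! ### BRI-Hasse and BRI-One -/

/-- The local components of the class of a `p`-torsion datum which is locally trivial over `S`
(but possibly at one place) and has zero residues outside `S`. -/
theorem locMap_eq_zero_of (hPlEx : Stmt_PlEx) (hPlS : Stmt_PlS) (hLocS : Stmt_LocS)
    (hLocOut : Stmt_LocOut) (p : ℕ) [Fact p.Prime] (S : Finset Nat.Primes)
    {K N : IntermediateField ℚ Qb} (hKN : K ≤ N)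
    [NumberField ↥K] [NumberField ↥(H6.NK hKN)] [IsGalois ↥K ↥(H6.NK hKN)]
    (hNS : N.IsUnramifiedOutside S) (𝔓 : PlaceSys S K)
    (c : ↥K.fixingSubgroup × ↥K.fixingSubgroup → Qbˣ) (b : ↥K.fixingSubgroup → Qbˣ)
    (x : groupCohomology (repL ↥K ↥(H6.NK hKN)) 2) (hx : Real₂ hKN c x) (hb : IsLevN₁ K N b)
    (hpow : ∀ t, c t ^ p = mOne b t)
    (hOut : ∀ q : Nat.Primes, q ∉ S → ∀ A : ValuationSubring Qb, A.LiesOverPrime (q : ℕ) →
      ResTrivAt p K A (q : ℕ) b)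
    (v : Place ↥K)
    (hS : ∀ (q : ↥S) (w : 𝔓.W q), v = plσ K q.1 (𝔓.σ q w) → LocTrivS 𝔓 q w c) :
    locMap ↥K ↥(H6.NK hKN) v 2 x = 0 := by
  by_cases hv : v.1 ∈ S
  · obtain ⟨w, hw⟩ := (hPlS S K 𝔓).2 ⟨v.1, hv⟩ v rfl
    have h1 := (hLocS S K N hKN 𝔓 ⟨v.1, hv⟩ w c x hx).2 (hS _ w hw)
    rw [hw]
    exact h1
  · obtain ⟨σ, hσ⟩ := hPlEx K v
    have hA : (σ⁻¹ • primeLocalPlace v.1).LiesOverPrime (v.1 : ℕ) :=
      H6.ur_liesOver_smul _ _ _ (H6.urA0_lies v.1)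
    have h1 := (hLocOut p S K N hKN hNS v.1 hv (σ⁻¹ • primeLocalPlace v.1) σ
      (smul_inv_smul σ _) c b x hx hb hpow).2 (hOut v.1 hv _ hA)
    rw [hσ]
    exact h1

/-- **BRI-Hasse** from REAL, PL, LOC-S, LOC-OUT. -/
theorem briHasse_of (hex : Stmt_R2_ex) (hmul : Stmt_R2_mul) (hzero : Stmt_R2_zero)
    (hPlEx : Stmt_PlEx) (hPlS : Stmt_PlS) (hLocS : Stmt_LocS) (hLocOut : Stmt_LocOut) :
    Stmt_GS_BriHasse := by
  intro hA p _ hp2 S _ K hK 𝔓 c b hcb hS hOut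
  obtain ⟨N, hKN, hNS, hNn, hcN, hbN⟩ :=
    exists_levelField S K hK.1 c b hcb.levc hcb.omc hcb.levb hcb.omb
  have := hK.1.1
  have : NumberField ↥K := numberField_base K
  have := hNS.1
  have : NumberField ↥(H6.NK hKN) := numberField_top hKN
  have : IsGalois ↥K ↥(H6.NK hKN) := isGalois_top hKN hNn
  obtain ⟨x, hx⟩ := hex K N hKN c hcN hcb.coc
  have hpx : ((p : ℤ) ^ 1) • x = 0 := by
    rw [pow_one]
    exact smul_eq_zero_of_pow hKN hmul hzero p c b x hx hbN hcb.pow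
  have hyp : HypG ↥K ↥(H6.NK hKN) p := ⟨Fact.out, hp2, exists_zeta hK, inferInstance⟩
  have hloc : ∀ v : Place ↥K, locMap ↥K ↥(H6.NK hKN) v 2 x = 0 := fun v =>
    locMap_eq_zero_of hPlEx hPlS hLocS hLocOut p S hKN hNS 𝔓 c b x hx hbN hcb.pow hOut v
      (fun q w _ => hS q w)
  have hx0 := hA p ↥K ↥(H6.NK hKN) hyp 1 x hpx hloc
  obtain ⟨b', hb', hcb'⟩ := (hzero K N hKN c x hx).1 hx0
  exact ⟨b', (IsLevN₁.isLevK₁ hNS hb').1, (IsLevN₁.isLevK₁ hNS hb').2, hcb'⟩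

/-- **BRI-One** from REAL, PL, LOC-S, LOC-OUT. -/
theorem briOne_of (hex : Stmt_R2_ex) (hmul : Stmt_R2_mul) (hzero : Stmt_R2_zero)
    (hPlEx : Stmt_PlEx) (hPlS : Stmt_PlS) (hLocS : Stmt_LocS) (hLocOut : Stmt_LocOut) :
    Stmt_GS_BriOne := by
  intro hA p _ hp2 S _ K hK 𝔓 c b hcb q₀ w₀ hS hOut
  obtain ⟨N, hKN, hNS, hNn, hcN, hbN⟩ :=
    exists_levelField S K hK.1 c b hcb.levc hcb.omc hcb.levb hcb.omb
  have := hK.1.1
  have : NumberField ↥K := numberField_base K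
  have := hNS.1
  have : NumberField ↥(H6.NK hKN) := numberField_top hKN
  have : IsGalois ↥K ↥(H6.NK hKN) := isGalois_top hKN hNn
  obtain ⟨x, hx⟩ := hex K N hKN c hcN hcb.coc
  have hpx : ((p : ℤ) ^ 1) • x = 0 := by
    rw [pow_one]
    exact smul_eq_zero_of_pow hKN hmul hzero p c b x hx hbN hcb.pow
  have hyp : HypG ↥K ↥(H6.NK hKN) p := ⟨Fact.out, hp2, exists_zeta hK, inferInstance⟩
  have hloc : ∀ v : Place ↥K, v ≠ plσ K q₀.1 (𝔓.σ q₀ w₀) →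
      locMap ↥K ↥(H6.NK hKN) v 2 x = 0 := fun v hv =>
    locMap_eq_zero_of hPlEx hPlS hLocS hLocOut p S hKN hNS 𝔓 c b x hx hbN hcb.pow hOut v
      (fun q w hvw => hS q w (by
        rintro h
        apply hv
        rw [hvw]
        have h1 : q = q₀ := congrArg Sigma.fst h
        subst h1
        have h2 : w = w₀ := eq_of_heq (Sigma.mk.inj h).2
        rw [h2]))
  have hx0 := hA p ↥K ↥(H6.NK hKN) hyp 1 x (plσ K q₀.1 (𝔓.σ q₀ w₀)) hpx hloc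
  exact (hLocS S K N hKN 𝔓 q₀ w₀ c x hx).1 hx0

/-! ### BRI-TwoIn and BRI-TwoOut -/

section two

variable {S : Finset Nat.Primes} {K : IntermediateField ℚ Qb} [NumberField ↥K]

/-- `(q, w) ↦ v(q, w)` is injective. -/
theorem plσ_S_inj (hPlS : Stmt_PlS) (𝔓 : PlaceSys S K) {q q' : ↥S} {w : 𝔓.W q} {w' : 𝔓.W q'}
    (h : plσ K q.1 (𝔓.σ q w) = plσ K q'.1 (𝔓.σ q' w')) :
    (⟨q, w⟩ : Σ q : ↥S, 𝔓.W q) = ⟨q', w'⟩ := by
  have h1 : q.1 = q'.1 := congrArg Sigma.fst h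
  have h2 : q = q' := Subtype.ext h1
  subst h2
  rw [(hPlS S K 𝔓).1 q w w' h]

/-- Every place of `ℚ̄` over `q` is `σ⁻¹ • primeLocalPlace q`. -/
theorem exists_smul_eq_primeLocalPlace (q : Nat.Primes) (A : ValuationSubring Qb)
    (hA : A.LiesOverPrime (q : ℕ)) : ∃ σ : GQ, σ • A = primeLocalPlace q := by
  obtain ⟨g, hg⟩ := H6.ur_exists_smul A (primeLocalPlace q) q q.2 hA (H6.urA0_lies q)
  exact ⟨g, hg.symm⟩

/-- The data extracted from a class over the cyclotomic model. -/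
theorem exists_ptors (hsurj : Stmt_R2_surj) (hmul : Stmt_R2_mul) (hzero : Stmt_R2_zero)
    (p : ℕ) {N : IntermediateField ℚ Qb} (hKN : K ≤ N)
    [NumberField ↥(H6.NK hKN)] [IsGalois ↥K ↥(H6.NK hKN)] (hNS : N.IsUnramifiedOutside S)
    (x : groupCohomology (repL ↥K ↥(H6.NK hKN)) 2) (hpx : (p : ℤ) • x = 0) :
    ∃ (c : ↥K.fixingSubgroup × ↥K.fixingSubgroup → Qbˣ) (b : ↥K.fixingSubgroup → Qbˣ),
      PTorsData S p K c b ∧ Real₂ hKN c x ∧ IsLevN₁ K N b ∧ ∀ t, c t ^ p = mOne b t := by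
  obtain ⟨c, hcN, hcoc, hx⟩ := hsurj K N hKN x
  obtain ⟨b, hbN, hpow⟩ := exists_pow_of_smul_eq_zero hKN hmul hzero p c x hx hpx
  exact ⟨c, b, ⟨(IsLevN₂.isLevK₂ hNS hcN).1, (IsLevN₂.isLevK₂ hNS hcN).2, hcoc,
    (IsLevN₁.isLevK₁ hNS hbN).1, (IsLevN₁.isLevK₁ hNS hbN).2, hpow⟩, hx, hbN, hpow⟩

end two

/-- **BRI-TwoIn** from REAL, CYC, PL, LOC-S, LOC-OUT. -/
theorem briTwoIn_of (hsurj : Stmt_R2_surj) (hmul : Stmt_R2_mul) (hzero : Stmt_R2_zero)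
    (hcyc : Stmt_CycBase) (hPlS : Stmt_PlS) (hLocS : Stmt_LocS) (hLocOut : Stmt_LocOut) :
    Stmt_GS_BriTwoIn := by
  intro hA p _ hp2 S hpS K hK 𝔓 q₁ w₁ q₂ w₂ hne
  have := hK.1.1
  have : NumberField ↥K := numberField_base K
  have hv : plσ K q₁.1 (𝔓.σ q₁ w₁) ≠ plσ K q₂.1 (𝔓.σ q₂ w₂) := fun h =>
    hne (plσ_S_inj hPlS 𝔓 h)
  obtain ⟨M₀, hM⟩ := hA p ↥K Fact.out hp2 (exists_zeta hK) _ _ hv
  obtain ⟨N, hKN, hNS, hgal, hcycl⟩ := hcyc p S hpS K hK.1 M₀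
  have := hNS.1
  have : NumberField ↥(H6.NK hKN) := numberField_top hKN
  obtain ⟨x, hpx, hx1, hx2⟩ := hM M₀ le_rfl ↥(H6.NK hKN) hcycl
  obtain ⟨c, b, hcb, hx, hbN, hpow⟩ := exists_ptors hsurj hmul hzero p hKN hNS x hpx
  refine ⟨c, b, hcb, fun h => hx1 ((hLocS S K N hKN 𝔓 q₁ w₁ c x hx).2 h), ?_, ?_⟩
  · intro q w h1 h2
    exact (hLocS S K N hKN 𝔓 q w c x hx).1
      (hx2 _ (fun h => h1 (plσ_S_inj hPlS 𝔓 h)) (fun h => h2 (plσ_S_inj hPlS 𝔓 h)))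
  · intro q hq A hA
    obtain ⟨σ, hσ⟩ := exists_smul_eq_primeLocalPlace q A hA
    refine (hLocOut p S K N hKN hNS q hq A σ hσ c b x hx hbN hpow).1 (hx2 _ ?_ ?_)
    · intro h
      have h1 : q = q₁.1 := congrArg Sigma.fst h
      exact hq (h1 ▸ q₁.2)
    · intro h
      have h1 : q = q₂.1 := congrArg Sigma.fst h
      exact hq (h1 ▸ q₂.2)

/-- **BRI-TwoOut** from REAL, CYC, PL, LOC-OUT. -/
theorem briTwoOut_of (hsurj : Stmt_R2_surj) (hmul : Stmt_R2_mul) (hzero : Stmt_R2_zero)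
    (hcyc : Stmt_CycBase) (hPlEq : Stmt_PlEq) (hLocOut : Stmt_LocOut) :
    Stmt_GS_BriTwoOut := by
  intro hA p _ hp2 S hpS K hK q₁ hq₁ A₁ hA₁
  have := hK.1.1
  have : NumberField ↥K := numberField_base K
  obtain ⟨σ₁, hσ₁⟩ := exists_smul_eq_primeLocalPlace q₁ A₁ hA₁
  have hv : plσ K q₁ σ₁ ≠ plσ K (pPrime p) 1 := by
    intro h
    have h1 : q₁ = pPrime p := congrArg Sigma.fst h
    exact hq₁ (h1 ▸ hpS)
  obtain ⟨M₀, hM⟩ := hA p ↥K Fact.out hp2 (exists_zeta hK) _ _ hv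
  obtain ⟨N, hKN, hNS, hgal, hcycl⟩ := hcyc p S hpS K hK.1 M₀
  have := hNS.1
  have : NumberField ↥(H6.NK hKN) := numberField_top hKN
  obtain ⟨x, hpx, hx1, hx2⟩ := hM M₀ le_rfl ↥(H6.NK hKN) hcycl
  obtain ⟨c, b, hcb, hx, hbN, hpow⟩ := exists_ptors hsurj hmul hzero p hKN hNS x hpx
  refine ⟨c, b, hcb,
    fun h => hx1 ((hLocOut p S K N hKN hNS q₁ hq₁ A₁ σ₁ hσ₁ c b x hx hbN hpow).2 h), ?_⟩
  intro q hq A hA hnc
  obtain ⟨σ, hσ⟩ := exists_smul_eq_primeLocalPlace q A hA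
  refine (hLocOut p S K N hKN hNS q hq A σ hσ c b x hx hbN hpow).1 (hx2 _ ?_ ?_)
  · intro h
    have h1 : q = q₁ := congrArg Sigma.fst h
    subst h1
    obtain ⟨h', g, hg, hσσ⟩ := (hPlEq K q σ σ₁).1 h
    apply hnc ⟨g, hg⟩
    -- `A₁ = σ₁⁻¹ • A₀`, `A = σ⁻¹ • A₀`, `σ₁ = rl h' * σ * g`
    have hA₁' : A₁ = σ₁⁻¹ • primeLocalPlace q := by rw [← hσ₁, inv_smul_smul]
    have hA' : A = σ⁻¹ • primeLocalPlace q := by rw [← hσ, inv_smul_smul]
    have hrl : (rl q h')⁻¹ • primeLocalPlace q = primeLocalPlace q := by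
      have := H6.ur_rl_smul q h'
      rw [inv_smul_eq_iff]
      exact this.symm
    show g • A₁ = A
    rw [hA₁', hA', hσσ, mul_inv_rev, mul_inv_rev, mul_smul, mul_smul, hrl, smul_inv_smul]
  · intro h
    have h1 : q = pPrime p := congrArg Sigma.fst h
    exact hq (h1 ▸ hpS)

end Fermat.Agent.S55.CFT.GS.H64

end
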