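/-
S55/E4 island GS (helper24): basic cochain calculus for the Kummer assembly `GS-ASM3`.
* `μ_p` calculus: `a ↦ ζ ^ a.val` is an injective homomorphism `ZMod p → ℚ̄ˣ` onto the `p`-th
  roots of unity;
* algebra of the multiplicative differential `mOne`;
* `Ω` is a Galois-stable subfield; level of `g ↦ g t / t`.
-/
import Fermat.Agent.S55.CFT.Defs_GS
import Fermat.Agent.S55.Top.PlaceEx
import Fermat.Agent.S55.H48_NC

set_option autoImplicit false
set_option linter.unusedSectionVars false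
set_option linter.unusedVariables false

open CategoryTheory Module groupCohomology ExtCitation

noncomputable section

namespace Fermat.Agent.S55.CFT.GS.H24

open Fermat.Agent.S55 Fermat.Agent.S55.Top Fermat.Agent.S55.CFT.GS

local notation "Qb" => AlgebraicClosure ℚ

/-! ### `μ_p` calculus -/

section mu

variable {p : ℕ} [Fact p.Prime] {M : Type} [CommGroup M] {ζ : M}

theorem zp_add (h1 : ζ ^ p = 1) (a b : ZMod p) :
    ζ ^ (a + b).val = ζ ^ a.val * ζ ^ b.val := by
  rw [ZMod.val_add, ← pow_add]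
  conv_rhs => rw [← Nat.mod_add_div (a.val + b.val) p]
  rw [pow_add, pow_mul, h1, one_pow, mul_one]

theorem zp_zero : ζ ^ (0 : ZMod p).val = 1 := by
  rw [ZMod.val_zero, pow_zero]

theorem zp_neg (h1 : ζ ^ p = 1) (a : ZMod p) : ζ ^ (-a).val = (ζ ^ a.val)⁻¹ := by
  rw [eq_inv_iff_mul_eq_one, ← zp_add h1, neg_add_cancel, zp_zero]

theorem zp_sub (h1 : ζ ^ p = 1) (a b : ZMod p) :
    ζ ^ (a - b).val = ζ ^ a.val / ζ ^ b.val := by
  rw [sub_eq_add_neg, zp_add h1, zp_neg h1, div_eq_mul_inv]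

theorem zp_pow_p (h1 : ζ ^ p = 1) (a : ZMod p) : (ζ ^ a.val) ^ p = 1 := by
  rw [← pow_mul, mul_comm, pow_mul, h1, one_pow]

theorem zp_inj (hζ : IsPrimitiveRoot ζ p) {a b : ZMod p} (h : ζ ^ a.val = ζ ^ b.val) : a = b := by
  have := hζ.pow_inj (ZMod.val_lt a) (ZMod.val_lt b) h
  exact ZMod.val_injective p this

theorem zp_nsmul (h1 : ζ ^ p = 1) (n : ℕ) (a : ZMod p) :
    ζ ^ ((n : ZMod p) * a).val = (ζ ^ a.val) ^ n := by
  induction n with
  | zero => simp
  | succ n ih =>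
    rw [Nat.cast_succ, add_mul, one_mul, zp_add h1, ih, pow_succ]

end mu

/-- Every `p`-th root of unity of `ℚ̄` is a power of `ζ`. -/
theorem exists_zp {p : ℕ} [Fact p.Prime] {ζ : Qbˣ} (hζ : IsPrimitiveRoot ζ p) {x : Qbˣ}
    (hx : x ^ p = 1) : ∃ a : ZMod p, ζ ^ a.val = x := by
  have hζ' : IsPrimitiveRoot (ζ : Qb) p := hζ.map_of_injective (f := Units.coeHom Qb)
    Units.val_injective
  have hx' : (x : Qb) ^ p = 1 := by
    have := congrArg (fun u : Qbˣ => (u : Qb)) hx
    simpa using this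
  have : NeZero p := ⟨(Fact.out : p.Prime).ne_zero⟩
  obtain ⟨i, hi, hix⟩ := hζ'.eq_pow_of_pow_eq_one hx'
  refine ⟨(i : ZMod p), ?_⟩
  apply Units.ext
  rw [ZMod.val_natCast, Nat.mod_eq_of_lt hi]
  simpa using hix

/-! ### Algebra of `mOne` -/

section diff

variable {Δ : Type} [Group Δ] {X : Type} [CommGroup X] [MulDistribMulAction Δ X]

theorem mOne_apply (b : Δ → X) (g h : Δ) : mOne b (g, h) = g • b h / b (g * h) * b g := rfl

theorem mOne_mul (b b' : Δ → X) : mOne (b * b') = mOne b * mOne b' := by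
  funext ⟨g, h⟩
  simp only [mOne_apply, Pi.mul_apply, smul_mul']
  apply Additive.ofMul.injective
  simp only [ofMul_mul, ofMul_div]
  abel

theorem mOne_one : mOne (1 : Δ → X) = 1 := by
  funext ⟨g, h⟩
  simp [mOne_apply]

theorem mOne_inv (b : Δ → X) : mOne b⁻¹ = (mOne b)⁻¹ := by
  rw [eq_inv_iff_mul_eq_one, ← mOne_mul, inv_mul_cancel, mOne_one]

theorem mOne_div (b b' : Δ → X) : mOne (b / b') = mOne b / mOne b' := by
  rw [div_eq_mul_inv, mOne_mul, mOne_inv, div_eq_mul_inv]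

theorem mOne_pow (b : Δ → X) (n : ℕ) : mOne (b ^ n) = mOne b ^ n := by
  induction n with
  | zero => simp [mOne_one]
  | succ n ih => rw [pow_succ, mOne_mul, ih, pow_succ]

theorem mOne_bdry (t : X) : mOne (fun g : Δ => g • t / t) = 1 := by
  funext ⟨g, h⟩
  simp only [mOne_apply, Pi.one_apply, smul_div', mul_smul]
  apply Additive.ofMul.injective
  simp only [ofMul_mul, ofMul_div, ofMul_one]
  abel

/-- A 1-cocycle and its value at products. -/
theorem mOne_eq_one_iff (b : Δ → X) : mOne b = 1 ↔ ∀ g h, b (g * h) = g • b h * b g := by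
  constructor
  · intro hb g h
    have := congrFun hb (g, h)
    simp only [mOne_apply, Pi.one_apply] at this
    rw [div_mul_eq_mul_div, div_eq_one] at this
    exact this.symm
  · intro hb
    funext ⟨g, h⟩
    simp only [mOne_apply, Pi.one_apply]
    rw [div_mul_eq_mul_div, div_eq_one]
    exact (hb g h).symm

end diff

/-- `mOne` of a `μ_p`-valued cochain with fixed `ζ`. -/
theorem mOne_zp {p : ℕ} [Fact p.Prime] {Δ : Type} [Group Δ] {X : Type} [CommGroup X]
    [MulDistribMulAction Δ X] {ζ : X} (h1 : ζ ^ p = 1) (hfix : ∀ g : Δ, g • ζ = ζ)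
    (f : Δ → ZMod p) :
    mOne (fun g => ζ ^ (f g).val) = fun t : Δ × Δ => ζ ^ (tOne f t).val := by
  funext ⟨g, h⟩
  simp only [mOne_apply, tOne, smul_pow', hfix]
  rw [zp_add h1, zp_sub h1]

/-! ### `Ω` -/

section omega

variable {S : Finset Nat.Primes}

theorem inOm_of_mem {K : IntermediateField ℚ Qb} (hK : K.IsUnramifiedOutside S) {x : Qb}
    (hx : x ∈ K) : InOm S x := ⟨K, hK, hx⟩

theorem inOm_one : InOm S (1 : Qb) :=
  ⟨⊥, IntermediateField.isUnramifiedOutside_bot S, one_mem _⟩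

theorem inOm_mul {x y : Qb} (hx : InOm S x) (hy : InOm S y) : InOm S (x * y) := by
  obtain ⟨F, hF, hxF⟩ := hx
  obtain ⟨F', hF', hyF⟩ := hy
  exact ⟨F ⊔ F', hF.sup hF', mul_mem ((le_sup_left : F ≤ F ⊔ F') hxF)
    ((le_sup_right : F' ≤ F ⊔ F') hyF)⟩

theorem inOm_inv {x : Qb} (hx : InOm S x) : InOm S x⁻¹ := by
  obtain ⟨F, hF, hxF⟩ := hx
  exact ⟨F, hF, inv_mem hxF⟩

theorem inOm_div {x y : Qb} (hx : InOm S x) (hy : InOm S y) : InOm S (x / y) := by
  rw [div_eq_mul_inv]
  exact inOm_mul hx (inOm_inv hy)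

theorem inOm_pow {x : Qb} (hx : InOm S x) (n : ℕ) : InOm S (x ^ n) := by
  obtain ⟨F, hF, hxF⟩ := hx
  exact ⟨F, hF, pow_mem hxF n⟩

/-- `Ω` is Galois stable. -/
theorem inOm_map {x : Qb} (hx : InOm S x) (g : GQ) : InOm S (g x) := by
  obtain ⟨F, hF, hxF⟩ := hx
  obtain ⟨F', hle, hF', hN⟩ := H48.exists_normal_level S F hF
  refine ⟨F', hF', ?_⟩
  have := h49_qbar_isGalois
  have hfix : IntermediateField.fixedField F'.fixingSubgroup = F' :=
    InfiniteGalois.fixedField_fixingSubgroup F'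
  rw [← hfix]
  rw [IntermediateField.mem_fixedField_iff]
  intro s hs
  have hs' : g⁻¹ * s * g ∈ F'.fixingSubgroup := by
    have := hN.conj_mem s hs g⁻¹
    simpa using this
  have h2 : (g⁻¹ * s * g) x = x := by
    have := (IntermediateField.mem_fixingSubgroup_iff _ _).1 hs' x (hle hxF)
    exact this
  have h3 : g ((g⁻¹ * s * g) x) = g x := by rw [h2]
  simpa [AlgEquiv.mul_apply] using h3

theorem inOm_smul {K : IntermediateField ℚ Qb} {t : Qbˣ} (ht : InOm S (t : Qb))
    (g : ↥K.fixingSubgroup) : InOm S ((g • t : Qbˣ) : Qb) :=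
  inOm_map ht (g : GQ)

theorem inOm_bdry {K : IntermediateField ℚ Qb} {t : Qbˣ} (ht : InOm S (t : Qb))
    (g : ↥K.fixingSubgroup) : InOm S ((g • t / t : Qbˣ) : Qb) := by
  rw [Units.val_div_eq_div_val]
  exact inOm_div (inOm_smul ht g) ht

/-- The coboundary of an element of `Ω` is of level `S`. -/
theorem isLevK₁_bdry {K : IntermediateField ℚ Qb} {t : Qbˣ} (ht : InOm S (t : Qb)) :
    IsLevK₁ S K (fun g : ↥K.fixingSubgroup => g • t / t) := by
  obtain ⟨F, hF, htF⟩ := ht
  refine ⟨F, hF, fun g s hs => ?_⟩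
  have h : (s : GQ) (t : Qb) = t := (IntermediateField.mem_fixingSubgroup_iff _ _).1 hs _ htF
  have h2 : s • t = t := by
    apply Units.ext
    exact h
  show (g * s) • t / t = g • t / t
  rw [mul_smul, h2]

end omega

end Fermat.Agent.S55.CFT.GS.H24

end
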