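/-
S55/E4 island GS (helper24), assembly GS-ASM3, part (a): Kummer theory for `H¹_S(G_K, 𝔽_p)`.
`R = {t ∈ Ωˣ : tᵖ ∈ K}`; the Kummer map `kum : R → Z¹_S(G_K, 𝔽_p)`, `ζ^(kum t g) = g t / t`, is a
surjective homomorphism (Hilbert 90) with kernel `Kˣ`.
-/
import Fermat.Agent.S55.CFT.GS.H24_Basic

set_option autoImplicit false
set_option linter.unusedSectionVars false
set_option linter.unusedVariables false
set_option linter.style.haveILetI false

open CategoryTheory Module groupCohomology ExtCitation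

noncomputable section

namespace Fermat.Agent.S55.CFT.GS.H24

open Fermat.Agent.S55 Fermat.Agent.S55.Top Fermat.Agent.S55.CFT.GS

local notation "Qb" => AlgebraicClosure ℚ

/-! ### The fixed field of `G_K` -/

section fixed

variable {K : IntermediateField ℚ Qb}

theorem smul_eq_of_mem {a : Qbˣ} (ha : (a : Qb) ∈ K) (g : ↥K.fixingSubgroup) : g • a = a := by
  apply Units.ext
  exact (IntermediateField.mem_fixingSubgroup_iff _ _).1 g.2 _ ha

theorem mem_of_forall_smul {a : Qbˣ} (h : ∀ g : ↥K.fixingSubgroup, g • a = a) :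
    (a : Qb) ∈ K := by
  have := h49_qbar_isGalois
  have hfix : IntermediateField.fixedField K.fixingSubgroup = K :=
    InfiniteGalois.fixedField_fixingSubgroup K
  rw [← hfix, IntermediateField.mem_fixedField_iff]
  intro s hs
  have := congrArg (fun u : Qbˣ => (u : Qb)) (h ⟨s, hs⟩)
  exact this

end fixed

/-! ### Subgroups -/

section subgroups

variable (S : Finset Nat.Primes) (p : ℕ) (K : IntermediateField ℚ Qb)

/-- `Kˣ` as a subgroup of `ℚ̄ˣ`. -/
def KxS : Subgroup Qbˣ where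
  carrier := {a | (a : Qb) ∈ K}
  mul_mem' := by
    intro a b ha hb
    show ((a * b : Qbˣ) : Qb) ∈ K
    rw [Units.val_mul]
    exact mul_mem ha hb
  one_mem' := by
    show ((1 : Qbˣ) : Qb) ∈ K
    rw [Units.val_one]
    exact one_mem K
  inv_mem' := by
    intro a ha
    show ((a⁻¹ : Qbˣ) : Qb) ∈ K
    rw [Units.val_inv_eq_inv_val]
    exact inv_mem ha

/-- `Ωˣ` as a subgroup of `ℚ̄ˣ`. -/
def OmS : Subgroup Qbˣ where
  carrier := {a | InOm S (a : Qb)}
  mul_mem' := by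
    intro a b ha hb
    show InOm S ((a * b : Qbˣ) : Qb)
    rw [Units.val_mul]
    exact inOm_mul ha hb
  one_mem' := by
    show InOm S ((1 : Qbˣ) : Qb)
    rw [Units.val_one]
    exact inOm_one
  inv_mem' := by
    intro a ha
    show InOm S ((a⁻¹ : Qbˣ) : Qb)
    rw [Units.val_inv_eq_inv_val]
    exact inOm_inv ha

/-- `R = {t ∈ Ωˣ : tᵖ ∈ K}`. -/
def RS : Subgroup Qbˣ := OmS S ⊓ (KxS K).comap (powMonoidHom p)

variable {S p K}

theorem mem_KxS {a : Qbˣ} : a ∈ KxS K ↔ (a : Qb) ∈ K := Iff.rfl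

theorem mem_OmS {a : Qbˣ} : a ∈ OmS S ↔ InOm S (a : Qb) := Iff.rfl

theorem mem_RS {t : Qbˣ} : t ∈ RS S p K ↔ InOm S (t : Qb) ∧ t ^ p ∈ KxS K := Iff.rfl

theorem KxS_le_RS (hK : K.IsUnramifiedOutside S) : KxS K ≤ RS S p K := by
  intro a ha
  exact ⟨inOm_of_mem hK ha, (KxS K).pow_mem ha p⟩

end subgroups

/-! ### The Kummer map -/

section kummer

variable {p : ℕ} [Fact p.Prime] {S : Finset Nat.Primes} {K : IntermediateField ℚ Qb}
  {ζ : Qbˣ} (hζ : IsPrimitiveRoot ζ p)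

theorem bdry_pow_eq_one {t : Qbˣ} (ht : t ^ p ∈ KxS K) (g : ↥K.fixingSubgroup) :
    (g • t / t) ^ p = 1 := by
  rw [div_pow, ← smul_pow', smul_eq_of_mem ht g, div_self']

/-- The Kummer character of `t` (with `tᵖ ∈ K`): `ζ ^ (kum t g) = g t / t`. -/
def kum (t : Qbˣ) (g : ↥K.fixingSubgroup) : ZMod p := by
  classical
  exact if h : (g • t / t) ^ p = 1 then Classical.choose (exists_zp hζ h) else 0

theorem kum_spec {t : Qbˣ} (ht : t ^ p ∈ KxS K) (g : ↥K.fixingSubgroup) :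
    ζ ^ (kum hζ t g).val = g • t / t := by
  classical
  unfold kum
  rw [dif_pos (bdry_pow_eq_one ht g)]
  exact Classical.choose_spec (exists_zp hζ (bdry_pow_eq_one ht g))

theorem kum_eq_iff {t : Qbˣ} (ht : t ^ p ∈ KxS K) (g : ↥K.fixingSubgroup) (c : ZMod p) :
    kum hζ t g = c ↔ ζ ^ c.val = g • t / t := by
  constructor
  · rintro rfl
    exact kum_spec hζ ht g
  · intro h
    exact zp_inj hζ ((kum_spec hζ ht g).trans h.symm)

theorem kum_mul {t t' : Qbˣ} (ht : t ^ p ∈ KxS K) (ht' : t' ^ p ∈ KxS K) :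
    kum hζ (t * t') = (kum hζ t + kum hζ t' : ↥K.fixingSubgroup → ZMod p) := by
  funext g
  rw [kum_eq_iff hζ (by rw [mul_pow]; exact (KxS K).mul_mem ht ht')]
  rw [Pi.add_apply, zp_add hζ.pow_eq_one, kum_spec hζ ht, kum_spec hζ ht', smul_mul']
  apply Additive.ofMul.injective
  simp only [ofMul_mul, ofMul_div]
  abel

theorem kum_tOne {t : Qbˣ} (ht : t ^ p ∈ KxS K) (hζK : ζ ∈ KxS K) :
    tOne (kum hζ t : ↥K.fixingSubgroup → ZMod p) = 0 := by
  have h1 := mOne_zp (Δ := ↥K.fixingSubgroup) hζ.pow_eq_one (fun g => smul_eq_of_mem hζK g)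
    (kum hζ t)
  have h2 : (fun g : ↥K.fixingSubgroup => ζ ^ (kum hζ t g).val) = fun g => g • t / t := by
    funext g
    exact kum_spec hζ ht g
  rw [h2, mOne_bdry] at h1
  funext x
  have := congrFun h1 x
  simp only [Pi.one_apply] at this
  have h0 : ζ ^ (tOne (kum hζ t : ↥K.fixingSubgroup → ZMod p) x).val = ζ ^ (0 : ZMod p).val := by
    rw [zp_zero]
    exact this.symm
  exact zp_inj hζ h0

theorem kum_level {t : Qbˣ} (ht : t ^ p ∈ KxS K) (htΩ : InOm S (t : Qb)) :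
    IsLevK₁ S K (kum hζ t : ↥K.fixingSubgroup → ZMod p) := by
  obtain ⟨F, hF, h⟩ := isLevK₁_bdry (K := K) htΩ
  refine ⟨F, hF, fun g s hs => ?_⟩
  rw [kum_eq_iff hζ ht, kum_spec hζ ht]
  exact (h g s hs).symm

theorem kum_mem_Z1K {t : Qbˣ} (ht : t ∈ RS S p K) (hζK : ζ ∈ KxS K) :
    (kum hζ t : ↥K.fixingSubgroup → ZMod p) ∈ Z1K (ZMod p) S K :=
  ⟨kum_tOne hζ ht.2 hζK, kum_level hζ ht.2 ht.1⟩

theorem kum_eq_zero_iff {t : Qbˣ} (ht : t ^ p ∈ KxS K) :
    (kum hζ t : ↥K.fixingSubgroup → ZMod p) = 0 ↔ t ∈ KxS K := by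
  constructor
  · intro h
    apply mem_of_forall_smul
    intro g
    have := kum_spec hζ ht g
    rw [h, Pi.zero_apply, zp_zero] at this
    exact (div_eq_one.mp this.symm)
  · intro h
    funext g
    rw [Pi.zero_apply, kum_eq_iff hζ ht, zp_zero, smul_eq_of_mem h g, div_self']

/-- Surjectivity of the Kummer map (Hilbert 90). -/
theorem exists_kum_eq (hH90 : Stmt_GS_H90) (hK : K.IsUnramifiedOutside S) (hζK : ζ ∈ KxS K)
    {χ : ↥K.fixingSubgroup → ZMod p} (hχ : χ ∈ Z1K (ZMod p) S K) :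
    ∃ t : Qbˣ, t ∈ RS S p K ∧ kum hζ t = χ := by
  have hlev : IsLevK₁ S K (fun g => ζ ^ (χ g).val) := hχ.2.comp (fun c : ZMod p => ζ ^ c.val)
  have hval : ∀ g : ↥K.fixingSubgroup, InOm S ((ζ ^ (χ g).val : Qbˣ) : Qb) := by
    intro g
    rw [Units.val_pow_eq_pow_val]
    exact inOm_pow (inOm_of_mem hK hζK) _
  have hcoc : mOne (fun g : ↥K.fixingSubgroup => ζ ^ (χ g).val) = 1 := by
    rw [mOne_zp hζ.pow_eq_one (fun g => smul_eq_of_mem hζK g)]
    funext x
    rw [hχ.1, Pi.zero_apply, zp_zero, Pi.one_apply]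
  obtain ⟨t, htΩ, ht⟩ := hH90 S K hK _ hlev hval hcoc
  have htp : t ^ p ∈ KxS K := by
    apply mem_of_forall_smul
    intro g
    have h := ht g
    have h2 : (g • t / t) ^ p = 1 := by
      rw [← h]
      exact zp_pow_p hζ.pow_eq_one _
    rw [div_pow, div_eq_one, ← smul_pow'] at h2
    exact h2
  refine ⟨t, ⟨htΩ, htp⟩, ?_⟩
  funext g
  rw [kum_eq_iff hζ htp]
  exact ht g

end kummer

end Fermat.Agent.S55.CFT.GS.H24

end
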