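/-
S55/E4 island GS (helper24): calculus of the multiplicative differential `mTwo` and level of
`mOne b`.
-/
import Fermat.Agent.S55.CFT.GS.H24_KummerH1
import Fermat.Agent.S55.CFT.GS.H6_H90

set_option autoImplicit false
set_option linter.unusedSectionVars false
set_option linter.unusedVariables false
set_option linter.style.haveILetI false

open CategoryTheory Module groupCohomology ExtCitation

noncomputable section

namespace Fermat.Agent.S55.CFT.GS.H24

open Fermat.Agent.S55 Fermat.Agent.S55.Top Fermat.Agent.S55.CFT.GS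

local notation "Qb" => AlgebraicClosure ℚ

/-! ### Algebra of `mTwo` -/

section diff

variable {Δ : Type} [Group Δ] {X : Type} [CommGroup X] [MulDistribMulAction Δ X]

theorem mTwo_apply (a : Δ × Δ → X) (g h k : Δ) :
    mTwo a (g, h, k) = g • a (h, k) / a (g * h, k) * a (g, h * k) / a (g, h) := rfl

theorem mTwo_mul (a a' : Δ × Δ → X) : mTwo (a * a') = mTwo a * mTwo a' := by
  funext ⟨g, h, k⟩
  simp only [mTwo_apply, Pi.mul_apply, smul_mul']
  apply Additive.ofMul.injective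
  simp only [ofMul_mul, ofMul_div]
  abel

theorem mTwo_one : mTwo (1 : Δ × Δ → X) = 1 := by
  funext ⟨g, h, k⟩
  simp [mTwo_apply]

theorem mTwo_inv (a : Δ × Δ → X) : mTwo a⁻¹ = (mTwo a)⁻¹ := by
  rw [eq_inv_iff_mul_eq_one, ← mTwo_mul, inv_mul_cancel, mTwo_one]

theorem mTwo_div (a a' : Δ × Δ → X) : mTwo (a / a') = mTwo a / mTwo a' := by
  rw [div_eq_mul_inv, mTwo_mul, mTwo_inv, div_eq_mul_inv]

theorem mTwo_pow (a : Δ × Δ → X) (n : ℕ) : mTwo (a ^ n) = mTwo a ^ n := by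
  induction n with
  | zero => simp [mTwo_one]
  | succ n ih => rw [pow_succ, mTwo_mul, ih, pow_succ]

/-- `d ∘ d = 1`. -/
theorem mTwo_mOne (b : Δ → X) : mTwo (mOne b) = 1 := by
  funext ⟨g, h, k⟩
  simp only [mTwo_apply, mOne_apply, Pi.one_apply, smul_mul', smul_div', mul_smul, mul_assoc]
  apply Additive.ofMul.injective
  simp only [ofMul_mul, ofMul_div, ofMul_one]
  abel

end diff

/-- `mTwo` of a `μ_p`-valued cochain with fixed `ζ`. -/
theorem mTwo_zp {p : ℕ} [Fact p.Prime] {Δ : Type} [Group Δ] {X : Type} [CommGroup X]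
    [MulDistribMulAction Δ X] {ζ : X} (h1 : ζ ^ p = 1) (hfix : ∀ g : Δ, g • ζ = ζ)
    (f : Δ × Δ → ZMod p) :
    mTwo (fun t => ζ ^ (f t).val) = fun t : Δ × Δ × Δ => ζ ^ (tTwo f t).val := by
  funext ⟨g, h, k⟩
  simp only [mTwo_apply, tTwo, smul_pow', hfix]
  rw [zp_sub h1, zp_add h1, zp_sub h1]

/-! ### Levels -/

section level

variable {S : Finset Nat.Primes} {K : IntermediateField ℚ Qb}

/-- A level-`S` cochain with values in `Ωˣ` has a normal level field containing its values. -/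
theorem exists_level_values (hK : K.IsUnramifiedOutside S) {b : ↥K.fixingSubgroup → Qbˣ}
    (hb : IsLevK₁ S K b) (hbΩ : ∀ g, InOm S (b g : Qb)) :
    ∃ F : IntermediateField ℚ Qb, F.IsUnramifiedOutside S ∧ F.fixingSubgroup.Normal ∧
      (∀ g s : ↥K.fixingSubgroup, (s : GQ) ∈ F.fixingSubgroup → b (g * s) = b g) ∧
      ∀ g s : ↥K.fixingSubgroup, (s : GQ) ∈ F.fixingSubgroup → s • b g = b g := by
  have hfin : (Set.range (fun g => (b g : Qb))).Finite := by
    have h1 := H6.finite_range_of_isLevK₁ S K hK b hb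
    have h2 : Set.range (fun g => (b g : Qb)) = (fun u : Qbˣ => (u : Qb)) '' Set.range b := by
      ext x
      constructor
      · rintro ⟨g, rfl⟩
        exact ⟨b g, ⟨g, rfl⟩, rfl⟩
      · rintro ⟨_, ⟨g, rfl⟩, rfl⟩
        exact ⟨g, rfl⟩
    rw [h2]
    exact h1.image _
  obtain ⟨N, hN, hval⟩ := H6.exists_level_of_finite S _ hfin (by
    rintro _ ⟨g, rfl⟩
    exact hbΩ g)
  obtain ⟨F, hF, h⟩ := hb
  obtain ⟨F', hle, hF', hnorm⟩ := H48.exists_normal_level S (F ⊔ N) (hF.sup hN)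
  refine ⟨F', hF', hnorm, fun g s hs => ?_, fun g s hs => ?_⟩
  · exact h g s (IntermediateField.fixingSubgroup_antitone (le_sup_left.trans hle) hs)
  · apply Units.ext
    have hmem : (b g : Qb) ∈ F' := hle ((le_sup_right : N ≤ F ⊔ N) (hval _ ⟨g, rfl⟩))
    exact (IntermediateField.mem_fixingSubgroup_iff _ _).1 hs _ hmem

/-- The coboundary of a level-`S` cochain with values in `Ωˣ` is of level `S`. -/
theorem isLevK₂_mOne (hK : K.IsUnramifiedOutside S) {b : ↥K.fixingSubgroup → Qbˣ}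
    (hb : IsLevK₁ S K b) (hbΩ : ∀ g, InOm S (b g : Qb)) : IsLevK₂ S K (mOne b) := by
  obtain ⟨F, hF, hN, h1, h2⟩ := exists_level_values hK hb hbΩ
  refine ⟨F, hF, fun g₁ g₂ s₁ s₂ hs₁ hs₂ => ?_⟩
  simp only [mOne_apply]
  have e : g₁ * s₁ * (g₂ * s₂) = g₁ * g₂ * ((g₂⁻¹ * s₁ * g₂) * s₂) := by group
  have hc : (((g₂⁻¹ * s₁ * g₂) * s₂ : ↥K.fixingSubgroup) : GQ) ∈ F.fixingSubgroup := by
    have h3 := hN.conj_mem _ hs₁ ((g₂ : GQ)⁻¹)
    have h4 := F.fixingSubgroup.mul_mem h3 hs₂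
    simpa using h4
  rw [e, h1 _ _ hc, h1 _ _ hs₁, h1 _ _ hs₂, mul_smul, h2 _ _ hs₁]

theorem inOm_mOne {b : ↥K.fixingSubgroup → Qbˣ} (hbΩ : ∀ g, InOm S (b g : Qb))
    (t : ↥K.fixingSubgroup × ↥K.fixingSubgroup) : InOm S ((mOne b t : Qbˣ) : Qb) := by
  obtain ⟨g, h⟩ := t
  rw [mOne_apply]
  exact (OmS S).mul_mem ((OmS S).div_mem (inOm_smul (hbΩ h) g) (hbΩ _)) (hbΩ g)

end level

/-! ### `W` -/

section W

variable {S : Finset Nat.Primes} {p : ℕ}

theorem inW_iff {x : Qbˣ} : InW S p x ↔ x ∈ (OmS S).map (powMonoidHom p) := by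
  unfold InW
  rw [Subgroup.mem_map]
  constructor
  · rintro ⟨t, ht, rfl⟩
    exact ⟨t, ht, rfl⟩
  · rintro ⟨t, ht, rfl⟩
    exact ⟨t, ht, rfl⟩

theorem inW_mul {x y : Qbˣ} (hx : InW S p x) (hy : InW S p y) : InW S p (x * y) := by
  rw [inW_iff] at *
  exact Subgroup.mul_mem _ hx hy

theorem inW_inv {x : Qbˣ} (hx : InW S p x) : InW S p x⁻¹ := by
  rw [inW_iff] at *
  exact Subgroup.inv_mem _ hx

theorem inW_div {x y : Qbˣ} (hx : InW S p x) (hy : InW S p y) : InW S p (x / y) := by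
  rw [inW_iff] at *
  exact Subgroup.div_mem _ hx hy

theorem inW_pow {x : Qbˣ} (hx : InOm S (x : Qb)) : InW S p (x ^ p) := ⟨x, hx, rfl⟩

theorem inOm_of_inW {x : Qbˣ} (hx : InW S p x) : InOm S (x : Qb) := by
  obtain ⟨t, ht, rfl⟩ := hx
  rw [Units.val_pow_eq_pow_val]
  exact inOm_pow ht p

/-- A choice of `p`-th roots in `Ω`. -/
def rootW (S : Finset Nat.Primes) (p : ℕ) (x : Qbˣ) : Qbˣ := by
  classical
  exact if h : InW S p x then Classical.choose h else 1

theorem rootW_inOm (x : Qbˣ) : InOm S ((rootW S p x : Qbˣ) : Qb) := by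
  classical
  unfold rootW
  by_cases h : InW S p x
  · rw [dif_pos h]
    exact (Classical.choose_spec h).1
  · rw [dif_neg h, Units.val_one]
    exact inOm_one

theorem rootW_pow {x : Qbˣ} (h : InW S p x) : rootW S p x ^ p = x := by
  classical
  unfold rootW
  rw [dif_pos h]
  exact (Classical.choose_spec h).2

end W

end Fermat.Agent.S55.CFT.GS.H24

end
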