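/-
S55 package E4, island GS, LAYER B (helper64): the assemblies
`Stmt_GS_BriDiv`, `Stmt_GS_BriH3` from the packages REAL and CYC of `GS/H64_BriDefs.lean`.
Plan: NOTES/plan/S55_GSB.md.
-/
import Fermat.Agent.S55.CFT.GS.H64_BriAsm
import Fermat.Agent.S55.CFT.GS.H24_MTwo

set_option autoImplicit false

open CategoryTheory groupCohomology ExtCitation

open scoped Pointwise

noncomputable section

namespace Fermat.Agent.S55.CFT.GS.H64

open Fermat.Agent.S55 Fermat.Agent.S55.Top Fermat.Agent.S55.CFT Fermat.Agent.S55.CFT.GS.Bri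

local notation "Qb" => AlgebraicClosure ℚ

/-! ### BRI-Div -/

/-- **BRI-Div** from REAL and CYC. -/
theorem briDiv_of (hex : Stmt_R2_ex) (hsurj : Stmt_R2_surj) (hmul : Stmt_R2_mul)
    (hzero : Stmt_R2_zero) (hinf : Stmt_R2_inf) (hcyc : Stmt_CycTop) :
    Stmt_GS_BriDiv := by
  intro hA p _ hp2 S hpS K hK c hc hcΩ hcoc
  obtain ⟨N, hKN, hNS, hNn, hcN, -⟩ :=
    exists_levelField S K hK.1 c (fun _ => 1) hc hcΩ (isLevK₁_const 1)
      (fun _ => ⟨⊥, IntermediateField.isUnramifiedOutside_bot S, by simp⟩)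
  have := hK.1.1
  have : NumberField ↥K := numberField_base K
  have := hNS.1
  have : NumberField ↥(H6.NK hKN) := numberField_top hKN
  have hgal : IsGalois ↥K ↥(H6.NK hKN) := isGalois_top hKN hNn
  obtain ⟨x, hx⟩ := hex K N hKN c hcN hcoc
  have hyp : HypG ↥K ↥(H6.NK hKN) p := ⟨Fact.out, hp2, exists_zeta hK, inferInstance⟩
  obtain ⟨M₀, hM⟩ := hA p ↥K ↥(H6.NK hKN) hyp x
  obtain ⟨N', hNN', hN'S, hgal', hcycl⟩ := hcyc p S hpS K N hKN hNS hgal M₀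
  have := hN'S.1
  have : NumberField ↥(H6.NK (hKN.trans hNN')) := numberField_top (hKN.trans hNN')
  let _ : Algebra ↥(H6.NK hKN) ↥(H6.NK (hKN.trans hNN')) := algIncl hKN hNN'
  have : IsScalarTower ↥K ↥(H6.NK hKN) ↥(H6.NK (hKN.trans hNN')) := isScalarTower_incl hKN hNN'
  obtain ⟨z, hz⟩ := hM M₀ le_rfl ↥(H6.NK (hKN.trans hNN')) hgal' hcycl
  obtain ⟨z₀, hz₀N, hz₀coc, hz₀⟩ := hsurj K N' (hKN.trans hNN') z
  have hcx := hinf K N N' hKN hNN' c x hx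
  have h1 := (hmul K N' (hKN.trans hNN') z₀ z₀ z z hz₀ hz₀).2.2 p
  have h2 := (hmul K N' (hKN.trans hNN') c (fun t => z₀ t ^ p) _ _ hcx h1).2.1
  have h3 : infL ↥K ↥(H6.NK hKN) ↥(H6.NK (hKN.trans hNN')) 2 x - (p : ℤ) • z = 0 := by
    rw [hz, sub_self]
  obtain ⟨b, hbN, hb⟩ := (hzero K N' (hKN.trans hNN') _ _ h2).1 h3
  refine ⟨z₀, b, (IsLevN₂.isLevK₂ hN'S hz₀N).1, (IsLevN₂.isLevK₂ hN'S hz₀N).2, hz₀coc,
    (IsLevN₁.isLevK₁ hN'S hbN).1, (IsLevN₁.isLevK₁ hN'S hbN).2, fun t => ?_⟩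
  have := hb t
  rw [← this, mul_div_cancel]

/-! ### BRI-H3 -/

section h3

variable {p : ℕ} [Fact p.Prime] {K : IntermediateField ℚ Qb}

/-- `G_K` fixes the elements of `Kˣ`. -/
theorem smul_zeta_eq {ζ : Qbˣ} (hζK : (ζ : Qb) ∈ K) (g : ↥K.fixingSubgroup) : g • ζ = ζ := by
  apply Units.ext
  have := g.2
  rw [IntermediateField.mem_fixingSubgroup_iff] at this
  exact this _ hζK

/-- `mThree` of a `μ_p`-valued cochain with fixed `ζ`. -/
theorem mThree_zp {Δ : Type} [Group Δ] {X : Type} [CommGroup X]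
    [MulDistribMulAction Δ X] {ζ : X} (h1 : ζ ^ p = 1) (hfix : ∀ g : Δ, g • ζ = ζ)
    (f : Δ × Δ × Δ → ZMod p) :
    mThree (fun t => ζ ^ (f t).val) = fun t : Δ × Δ × Δ × Δ => ζ ^ (tThree f t).val := by
  funext ⟨g, h, k, l⟩
  simp only [mThree, tThree, smul_pow', hfix]
  rw [H24.zp_add h1, H24.zp_sub h1, H24.zp_add h1, H24.zp_sub h1]

end h3

/-- **BRI-H3** from REAL and CYC. -/
theorem briH3_of (hex : Stmt_R3_ex) (hmul : Stmt_R3_mul) (hzero : Stmt_R3_zero)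
    (hinf : Stmt_R3_inf) (hcyc : Stmt_CycTop) :
    Stmt_GS_BriH3 := by
  intro hA p _ hp2 S hpS K hK ζ hζK hζ x hx hlev
  obtain ⟨F, hF, hxF⟩ := hlev
  obtain ⟨N, hle, hNS, hNn⟩ := Fermat.Agent.S55.H48.exists_normal_level S (K ⊔ F)
    (hK.1.sup hF)
  have hKN : K ≤ N := le_sup_left.trans hle
  have hFN : F ≤ N := le_sup_right.trans hle
  have := hK.1.1
  have : NumberField ↥K := numberField_base K
  have := hNS.1
  have : NumberField ↥(H6.NK hKN) := numberField_top hKN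
  have hgal : IsGalois ↥K ↥(H6.NK hKN) := isGalois_top hKN hNn
  have hζp : ζ ^ p = 1 := hζ.pow_eq_one
  -- the cocycle `ζ^x`
  have hcN : IsLevN₃ K N (fun t => ζ ^ (x t).val) := by
    refine ⟨fun g₁ g₂ g₃ s₁ s₂ s₃ h₁ h₂ h₃ => ?_, fun t => ?_⟩
    · show ζ ^ (x _).val = ζ ^ (x _).val
      rw [hxF g₁ g₂ g₃ s₁ s₂ s₃ (IntermediateField.fixingSubgroup_antitone hFN h₁)
        (IntermediateField.fixingSubgroup_antitone hFN h₂)
        (IntermediateField.fixingSubgroup_antitone hFN h₃)]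
    · rw [Units.val_pow_eq_pow_val]
      exact hKN (pow_mem hζK _)
  have hcoc : mThree (fun t => ζ ^ (x t).val) = 1 := by
    rw [mThree_zp hζp (smul_zeta_eq hζK), hx]
    funext t
    simp
  obtain ⟨X, hX⟩ := hex K N hKN _ hcN hcoc
  -- `p • X = 0`
  have hpX : ((p : ℤ) ^ 1) • X = 0 := by
    rw [pow_one]
    refine (hzero K N hKN _ _ ((hmul K N hKN _ X hX).2 p)).2 ⟨fun _ => 1, ⟨fun _ _ _ _ _ _ => rfl,
      fun _ => by simp⟩, fun t => ?_⟩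
    show (ζ ^ (x t).val) ^ p = mTwo (fun _ => (1 : Qbˣ)) t
    rw [H24.zp_pow_p hζp]
    simp [mTwo]
  have hyp : HypG ↥K ↥(H6.NK hKN) p := ⟨Fact.out, hp2, exists_zeta hK, inferInstance⟩
  obtain ⟨M₀, hM⟩ := hA p ↥K ↥(H6.NK hKN) hyp
  obtain ⟨N', hNN', hN'S, hgal', hcycl⟩ := hcyc p S hpS K N hKN hNS hgal M₀
  have := hN'S.1
  have : NumberField ↥(H6.NK (hKN.trans hNN')) := numberField_top (hKN.trans hNN')
  let _ : Algebra ↥(H6.NK hKN) ↥(H6.NK (hKN.trans hNN')) := algIncl hKN hNN'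
  have : IsScalarTower ↥K ↥(H6.NK hKN) ↥(H6.NK (hKN.trans hNN')) := isScalarTower_incl hKN hNN'
  have h0 := hM M₀ le_rfl ↥(H6.NK (hKN.trans hNN')) hgal' hcycl 1 X hpX
  have hcX := hinf K N N' hKN hNN' _ X hX
  obtain ⟨y, hyN, hy⟩ := (hzero K N' (hKN.trans hNN') _ _ hcX).1 h0
  exact ⟨y, (IsLevN₂.isLevK₂ hN'S hyN).1, (IsLevN₂.isLevK₂ hN'S hyN).2, hy⟩

end Fermat.Agent.S55.CFT.GS.H64

end
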