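/-
S55 package E4, island GS, leaf **GS-LocKum** (helper78), part 1: the abstract form.

`Ω/k` Galois, `Ω` algebraically closed, `F` an intermediate field, `Γ = Gal(Ω/F)`, `ζ` a primitive
`p`-th root of unity fixed by `Γ`.  If the `μ_p`-valued 2-cochain `ζ ^ c` is the coboundary of a
locally level constant 1-cochain `β : Γ → Ωˣ`, then `c` is the coboundary of a locally level
constant 1-cochain `m : Γ → 𝔽_p`.

(`βᵖ` is a level constant 1-cocycle, so `βᵖ(g) = g v / v` by Hilbert 90 at a finite Galois level;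
`η = v^{1/p}`; `β(g) / (g η / η) = ζ ^ m(g)`; `d m = c`.)
-/
import Fermat.Agent.S55.CFT.LOC.H45_Kummer
import Fermat.Agent.S55.CFT.LOC.H68_FL
import Fermat.Agent.S55.CFT.GS.H6_H90

set_option autoImplicit false
set_option linter.unusedSectionVars false
set_option linter.style.haveILetI false

noncomputable section

namespace Fermat.Agent.S55.CFT.GS.H78

open Fermat.Agent.S55 Fermat.Agent.S55.Top Fermat.Agent.S55.CFT.LOC

section abs

variable {k Ω : Type} [Field k] [Field Ω] [Algebra k Ω] [IsGalois k Ω] [IsAlgClosed Ω]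
variable {p : ℕ} [Fact p.Prime] (F : IntermediateField k Ω)

/-- A function on `Γ` which is constant modulo the fixing subgroup of a finite extension takes
finitely many values. -/
theorem finite_range_of_loc {X : Type*} (β : ↥F.fixingSubgroup → X)
    (hβloc : ∃ E : IntermediateField k Ω, FiniteDimensional k E ∧
      ∀ g s : ↥F.fixingSubgroup, (s : Ω ≃ₐ[k] Ω) ∈ E.fixingSubgroup → β (g * s) = β g) :
    (Set.range β).Finite := by
  obtain ⟨E, hE, h⟩ := hβloc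
  haveI := hE
  obtain ⟨L, hLfin, hLgal, hEL⟩ := H68.exists_finLevel F E
  haveI := hLfin
  haveI := hLgal
  obtain ⟨f', hf'⟩ := H68.exists_factor₁ F L E hEL β h
  haveI : Finite (↥L ≃ₐ[↥F] ↥L) := inferInstance
  refine (Set.finite_range f').subset ?_
  rintro x ⟨g, rfl⟩
  exact ⟨H68.resΓ F L g, (hf' g).symm⟩

theorem ze_sub_add' {ζ : Ω} (hζ : IsPrimitiveRoot ζ p) (i j l : ZMod p) :
    H45.ze ζ (i - j + l) = H45.ze ζ i / H45.ze ζ j * H45.ze ζ l := by
  have h1 : H45.ze ζ (i - j) * H45.ze ζ j = H45.ze ζ i := by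
    rw [← H45.ze_add hζ, sub_add_cancel]
  rw [H45.ze_add hζ, ← h1, mul_div_assoc, div_self (H45.ze_ne_zero hζ j), mul_one]

/-- **GS-LocKum, abstract form.** -/
theorem lockum_abs {ζ : Ω} (hζ : IsPrimitiveRoot ζ p)
    (hζfix : ∀ g : ↥F.fixingSubgroup, (g : Ω ≃ₐ[k] Ω) ζ = ζ)
    (c : ↥F.fixingSubgroup × ↥F.fixingSubgroup → ZMod p)
    (β : ↥F.fixingSubgroup → Ω) (hβ0 : ∀ g, β g ≠ 0)
    (hβloc : ∃ E : IntermediateField k Ω, FiniteDimensional k E ∧
      ∀ g s : ↥F.fixingSubgroup, (s : Ω ≃ₐ[k] Ω) ∈ E.fixingSubgroup → β (g * s) = β g)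
    (hβ : ∀ g h : ↥F.fixingSubgroup,
      H45.ze ζ (c (g, h)) * β (g * h) = (g : Ω ≃ₐ[k] Ω) (β h) * β g) :
    ∃ m : ↥F.fixingSubgroup → ZMod p,
      (∃ E : IntermediateField k Ω, FiniteDimensional k E ∧
        ∀ g s : ↥F.fixingSubgroup, (s : Ω ≃ₐ[k] Ω) ∈ E.fixingSubgroup → m (g * s) = m g) ∧
      tOne m = c := by
  classical
  have hp : p.Prime := Fact.out
  have hfin := finite_range_of_loc F β hβloc
  obtain ⟨E, hE, hEβ⟩ := hβloc
  haveI := hE
  -- the field generated by `E` and the values of `β`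
  haveI : Finite ↥(Set.range β) := hfin.to_subtype
  haveI hT : FiniteDimensional k ↥(IntermediateField.adjoin k (Set.range β)) :=
    IntermediateField.finiteDimensional_adjoin
      (fun x _ => Algebra.IsIntegral.isIntegral (R := k) x)
  obtain ⟨L, hLfin, hLgal, hEL⟩ :=
    H68.exists_finLevel F (E ⊔ IntermediateField.adjoin k (Set.range β))
  haveI := hLfin
  haveI := hLgal
  have hEL' : ∀ x ∈ E, x ∈ L := fun x hx =>
    hEL x ((le_sup_left : E ≤ E ⊔ IntermediateField.adjoin k (Set.range β)) hx)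
  have hβL : ∀ g, β g ∈ L := fun g =>
    hEL _ ((le_sup_right : IntermediateField.adjoin k (Set.range β) ≤
      E ⊔ IntermediateField.adjoin k (Set.range β))
      (IntermediateField.subset_adjoin k _ ⟨g, rfl⟩))
  obtain ⟨f', hf'⟩ := H68.exists_factor₁ F L E hEL' β hEβ
  -- Hilbert 90 for `βᵖ`
  let bp : ↥F.fixingSubgroup → ↥L := fun g => ⟨β g, hβL g⟩ ^ p
  have hbp : ∀ g, ((bp g : ↥L) : Ω) = β g ^ p := fun g => rfl
  obtain ⟨v, hv0, hv⟩ := H6.hilbert90_abstract (K := ↥F) (L := ↥L) (H68.resΓ F L)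
    (H68.resΓ_surjective F L) bp
    (fun g h => by
      have h1 := congrArg (Subtype.val : ↥L → Ω) h
      rw [hbp] at h1
      exact pow_ne_zero p (hβ0 g) h1)
    (fun g g' h => by
      apply Subtype.ext
      rw [hbp, hbp, hf' g, hf' g', h])
    (fun g h => by
      apply Subtype.ext
      show β (g * h) ^ p = ((H68.resΓ F L g (bp h) : ↥L) : Ω) * β g ^ p
      rw [H68.resΓ_apply, hbp, map_pow, ← mul_pow, ← hβ g h, mul_pow, H45.ze_pow hζ, one_mul])
  have hv' : ∀ g : ↥F.fixingSubgroup, β g ^ p * (v : Ω) = (g : Ω ≃ₐ[k] Ω) (v : Ω) := by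
    intro g
    have h1 := congrArg (Subtype.val : ↥L → Ω) (hv g)
    rw [H68.resΓ_apply] at h1
    exact h1
  have hv0' : (v : Ω) ≠ 0 := fun h => hv0 (Subtype.ext h)
  -- the root `η` of `v`
  set η : Ω := H45.root p (v : Ω) with hηdef
  have hη : η ^ p = (v : Ω) := H45.root_pow _
  have hη0 : η ≠ 0 := by
    intro h
    rw [h, zero_pow hp.ne_zero] at hη
    exact hv0' hη.symm
  let w : ↥F.fixingSubgroup → Ω := fun γ => (γ : Ω ≃ₐ[k] Ω) η / η
  have hγη0 : ∀ γ : ↥F.fixingSubgroup, (γ : Ω ≃ₐ[k] Ω) η ≠ 0 := fun γ =>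
    (map_ne_zero_iff _ (γ : Ω ≃ₐ[k] Ω).injective).2 hη0
  have hw0 : ∀ γ, w γ ≠ 0 := fun γ => div_ne_zero (hγη0 γ) hη0
  have hwp : ∀ γ, w γ ^ p = β γ ^ p := by
    intro γ
    show ((γ : Ω ≃ₐ[k] Ω) η / η) ^ p = β γ ^ p
    rw [div_pow, ← map_pow, hη, ← hv' γ, mul_div_assoc, div_self hv0', mul_one]
  -- the cochain `m`
  have hex : ∀ γ, ∃ j : ZMod p, H45.ze ζ j = β γ / w γ := fun γ =>
    H45.exists_ze_eq hζ (by rw [div_pow, hwp, div_self (pow_ne_zero _ (hβ0 γ))])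
  choose m hm using hex
  refine ⟨m, ?_, ?_⟩
  · -- `m` is locally level constant
    have hηint : IsIntegral k η := Algebra.IsIntegral.isIntegral (R := k) η
    haveI : FiniteDimensional k ↥(IntermediateField.adjoin k {η}) :=
      IntermediateField.adjoin.finiteDimensional hηint
    refine ⟨E ⊔ IntermediateField.adjoin k {η}, inferInstance, ?_⟩
    intro γ s hs
    have hsE : (s : Ω ≃ₐ[k] Ω) ∈ E.fixingSubgroup := by
      rw [IntermediateField.mem_fixingSubgroup_iff] at hs ⊢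
      exact fun x hx => hs x ((le_sup_left : E ≤ _) hx)
    rw [IntermediateField.mem_fixingSubgroup_iff] at hs
    have hsη : (s : Ω ≃ₐ[k] Ω) η = η :=
      hs η ((le_sup_right : IntermediateField.adjoin k {η} ≤ _)
        (IntermediateField.mem_adjoin_simple_self k η))
    apply H45.ze_injective hζ
    rw [hm, hm, hEβ γ s hsE]
    have e3 : w (γ * s) = w γ := by
      show ((γ * s : ↥F.fixingSubgroup) : Ω ≃ₐ[k] Ω) η / η = (γ : Ω ≃ₐ[k] Ω) η / η
      rw [Subgroup.coe_mul, AlgEquiv.mul_apply, hsη]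
    rw [e3]
  · -- `d m = c`
    funext ⟨γ, δ⟩
    apply H45.ze_injective hζ
    have hw' : (γ : Ω ≃ₐ[k] Ω) (w δ) * w γ = w (γ * δ) := by
      show (γ : Ω ≃ₐ[k] Ω) ((δ : Ω ≃ₐ[k] Ω) η / η) * ((γ : Ω ≃ₐ[k] Ω) η / η) =
        ((γ * δ : ↥F.fixingSubgroup) : Ω ≃ₐ[k] Ω) η / η
      rw [Subgroup.coe_mul, AlgEquiv.mul_apply, map_div₀]
      have h8 := hγη0 γ
      field_simp
    have hA : H45.ze ζ (m δ) = (γ : Ω ≃ₐ[k] Ω) (β δ) / (γ : Ω ≃ₐ[k] Ω) (w δ) := by
      rw [← map_div₀, ← hm δ, H45.map_ze (hζfix γ)]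
    have hγw0 : (γ : Ω ≃ₐ[k] Ω) (w δ) ≠ 0 :=
      (map_ne_zero_iff _ (γ : Ω ≃ₐ[k] Ω).injective).2 (hw0 δ)
    have hβ' := hβ γ δ
    show H45.ze ζ (m δ - m (γ * δ) + m γ) = _
    rw [ze_sub_add' hζ, hA, hm, hm, ← hw']
    have h5 := hβ0 (γ * δ)
    have h6 := hβ0 γ
    have h7 := hw0 γ
    have h9 : (γ : Ω ≃ₐ[k] Ω) (β δ) * β γ = H45.ze ζ (c (γ, δ)) * β (γ * δ) := hβ'.symm
    field_simp
    rw [h9]
    ring

end abs

end Fermat.Agent.S55.CFT.GS.H78
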