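/-
S55 package E4, island GS, Layer B, package REAL, degree 3 (helper80), part 1 (abstract):
inhomogeneous cochains of `G` with values in a multiplicative `G`-module `M`, inflated along a
surjection `ρ : Γ → G` and an equivariant injection `ι : M → X`.
* `d2_apply`, `d3_apply`: explicit formulas for Mathlib's differentials in degrees 2, 3;
* `inflA`, `inflA_d2`, `inflA_d3`, `inflA_injective`, `exists_desc`;
* `RealA` (abstract realisation) with `realA_uniq`, `realA_pow`, `realA_ex3`, `realA_zero3`,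
  `realA_inf`.
-/
import Fermat.Agent.S55.CFT.GS.H64_BriDefs
import Fermat.Agent.S55.CFT.H19_CochN

set_option autoImplicit false
set_option linter.unusedSectionVars false

open CategoryTheory groupCohomology

noncomputable section

namespace Fermat.Agent.S55.CFT.GS.H80

open Fermat.Agent.S55.CFT Fermat.Agent.S55.CFT.GS Fermat.Agent.S55.CFT.GS.Bri

section dformulas

variable {G : Type} [Group G] (A : Rep.{0} ℤ G)

/-- Mathlib's `d³` of inhomogeneous cochains, written out. -/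
lemma d3_apply (f : (Fin 3 → G) → A.V) (g : Fin 4 → G) :
    (inhomogeneousCochains.d A 3).hom f g =
      A.ρ (g 0) (f ![g 1, g 2, g 3]) - f ![g 0 * g 1, g 2, g 3] + f ![g 0, g 1 * g 2, g 3]
        - f ![g 0, g 1, g 2 * g 3] + f ![g 0, g 1, g 2] := by
  rw [inhomogeneousCochains.d_hom_apply]
  have e0 : (fun i : Fin 3 => g i.succ) = ![g 1, g 2, g 3] := by
    funext k; fin_cases k <;> rfl
  have e1 : Fin.contractNth 0 (· * ·) g = ![g 0 * g 1, g 2, g 3] := by
    funext k; fin_cases k <;> simp [Fin.contractNth]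
  have e2 : Fin.contractNth 1 (· * ·) g = ![g 0, g 1 * g 2, g 3] := by
    funext k; fin_cases k <;> simp [Fin.contractNth]
  have e3 : Fin.contractNth 2 (· * ·) g = ![g 0, g 1, g 2 * g 3] := by
    funext k; fin_cases k <;> simp [Fin.contractNth]
  have e4 : Fin.contractNth 3 (· * ·) g = ![g 0, g 1, g 2] := by
    funext k; fin_cases k <;> simp [Fin.contractNth]
  rw [Fin.sum_univ_four, e0, e1, e2, e3, e4]
  have p1 : ((-1 : ℤ) ^ (((0 : Fin 4) : ℕ) + 1)) = -1 := by norm_num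
  have p2 : ((-1 : ℤ) ^ (((1 : Fin 4) : ℕ) + 1)) = 1 := by norm_num
  have p3 : ((-1 : ℤ) ^ (((2 : Fin 4) : ℕ) + 1)) = -1 := by norm_num
  have p4 : ((-1 : ℤ) ^ (((3 : Fin 4) : ℕ) + 1)) = 1 := by norm_num
  have h1 := fun x : A.V =>
    @one_smul ℤ A.V _ (@Module.toDistribMulAction ℤ A.V _ _ A.hV2).toMulAction x
  rw [p1, p2, p3, p4, neg_one_smul, neg_one_smul, h1, h1]
  simp only [sub_eq_add_neg, add_assoc]

/-- Mathlib's `d²` of inhomogeneous cochains, written out. -/
lemma d2_apply (f : (Fin 2 → G) → A.V) (g : Fin 3 → G) :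
    (inhomogeneousCochains.d A 2).hom f g =
      A.ρ (g 0) (f ![g 1, g 2]) - f ![g 0 * g 1, g 2] + f ![g 0, g 1 * g 2]
        - f ![g 0, g 1] := by
  rw [inhomogeneousCochains.d_hom_apply]
  have e0 : (fun i : Fin 2 => g i.succ) = ![g 1, g 2] := by
    funext k; fin_cases k <;> rfl
  have e1 : Fin.contractNth 0 (· * ·) g = ![g 0 * g 1, g 2] := by
    funext k; fin_cases k <;> simp [Fin.contractNth]
  have e2 : Fin.contractNth 1 (· * ·) g = ![g 0, g 1 * g 2] := by
    funext k; fin_cases k <;> simp [Fin.contractNth]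
  have e3 : Fin.contractNth 2 (· * ·) g = ![g 0, g 1] := by
    funext k; fin_cases k <;> simp [Fin.contractNth]
  rw [Fin.sum_univ_three, e0, e1, e2, e3]
  have p1 : ((-1 : ℤ) ^ (((0 : Fin 3) : ℕ) + 1)) = -1 := by norm_num
  have p2 : ((-1 : ℤ) ^ (((1 : Fin 3) : ℕ) + 1)) = 1 := by norm_num
  have p3 : ((-1 : ℤ) ^ (((2 : Fin 3) : ℕ) + 1)) = -1 := by norm_num
  have h1 := fun x : A.V =>
    @one_smul ℤ A.V _ (@Module.toDistribMulAction ℤ A.V _ _ A.hV2).toMulAction x
  rw [p1, p2, p3, neg_one_smul, neg_one_smul, h1]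
  simp only [sub_eq_add_neg, add_assoc]

end dformulas

section infl

variable {G : Type} [Group G] {M : Type} [CommGroup M] [MulDistribMulAction G M]
  {Γ : Type} [Group Γ] {X : Type} [CommGroup X] [MulDistribMulAction Γ X]
  (ρ : Γ →* G) (ι : M →* X)

/-- Abstract inflation of an `n`-cochain along `ρ : Γ → G`, `ι : M → X`. -/
def inflA (n : ℕ) (f : (Fin n → G) → (Rep.ofMulDistribMulAction G M : Rep.{0} ℤ G).V) :
    (Fin n → Γ) → X :=
  fun t => ι (Additive.toMul (f (fun i => ρ (t i))))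

lemma inflA_apply (n : ℕ) (f : (Fin n → G) → (Rep.ofMulDistribMulAction G M : Rep.{0} ℤ G).V)
    (t : Fin n → Γ) :
    inflA ρ ι n f t = ι (Additive.toMul (f (fun i => ρ (t i)))) := rfl

lemma comp_vec2 (g₁ g₂ : Γ) : (fun i => ρ (![g₁, g₂] i)) = ![ρ g₁, ρ g₂] := by
  funext k; fin_cases k <;> rfl

lemma comp_vec3 (g₁ g₂ g₃ : Γ) : (fun i => ρ (![g₁, g₂, g₃] i)) = ![ρ g₁, ρ g₂, ρ g₃] := by
  funext k; fin_cases k <;> rfl

lemma comp_vec4 (g₁ g₂ g₃ g₄ : Γ) :
    (fun i => ρ (![g₁, g₂, g₃, g₄] i)) = ![ρ g₁, ρ g₂, ρ g₃, ρ g₄] := by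
  funext k; fin_cases k <;> rfl

omit [Group Γ] [CommGroup X] [MulDistribMulAction Γ X] in
lemma toMul_add_rep (a b : (Rep.ofMulDistribMulAction G M : Rep.{0} ℤ G).V) :
    (Additive.toMul : Additive M ≃ M) (a + b) =
      (Additive.toMul : Additive M ≃ M) a * (Additive.toMul : Additive M ≃ M) b := rfl

omit [Group Γ] [CommGroup X] [MulDistribMulAction Γ X] in
lemma toMul_sub_rep (a b : (Rep.ofMulDistribMulAction G M : Rep.{0} ℤ G).V) :
    (Additive.toMul : Additive M ≃ M) (a - b) =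
      (Additive.toMul : Additive M ≃ M) a / (Additive.toMul : Additive M ≃ M) b := rfl

omit [Group Γ] [CommGroup X] [MulDistribMulAction Γ X] in
lemma toMul_zero_rep :
    (Additive.toMul : Additive M ≃ M) (0 : (Rep.ofMulDistribMulAction G M : Rep.{0} ℤ G).V) = 1 :=
  rfl

omit [Group Γ] [CommGroup X] [MulDistribMulAction Γ X] in
lemma toMul_rho_rep (g : G) (a : (Rep.ofMulDistribMulAction G M : Rep.{0} ℤ G).V) :
    (Additive.toMul : Additive M ≃ M) ((Rep.ofMulDistribMulAction G M : Rep.{0} ℤ G).ρ g a) =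
      g • (Additive.toMul : Additive M ≃ M) a := rfl

variable {ρ ι}

/-- Inflation commutes with `d²`. -/
lemma inflA_d2 (hρι : ∀ γ m, ι (ρ γ • m) = γ • ι m)
    (f : (Fin 2 → G) → (Rep.ofMulDistribMulAction G M : Rep.{0} ℤ G).V) (g₁ g₂ g₃ : Γ) :
    inflA ρ ι 3 ((inhomogeneousCochains.d (Rep.ofMulDistribMulAction G M) 2).hom f)
        ![g₁, g₂, g₃] =
      mTwo (fun t : Γ × Γ => inflA ρ ι 2 f ![t.1, t.2]) (g₁, g₂, g₃) := by
  simp only [inflA_apply, mTwo, comp_vec2, comp_vec3]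
  rw [d2_apply]
  simp only [Matrix.cons_val_zero, Matrix.cons_val_one, Matrix.cons_val, ← map_mul]
  rw [← hρι, toMul_sub_rep, toMul_add_rep, toMul_sub_rep, toMul_rho_rep, map_div, map_mul,
    map_div]

/-- Inflation commutes with `d³`. -/
lemma inflA_d3 (hρι : ∀ γ m, ι (ρ γ • m) = γ • ι m)
    (f : (Fin 3 → G) → (Rep.ofMulDistribMulAction G M : Rep.{0} ℤ G).V) (g₁ g₂ g₃ g₄ : Γ) :
    inflA ρ ι 4 ((inhomogeneousCochains.d (Rep.ofMulDistribMulAction G M) 3).hom f)
        ![g₁, g₂, g₃, g₄] =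
      mThree (fun t : Γ × Γ × Γ => inflA ρ ι 3 f ![t.1, t.2.1, t.2.2]) (g₁, g₂, g₃, g₄) := by
  simp only [inflA_apply, mThree, comp_vec3, comp_vec4]
  rw [d3_apply]
  simp only [Matrix.cons_val_zero, Matrix.cons_val_one, Matrix.cons_val, ← map_mul]
  rw [← hρι, toMul_add_rep, toMul_sub_rep, toMul_add_rep, toMul_sub_rep, toMul_rho_rep, map_mul,
    map_div, map_mul, map_div]

/-- Inflation is injective on cochains. -/
lemma inflA_injective (hρ : Function.Surjective ρ) (hι : Function.Injective ι) (n : ℕ)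
    (f f' : (Fin n → G) → (Rep.ofMulDistribMulAction G M : Rep.{0} ℤ G).V)
    (h : ∀ t, inflA ρ ι n f t = inflA ρ ι n f' t) : f = f' := by
  funext u
  choose s hs using hρ
  have h1 := h (fun i => s (u i))
  simp only [inflA_apply, hs] at h1
  exact Additive.toMul.injective (hι h1)

/-- A cochain on `Γ` which is constant along the fibres of `ρ` and has values in the range of `ι`
is an inflation. -/
lemma exists_desc (hρ : Function.Surjective ρ) (n : ℕ) (c : (Fin n → Γ) → X)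
    (hlev : ∀ t t' : Fin n → Γ, (∀ i, ρ (t i) = ρ (t' i)) → c t = c t')
    (hval : ∀ t, c t ∈ Set.range ι) :
    ∃ f : (Fin n → G) → (Rep.ofMulDistribMulAction G M : Rep.{0} ℤ G).V,
      ∀ t, inflA ρ ι n f t = c t := by
  choose s hs using hρ
  choose m hm using hval
  refine ⟨fun u => (Additive.ofMul : M ≃ Additive M) (m (fun i => s (u i))), fun t => ?_⟩
  change ι (m _) = c t
  rw [hm]
  exact hlev _ _ (fun i => hs _)

end infl

section realA

variable {G : Type} [Group G] {M : Type} [CommGroup M] [MulDistribMulAction G M]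
  {Γ : Type} [Group Γ] {X : Type} [CommGroup X] [MulDistribMulAction Γ X]
  (ρ : Γ →* G) (ι : M →* X)

/-- Abstract realisation: the cochain `c` on `Γ` is the inflation of a cocycle with class `x`. -/
def RealA (n : ℕ) (c : (Fin n → Γ) → X)
    (x : groupCohomology (Rep.ofMulDistribMulAction G M : Rep.{0} ℤ G) n) : Prop :=
  ∃ z : cocycles (Rep.ofMulDistribMulAction G M : Rep.{0} ℤ G) n,
    (∀ t, inflA ρ ι n (iCocycles _ n z) t = c t) ∧ π _ n z = x

variable {ρ ι}

lemma iCocycles_injective (n : ℕ) :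
    Function.Injective (iCocycles (Rep.ofMulDistribMulAction G M : Rep.{0} ℤ G) n) :=
  (ModuleCat.mono_iff_injective _).1 inferInstance

/-- The class of a cochain is unique. -/
theorem realA_uniq (hρ : Function.Surjective ρ) (hι : Function.Injective ι) (n : ℕ)
    (c : (Fin n → Γ) → X) (x x' : groupCohomology (Rep.ofMulDistribMulAction G M : Rep.{0} ℤ G) n)
    (h : RealA ρ ι n c x) (h' : RealA ρ ι n c x') : x = x' := by
  obtain ⟨z, hz, rfl⟩ := h
  obtain ⟨z', hz', rfl⟩ := h'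
  have : z = z' := by
    apply iCocycles_injective
    exact inflA_injective hρ hι n _ _ (fun t => (hz t).trans (hz' t).symm)
  rw [this]

/-- Powers correspond to multiples. -/
theorem realA_pow (n : ℕ) (c : (Fin n → Γ) → X)
    (x : groupCohomology (Rep.ofMulDistribMulAction G M : Rep.{0} ℤ G) n)
    (h : RealA ρ ι n c x) (m : ℕ) : RealA ρ ι n (fun t => c t ^ m) ((m : ℤ) • x) := by
  obtain ⟨z, hz, rfl⟩ := h
  refine ⟨(m : ℤ) • z, fun t => ?_, map_zsmul (π _ n).hom _ _⟩
  have h1 : iCocycles _ n ((m : ℤ) • z) = (m : ℤ) • iCocycles _ n z :=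
    map_zsmul (iCocycles _ n).hom _ _
  change _ = c t ^ m
  rw [← hz t, h1]
  simp only [inflA_apply]
  rw [← map_pow, ← zpow_natCast]
  rfl

omit [MulDistribMulAction Γ X] in
lemma vec3_eta (t : Fin 3 → Γ) : ![t 0, t 1, t 2] = t := by
  funext k; fin_cases k <;> rfl

omit [MulDistribMulAction Γ X] in
lemma vec4_eta (t : Fin 4 → Γ) : ![t 0, t 1, t 2, t 3] = t := by
  funext k; fin_cases k <;> rfl

omit [MulDistribMulAction Γ X] in
lemma vec2_eta (t : Fin 2 → Γ) : ![t 0, t 1] = t := by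
  funext k; fin_cases k <;> rfl

/-- Existence of the class of a level cocycle (degree 3). -/
theorem realA_ex3 (hρ : Function.Surjective ρ) (hι : Function.Injective ι)
    (hρι : ∀ γ m, ι (ρ γ • m) = γ • ι m) (c : Γ × Γ × Γ → X)
    (hlev : ∀ t t' : Fin 3 → Γ, (∀ i, ρ (t i) = ρ (t' i)) →
      c (t 0, t 1, t 2) = c (t' 0, t' 1, t' 2))
    (hval : ∀ t, c t ∈ Set.range ι) (hc : mThree c = 1) :
    ∃ x, RealA ρ ι 3 (fun t => c (t 0, t 1, t 2)) x := by
  obtain ⟨f, hf⟩ := exists_desc (ρ := ρ) (ι := ι) hρ 3 (fun t => c (t 0, t 1, t 2)) hlev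
    (fun t => hval _)
  have hd : (inhomogeneousCochains.d (Rep.ofMulDistribMulAction G M : Rep.{0} ℤ G) 3).hom f
      = 0 := by
    apply inflA_injective hρ hι 4
    intro t
    have h1 := inflA_d3 hρι f (t 0) (t 1) (t 2) (t 3)
    rw [vec4_eta] at h1
    rw [h1]
    have h2 : (fun t : Γ × Γ × Γ => inflA ρ ι 3 f ![t.1, t.2.1, t.2.2]) = c := by
      funext u
      exact hf _
    rw [h2, hc]
    change (1 : X) = ι 1
    rw [map_one]
  refine ⟨π _ 3 (cocyclesMk f hd), cocyclesMk f hd, fun t => ?_, rfl⟩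
  rw [iCocycles_mk]
  exact hf t

/-- Vanishing of the class (degree 3). -/
theorem realA_zero3 (hρ : Function.Surjective ρ) (hι : Function.Injective ι)
    (hρι : ∀ γ m, ι (ρ γ • m) = γ • ι m) (c : Γ × Γ × Γ → X)
    (x : groupCohomology (Rep.ofMulDistribMulAction G M : Rep.{0} ℤ G) 3)
    (h : RealA ρ ι 3 (fun t => c (t 0, t 1, t 2)) x) :
    x = 0 ↔ ∃ y : Γ × Γ → X,
      (∀ t t' : Fin 2 → Γ, (∀ i, ρ (t i) = ρ (t' i)) → y (t 0, t 1) = y (t' 0, t' 1)) ∧
      (∀ t, y t ∈ Set.range ι) ∧ ∀ t, c t = mTwo y t := by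
  obtain ⟨z, hz, rfl⟩ := h
  rw [H19.pi_eq_zero_iff]
  constructor
  · rintro ⟨u, hu⟩
    refine ⟨fun t => inflA ρ ι 2 u ![t.1, t.2], fun t t' htt' => ?_, fun t => ⟨_, rfl⟩,
      fun t => ?_⟩
    · simp only [inflA_apply]
      congr 3
      funext k
      fin_cases k
      · exact htt' 0
      · exact htt' 1
    · obtain ⟨g₁, g₂, g₃⟩ := t
      rw [← inflA_d2 hρι u g₁ g₂ g₃]
      have h1 := hz ![g₁, g₂, g₃]
      simp only [Matrix.cons_val_zero, Matrix.cons_val_one, Matrix.cons_val] at h1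
      rw [← h1]
      exact congrArg (fun f => inflA ρ ι 3 f ![g₁, g₂, g₃]) hu.symm
  · rintro ⟨y, hlev, hval, hy⟩
    obtain ⟨u, hu⟩ := exists_desc (ρ := ρ) (ι := ι) hρ 2 (fun t => y (t 0, t 1)) hlev
      (fun t => hval _)
    refine ⟨u, ?_⟩
    apply inflA_injective hρ hι 3
    intro t
    rw [hz t]
    have h1 := inflA_d2 hρι u (t 0) (t 1) (t 2)
    rw [vec3_eta] at h1
    change inflA ρ ι 3 ((inhomogeneousCochains.d _ 2).hom u) t = c (t 0, t 1, t 2)
    rw [h1, hy]
    congr 1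
    funext v
    exact hu _

end realA

section realInf

variable {G : Type} [Group G] {M : Type} [CommGroup M] [MulDistribMulAction G M]
  {G' : Type} [Group G'] {M' : Type} [CommGroup M'] [MulDistribMulAction G' M']
  {Γ : Type} [Group Γ] {X : Type} [CommGroup X] [MulDistribMulAction Γ X]
  {ρ : Γ →* G} {ι : M →* X} {ρ' : Γ →* G'} {ι' : M' →* X}

/-- Inflation in a tower is invisible on the `Γ`-side. -/
theorem realA_inf (r : G' →* G) (j : M →* M')
    (φ : Rep.res r (Rep.ofMulDistribMulAction G M : Rep.{0} ℤ G) ⟶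
      (Rep.ofMulDistribMulAction G' M' : Rep.{0} ℤ G'))
    (hφ : ∀ a : (Rep.ofMulDistribMulAction G M : Rep.{0} ℤ G).V,
      (Additive.toMul : Additive M' ≃ M') (φ.hom a) = j ((Additive.toMul : Additive M ≃ M) a))
    (hρ : ∀ γ, r (ρ' γ) = ρ γ) (hι : ∀ m, ι' (j m) = ι m) (n : ℕ) (c : (Fin n → Γ) → X)
    (x : groupCohomology (Rep.ofMulDistribMulAction G M : Rep.{0} ℤ G) n)
    (h : RealA ρ ι n c x) : RealA ρ' ι' n c ((map r φ n).hom x) := by
  obtain ⟨z, hz, rfl⟩ := h
  refine ⟨cocyclesMap r φ n z, fun t => ?_, ?_⟩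
  · have h1 : iCocycles _ n (cocyclesMap r φ n z) =
        ((cochainsMap r φ).f n).hom (iCocycles _ n z) :=
      congrArg (fun f => f.hom z) (HomologicalComplex.cyclesMap_i (cochainsMap r φ) n)
    have h2 : ∀ (F : (Fin n → G) → (Rep.ofMulDistribMulAction G M : Rep.{0} ℤ G).V)
        (t' : Fin n → G'),
        ((cochainsMap r φ).f n).hom F t' = φ.hom (F (fun i => r (t' i))) := fun _ _ => rfl
    rw [h1, ← hz t]
    simp only [inflA_apply]
    rw [← hι, ← hφ, h2]
    simp only [hρ]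
  · exact (congrArg (fun f => f.hom z) (π_map r φ n)).symm

end realInf

end Fermat.Agent.S55.CFT.GS.H80
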