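/-
S55/E4 island GS (helper24, coordinator): the wiring of the island from its OPEN leaves.

`wire_I2`, `wire_I3`, `wire_I4` : the targets `Top.Stmt_I2/I3/I4` of PT-LIN from the leaves that
were still open at 02:05Z:
* LOC-S (`Bri.Stmt_LocS`), RESLOC (`Bri.Stmt_ResLoc_fwd/bwd`),
* `Stmt_UnrNorm` (for `Stmt_BrTwo`).
Everything else (Layer C, Layer A, REAL, CYC, PL, LocKum, I1) is discharged here by the landed
unconditional results.
-/
import Fermat.Agent.S55.CFT.GS.H24_Final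
import Fermat.Agent.S55.CFT.GS.H24_LocOutRed
import Fermat.Agent.S55.CFT.GS.H64_BriAsm
import Fermat.Agent.S55.CFT.GS.H64_BriAsm2
import Fermat.Agent.S55.CFT.GS.H19_BriCyc
import Fermat.Agent.S55.CFT.GS.H19_BrTwoG
import Fermat.Agent.S55.CFT.GS.H31_H3G
import Fermat.Agent.S55.CFT.GS.H58_OneG
import Fermat.Agent.S55.CFT.GS.H72_HasseG
import Fermat.Agent.S55.CFT.GS.H56_BrDivUncond
import Fermat.Agent.S55.CFT.GS.H78_LocKum
import Fermat.Agent.S55.CFT.GS.H49_Real2Stmts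
import Fermat.Agent.S55.CFT.GS.H49_Real2Inf
import Fermat.Agent.S55.CFT.GS.H80_Real3
import Fermat.Agent.S55.CFT.H13_BRFinal
import Fermat.Agent.S55.CFT.H13_BRFinalOne
import Fermat.Agent.S55.CFT.H13_BRFinalTHL
import Fermat.Agent.S55.CFT.LOC.H5_I1

set_option autoImplicit false

noncomputable section

namespace Fermat.Agent.S55.CFT.GS.H24

open Fermat.Agent.S55 Fermat.Agent.S55.Top Fermat.Agent.S55.CFT Fermat.Agent.S55.CFT.GS
  Fermat.Agent.S55.CFT.GS.Bri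

/-- Layer A, Hasse (unconditional). -/
theorem wire_BrHasseG : Stmt_BrHasseG := H72.stmt_BrHasseG_of H13.stmt_BrHasse

/-- Layer A, One (unconditional). -/
theorem wire_BrOneG : Stmt_BrOneG := H58.stmt_BrOneG_of H13.stmt_BrHasse H13.stmt_BrOne

/-- Layer A, H3 (unconditional). -/
theorem wire_BrH3G : Stmt_BrH3G := H31.stmt_BrH3G_of H13.stmt_BrH3

/-- Layer A, Two. -/
theorem wire_BrTwoG (hUNN : Stmt_UnrNorm) : Stmt_BrTwoG :=
  H19.stmt_BrTwoG_of (H13.stmt_BrTwo_of_unn hUNN) H13.stmt_BrOne H13.stmt_BrHasse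

/-- LOC-OUT from LOC-S and RESLOC. -/
theorem wire_LocOut (hLocS : Stmt_LocS) (hFwd : Stmt_ResLoc_fwd) (hBwd : Stmt_ResLoc_bwd) :
    Stmt_LocOut :=
  locOut_of hLocS H49.stmt_R2_lev hFwd hBwd

/-- **I3** from LOC-S, RESLOC. -/
theorem wire_I3 (hLocS : Stmt_LocS) (hFwd : Stmt_ResLoc_fwd) (hBwd : Stmt_ResLoc_bwd) :
    Stmt_I3 :=
  gs_I3 wire_BrHasseG wire_BrOneG
    (H64.briHasse_of H49.stmt_R2_ex H49.stmt_R2_mul H49.stmt_R2_zero plEx plS hLocS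
      (wire_LocOut hLocS hFwd hBwd))
    (H64.briOne_of H49.stmt_R2_ex H49.stmt_R2_mul H49.stmt_R2_zero plEx plS hLocS
      (wire_LocOut hLocS hFwd hBwd))
    H78.stmt_GS_LocKum LOC.H5.stmt_I1

/-- **I4** from LOC-S, RESLOC, UNN. -/
theorem wire_I4 (hUNN : Stmt_UnrNorm)
    (hLocS : Stmt_LocS) (hFwd : Stmt_ResLoc_fwd) (hBwd : Stmt_ResLoc_bwd) :
    Stmt_I4 :=
  gs_I4 wire_BrOneG (wire_BrTwoG hUNN)
    (H64.briOne_of H49.stmt_R2_ex H49.stmt_R2_mul H49.stmt_R2_zero plEx plS hLocS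
      (wire_LocOut hLocS hFwd hBwd))
    (H64.briTwoIn_of H49.stmt_R2_surj H49.stmt_R2_mul H49.stmt_R2_zero H19.stmt_CycBase plS hLocS
      (wire_LocOut hLocS hFwd hBwd))
    H78.stmt_GS_LocKum LOC.H5.stmt_I1

/-- **I2** from LOC-S, RESLOC, UNN. -/
theorem wire_I2 (hUNN : Stmt_UnrNorm)
    (hLocS : Stmt_LocS) (hFwd : Stmt_ResLoc_fwd) (hBwd : Stmt_ResLoc_bwd) :
    Stmt_I2 :=
  gs_I2 (wire_BrTwoG hUNN) wire_BrH3G H56.stmt_BrDivG
    (H64.briTwoOut_of H49.stmt_R2_surj H49.stmt_R2_mul H49.stmt_R2_zero H19.stmt_CycBase plEq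
      (wire_LocOut hLocS hFwd hBwd))
    (H64.briH3_of H80.stmt_R3_ex H80.stmt_R3_mul H80.stmt_R3_zero H80.stmt_R3_inf
      H19.stmt_CycTop)
    (H64.briDiv_of H49.stmt_R2_ex H49.stmt_R2_surj H49.stmt_R2_mul H49.stmt_R2_zero
      H49.stmt_R2_inf H19.stmt_CycTop)

end Fermat.Agent.S55.CFT.GS.H24

end
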