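/-
S55 package E4, island GS, Layer B (bridge), sub-package LOC-S (sub-coordinator: helper68).
Plan: NOTES/plan/S55_LOCS.md.  Target: `Bri.Stmt_LocS` (`GS/H64_BriDefs.lean`).

This file: the LOCAL leaf LOCS-H90 (language of `LOC/Defs_L5.lean`: `Ω = PadicAlgCl q`,
`Γ = F₀.fixingSubgroup`, locally level constant cochains `IsLoc₁`).
-/
import Fermat.Agent.S55.CFT.LOC.Defs_L5

set_option autoImplicit false

noncomputable section

namespace Fermat.Agent.S55.CFT.GS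

open Fermat.Agent.S55.CFT

/-- **LOCS-H90** (local inflation is injective in degree 2, cochain form).  `F₀ ⊆ E` finite
extensions of `ℚ_q` inside `Ω = PadicAlgCl q`, `E/F₀` normal, `Γ = Gal(Ω/F₀)`.  Let `cw` be a
2-cochain of `Γ` with values in `Eˣ`, constant modulo `Gal(Ω/E)`, which is the coboundary of a
locally level constant `β : Γ → Ωˣ`.  Then `cw` is the coboundary of some `b : Γ → Eˣ` which is
constant modulo `Gal(Ω/E)`.
(Route = the middle part of `LOC.H68.norm_of_cup_coboundary` (`LOC/H68_CupND.lean`):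
`L ⊇ E` finite Galois over `F₀` containing the level of `β` (`LOC.H68.exists_finLevel`) and the
finitely many values of `β`; `β = β̄ ∘ resΓ` (`LOC.H68.exists_factor₁`), `cw = c̄ ∘ resΓ`;
`inf c̄ = d β̄` at level `L`, so `c̄` is a coboundary at level `E` by
`LOC.H68.inf_injective (LOC.H68.galois_infData F₀ E L)` (Hilbert 90 for `L/E`).) -/
def Stmt_LocS_H90 : Prop :=
  ∀ (q : ℕ) [Fact q.Prime] (F₀ E : IntermediateField ℚ_[q] (PadicAlgCl q)),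
    FiniteDimensional ℚ_[q] ↥F₀ → FiniteDimensional ℚ_[q] ↥E → F₀ ≤ E →
    (∀ h : PadicAlgCl q ≃ₐ[ℚ_[q]] PadicAlgCl q, h ∈ F₀.fixingSubgroup →
      ∀ x : PadicAlgCl q, x ∈ E → h x ∈ E) →
    ∀ (cw : ↥F₀.fixingSubgroup × ↥F₀.fixingSubgroup → PadicAlgCl q)
      (β : ↥F₀.fixingSubgroup → PadicAlgCl q),
      (∀ t, cw t ∈ E) → (∀ t, cw t ≠ 0) →
      (∀ h₁ h₂ s₁ s₂ : ↥F₀.fixingSubgroup,
        (s₁ : PadicAlgCl q ≃ₐ[ℚ_[q]] PadicAlgCl q) ∈ E.fixingSubgroup →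
        (s₂ : PadicAlgCl q ≃ₐ[ℚ_[q]] PadicAlgCl q) ∈ E.fixingSubgroup →
        cw (h₁ * s₁, h₂ * s₂) = cw (h₁, h₂)) →
      (∀ h, β h ≠ 0) → LOC.IsLoc₁ F₀.fixingSubgroup β →
      (∀ h₁ h₂ : ↥F₀.fixingSubgroup,
        cw (h₁, h₂) * β (h₁ * h₂) =
          (h₁ : PadicAlgCl q ≃ₐ[ℚ_[q]] PadicAlgCl q) (β h₂) * β h₁) →
      ∃ b : ↥F₀.fixingSubgroup → PadicAlgCl q, (∀ h, b h ≠ 0) ∧ (∀ h, b h ∈ E) ∧
        (∀ h s : ↥F₀.fixingSubgroup,
          (s : PadicAlgCl q ≃ₐ[ℚ_[q]] PadicAlgCl q) ∈ E.fixingSubgroup → b (h * s) = b h) ∧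
        ∀ h₁ h₂ : ↥F₀.fixingSubgroup,
          cw (h₁, h₂) * b (h₁ * h₂) =
            (h₁ : PadicAlgCl q ≃ₐ[ℚ_[q]] PadicAlgCl q) (b h₂) * b h₁

end Fermat.Agent.S55.CFT.GS

end
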