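/-
S55 package E4, island GS, Layer B (bridge), sub-package LOC-S, leaf LOCS-H90 (helper25).
Target: `GS.Stmt_LocS_H90` (`GS/H68_LocS_Defs2.lean`).

Route (the middle part of `LOC.H68.norm_of_cup_coboundary`): `L ⊇ E` finite Galois over `F₀`
containing the level of `β` and the finitely many values of `β`; `β = β̄ ∘ resΓ`,
`cw = c̄ ∘ resΓ`; `c̄` is a 2-cocycle of `Gal(E/F₀)` with values in `Eˣ`, `inf c̄ = d β̄` at
level `L`, so `c̄` is a coboundary at level `E` by `LOC.H68.inf_injective`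
(`LOC.H68.galois_infData`, Hilbert 90 for `L/E`).
-/
import Fermat.Agent.S55.CFT.GS.H68_LocS_Defs2
import Fermat.Agent.S55.CFT.LOC.H68_FL
import Fermat.Agent.S55.CFT.LOC.H68_GI
import Fermat.Agent.S55.CFT.LOC.H68_InfRes

set_option autoImplicit false
set_option linter.unusedSectionVars false
set_option linter.style.haveILetI false
set_option linter.unusedVariables false

namespace Fermat.Agent.S55.CFT.GS.H25

open Fermat.Agent.S55.CFT Fermat.Agent.S55.CFT.LOC groupCohomology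

attribute [local instance] LOC.H68.addDMA

section gen

variable {k Ω : Type} [Field k] [Field Ω] [Algebra k Ω] [IsGalois k Ω]

/-- normality of `E/F₀` from stability under `Gal(Ω/F₀)` -/
theorem normal_extendScalars (F₀ E : IntermediateField k Ω) (hle : F₀ ≤ E)
    (hst : ∀ h : Ω ≃ₐ[k] Ω, h ∈ F₀.fixingSubgroup → ∀ x : Ω, x ∈ E → h x ∈ E) :
    Normal ↥F₀ ↥(IntermediateField.extendScalars hle) := by
  rw [IntermediateField.normal_iff_forall_map_le']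
  intro σ x hx
  rw [IntermediateField.mem_map] at hx
  obtain ⟨y, hy, rfl⟩ := hx
  exact hst (((IntermediateField.fixingSubgroupEquiv F₀).symm σ : ↥F₀.fixingSubgroup) : Ω ≃ₐ[k] Ω)
    (Subtype.property _) y hy

/-- the multiplicative 2-cocycle identity for a multiplicative coboundary -/
theorem cocycle_of_coboundary_field {M : Type} [Field M]
    {X1 X2 Y3 X4 a b c P Q R : M} (ha : a ≠ 0) (hb : b ≠ 0) (hc : c ≠ 0)
    (e1 : X1 * a = P * b) (e2 : X2 * b = Q * R) (e3 : Y3 * c = P * Q) (e4 : X4 * a = c * R) :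
    X1 * X2 = Y3 * X4 := by
  have h : (X1 * X2 - Y3 * X4) * (a * b * c) = 0 := by
    linear_combination (X2 * b * c) * e1 + (P * b * c) * e2 - (X4 * a * b) * e3 -
      (P * Q * b) * e4
  have habc : a * b * c ≠ 0 := mul_ne_zero (mul_ne_zero ha hb) hc
  have := (mul_eq_zero.1 h).resolve_right habc
  exact sub_eq_zero.1 this

/-- **LOCS-H90**, general form. -/
theorem locS_h90_gen (F₀ E : IntermediateField k Ω) [FiniteDimensional k ↥E] (hle : F₀ ≤ E)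
    (hst : ∀ h : Ω ≃ₐ[k] Ω, h ∈ F₀.fixingSubgroup → ∀ x : Ω, x ∈ E → h x ∈ E)
    (cw : ↥F₀.fixingSubgroup × ↥F₀.fixingSubgroup → Ω) (β : ↥F₀.fixingSubgroup → Ω)
    (hcwE : ∀ t, cw t ∈ E) (hcw0 : ∀ t, cw t ≠ 0)
    (hcwc : ∀ h₁ h₂ s₁ s₂ : ↥F₀.fixingSubgroup, (s₁ : Ω ≃ₐ[k] Ω) ∈ E.fixingSubgroup →
      (s₂ : Ω ≃ₐ[k] Ω) ∈ E.fixingSubgroup → cw (h₁ * s₁, h₂ * s₂) = cw (h₁, h₂))
    (hβ0 : ∀ h, β h ≠ 0)
    (E' : IntermediateField k Ω) [FiniteDimensional k ↥E']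
    (hβloc : ∀ g s : ↥F₀.fixingSubgroup, (s : Ω ≃ₐ[k] Ω) ∈ E'.fixingSubgroup →
      β (g * s) = β g)
    (heq : ∀ h₁ h₂ : ↥F₀.fixingSubgroup,
      cw (h₁, h₂) * β (h₁ * h₂) = (h₁ : Ω ≃ₐ[k] Ω) (β h₂) * β h₁) :
    ∃ b : ↥F₀.fixingSubgroup → Ω, (∀ h, b h ≠ 0) ∧ (∀ h, b h ∈ E) ∧
      (∀ h s : ↥F₀.fixingSubgroup, (s : Ω ≃ₐ[k] Ω) ∈ E.fixingSubgroup → b (h * s) = b h) ∧
      ∀ h₁ h₂ : ↥F₀.fixingSubgroup,
        cw (h₁, h₂) * b (h₁ * h₂) = (h₁ : Ω ≃ₐ[k] Ω) (b h₂) * b h₁ := by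
  classical
  -- the level `E` over `F₀`
  let Erel : IntermediateField ↥F₀ Ω := IntermediateField.extendScalars hle
  haveI : Normal ↥F₀ ↥Erel := normal_extendScalars F₀ E hle hst
  -- first level: `β` has finitely many values
  obtain ⟨L₁, hL₁fd, hL₁gal, hE'L₁⟩ := H68.exists_finLevel F₀ E'
  haveI := hL₁fd
  haveI := hL₁gal
  obtain ⟨β₁, hβ₁⟩ := H68.exists_factor₁ F₀ L₁ E' hE'L₁ β hβloc
  haveI : Finite (↥L₁ ≃ₐ[↥F₀] ↥L₁) := inferInstance
  haveI : Finite ↥(Set.range β₁) := (Set.finite_range β₁).to_subtype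
  have hint : ∀ x ∈ Set.range β₁, IsIntegral k x := fun x _ => Algebra.IsIntegral.isIntegral x
  haveI : FiniteDimensional k ↥(IntermediateField.adjoin k (Set.range β₁)) :=
    IntermediateField.finiteDimensional_adjoin hint
  haveI : FiniteDimensional k ↥(E ⊔ E') := IntermediateField.finiteDimensional_sup _ _
  let E₀ : IntermediateField k Ω := E ⊔ E' ⊔ IntermediateField.adjoin k (Set.range β₁)
  haveI : FiniteDimensional k ↥E₀ := IntermediateField.finiteDimensional_sup _ _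
  obtain ⟨L, hLfd, hLgal, hE₀L⟩ := H68.exists_finLevel F₀ E₀
  haveI := hLfd
  haveI := hLgal
  have hEE₀ : E ≤ E₀ := le_sup_left.trans le_sup_left
  have hE'E₀ : E' ≤ E₀ := le_sup_right.trans le_sup_left
  have hβL : ∀ σ : ↥F₀.fixingSubgroup, β σ ∈ L := by
    intro σ
    apply hE₀L
    have h1 : β σ ∈ IntermediateField.adjoin k (Set.range β₁) :=
      IntermediateField.subset_adjoin k _ ⟨_, (hβ₁ σ).symm⟩
    exact (le_sup_right : IntermediateField.adjoin k (Set.range β₁) ≤ E₀) h1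
  have hEL : Erel ≤ L := fun x hx => hE₀L x (hEE₀ hx)
  -- the tower `F₀ ⊆ E ⊆ L`
  letI : Algebra ↥Erel ↥L := (IntermediateField.inclusion hEL).toRingHom.toAlgebra
  haveI : IsScalarTower ↥F₀ ↥Erel ↥L := IsScalarTower.of_algebraMap_eq (fun x => rfl)
  have GI := H68.galois_infData ↥F₀ ↥Erel ↥L
  have hcompat : ∀ σ : ↥F₀.fixingSubgroup,
      (AlgEquiv.restrictNormalHom ↥Erel : (↥L ≃ₐ[↥F₀] ↥L) →* (↥Erel ≃ₐ[↥F₀] ↥Erel))
          (H68.resΓ F₀ L σ) = H68.resΓ F₀ Erel σ := by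
    intro σ
    ext x
    have h1 := AlgEquiv.restrictNormal_commutes (H68.resΓ F₀ L σ) ↥Erel x
    have h2 := congrArg (Subtype.val : ↥L → Ω) h1
    have h4 : (((H68.resΓ F₀ L σ) (algebraMap ↥Erel ↥L x) : ↥L) : Ω) =
        (σ : Ω ≃ₐ[k] Ω) (x : Ω) :=
      H68.resΓ_apply F₀ L σ (algebraMap ↥Erel ↥L x)
    rw [H68.resΓ_apply]
    exact h2.trans h4
  -- the cochain `β` at level `L`
  let Xfun : ↥F₀.fixingSubgroup → Additive (↥L)ˣ := fun σ =>
    Additive.ofMul (Units.mk0 ⟨β σ, hβL σ⟩ (fun h => hβ0 σ (congrArg Subtype.val h)))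
  have hXloc : ∀ σ s : ↥F₀.fixingSubgroup, (s : Ω ≃ₐ[k] Ω) ∈ E₀.fixingSubgroup →
      Xfun (σ * s) = Xfun σ := by
    intro σ s hs
    have hs1 : (s : Ω ≃ₐ[k] Ω) ∈ E'.fixingSubgroup :=
      IntermediateField.fixingSubgroup_antitone hE'E₀ hs
    apply H68.additive_units_ext
    exact Subtype.ext (hβloc σ s hs1)
  obtain ⟨Xbar, hXbar⟩ := H68.exists_factor₁ F₀ L E₀ hE₀L Xfun hXloc
  -- the cochain `cw` at level `E`
  let Cfun : ↥F₀.fixingSubgroup × ↥F₀.fixingSubgroup → Additive (↥Erel)ˣ := fun t =>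
    Additive.ofMul (Units.mk0 ⟨cw t, hcwE t⟩ (fun h => hcw0 t (congrArg Subtype.val h)))
  have hCloc : ∀ g g' s s' : ↥F₀.fixingSubgroup, (s : Ω ≃ₐ[k] Ω) ∈ E.fixingSubgroup →
      (s' : Ω ≃ₐ[k] Ω) ∈ E.fixingSubgroup → Cfun (g * s, g' * s') = Cfun (g, g') := by
    intro g g' s s' hs hs'
    apply H68.additive_units_ext
    exact Subtype.ext (hcwc g g' s s' hs hs')
  obtain ⟨cbar, hcbar⟩ := H68.exists_factor₂ F₀ Erel E (fun x hx => hx) Cfun hCloc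
  -- `cbar` is a cocycle
  have hcoc : IsCocycle₂ cbar := by
    intro g h j
    obtain ⟨σ, rfl⟩ := H68.resΓ_surjective F₀ Erel g
    obtain ⟨τ, rfl⟩ := H68.resΓ_surjective F₀ Erel h
    obtain ⟨υ, rfl⟩ := H68.resΓ_surjective F₀ Erel j
    rw [← map_mul, ← map_mul, ← hcbar, ← hcbar, ← hcbar, ← hcbar]
    apply H68.additive_units_ext
    apply Subtype.ext
    show cw (σ * τ, υ) * cw (σ, τ) =
      ((H68.resΓ F₀ Erel σ) ⟨cw (τ, υ), hcwE (τ, υ)⟩ : Ω) * cw (σ, τ * υ)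
    rw [H68.resΓ_apply]
    show cw (σ * τ, υ) * cw (σ, τ) = (σ : Ω ≃ₐ[k] Ω) (cw (τ, υ)) * cw (σ, τ * υ)
    have e1 := heq (σ * τ) υ
    have e2 := heq σ τ
    have e3 := congrArg (σ : Ω ≃ₐ[k] Ω) (heq τ υ)
    have e4 := heq σ (τ * υ)
    rw [map_mul, map_mul] at e3
    rw [Subgroup.coe_mul, AlgEquiv.mul_apply] at e1
    rw [← mul_assoc] at e4
    exact cocycle_of_coboundary_field (hβ0 (σ * τ * υ)) (hβ0 (σ * τ))
      ((map_ne_zero (σ : Ω ≃ₐ[k] Ω)).2 (hβ0 (τ * υ))) e1 e2 e3 e4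
  -- inflation is injective
  have hcob : IsCoboundary₂ cbar := by
    refine H68.inf_injective GI cbar hcoc Xbar (fun s t => ?_)
    obtain ⟨σ, rfl⟩ := H68.resΓ_surjective F₀ L s
    obtain ⟨τ, rfl⟩ := H68.resΓ_surjective F₀ L t
    rw [← map_mul, ← hXbar, ← hXbar, ← hXbar, hcompat, hcompat, ← hcbar]
    apply H68.additive_units_ext
    apply Subtype.ext
    show ((H68.resΓ F₀ L σ) ⟨β τ, hβL τ⟩ : Ω) * (β (σ * τ))⁻¹ * β σ = cw (σ, τ)
    rw [H68.resΓ_apply]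
    show (σ : Ω ≃ₐ[k] Ω) (β τ) * (β (σ * τ))⁻¹ * β σ = cw (σ, τ)
    have hne := hβ0 (σ * τ)
    have := heq σ τ
    field_simp
    linear_combination -this
  obtain ⟨y, hy⟩ := hcob
  refine ⟨fun σ => (((Additive.toMul (y (H68.resΓ F₀ Erel σ)) : (↥Erel)ˣ) : ↥Erel) : Ω),
    fun σ => ?_, fun σ => ?_, fun σ s hs => ?_, fun σ τ => ?_⟩
  · intro h
    exact (Additive.toMul (y (H68.resΓ F₀ Erel σ)) : (↥Erel)ˣ).ne_zero (Subtype.ext h)
  · exact (((Additive.toMul (y (H68.resΓ F₀ Erel σ)) : (↥Erel)ˣ) : ↥Erel)).2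
  · have h1 : H68.resΓ F₀ Erel s = 1 := by
      rw [H68.resΓ_eq_one_iff]
      intro x hx
      exact (IntermediateField.mem_fixingSubgroup_iff E _).1 hs x hx
    show (((Additive.toMul (y (H68.resΓ F₀ Erel (σ * s))) : (↥Erel)ˣ) : ↥Erel) : Ω) = _
    rw [map_mul, h1, mul_one]
  · have h := hy (H68.resΓ F₀ Erel σ) (H68.resΓ F₀ Erel τ)
    rw [← hcbar, ← map_mul] at h
    have h' : H68.resΓ F₀ Erel σ • y (H68.resΓ F₀ Erel τ) + y (H68.resΓ F₀ Erel σ) =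
        Cfun (σ, τ) + y (H68.resΓ F₀ Erel (σ * τ)) := by
      rw [← h]; abel
    have h2 := congrArg
      (fun w : Additive (↥Erel)ˣ => (((Additive.toMul w : (↥Erel)ˣ) : ↥Erel) : Ω)) h'
    have h3 : ((H68.resΓ F₀ Erel σ)
          ((Additive.toMul (y (H68.resΓ F₀ Erel τ)) : (↥Erel)ˣ) : ↥Erel) : Ω) *
        (((Additive.toMul (y (H68.resΓ F₀ Erel σ)) : (↥Erel)ˣ) : ↥Erel) : Ω) =
        cw (σ, τ) *
          (((Additive.toMul (y (H68.resΓ F₀ Erel (σ * τ))) : (↥Erel)ˣ) : ↥Erel) : Ω) := h2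
    rw [H68.resΓ_apply] at h3
    exact h3.symm

end gen

/-- **LOCS-H90.** -/
theorem stmt_LocS_H90 : Stmt_LocS_H90 := by
  intro q _ F₀ E hF₀ hE hle hst cw β hcwE hcw0 hcwc hβ0 hβloc heq
  obtain ⟨E', hE'fd, hβl⟩ := hβloc
  haveI := hE
  haveI := hE'fd
  exact locS_h90_gen F₀ E hle hst cw β hcwE hcw0 hcwc hβ0 E' hβl heq

end Fermat.Agent.S55.CFT.GS.H25
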