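/-
S55 package E4, island GS, LAYER B (owner-planner: helper64): the local leaves of
`Bri.Stmt_ResLoc_bwd` / `Bri.Stmt_ResLoc_fwd` (`GS/H64_BriDefs2.lean`).
Plan: NOTES/plan/S55_GSB.md.

Language of `GS/H68_LocS_Defs2.lean` (`GS.Stmt_LocS_H90`): `Ω = PadicAlgCl q` with its norm,
`F₀ ⊆ E` finite extensions of `ℚ_q` inside `Ω`, `Γ = F₀.fixingSubgroup = Gal(Ω/F₀)`.

* `Stmt_UnrH2`  : `H²(Gal(E/F₀), U_E) = 0` for `E/F₀` unramified (cochain form).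
* `Stmt_UnrVal` : `ℚ_q(ι_q(σ N))` is unramified over `ℚ_q` (value group `q^ℤ`) if `N` is unramified
  at `q` in the sense of the prelude.
-/
import Fermat.Agent.S55.CFT.GS.H64_BriDefs2
import Fermat.Agent.S55.CFT.LOC.H45_Places

set_option autoImplicit false

open CategoryTheory groupCohomology ExtCitation

open scoped Pointwise

noncomputable section

namespace Fermat.Agent.S55.CFT.GS.Bri

open Fermat.Agent.S55 Fermat.Agent.S55.Top Fermat.Agent.S55.CFT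

local notation "Qb" => AlgebraicClosure ℚ

/-- **UNR-H2** (`H²(Gal(E/F₀), U_E) = 0` for unramified `E/F₀`, cochain form).
`F₀ ⊆ E` finite extensions of `ℚ_q` inside `Ω`, `E` stable under `Γ = Gal(Ω/F₀)`, the value group of
`E` is `q^ℤ` (so `E/ℚ_q` and `E/F₀` are unramified), `Gal(E/F₀)` is cyclic (generated by the image
of `φ`).  A 2-cocycle of `Γ` with values in the units of `E` (norm `1`), constant modulo
`Gal(Ω/E)`, is the coboundary of a 1-cochain with values in the units of `E`, constant modulo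
`Gal(Ω/E)`.
(Descend to `C = Gal(E/F₀)`; every class of `H²(C, M)`, `C` cyclic, is the class of a cyclic
cocycle `cyc a`, `a ∈ M^C`, and `[cyc a] = 0` iff `a` is a norm: `CFT/H19_CycAbs.lean`
(`exists_cycCl`, `cycCl_eq_zero_iff`) or `LOC/H68_CycCocycle.lean`; `M = U_E`, `M^C = U_{F₀}`;
units are norms of units: `LOC.H68.stmt_UnramNormUnits`; `IsUnram q F₀ E` from the value
group.) -/
def Stmt_UnrH2 : Prop :=
  ∀ (q : ℕ) [Fact q.Prime] (F₀ E : IntermediateField ℚ_[q] (PadicAlgCl q)),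
    FiniteDimensional ℚ_[q] ↥F₀ → FiniteDimensional ℚ_[q] ↥E → F₀ ≤ E →
    (∀ h : PadicAlgCl q ≃ₐ[ℚ_[q]] PadicAlgCl q, h ∈ F₀.fixingSubgroup →
      ∀ x : PadicAlgCl q, x ∈ E → h x ∈ E) →
    (∀ y : PadicAlgCl q, y ∈ E → y ≠ 0 → ∃ k : ℤ, ‖y‖ = ‖((q : ℕ) : PadicAlgCl q)‖ ^ k) →
    (∃ φ : ↥F₀.fixingSubgroup, ∀ h : ↥F₀.fixingSubgroup, ∃ (n : ℕ) (s : ↥F₀.fixingSubgroup),
      (s : PadicAlgCl q ≃ₐ[ℚ_[q]] PadicAlgCl q) ∈ E.fixingSubgroup ∧ h = φ ^ n * s) →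
    ∀ cw : ↥F₀.fixingSubgroup × ↥F₀.fixingSubgroup → PadicAlgCl q,
      (∀ t, cw t ∈ E) → (∀ t, ‖cw t‖ = 1) →
      (∀ h₁ h₂ s₁ s₂ : ↥F₀.fixingSubgroup,
        (s₁ : PadicAlgCl q ≃ₐ[ℚ_[q]] PadicAlgCl q) ∈ E.fixingSubgroup →
        (s₂ : PadicAlgCl q ≃ₐ[ℚ_[q]] PadicAlgCl q) ∈ E.fixingSubgroup →
        cw (h₁ * s₁, h₂ * s₂) = cw (h₁, h₂)) →
      (∀ h₁ h₂ h₃ : ↥F₀.fixingSubgroup,
        (h₁ : PadicAlgCl q ≃ₐ[ℚ_[q]] PadicAlgCl q) (cw (h₂, h₃)) * cw (h₁, h₂ * h₃) =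
          cw (h₁ * h₂, h₃) * cw (h₁, h₂)) →
      ∃ u : ↥F₀.fixingSubgroup → PadicAlgCl q, (∀ h, u h ∈ E) ∧ (∀ h, ‖u h‖ = 1) ∧
        (∀ h s : ↥F₀.fixingSubgroup,
          (s : PadicAlgCl q ≃ₐ[ℚ_[q]] PadicAlgCl q) ∈ E.fixingSubgroup → u (h * s) = u h) ∧
        ∀ h₁ h₂ : ↥F₀.fixingSubgroup,
          cw (h₁, h₂) * u (h₁ * h₂) =
            (h₁ : PadicAlgCl q ≃ₐ[ℚ_[q]] PadicAlgCl q) (u h₂) * u h₁

/-- **UNR-VAL** (the completion of a field unramified at `q` is unramified): if `N` is unramified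
outside `S` and `q ∉ S`, the value group of `ℚ_q(ι_q(σ N))` (`LOC.H45P.Floc`) is `q^ℤ`.
(For `y ∈ N`: `|ι σ y| = |y|_A`, `A = σ⁻¹ • primeLocalPlace q`, and `ord_A(y) ∈ ℤ`
(`H6.isOrd_ordS`); `ι σ N` is dense in `ℚ_q(ι σ N) = ℚ_q · ι σ N`: approximate the coefficients by
rational numbers.) -/
def Stmt_UnrVal : Prop :=
  ∀ (S : Finset Nat.Primes) (N : IntermediateField ℚ Qb), N.IsUnramifiedOutside S →
    ∀ (q : ℕ) [Fact q.Prime], (∀ q' : Nat.Primes, (q' : ℕ) = q → q' ∉ S) → ∀ σ : GQ,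
    ∀ y : PadicAlgCl q, y ∈ LOC.H45P.Floc q N σ → y ≠ 0 →
      ∃ k : ℤ, ‖y‖ = ‖((q : ℕ) : PadicAlgCl q)‖ ^ k

end Fermat.Agent.S55.CFT.GS.Bri

end
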