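/-
S55 package E4, island GS, Layer B, leaf UNR-H2 (helper68): the split of `Bri.Stmt_UnrH2`
(`GS/H64_ResLocDefs.lean`) into
* `H68.Stmt_UnrH2_Core` : the vanishing at the level of `Δ = Gal(E/F₀)` (helper68);
* the descent `Stmt_UnrH2_Core → Bri.Stmt_UnrH2` (`cw = c ∘ resΓ`, `u = ū ∘ resΓ`,
  `LOC.H68.exists_factor₂`, `LOC.H68.resΓ_apply`; the plumbing of `GS.H25.locS_h90_gen`).
-/
import Fermat.Agent.S55.CFT.GS.H64_ResLocDefs

set_option autoImplicit false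

noncomputable section

namespace Fermat.Agent.S55.CFT.GS.H68

/-- **UNR-H2, core** (`H²(Gal(E/F₀), U_E) = 0`, `E/F₀` unramified, at the level of
`Δ = Gal(E/F₀)`, `E` as the intermediate field `extendScalars hle` of `Ω/F₀`): a 2-cocycle of `Δ`
with values of norm `1` in `E` is the coboundary of a 1-cochain with values of norm `1`. -/
def Stmt_UnrH2_Core : Prop :=
  ∀ (q : ℕ) [Fact q.Prime] (F₀ E : IntermediateField ℚ_[q] (PadicAlgCl q)),
    FiniteDimensional ℚ_[q] ↥F₀ → FiniteDimensional ℚ_[q] ↥E → ∀ hle : F₀ ≤ E,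
    (∀ h : PadicAlgCl q ≃ₐ[ℚ_[q]] PadicAlgCl q, h ∈ F₀.fixingSubgroup →
      ∀ x : PadicAlgCl q, x ∈ E → h x ∈ E) →
    (∀ y : PadicAlgCl q, y ∈ E → y ≠ 0 → ∃ k : ℤ, ‖y‖ = ‖((q : ℕ) : PadicAlgCl q)‖ ^ k) →
    (∃ φ : ↥F₀.fixingSubgroup, ∀ h : ↥F₀.fixingSubgroup, ∃ (n : ℕ) (s : ↥F₀.fixingSubgroup),
      (s : PadicAlgCl q ≃ₐ[ℚ_[q]] PadicAlgCl q) ∈ E.fixingSubgroup ∧ h = φ ^ n * s) →
    ∀ c : (↥(IntermediateField.extendScalars hle) ≃ₐ[↥F₀] ↥(IntermediateField.extendScalars hle)) ×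
        (↥(IntermediateField.extendScalars hle) ≃ₐ[↥F₀] ↥(IntermediateField.extendScalars hle)) →
        ↥(IntermediateField.extendScalars hle),
      (∀ t, ‖((c t : ↥(IntermediateField.extendScalars hle)) : PadicAlgCl q)‖ = 1) →
      (∀ τ₁ τ₂ τ₃ : ↥(IntermediateField.extendScalars hle) ≃ₐ[↥F₀]
          ↥(IntermediateField.extendScalars hle),
        τ₁ (c (τ₂, τ₃)) * c (τ₁, τ₂ * τ₃) = c (τ₁ * τ₂, τ₃) * c (τ₁, τ₂)) →
      ∃ u : (↥(IntermediateField.extendScalars hle) ≃ₐ[↥F₀]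
          ↥(IntermediateField.extendScalars hle)) → ↥(IntermediateField.extendScalars hle),
        (∀ τ, ‖((u τ : ↥(IntermediateField.extendScalars hle)) : PadicAlgCl q)‖ = 1) ∧
        ∀ τ₁ τ₂ : ↥(IntermediateField.extendScalars hle) ≃ₐ[↥F₀]
            ↥(IntermediateField.extendScalars hle),
          c (τ₁, τ₂) * u (τ₁ * τ₂) = τ₁ (u τ₂) * u τ₁

end Fermat.Agent.S55.CFT.GS.H68

end
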