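/-
S55 package E4, island GS, Layer B, leaf UNR-H2, the DESCENT (helper25):
`H68.Stmt_UnrH2_Core → Bri.Stmt_UnrH2` (`GS/H68_UnrH2_Defs.lean`, `GS/H64_ResLocDefs.lean`).
`cw = c ∘ resΓ` (`LOC.H68.exists_factor₂`), `u = ū ∘ resΓ`.
-/
import Fermat.Agent.S55.CFT.GS.H68_UnrH2_Defs
import Fermat.Agent.S55.CFT.GS.H25_LocSH90

set_option autoImplicit false
set_option linter.unusedSectionVars false
set_option linter.style.haveILetI false
set_option linter.unusedVariables false

namespace Fermat.Agent.S55.CFT.GS.H25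

open Fermat.Agent.S55.CFT Fermat.Agent.S55.CFT.LOC

/-- **UNR-H2, descent.** -/
theorem stmt_UnrH2_of (hcore : H68.Stmt_UnrH2_Core) : Bri.Stmt_UnrH2 := by
  intro q _ F₀ E hF₀ hE hle hst hval hcyc cw hcwE hcwn hcwc hcoc
  classical
  haveI : Normal ↥F₀ ↥(IntermediateField.extendScalars hle) :=
    normal_extendScalars F₀ E hle hst
  -- the cochain at the level of `Δ`
  let Cfun : ↥F₀.fixingSubgroup × ↥F₀.fixingSubgroup → ↥(IntermediateField.extendScalars hle) :=
    fun t => ⟨cw t, hcwE t⟩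
  have hCloc : ∀ g g' s s' : ↥F₀.fixingSubgroup,
      (s : PadicAlgCl q ≃ₐ[ℚ_[q]] PadicAlgCl q) ∈ E.fixingSubgroup →
      (s' : PadicAlgCl q ≃ₐ[ℚ_[q]] PadicAlgCl q) ∈ E.fixingSubgroup →
      Cfun (g * s, g' * s') = Cfun (g, g') := by
    intro g g' s s' hs hs'
    exact Subtype.ext (hcwc g g' s s' hs hs')
  obtain ⟨cbar, hcbar⟩ := LOC.H68.exists_factor₂ F₀ (IntermediateField.extendScalars hle) E
    (fun x hx => hx) Cfun hCloc
  have hcbar' : ∀ g h : ↥F₀.fixingSubgroup,
      ((cbar (LOC.H68.resΓ F₀ (IntermediateField.extendScalars hle) g,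
        LOC.H68.resΓ F₀ (IntermediateField.extendScalars hle) h) :
          ↥(IntermediateField.extendScalars hle)) : PadicAlgCl q) = cw (g, h) := by
    intro g h
    rw [← hcbar]
  obtain ⟨ubar, hun, hueq⟩ := hcore q F₀ E hF₀ hE hle hst hval hcyc cbar
    (by
      rintro ⟨τ₁, τ₂⟩
      obtain ⟨σ₁, rfl⟩ := LOC.H68.resΓ_surjective F₀ (IntermediateField.extendScalars hle) τ₁
      obtain ⟨σ₂, rfl⟩ := LOC.H68.resΓ_surjective F₀ (IntermediateField.extendScalars hle) τ₂
      rw [hcbar']
      exact hcwn _)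
    (by
      intro τ₁ τ₂ τ₃
      obtain ⟨σ₁, rfl⟩ := LOC.H68.resΓ_surjective F₀ (IntermediateField.extendScalars hle) τ₁
      obtain ⟨σ₂, rfl⟩ := LOC.H68.resΓ_surjective F₀ (IntermediateField.extendScalars hle) τ₂
      obtain ⟨σ₃, rfl⟩ := LOC.H68.resΓ_surjective F₀ (IntermediateField.extendScalars hle) τ₃
      apply Subtype.ext
      rw [← map_mul, ← map_mul]
      show ((LOC.H68.resΓ F₀ (IntermediateField.extendScalars hle) σ₁ _ :
          ↥(IntermediateField.extendScalars hle)) : PadicAlgCl q) * _ = _ * _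
      rw [LOC.H68.resΓ_apply, hcbar', hcbar', hcbar', hcbar']
      exact hcoc σ₁ σ₂ σ₃)
  refine ⟨fun h => ((ubar (LOC.H68.resΓ F₀ (IntermediateField.extendScalars hle) h) :
      ↥(IntermediateField.extendScalars hle)) : PadicAlgCl q), fun h => ?_, fun h => hun _,
    fun h s hs => ?_, fun h₁ h₂ => ?_⟩
  · exact (ubar (LOC.H68.resΓ F₀ (IntermediateField.extendScalars hle) h)).2
  · have h1 : LOC.H68.resΓ F₀ (IntermediateField.extendScalars hle) s = 1 := by
      rw [LOC.H68.resΓ_eq_one_iff]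
      intro x hx
      exact (IntermediateField.mem_fixingSubgroup_iff E _).1 hs x hx
    show ((ubar (LOC.H68.resΓ F₀ (IntermediateField.extendScalars hle) (h * s)) :
      ↥(IntermediateField.extendScalars hle)) : PadicAlgCl q) = _
    rw [map_mul, h1, mul_one]
  · have h := hueq (LOC.H68.resΓ F₀ (IntermediateField.extendScalars hle) h₁)
      (LOC.H68.resΓ F₀ (IntermediateField.extendScalars hle) h₂)
    have h2 := congrArg (Subtype.val : ↥(IntermediateField.extendScalars hle) → PadicAlgCl q) h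
    rw [← map_mul] at h2
    have h3 : ((cbar (LOC.H68.resΓ F₀ (IntermediateField.extendScalars hle) h₁,
          LOC.H68.resΓ F₀ (IntermediateField.extendScalars hle) h₂) :
          ↥(IntermediateField.extendScalars hle)) : PadicAlgCl q) *
        ((ubar (LOC.H68.resΓ F₀ (IntermediateField.extendScalars hle) (h₁ * h₂)) :
          ↥(IntermediateField.extendScalars hle)) : PadicAlgCl q) =
        ((LOC.H68.resΓ F₀ (IntermediateField.extendScalars hle) h₁
          (ubar (LOC.H68.resΓ F₀ (IntermediateField.extendScalars hle) h₂)) :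
          ↥(IntermediateField.extendScalars hle)) : PadicAlgCl q) *
        ((ubar (LOC.H68.resΓ F₀ (IntermediateField.extendScalars hle) h₁) :
          ↥(IntermediateField.extendScalars hle)) : PadicAlgCl q) := h2
    rw [LOC.H68.resΓ_apply, hcbar'] at h3
    exact h3

end Fermat.Agent.S55.CFT.GS.H25
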