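/-
S55 package E4, island GS, LAYER B (helper64): `Bri.Stmt_ResLoc_bwd`, local core.

`local_core`: `F₀ ⊆ E` finite over `ℚ_q` inside `Ω`, `E/F₀` unramified and cyclic; `cw` a 2-cocycle
of `Γ = Gal(Ω/F₀)` with values in `Eˣ`, constant modulo `Gal(Ω/E)`, with `cwᵖ = d(bw)` and
`|bw(h)| ∈ q^{pℤ}`.  Then `cw = d β` with `β` constant modulo `Gal(Ω/E)`.
(`β₀ = q^m`, `|bw| = |q|^{p m}`; `cw / d β₀` has values in the units of `E`; `Bri.Stmt_UnrH2`.)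
-/
import Fermat.Agent.S55.CFT.GS.H64_ResLocDefs
import Fermat.Agent.Lib.LocalKummer.QpUnits

set_option autoImplicit false

noncomputable section

namespace Fermat.Agent.S55.CFT.GS.H64

open Fermat.Agent.S55.CFT.GS.Bri

section core

variable (q : ℕ) [Fact q.Prime]

local notation "Ω" => PadicAlgCl q

theorem norm_q_pos : 0 < ‖((q : ℕ) : Ω)‖ := by
  rw [Fermat.Agent.Lib.LocalKummer.norm_natCast_p]
  have : (0 : ℝ) < q := by exact_mod_cast (Fact.out : q.Prime).pos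
  positivity

theorem norm_q_ne_one : ‖((q : ℕ) : Ω)‖ ≠ 1 := by
  rw [Fermat.Agent.Lib.LocalKummer.norm_natCast_p]
  have h1 : (1 : ℝ) < q := by exact_mod_cast (Fact.out : q.Prime).one_lt
  intro h
  rw [inv_eq_one] at h
  linarith

theorem natCast_q_ne_zero : ((q : ℕ) : Ω) ≠ 0 := by
  intro h
  have := norm_q_pos q
  rw [h, norm_zero] at this
  exact lt_irrefl _ this

/-- The local core of `RESLOC (⟸)`. -/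
theorem local_core (hH2 : Stmt_UnrH2) (p : ℕ) (hp : 0 < p)
    (F₀ E : IntermediateField ℚ_[q] Ω)
    (hF₀ : FiniteDimensional ℚ_[q] ↥F₀) (hE : FiniteDimensional ℚ_[q] ↥E) (hle : F₀ ≤ E)
    (hstab : ∀ h : Ω ≃ₐ[ℚ_[q]] Ω, h ∈ F₀.fixingSubgroup → ∀ x : Ω, x ∈ E → h x ∈ E)
    (hval : ∀ y : Ω, y ∈ E → y ≠ 0 → ∃ k : ℤ, ‖y‖ = ‖((q : ℕ) : Ω)‖ ^ k)
    (hcyc : ∃ φ : ↥F₀.fixingSubgroup, ∀ h : ↥F₀.fixingSubgroup,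
      ∃ (n : ℕ) (s : ↥F₀.fixingSubgroup),
        (s : Ω ≃ₐ[ℚ_[q]] Ω) ∈ E.fixingSubgroup ∧ h = φ ^ n * s)
    (cw : ↥F₀.fixingSubgroup × ↥F₀.fixingSubgroup → Ω) (bw : ↥F₀.fixingSubgroup → Ω)
    (hcwE : ∀ t, cw t ∈ E)
    (hcwlev : ∀ h₁ h₂ s₁ s₂ : ↥F₀.fixingSubgroup,
      (s₁ : Ω ≃ₐ[ℚ_[q]] Ω) ∈ E.fixingSubgroup → (s₂ : Ω ≃ₐ[ℚ_[q]] Ω) ∈ E.fixingSubgroup →
      cw (h₁ * s₁, h₂ * s₂) = cw (h₁, h₂))
    (hcwcoc : ∀ h₁ h₂ h₃ : ↥F₀.fixingSubgroup,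
      (h₁ : Ω ≃ₐ[ℚ_[q]] Ω) (cw (h₂, h₃)) * cw (h₁, h₂ * h₃) = cw (h₁ * h₂, h₃) * cw (h₁, h₂))
    (hbwlev : ∀ h s : ↥F₀.fixingSubgroup, (s : Ω ≃ₐ[ℚ_[q]] Ω) ∈ E.fixingSubgroup →
      bw (h * s) = bw h)
    (hpow : ∀ h₁ h₂ : ↥F₀.fixingSubgroup,
      cw (h₁, h₂) ^ p * bw (h₁ * h₂) = (h₁ : Ω ≃ₐ[ℚ_[q]] Ω) (bw h₂) * bw h₁)
    (hres : ∀ h : ↥F₀.fixingSubgroup, ∃ k : ℤ, ‖bw h‖ = ‖((q : ℕ) : Ω)‖ ^ ((p : ℤ) * k)) :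
    ∃ β : ↥F₀.fixingSubgroup → Ω, (∀ h, β h ≠ 0) ∧
      (∀ h s : ↥F₀.fixingSubgroup, (s : Ω ≃ₐ[ℚ_[q]] Ω) ∈ E.fixingSubgroup → β (h * s) = β h) ∧
      ∀ h₁ h₂ : ↥F₀.fixingSubgroup,
        cw (h₁, h₂) * β (h₁ * h₂) = (h₁ : Ω ≃ₐ[ℚ_[q]] Ω) (β h₂) * β h₁ := by
  classical
  have hq0 := norm_q_pos q
  have hq1 := norm_q_ne_one q
  have hqne := natCast_q_ne_zero q
  have hp0 : (p : ℤ) ≠ 0 := by exact_mod_cast hp.ne'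
  -- the exponents
  choose m hm using hres
  have hbw0 : ∀ h, bw h ≠ 0 := by
    intro h h0
    have := hm h
    rw [h0, norm_zero] at this
    exact (zpow_pos hq0 _).ne this
  have hmlev : ∀ h s : ↥F₀.fixingSubgroup, (s : Ω ≃ₐ[ℚ_[q]] Ω) ∈ E.fixingSubgroup →
      m (h * s) = m h := by
    intro h s hs
    have h1 : ‖((q : ℕ) : Ω)‖ ^ ((p : ℤ) * m (h * s)) = ‖((q : ℕ) : Ω)‖ ^ ((p : ℤ) * m h) := by
      rw [← hm, ← hm, hbwlev h s hs]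
    have h2 := zpow_right_injective₀ hq0 hq1 h1
    exact mul_left_cancel₀ hp0 h2
  -- `β₀ = q ^ m`
  set β₀ : ↥F₀.fixingSubgroup → Ω := fun h => ((q : ℕ) : Ω) ^ (m h) with hβ₀
  have hβ₀0 : ∀ h, β₀ h ≠ 0 := fun h => zpow_ne_zero _ hqne
  have hβ₀fix : ∀ (g : Ω ≃ₐ[ℚ_[q]] Ω) (h : ↥F₀.fixingSubgroup), g (β₀ h) = β₀ h := by
    intro g h
    simp only [hβ₀, map_zpow₀, map_natCast]
  have hβ₀E : ∀ h, β₀ h ∈ E := fun h => zpow_mem (natCast_mem E q) _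
  have hβ₀norm : ∀ h, ‖β₀ h‖ ^ p = ‖bw h‖ := by
    intro h
    rw [hm h, hβ₀, norm_zpow, ← zpow_natCast, ← zpow_mul, mul_comm]
  -- the unit valued cocycle
  set c' : ↥F₀.fixingSubgroup × ↥F₀.fixingSubgroup → Ω :=
    fun t => cw t * β₀ (t.1 * t.2) / (β₀ t.2 * β₀ t.1) with hc'
  have hcw0 : ∀ t, cw t ≠ 0 := by
    rintro ⟨h₁, h₂⟩ h0
    have := hpow h₁ h₂
    rw [h0, zero_pow hp.ne', zero_mul] at this
    exact mul_ne_zero ((map_ne_zero _).mpr (hbw0 h₂)) (hbw0 h₁) this.symm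
  have hc'E : ∀ t, c' t ∈ E := fun t =>
    div_mem (mul_mem (hcwE t) (hβ₀E _)) (mul_mem (hβ₀E _) (hβ₀E _))
  have hc'norm : ∀ t, ‖c' t‖ = 1 := by
    rintro ⟨h₁, h₂⟩
    have h1 : ‖c' (h₁, h₂)‖ ^ p = 1 := by
      simp only [hc', norm_div, norm_mul, div_pow, mul_pow, hβ₀norm]
      rw [← norm_pow, ← norm_mul, hpow h₁ h₂, norm_mul,
        Fermat.Agent.Lib.LocalKummer.norm_algEquiv]
      exact div_self (mul_ne_zero (norm_ne_zero_iff.mpr (hbw0 _)) (norm_ne_zero_iff.mpr (hbw0 _)))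
    exact (pow_eq_one_iff_of_nonneg (norm_nonneg _) hp.ne').mp h1
  have hc'lev : ∀ h₁ h₂ s₁ s₂ : ↥F₀.fixingSubgroup,
      (s₁ : Ω ≃ₐ[ℚ_[q]] Ω) ∈ E.fixingSubgroup → (s₂ : Ω ≃ₐ[ℚ_[q]] Ω) ∈ E.fixingSubgroup →
      c' (h₁ * s₁, h₂ * s₂) = c' (h₁, h₂) := by
    intro h₁ h₂ s₁ s₂ hs₁ hs₂
    -- `E.fixingSubgroup ∩ Γ` is normal in `Γ`
    have hconj : ((h₂⁻¹ * s₁ * h₂ : ↥F₀.fixingSubgroup) : Ω ≃ₐ[ℚ_[q]] Ω) ∈ E.fixingSubgroup := by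
      rw [IntermediateField.mem_fixingSubgroup_iff]
      intro x hx
      have h1 : (h₂ : Ω ≃ₐ[ℚ_[q]] Ω) x ∈ E := hstab _ h₂.2 x hx
      have h2 := (IntermediateField.mem_fixingSubgroup_iff E _).mp hs₁ _ h1
      show (h₂ : Ω ≃ₐ[ℚ_[q]] Ω)⁻¹ ((s₁ : Ω ≃ₐ[ℚ_[q]] Ω) ((h₂ : Ω ≃ₐ[ℚ_[q]] Ω) x)) = x
      rw [h2]
      exact AlgEquiv.symm_apply_apply _ x
    have h3 : h₁ * s₁ * (h₂ * s₂) = h₁ * h₂ * ((h₂⁻¹ * s₁ * h₂) * s₂) := by group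
    simp only [hc']
    rw [hcwlev h₁ h₂ s₁ s₂ hs₁ hs₂]
    have e1 : β₀ (h₁ * s₁ * (h₂ * s₂)) = β₀ (h₁ * h₂) := by
      simp only [hβ₀]
      rw [h3, hmlev _ _ (mul_mem hconj hs₂)]
    have e2 : β₀ (h₂ * s₂) = β₀ h₂ := by simp only [hβ₀]; rw [hmlev _ _ hs₂]
    have e3 : β₀ (h₁ * s₁) = β₀ h₁ := by simp only [hβ₀]; rw [hmlev _ _ hs₁]
    rw [e1, e2, e3]
  have hc'coc : ∀ h₁ h₂ h₃ : ↥F₀.fixingSubgroup,
      (h₁ : Ω ≃ₐ[ℚ_[q]] Ω) (c' (h₂, h₃)) * c' (h₁, h₂ * h₃) =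
        c' (h₁ * h₂, h₃) * c' (h₁, h₂) := by
    intro h₁ h₂ h₃
    simp only [hc', map_div₀, map_mul, hβ₀fix]
    have := hcwcoc h₁ h₂ h₃
    have a1 := hβ₀0 h₁
    have a2 := hβ₀0 h₂
    have a3 := hβ₀0 h₃
    have a4 := hβ₀0 (h₁ * h₂)
    have a5 := hβ₀0 (h₂ * h₃)
    have a6 := hβ₀0 (h₁ * (h₂ * h₃))
    rw [mul_assoc h₁ h₂ h₃]
    field_simp
    exact this
  obtain ⟨u, huE, hunorm, hulev, hu⟩ :=
    hH2 q F₀ E hF₀ hE hle hstab hval hcyc c' hc'E hc'norm hc'lev hc'coc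
  have hu0 : ∀ h, u h ≠ 0 := by
    intro h h0
    have := hunorm h
    rw [h0, norm_zero] at this
    exact zero_ne_one this
  refine ⟨fun h => u h * β₀ h, fun h => mul_ne_zero (hu0 h) (hβ₀0 h), ?_, ?_⟩
  · intro h s hs
    show u (h * s) * β₀ (h * s) = u h * β₀ h
    rw [hulev h s hs]
    simp only [hβ₀]
    rw [hmlev h s hs]
  · intro h₁ h₂
    have := hu h₁ h₂
    simp only [hc'] at this
    rw [map_mul, hβ₀fix]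
    have a1 := hβ₀0 h₁
    have a2 := hβ₀0 h₂
    field_simp at this
    linear_combination this

end core

end Fermat.Agent.S55.CFT.GS.H64

end
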