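/-
S55 package E4, island GS, LAYER B (helper64): `Bri.Stmt_ResLoc_bwd` from the local leaves
`Bri.Stmt_UnrH2`, `Bri.Stmt_UnrVal` (`GS/H64_ResLocDefs.lean`), `H6.stmt_RES_Cyc` and the local
lifting `Lib.LocalGlobalDense.exists_local_lift_field`.
-/
import Fermat.Agent.S55.CFT.GS.H64_ResLocCore
import Fermat.Agent.S55.CFT.GS.H6_ResCyc
import Fermat.Agent.S55.CFT.GS.H6_UR_PL

set_option autoImplicit false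

open CategoryTheory groupCohomology ExtCitation

open scoped Pointwise

noncomputable section

namespace Fermat.Agent.S55.CFT.GS.H64

open Fermat.Agent.S55 Fermat.Agent.S55.Top Fermat.Agent.S55.CFT Fermat.Agent.S55.CFT.GS.Bri
  Fermat.Agent.S55.CFT.LOC.H45P

local notation "Qb" => AlgebraicClosure ℚ

attribute [local instance] Fermat.Agent.S55.CFT.fact_primes

section transl

variable {S' : Finset Nat.Primes} {K : IntermediateField ℚ Qb} (𝔓 : PlaceSys S' K) (q : ↥S')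
  (w : 𝔓.W q)

/-- `j_w = ι_q ∘ σ_w : ℚ̄ → ℚ̄_q`. -/
def jw :
    Qb →+* PadicAlgCl (q.1 : ℕ) :=
  (padicEmbedding (q.1 : ℕ)).toRingHom.comp ((𝔓.σ q w : Qb ≃ₐ[ℚ] Qb) : Qb →+* Qb)

theorem jw_apply (y : Qb) :
    jw 𝔓 q w y = padicEmbedding (q.1 : ℕ) (𝔓.σ q w y) := rfl

theorem jw_injective : Function.Injective (jw 𝔓 q w) := (jw 𝔓 q w).injective

/-- Equivariance of `j_w` for `ρ_w`. -/
theorem jw_ρw (h : 𝔓.Γw q w) (y : Qb) :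
    jw 𝔓 q w ((𝔓.ρw q w h : GQ) y) = glAut q.1 (h : Gl q.1) (jw 𝔓 q w y) := by
  rw [jw_apply, jw_apply]
  show padicEmbedding (q.1 : ℕ) (𝔓.σ q w (((𝔓.σ q w)⁻¹ * rl q.1 h.1 * 𝔓.σ q w) y)) =
    glAut q.1 (h : Gl q.1) (padicEmbedding (q.1 : ℕ) (𝔓.σ q w y))
  have h1 : 𝔓.σ q w (((𝔓.σ q w)⁻¹ * rl q.1 h.1 * 𝔓.σ q w) y) = rl q.1 h.1 (𝔓.σ q w y) := by
    simp only [AlgEquiv.mul_apply]
    exact AlgEquiv.apply_symm_apply _ _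
  rw [h1]
  exact padicEmbedding_localGaloisToGlobal (q.1 : ℕ) (glAut q.1 (h : Gl q.1)) (𝔓.σ q w y)

theorem jw_mem_Floc (F : IntermediateField ℚ Qb) {y : Qb} (hy : y ∈ F) :
    jw 𝔓 q w y ∈ Floc (q.1 : ℕ) F (𝔓.σ q w) :=
  mem_Floc _ F _ hy

/-- `h ∈ Γ_w` iff `h` fixes `F₀ = ℚ_q(j_w K)`. -/
theorem mem_Γw_iff_Floc (h : Gl q.1) :
    h ∈ 𝔓.Γw q w ↔ glAut q.1 h ∈ (Floc (q.1 : ℕ) K (𝔓.σ q w)).fixingSubgroup := by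
  rw [mem_fixingSubgroup_Floc, mem_Γw_iff]
  exact Iff.rfl

/-- For `h ∈ Γ_w`: `ρ_w h ∈ G_F` iff `h` fixes `ℚ_q(j_w F)`. -/
theorem ρw_mem_iff_Floc (F : IntermediateField ℚ Qb) (h : 𝔓.Γw q w) :
    (𝔓.ρw q w h : GQ) ∈ F.fixingSubgroup ↔
      glAut q.1 (h : Gl q.1) ∈ (Floc (q.1 : ℕ) F (𝔓.σ q w)).fixingSubgroup := by
  rw [mem_fixingSubgroup_Floc]
  exact Iff.rfl

/-- `Γ_w → Gal(Ω/F₀)`. -/
def toLoc (h : 𝔓.Γw q w) :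
    ↥(Floc (q.1 : ℕ) K (𝔓.σ q w)).fixingSubgroup :=
  ⟨glAut q.1 (h : Gl q.1), (mem_Γw_iff_Floc 𝔓 q w h.1).1 h.2⟩

/-- `Gal(Ω/F₀) → Γ_w`. -/
def ofLoc :
    ↥(Floc (q.1 : ℕ) K (𝔓.σ q w)).fixingSubgroup → 𝔓.Γw q w :=
  fun h => ⟨(show Gl q.1 from h.1), (mem_Γw_iff_Floc 𝔓 q w _).2 h.2⟩

theorem toLoc_ofLoc (h) : toLoc 𝔓 q w (ofLoc 𝔓 q w h) = h := rfl

theorem ofLoc_toLoc (h : 𝔓.Γw q w) : ofLoc 𝔓 q w (toLoc 𝔓 q w h) = h := rfl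

theorem ofLoc_mul (h₁ h₂) : ofLoc 𝔓 q w (h₁ * h₂) = ofLoc 𝔓 q w h₁ * ofLoc 𝔓 q w h₂ := rfl

theorem toLoc_mul (h₁ h₂ : 𝔓.Γw q w) :
    toLoc 𝔓 q w (h₁ * h₂) = toLoc 𝔓 q w h₁ * toLoc 𝔓 q w h₂ := rfl

theorem glAut_ofLoc (h) :
    glAut q.1 ((ofLoc 𝔓 q w h : 𝔓.Γw q w) : Gl q.1) =
      (h : PadicAlgCl (q.1 : ℕ) ≃ₐ[ℚ_[(q.1 : ℕ)]] PadicAlgCl (q.1 : ℕ)) := rfl

/-- The decomposition group of `A = σ_w⁻¹ • primeLocalPlace q` contains `ρ_w Γ_w`. -/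
theorem ρw_smul (A : ValuationSubring Qb) (hA : 𝔓.σ q w • A = primeLocalPlace q.1)
    (h : 𝔓.Γw q w) : (𝔓.ρw q w h : GQ) • A = A := by
  show ((𝔓.σ q w)⁻¹ * rl q.1 h.1 * 𝔓.σ q w) • A = A
  rw [mul_smul, mul_smul, hA]
  have h1 : rl q.1 h.1 • primeLocalPlace q.1 = primeLocalPlace q.1 := H6.ur_rl_smul q.1 h.1
  rw [h1, ← hA, inv_smul_smul]

theorem mem_iff_norm_jw (A : ValuationSubring Qb) (hA : 𝔓.σ q w • A = primeLocalPlace q.1)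
    (x : Qb) : x ∈ A ↔ ‖jw 𝔓 q w x‖ ≤ 1 := by
  have h1 : 𝔓.σ q w x ∈ 𝔓.σ q w • A ↔ x ∈ A := by
    rw [H6.ur_mem_smul_iff]
    constructor
    · intro h
      have h2 : (𝔓.σ q w)⁻¹ (𝔓.σ q w x) = x := AlgEquiv.symm_apply_apply _ x
      rwa [h2] at h
    · intro h
      have h2 : (𝔓.σ q w)⁻¹ (𝔓.σ q w x) = x := AlgEquiv.symm_apply_apply _ x
      rwa [h2]
  rw [← h1, hA, jw_apply]
  exact (Fermat.Agent.Lib.LocalGlobalDense.absQ_le_one_iff (q.1 : ℕ) (𝔓.σ q w x)).symm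

/-- `ord_A(x) = k` in terms of the norm of `j_w x`. -/
theorem norm_jw_of_ordIs (A : ValuationSubring Qb) (hA : 𝔓.σ q w • A = primeLocalPlace q.1)
    {x : Qb} (hx : x ≠ 0) {k : ℤ} (h : OrdIs A (q.1 : ℕ) x k) :
    ‖jw 𝔓 q w x‖ = ‖(((q.1 : ℕ) : ℕ) : PadicAlgCl (q.1 : ℕ))‖ ^ k := by
  have hq0 : (((q.1 : ℕ) : ℕ) : Qb) ≠ 0 := by exact_mod_cast q.1.2.ne_zero
  have hz0 : x / (((q.1 : ℕ) : ℕ) : Qb) ^ k ≠ 0 := div_ne_zero hx (zpow_ne_zero _ hq0)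
  have hv : A.valuation (x / (((q.1 : ℕ) : ℕ) : Qb) ^ k) = 1 := by
    rw [map_div₀, map_zpow₀]
    have h' : A.valuation x = A.valuation (((q.1 : ℕ) : ℕ) : Qb) ^ k := h
    rw [h']
    exact div_self (zpow_ne_zero _ ((Valuation.ne_zero_iff _).mpr hq0))
  obtain ⟨h1, h2⟩ := (H6.valuation_eq_one_iff_mem A _ hz0).1 hv
  have h3 := (mem_iff_norm_jw 𝔓 q w A hA _).1 h1
  have h4 := (mem_iff_norm_jw 𝔓 q w A hA _).1 h2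
  rw [map_inv₀, norm_inv] at h4
  have hpos : 0 < ‖jw 𝔓 q w (x / (((q.1 : ℕ) : ℕ) : Qb) ^ k)‖ :=
    norm_pos_iff.mpr ((map_ne_zero _).mpr hz0)
  have h5 : ‖jw 𝔓 q w (x / (((q.1 : ℕ) : ℕ) : Qb) ^ k)‖ = 1 :=
    le_antisymm h3 ((inv_le_one₀ hpos).1 h4)
  rw [map_div₀, map_zpow₀, map_natCast, norm_div, norm_zpow] at h5
  have hq0' := norm_q_pos (q.1 : ℕ)
  rw [div_eq_one_iff_eq (zpow_ne_zero _ hq0'.ne')] at h5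
  exact h5

theorem Floc_mono {K N : IntermediateField ℚ Qb} (hKN : K ≤ N) (q : ℕ) [Fact q.Prime] (σ : GQ) :
    Floc q K σ ≤ Floc q N σ :=
  IntermediateField.adjoin.mono _ _ _ (Set.image_mono hKN)

/-- `E = ℚ_q(j_w N)` is stable under `Gal(Ω/F₀)` if `N` is stable under `G_K`. -/
theorem Floc_stable (N : IntermediateField ℚ Qb)
    (hstab : ∀ g : GQ, g ∈ K.fixingSubgroup → ∀ x : Qb, x ∈ N → g x ∈ N)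
    (h : PadicAlgCl (q.1 : ℕ) ≃ₐ[ℚ_[(q.1 : ℕ)]] PadicAlgCl (q.1 : ℕ))
    (hh : h ∈ (Floc (q.1 : ℕ) K (𝔓.σ q w)).fixingSubgroup) (x : PadicAlgCl (q.1 : ℕ))
    (hx : x ∈ Floc (q.1 : ℕ) N (𝔓.σ q w)) : h x ∈ Floc (q.1 : ℕ) N (𝔓.σ q w) := by
  have hle : Floc (q.1 : ℕ) N (𝔓.σ q w) ≤
      (Floc (q.1 : ℕ) N (𝔓.σ q w)).comap (h : PadicAlgCl (q.1 : ℕ) →ₐ[ℚ_[(q.1 : ℕ)]] _) := by
    refine IntermediateField.adjoin_le_iff.2 ?_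
    rintro _ ⟨y, hy, rfl⟩
    show h (padicEmbedding (q.1 : ℕ) (𝔓.σ q w y)) ∈ Floc (q.1 : ℕ) N (𝔓.σ q w)
    have h1 := jw_ρw 𝔓 q w (ofLoc 𝔓 q w ⟨h, hh⟩) y
    rw [glAut_ofLoc] at h1
    have h2 : h (padicEmbedding (q.1 : ℕ) (𝔓.σ q w y)) =
        jw 𝔓 q w ((𝔓.ρw q w (ofLoc 𝔓 q w ⟨h, hh⟩) : GQ) y) := h1.symm
    rw [h2]
    exact jw_mem_Floc 𝔓 q w N (hstab _ (𝔓.ρw q w (ofLoc 𝔓 q w ⟨h, hh⟩)).2 y hy)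
  exact hle hx

/-- `Gal(E/F₀)` is cyclic: the image of `Γ_w` in `Gal(N/K)` lies in the image of the
decomposition group of `A`, which is cyclic (`H6.stmt_RES_Cyc`). -/
theorem exists_cyc (S : Finset Nat.Primes) (N : IntermediateField ℚ Qb) (hKN : K ≤ N)
    (hNS : N.IsUnramifiedOutside S)
    (hstab : ∀ g : GQ, g ∈ K.fixingSubgroup → ∀ x : Qb, x ∈ N → g x ∈ N)
    (hq : q.1 ∉ S) (A : ValuationSubring Qb) (hA : 𝔓.σ q w • A = primeLocalPlace q.1) :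
    ∃ φ : ↥(Floc (q.1 : ℕ) K (𝔓.σ q w)).fixingSubgroup,
      ∀ h : ↥(Floc (q.1 : ℕ) K (𝔓.σ q w)).fixingSubgroup,
        ∃ (n : ℕ) (s : ↥(Floc (q.1 : ℕ) K (𝔓.σ q w)).fixingSubgroup),
          (s : PadicAlgCl (q.1 : ℕ) ≃ₐ[ℚ_[(q.1 : ℕ)]] PadicAlgCl (q.1 : ℕ)) ∈
            (Floc (q.1 : ℕ) N (𝔓.σ q w)).fixingSubgroup ∧ h = φ ^ n * s := by
  have hKS : K.IsUnramifiedOutside S := hNS.of_le hKN
  have hfdN : FiniteDimensional ℚ N := hNS.1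
  have hAl : A.LiesOverPrime (q.1 : ℕ) := by
    have h1 : A = (𝔓.σ q w)⁻¹ • primeLocalPlace q.1 := by rw [← hA, inv_smul_smul]
    rw [h1]
    exact H6.ur_liesOver_smul _ _ _ (H6.urA0_lies q.1)
  obtain ⟨g₀, hg₀A, hg₀⟩ := H6.stmt_RES_Cyc S K N hKS hNS q.1 hq A hAl
  -- the local lift of `σ g₀ σ⁻¹`
  have hd : (𝔓.σ q w * (g₀ : GQ) * (𝔓.σ q w)⁻¹) • primeLocalPlace q.1 = primeLocalPlace q.1 := by
    rw [mul_smul, mul_smul, ← hA, inv_smul_smul, hg₀A]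
  have hd' : (𝔓.σ q w * (g₀ : GQ) * (𝔓.σ q w)⁻¹) ∈
      (padicPlace (q.1 : ℕ)).decompositionSubgroup ℚ := hd
  have : FiniteDimensional ℚ (N.map ((𝔓.σ q w : Qb ≃ₐ[ℚ] Qb) : Qb →ₐ[ℚ] Qb)) :=
    IntermediateField.finiteDimensional_map _
  obtain ⟨τ, hτ⟩ := Fermat.Agent.Lib.LocalGlobalDense.exists_local_lift_field (q.1 : ℕ) _ hd'
    (N.map ((𝔓.σ q w : Qb ≃ₐ[ℚ] Qb) : Qb →ₐ[ℚ] Qb))
  -- `σ⁻¹ rl(τ) σ = g₀` on `N`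
  have hτN : ∀ y : Qb, y ∈ N →
      ((𝔓.σ q w)⁻¹ * rl q.1 (show Gl q.1 from τ) * 𝔓.σ q w) y = (g₀ : GQ) y := by
    intro y hy
    have h1 : 𝔓.σ q w y ∈ N.map ((𝔓.σ q w : Qb ≃ₐ[ℚ] Qb) : Qb →ₐ[ℚ] Qb) :=
      (IntermediateField.mem_map N).mpr ⟨y, hy, rfl⟩
    have h2 := hτ _ h1
    show (𝔓.σ q w)⁻¹ (rl q.1 (show Gl q.1 from τ) (𝔓.σ q w y)) = (g₀ : GQ) y
    have h3 : rl q.1 (show Gl q.1 from τ) (𝔓.σ q w y) =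
        (𝔓.σ q w * (g₀ : GQ) * (𝔓.σ q w)⁻¹) (𝔓.σ q w y) := h2
    rw [h3]
    simp only [AlgEquiv.mul_apply]
    have h4 : (𝔓.σ q w)⁻¹ (𝔓.σ q w y) = y := AlgEquiv.symm_apply_apply _ y
    rw [h4]
    exact AlgEquiv.symm_apply_apply _ _
  have hτΓ : (show Gl q.1 from τ) ∈ 𝔓.Γw q w := by
    rw [mem_Γw_iff, IntermediateField.mem_fixingSubgroup_iff]
    intro x hx
    rw [hτN x (hKN hx)]
    exact (IntermediateField.mem_fixingSubgroup_iff K _).mp g₀.2 x hx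
  set φ' : 𝔓.Γw q w := ⟨(show Gl q.1 from τ), hτΓ⟩ with hφ'
  have hφN : ∀ y : Qb, y ∈ N → (𝔓.ρw q w φ' : GQ) y = (g₀ : GQ) y := hτN
  have hpowN : ∀ (n : ℕ) (y : Qb), y ∈ N →
      ((𝔓.ρw q w φ' : GQ) ^ n) y = ((g₀ : GQ) ^ n) y := by
    intro n
    induction n with
    | zero => intro y _; simp
    | succ n ih =>
      intro y hy
      rw [pow_succ, pow_succ, AlgEquiv.mul_apply, AlgEquiv.mul_apply, hφN y hy]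
      exact ih _ (hstab _ g₀.2 y hy)
  refine ⟨toLoc 𝔓 q w φ', fun h => ?_⟩
  obtain ⟨n, s, hsN, hs⟩ := hg₀ (𝔓.ρw q w (ofLoc 𝔓 q w h)) (ρw_smul 𝔓 q w A hA _)
  refine ⟨n, (toLoc 𝔓 q w φ' ^ n)⁻¹ * h, ?_, by group⟩
  have h1 := (ρw_mem_iff_Floc 𝔓 q w N (ofLoc 𝔓 q w ((toLoc 𝔓 q w φ' ^ n)⁻¹ * h))).1 ?_
  · exact h1
  · have h2 : ofLoc 𝔓 q w ((toLoc 𝔓 q w φ' ^ n)⁻¹ * h) = (φ' ^ n)⁻¹ * ofLoc 𝔓 q w h := rfl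
    rw [h2, map_mul, map_inv, map_pow, IntermediateField.mem_fixingSubgroup_iff]
    intro y hy
    have h3 : ((𝔓.ρw q w (ofLoc 𝔓 q w h) : ↥K.fixingSubgroup) : GQ) y = ((g₀ : GQ) ^ n) y := by
      rw [hs]
      show ((g₀ : GQ) ^ n * (s : GQ)) y = ((g₀ : GQ) ^ n) y
      rw [AlgEquiv.mul_apply, (IntermediateField.mem_fixingSubgroup_iff N _).mp hsN y hy]
    show (((𝔓.ρw q w φ' : GQ) ^ n)⁻¹ * ((𝔓.ρw q w (ofLoc 𝔓 q w h) : ↥K.fixingSubgroup) : GQ)) y = y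
    rw [AlgEquiv.mul_apply, h3, ← hpowN n y hy]
    exact AlgEquiv.symm_apply_apply _ y

end transl

/-- **RESLOC (⟸)** from the local leaves. -/
theorem stmt_ResLoc_bwd_of (hH2 : Stmt_UnrH2) (hVal : Stmt_UnrVal) : Stmt_ResLoc_bwd := by
  intro p _ S K N hKN hNS hstab S' 𝔓 q w hq A hA c b hc hcoc hb hpow hres
  have hKS : K.IsUnramifiedOutside S := hNS.of_le hKN
  have hfdK : FiniteDimensional ℚ K := hKS.1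
  have hfdN : FiniteDimensional ℚ N := hNS.1
  have hp : 0 < p := (Fact.out : p.Prime).pos
  -- `ρ_w s ∈ G_N` for `s` fixing `E`
  have hρN : ∀ s : ↥(Floc (q.1 : ℕ) K (𝔓.σ q w)).fixingSubgroup,
      (s : PadicAlgCl (q.1 : ℕ) ≃ₐ[ℚ_[(q.1 : ℕ)]] PadicAlgCl (q.1 : ℕ)) ∈
        (Floc (q.1 : ℕ) N (𝔓.σ q w)).fixingSubgroup →
      ((𝔓.ρw q w (ofLoc 𝔓 q w s) : ↥K.fixingSubgroup) : GQ) ∈ N.fixingSubgroup :=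
    fun s hs => (ρw_mem_iff_Floc 𝔓 q w N (ofLoc 𝔓 q w s)).2 hs
  -- the local cochains
  set cw : ↥(Floc (q.1 : ℕ) K (𝔓.σ q w)).fixingSubgroup ×
      ↥(Floc (q.1 : ℕ) K (𝔓.σ q w)).fixingSubgroup → PadicAlgCl (q.1 : ℕ) :=
    fun t => jw 𝔓 q w ((c (𝔓.ρw q w (ofLoc 𝔓 q w t.1), 𝔓.ρw q w (ofLoc 𝔓 q w t.2)) : Qbˣ) : Qb)
    with hcw
  set bw : ↥(Floc (q.1 : ℕ) K (𝔓.σ q w)).fixingSubgroup → PadicAlgCl (q.1 : ℕ) :=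
    fun h => jw 𝔓 q w ((b (𝔓.ρw q w (ofLoc 𝔓 q w h)) : Qbˣ) : Qb) with hbw
  have hcwE : ∀ t, cw t ∈ Floc (q.1 : ℕ) N (𝔓.σ q w) := fun t =>
    jw_mem_Floc 𝔓 q w N (hc.2 _)
  have hcwlev : ∀ h₁ h₂ s₁ s₂ : ↥(Floc (q.1 : ℕ) K (𝔓.σ q w)).fixingSubgroup,
      (s₁ : PadicAlgCl (q.1 : ℕ) ≃ₐ[ℚ_[(q.1 : ℕ)]] PadicAlgCl (q.1 : ℕ)) ∈
        (Floc (q.1 : ℕ) N (𝔓.σ q w)).fixingSubgroup →
      (s₂ : PadicAlgCl (q.1 : ℕ) ≃ₐ[ℚ_[(q.1 : ℕ)]] PadicAlgCl (q.1 : ℕ)) ∈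
        (Floc (q.1 : ℕ) N (𝔓.σ q w)).fixingSubgroup →
      cw (h₁ * s₁, h₂ * s₂) = cw (h₁, h₂) := by
    intro h₁ h₂ s₁ s₂ hs₁ hs₂
    simp only [hcw, ofLoc_mul, map_mul]
    rw [hc.1 _ _ _ _ (hρN s₁ hs₁) (hρN s₂ hs₂)]
  have hbwlev : ∀ h s : ↥(Floc (q.1 : ℕ) K (𝔓.σ q w)).fixingSubgroup,
      (s : PadicAlgCl (q.1 : ℕ) ≃ₐ[ℚ_[(q.1 : ℕ)]] PadicAlgCl (q.1 : ℕ)) ∈
        (Floc (q.1 : ℕ) N (𝔓.σ q w)).fixingSubgroup → bw (h * s) = bw h := by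
    intro h s hs
    simp only [hbw, ofLoc_mul, map_mul]
    rw [hb.1 _ _ (hρN s hs)]
  -- the cocycle identity
  have hcwcoc : ∀ h₁ h₂ h₃ : ↥(Floc (q.1 : ℕ) K (𝔓.σ q w)).fixingSubgroup,
      (h₁ : PadicAlgCl (q.1 : ℕ) ≃ₐ[ℚ_[(q.1 : ℕ)]] PadicAlgCl (q.1 : ℕ)) (cw (h₂, h₃)) *
        cw (h₁, h₂ * h₃) = cw (h₁ * h₂, h₃) * cw (h₁, h₂) := by
    intro h₁ h₂ h₃
    have h1 := congrFun hcoc (𝔓.ρw q w (ofLoc 𝔓 q w h₁), 𝔓.ρw q w (ofLoc 𝔓 q w h₂),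
      𝔓.ρw q w (ofLoc 𝔓 q w h₃))
    simp only [mTwo, Pi.one_apply] at h1
    rw [div_eq_one, div_mul_eq_mul_div, div_eq_iff_eq_mul] at h1
    have h2 := congrArg (fun u : Qbˣ => jw 𝔓 q w (u : Qb)) h1
    simp only [Units.val_mul, map_mul] at h2
    have h3 : jw 𝔓 q w (((𝔓.ρw q w (ofLoc 𝔓 q w h₁) •
        c (𝔓.ρw q w (ofLoc 𝔓 q w h₂), 𝔓.ρw q w (ofLoc 𝔓 q w h₃)) : Qbˣ)) : Qb) =
        (h₁ : PadicAlgCl (q.1 : ℕ) ≃ₐ[ℚ_[(q.1 : ℕ)]] PadicAlgCl (q.1 : ℕ)) (cw (h₂, h₃)) :=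
      jw_ρw 𝔓 q w (ofLoc 𝔓 q w h₁) _
    rw [h3] at h2
    simp only [hcw, ofLoc_mul, map_mul]
    rw [h2, mul_comm]
  -- `cwᵖ = d bw`
  have hpw : ∀ h₁ h₂ : ↥(Floc (q.1 : ℕ) K (𝔓.σ q w)).fixingSubgroup,
      cw (h₁, h₂) ^ p * bw (h₁ * h₂) =
        (h₁ : PadicAlgCl (q.1 : ℕ) ≃ₐ[ℚ_[(q.1 : ℕ)]] PadicAlgCl (q.1 : ℕ)) (bw h₂) * bw h₁ := by
    intro h₁ h₂
    have h1 := hpow (𝔓.ρw q w (ofLoc 𝔓 q w h₁), 𝔓.ρw q w (ofLoc 𝔓 q w h₂))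
    simp only [mOne] at h1
    rw [div_mul_eq_mul_div, eq_div_iff_mul_eq'] at h1
    have h2 := congrArg (fun u : Qbˣ => jw 𝔓 q w (u : Qb)) h1
    simp only [Units.val_mul, Units.val_pow_eq_pow_val, map_mul, map_pow] at h2
    have h3 : jw 𝔓 q w (((𝔓.ρw q w (ofLoc 𝔓 q w h₁) •
        b (𝔓.ρw q w (ofLoc 𝔓 q w h₂)) : Qbˣ)) : Qb) =
        (h₁ : PadicAlgCl (q.1 : ℕ) ≃ₐ[ℚ_[(q.1 : ℕ)]] PadicAlgCl (q.1 : ℕ)) (bw h₂) :=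
      jw_ρw 𝔓 q w (ofLoc 𝔓 q w h₁) _
    rw [h3] at h2
    simp only [hcw, hbw, ofLoc_mul, map_mul]
    exact h2
  -- the residues
  have hresw : ∀ h : ↥(Floc (q.1 : ℕ) K (𝔓.σ q w)).fixingSubgroup,
      ∃ k : ℤ, ‖bw h‖ = ‖(((q.1 : ℕ) : ℕ) : PadicAlgCl (q.1 : ℕ))‖ ^ ((p : ℤ) * k) := by
    intro h
    obtain ⟨k, hk⟩ := hres (𝔓.ρw q w (ofLoc 𝔓 q w h)) (ρw_smul 𝔓 q w A hA _)
    exact ⟨k, norm_jw_of_ordIs 𝔓 q w A hA (Units.ne_zero _) hk⟩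
  obtain ⟨β, hβ0, hβlev, hβ⟩ := local_core (q.1 : ℕ) hH2 p hp
    (Floc (q.1 : ℕ) K (𝔓.σ q w)) (Floc (q.1 : ℕ) N (𝔓.σ q w))
    (finiteDimensional_Floc _ _ _) (finiteDimensional_Floc _ _ _) (Floc_mono hKN _ _)
    (Floc_stable 𝔓 q w N hstab)
    (hVal S N hNS (q.1 : ℕ) (fun q' hq' => by
      have : q' = q.1 := Subtype.ext hq'
      rw [this]
      exact hq) (𝔓.σ q w))
    (exists_cyc 𝔓 q w S N hKN hNS hstab hq A hA) cw bw hcwE hcwlev hcwcoc hbwlev hpw hresw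
  refine ⟨fun h => β (toLoc 𝔓 q w h), fun h => hβ0 _, ?_, ?_⟩
  · -- level constancy: the level field is `σ_w N`
    refine ⟨IntermediateField.map ((𝔓.σ q w : Qb ≃ₐ[ℚ] Qb) : Qb →ₐ[ℚ] Qb) N,
      IntermediateField.finiteDimensional_map _, ?_⟩
    intro g s hs
    have h1 : (𝔓.ρw q w s : GQ) ∈ N.fixingSubgroup := by
      rw [IntermediateField.mem_fixingSubgroup_iff]
      intro y hy
      show ((𝔓.σ q w)⁻¹ * rl q.1 s.1 * 𝔓.σ q w) y = y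
      have h2 : rl q.1 s.1 (𝔓.σ q w y) = 𝔓.σ q w y :=
        (IntermediateField.mem_fixingSubgroup_iff _ _).1 hs _ ⟨y, hy, rfl⟩
      simp only [AlgEquiv.mul_apply]
      rw [h2]
      exact AlgEquiv.symm_apply_apply _ _
    have h3 := (ρw_mem_iff_Floc 𝔓 q w N s).1 h1
    show β (toLoc 𝔓 q w (g * s)) = β (toLoc 𝔓 q w g)
    rw [toLoc_mul]
    exact hβlev _ _ h3
  · intro h₁ h₂
    have := hβ (toLoc 𝔓 q w h₁) (toLoc 𝔓 q w h₂)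
    exact this

end Fermat.Agent.S55.CFT.GS.H64

end
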