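/-
S55 package E4, island GS, Layer B, sub-package LOC-S (helper68): the projection
`π : LocAlg ↥K ↥N v → ℚ̄_q`, `a ⊗ y ↦ a · ι_q(σ y)`, `v = plσ K q σ`, and its equivariance.
Plan: NOTES/plan/S55_LOCS.md.
-/
import Fermat.Agent.S55.CFT.GS.H64_BriDefs
import Fermat.Agent.S55.CFT.H58_SHLLoc

set_option autoImplicit false
set_option linter.unusedSectionVars false
set_option linter.style.haveILetI false
set_option linter.unusedVariables false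

open CategoryTheory groupCohomology ExtCitation TensorProduct

noncomputable section

namespace Fermat.Agent.S55.CFT.GS.H68

open Fermat.Agent.S55 Fermat.Agent.S55.Top Fermat.Agent.S55.CFT Fermat.Agent.S55.CFT.GS.Bri

local notation "Qb" => AlgebraicClosure ℚ

attribute [local instance] fact_primes

section proj

variable {K N : IntermediateField ℚ Qb} (hKN : K ≤ N)
  [NumberField ↥K] [NumberField ↥(H6.NK hKN)] (q : Nat.Primes) (σ : GQ)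

/-- `j = ι_q ∘ σ : N → ℚ̄_q`. -/
def jN : ↥(H6.NK hKN) →+* PadicAlgCl (q : ℕ) :=
  ((padicEmbedding (q : ℕ)).toRingHom.comp
    ((σ : Qb →ₐ[ℚ] Qb) : Qb →+* Qb)).comp (algebraMap ↥(H6.NK hKN) Qb)

lemma jN_apply (y : ↥(H6.NK hKN)) :
    jN hKN q σ y = padicEmbedding (q : ℕ) (σ (y : Qb)) := rfl

lemma jN_injective : Function.Injective (jN hKN q σ) := (jN hKN q σ).injective

lemma jN_algebraMap (x : ↥K) :
    jN hKN q σ (algebraMap ↥K ↥(H6.NK hKN) x) = jσ K q σ x := rfl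

/-- `ℚ_q ⊗ N → ℚ̄_q`, `a ⊗ y ↦ a · ι_q(σ y)`. -/
def φN : SemiLocal ↥(H6.NK hKN) q →ₐ[Qp q] PadicAlgCl (q : ℕ) :=
  Algebra.TensorProduct.lift (Algebra.ofId (Qp q) (PadicAlgCl (q : ℕ)))
    (jN hKN q σ).toRatAlgHom (fun _ _ => Commute.all _ _)

lemma φN_tmul (a : Qp q) (y : ↥(H6.NK hKN)) :
    φN hKN q σ (a ⊗ₜ[ℚ] y) = algebraMap (Qp q) (PadicAlgCl (q : ℕ)) a * jN hKN q σ y := by
  simp [φN, Algebra.ofId_apply]

lemma φσ_tmul (a : Qp q) (x : ↥K) :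
    φσ K q σ (a ⊗ₜ[ℚ] x) = algebraMap (Qp q) (PadicAlgCl (q : ℕ)) a * jσ K q σ x := by
  simp [φσ, Algebra.ofId_apply]

lemma φN_semiLocalMap (z : SemiLocal ↥K q) :
    φN hKN q σ (semiLocalMap ↥K ↥(H6.NK hKN) q z) = φσ K q σ z := by
  induction z using TensorProduct.induction_on with
  | zero => simp
  | tmul a x =>
    have h1 : semiLocalMap ↥K ↥(H6.NK hKN) q (a ⊗ₜ[ℚ] x) =
        a ⊗ₜ[ℚ] algebraMap ↥K ↥(H6.NK hKN) x := by
      simp [semiLocalMap]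
    rw [h1, φN_tmul, φσ_tmul, jN_algebraMap]
  | add a b ha hb => rw [map_add, map_add, map_add, ha, hb]

lemma placeIdeal_le_ker :
    placeIdeal ↥K ↥(H6.NK hKN) (plσ K q σ) ≤ RingHom.ker (φN hKN q σ) := by
  rw [placeIdeal, Ideal.map_le_iff_le_comap]
  intro z hz
  show φN hKN q σ (semiLocalMap ↥K ↥(H6.NK hKN) q z) = 0
  rw [φN_semiLocalMap]
  exact hz

/-- The projection `π : LocAlg K N v → ℚ̄_q`. -/
def πN : LocAlg ↥K ↥(H6.NK hKN) (plσ K q σ) →+* PadicAlgCl (q : ℕ) :=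
  Ideal.Quotient.lift (placeIdeal ↥K ↥(H6.NK hKN) (plσ K q σ))
    (φN hKN q σ : SemiLocal ↥(H6.NK hKN) q →+* PadicAlgCl (q : ℕ))
    (fun z hz => placeIdeal_le_ker hKN q σ hz)

lemma πN_mk (z : SemiLocal ↥(H6.NK hKN) q) :
    πN hKN q σ (Ideal.Quotient.mk _ z) = φN hKN q σ z := rfl

lemma πN_mk_tmul (a : Qp q) (y : ↥(H6.NK hKN)) :
    πN hKN q σ (Ideal.Quotient.mk _ (a ⊗ₜ[ℚ] y)) =
      algebraMap (Qp q) (PadicAlgCl (q : ℕ)) a * jN hKN q σ y :=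
  φN_tmul hKN q σ a y

/-- `π ∘ loc = j` on `Nˣ`. -/
lemma πN_locHom (u : (↥(H6.NK hKN))ˣ) :
    πN hKN q σ ((locHom ↥K ↥(H6.NK hKN) (plσ K q σ) u : (LocAlg ↥K ↥(H6.NK hKN) (plσ K q σ))ˣ) :
      LocAlg ↥K ↥(H6.NK hKN) (plσ K q σ)) = jN hKN q σ (u : ↥(H6.NK hKN)) := by
  show φN hKN q σ ((1 : Qp q) ⊗ₜ[ℚ] (u : ↥(H6.NK hKN))) = _
  rw [φN_tmul, map_one, one_mul]

/-- Equivariance: if `h ∘ j = j ∘ τ` on `N` then `π (τ z) = h (π z)`. -/
lemma πN_smul (τ : ↥(H6.NK hKN) ≃ₐ[↥K] ↥(H6.NK hKN))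
    (h : PadicAlgCl (q : ℕ) ≃ₐ[ℚ_[(q : ℕ)]] PadicAlgCl (q : ℕ))
    (hτ : ∀ y : ↥(H6.NK hKN), h (jN hKN q σ y) = jN hKN q σ (τ y))
    (z : LocAlg ↥K ↥(H6.NK hKN) (plσ K q σ)) :
    πN hKN q σ (τ • z) = h (πN hKN q σ z) := by
  obtain ⟨y, rfl⟩ := Ideal.Quotient.mk_surjective z
  have key : ∀ y : SemiLocal ↥(H6.NK hKN) q,
      φN hKN q σ (semiLocalEquiv ↥K ↥(H6.NK hKN) q τ y) = h (φN hKN q σ y) := by
    intro y
    induction y using TensorProduct.induction_on with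
    | zero => simp
    | tmul a y =>
      rw [semiLocalEquiv_tmul, φN_tmul, φN_tmul, map_mul, hτ]
      congr 1
      exact (h.commutes a).symm
    | add a b ha hb =>
      rw [map_add, map_add, map_add, map_add, ha, hb]
  exact key y

/-- The kernel of the projection is a maximal ideal. -/
theorem ker_πN_isMaximal : (RingHom.ker (πN hKN q σ)).IsMaximal := by
  have : (RingHom.ker (πN hKN q σ)).IsPrime := RingHom.ker_isPrime _
  exact IsArtinianRing.isMaximal_of_isPrime _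

end proj

/-- **LOCS-DEC** (the decomposition group of `ker π` consists of local automorphisms): every
`d ∈ Gal(N/K)` stabilising `M = ker π` is induced by some `h ∈ Gal(ℚ̄_q/ℚ_q)`: `h ∘ j = j ∘ d`.
(`d` induces a `ℚ_q`-automorphism of `B/M ≅ E := range π ⊆ ℚ̄_q`, `π z ↦ π (d z)`
(`H58.locAlg_smul_algebraMap`); extend it to `ℚ̄_q` (`AlgHom.liftNormal`, bijective because
`ℚ̄_q/ℚ_q` is algebraic); `j y = π (loc y)`, `d • loc y = loc (d y)` (`H58.locIncl_smul`).) -/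
def Stmt_LocS_Dec : Prop :=
  ∀ (K N : IntermediateField ℚ Qb) (hKN : K ≤ N) [NumberField ↥K] [NumberField ↥(H6.NK hKN)]
    [IsGalois ↥K ↥(H6.NK hKN)] (q : Nat.Primes) (σ : GQ)
    (d : ↥(H6.NK hKN) ≃ₐ[↥K] ↥(H6.NK hKN)),
    d ∈ H58.decomp (↥(H6.NK hKN) ≃ₐ[↥K] ↥(H6.NK hKN)) (RingHom.ker (πN hKN q σ)) →
    ∃ h : PadicAlgCl (q : ℕ) ≃ₐ[ℚ_[(q : ℕ)]] PadicAlgCl (q : ℕ),
      ∀ y : ↥(H6.NK hKN), h (jN hKN q σ y) = jN hKN q σ (d y)

end Fermat.Agent.S55.CFT.GS.H68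

end
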