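/-
S55 package E4, island GS, Layer B, sub-package LOC-S (sub-coordinator: helper68).
Plan: NOTES/plan/S55_LOCS.md.  The leaf LOCS-DESC (local descent at a place of a place system).
-/
import Fermat.Agent.S55.CFT.GS.H68_LocS_Proj
import Fermat.Agent.S55.CFT.GS.H68_LocS_Defs2

set_option autoImplicit false

open CategoryTheory groupCohomology ExtCitation

noncomputable section

namespace Fermat.Agent.S55.CFT.GS.H68

open Fermat.Agent.S55 Fermat.Agent.S55.Top Fermat.Agent.S55.CFT Fermat.Agent.S55.CFT.GS.Bri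

local notation "Qb" => AlgebraicClosure ℚ

attribute [local instance] fact_primes

/-- **LOCS-DESC** (descent of the local trivialisation to the level `E = ℚ_q(j N)`):
if the inflation `c` of `f : Gal(N/K)² → Nˣ` is locally trivial at `w` (`LocTrivS`), then
`j ∘ f ∘ (res ρ_w)² = d b'` on `Γ_w` with `b'` with values in `E = ℚ_q(j N)ˣ`, invariant under
the elements of `Γ_w` fixing `j N` pointwise.
(From `GS.Stmt_LocS_H90` with `F₀ = ℚ_q(j K)`, `E = ℚ_q(j N)`: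
`h ∈ Γ_w ↔ h` fixes `j K` pointwise (`PlaceSys.mem_Γw`, `padicEmbedding_localGaloisToGlobal`, as in
`H68.glAut_jN`), so `Γ_w = F₀.fixingSubgroup`; `E` is finite over `ℚ_q` (`E` = range of
`H68.φN`) and stable under `Γ_w` (`H68.glAut_jN`); `cw = j ∘ f ∘ (res ρ_w)²` is constant modulo
`Gal(Ω/E)`; the level of `β` in the number field sense is a local level by
`LOC.H5.stmt_L5_Krasner` (b).) -/
def Stmt_LocS_Desc : Prop :=
  ∀ (S : Finset Nat.Primes) (K N : IntermediateField ℚ Qb) (hKN : K ≤ N) [NumberField ↥K]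
    [NumberField ↥(H6.NK hKN)] [IsGalois ↥K ↥(H6.NK hKN)] (𝔓 : PlaceSys S K) (q : ↥S)
    (w : 𝔓.W q)
    (f : (↥(H6.NK hKN) ≃ₐ[↥K] ↥(H6.NK hKN)) × (↥(H6.NK hKN) ≃ₐ[↥K] ↥(H6.NK hKN)) →
      (↥(H6.NK hKN))ˣ),
    LocTrivS 𝔓 q w (fun t => valU hKN (f (resG hKN t.1, resG hKN t.2))) →
    ∃ b' : 𝔓.Γw q w → PadicAlgCl (q.1 : ℕ), (∀ h, b' h ≠ 0) ∧
      (∀ h, b' h ∈ IntermediateField.adjoin ℚ_[(q.1 : ℕ)]
        (Set.range (jN hKN q.1 (𝔓.σ q w)))) ∧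
      (∀ h s : 𝔓.Γw q w,
        (∀ y : ↥(H6.NK hKN), glAut q.1 (s : Gl q.1) (jN hKN q.1 (𝔓.σ q w) y) =
          jN hKN q.1 (𝔓.σ q w) y) → b' (h * s) = b' h) ∧
      ∀ h₁ h₂ : 𝔓.Γw q w,
        jN hKN q.1 (𝔓.σ q w)
            ((f (resG hKN (𝔓.ρw q w h₁), resG hKN (𝔓.ρw q w h₂)) : (↥(H6.NK hKN))ˣ) :
              ↥(H6.NK hKN)) * b' (h₁ * h₂) =
          glAut q.1 (h₁ : Gl q.1) (b' h₂) * b' h₁

end Fermat.Agent.S55.CFT.GS.H68

end
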