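/-
S55 package E4, island GS, Layer B (bridge), sub-package LOC-S (sub-coordinator: helper68).
Plan: NOTES/plan/S55_GS.md §6, NOTES/plan/S55_LOCS.md.

LOC-S: for a place `w ∣ q ∈ S` of the base field `K` (place system `𝔓`) and a level field `N`:
  `locMap ↥K ↥N v(q,w) 2 [c₀] = 0  ↔  LocTrivS 𝔓 q w c`   (`c` = the cochain of `G_K` defined by `c₀`).

This file: the two ABSTRACT leaves (no place systems).
* `Stmt_LocS_Shapiro2` : Shapiro's lemma in degree 2, by hand, in helper58's language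
  (`CFT/H58_SHLAbs.lean`): a 2-cocycle of `G` with values in `Bˣ` whose reduction modulo `M`,
  restricted to the decomposition group `D = decomp G M`, is a coboundary, is a coboundary.
* `Stmt_LocS_H2Zero` : `locMap K L v 2 [f] = 0 ↔ loc ∘ f` is a (multiplicative) coboundary.
-/
import Fermat.Agent.S55.CFT.H58_SHLAbs
import Fermat.Agent.S55.CFT.Defs_BR

set_option autoImplicit false

open CategoryTheory groupCohomology

noncomputable section

namespace Fermat.Agent.S55.CFT.GS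

open Fermat.Agent.S55.CFT

/-- **LOCS-SH2** (Shapiro in degree 2, by hand).  `G` finite acting on the commutative ring `B`,
`M` a maximal ideal with `⋂_g g⁻¹ M = 0`, `D` the stabiliser of `M`.  If the multiplicative
2-cocycle `c : G × G → Bˣ` satisfies `c(d₁, d₂) ≡ d₁ b(d₂) · b(d₁ d₂)⁻¹ · b(d₁)  mod M` on `D`,
then `c = d β` for some `β : G → Bˣ`.
(Homogeneous form: `Φ(x₀,x₁,x₂) = [x₀ c(x₀⁻¹x₁, x₁⁻¹x₂)] ∈ (B/M)ˣ` is `D`-equivariant and a
cocycle; `ρ : G → D` a `D`-equivariant retraction (coset representatives); `ψ(y₀,y₁) = y₀ b(y₀⁻¹y₁)`;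
`θ(x₀,x₁) = ψ(ρx₀,ρx₁) · Φ(x₀,ρx₀,ρx₁)⁻¹ · Φ(x₀,x₁,ρx₁)` satisfies `dθ = Φ` (three instances of
the cocycle identity: `(x₀,ρx₀,ρx₁,ρx₂)`, `(x₀,x₁,ρx₁,ρx₂)`, `(x₀,x₁,x₂,ρx₂)`);
`β(σ)` := the unit of `B` with `[x β(σ)] = θ(x, xσ)` for all `x`
(`H58.toCoindUnits_surjective`); `c = dβ` by `H58.toCoindUnits_injective`.) -/
def Stmt_LocS_Shapiro2 : Prop :=
  ∀ (G : Type) [Group G] [Finite G] (B : Type) [CommRing B] [MulSemiringAction G B]
    (M : Ideal B) [M.IsMaximal], H58.OrbitSeparates G M →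
    ∀ c : G × G → Bˣ,
      (∀ σ τ υ : G, H58.unitsSmul G B σ (c (τ, υ)) * c (σ, τ * υ) = c (σ * τ, υ) * c (σ, τ)) →
      ∀ b : H58.decomp G M → (B ⧸ M)ˣ,
        (∀ d₁ d₂ : H58.decomp G M, H58.redUnits M (c ((d₁ : G), (d₂ : G))) =
          H58.unitsSmul (H58.decomp G M) (B ⧸ M) d₁ (b d₂) * (b (d₁ * d₂))⁻¹ * b d₁) →
        ∃ β : G → Bˣ, ∀ σ τ : G,
          c (σ, τ) = H58.unitsSmul G B σ (β τ) * (β (σ * τ))⁻¹ * β σ

/-- **LOCS-H2Z** (the class of a cocycle has zero local component iff the localised cocycle is a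
coboundary).  (`groupCohomology.H2π_comp_map`, `H2π_eq_zero_iff`, `coboundariesOfIsMulCoboundary₂`,
`isMulCoboundary₂_of_mem_coboundaries₂`.) -/
def Stmt_LocS_H2Zero : Prop :=
  ∀ (K L : Type) [Field K] [Field L] [NumberField K] [NumberField L] [Algebra K L]
    (v : Place K) (f : (L ≃ₐ[K] L) × (L ≃ₐ[K] L) → Lˣ) (hf : IsMulCocycle₂ f),
    locMap K L v 2 (H2π (repL K L) (cocyclesOfIsMulCocycle₂ hf)) = 0 ↔
      ∃ β : (L ≃ₐ[K] L) → (LocAlg K L v)ˣ, ∀ σ τ : L ≃ₐ[K] L,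
        locHom K L v (f (σ, τ)) = σ • β τ * (β (σ * τ))⁻¹ * β σ

end Fermat.Agent.S55.CFT.GS

end
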