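/-
S55 package E4, island GS, Layer B, sub-package LOC-S (helper68): the direction (⟹) of
`Bri.Stmt_LocS`: a class with vanishing local component at `v(q, w)` is locally trivial at `w`.
Plan: NOTES/plan/S55_LOCS.md.
-/
import Fermat.Agent.S55.CFT.GS.H68_LocS_Proj
import Fermat.Agent.S55.CFT.GS.H68_LocS_Defs

set_option autoImplicit false
set_option linter.unusedSectionVars false
set_option linter.style.haveILetI false
set_option linter.unusedVariables false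

open CategoryTheory groupCohomology ExtCitation TensorProduct

noncomputable section

namespace Fermat.Agent.S55.CFT.GS.H68

open Fermat.Agent.S55 Fermat.Agent.S55.Top Fermat.Agent.S55.CFT Fermat.Agent.S55.CFT.GS.Bri

local notation "Qb" => AlgebraicClosure ℚ

attribute [local instance] fact_primes

section compat

variable {K N : IntermediateField ℚ Qb} (hKN : K ≤ N)
  [NumberField ↥K] [NumberField ↥(H6.NK hKN)] [Normal ↥K ↥(H6.NK hKN)]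

lemma resG_apply (g : ↥K.fixingSubgroup) (y : ↥(H6.NK hKN)) :
    ((resG hKN g y : ↥(H6.NK hKN)) : Qb) = (g : GQ) (y : Qb) :=
  AlgEquiv.restrictNormal_commutes (IntermediateField.fixingSubgroupEquiv K g) ↥(H6.NK hKN) y

lemma resG_eq_one (g : ↥K.fixingSubgroup) (hg : ∀ y : Qb, y ∈ N → (g : GQ) y = y) :
    resG hKN g = 1 := by
  apply AlgEquiv.ext
  intro y
  apply Subtype.ext
  rw [resG_apply]
  exact hg _ y.2

variable {S : Finset Nat.Primes} (𝔓 : PlaceSys S K) (q : ↥S) (w : 𝔓.W q)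

/-- the compatibility of a local automorphism `h ∈ Γ_w` with `res (ρ_w h)` -/
lemma glAut_jN (h : 𝔓.Γw q w) (y : ↥(H6.NK hKN)) :
    glAut q.1 (h : Gl q.1) (jN hKN q.1 (𝔓.σ q w) y) =
      jN hKN q.1 (𝔓.σ q w) (resG hKN (𝔓.ρw q w h) y) := by
  rw [jN_apply, jN_apply, resG_apply]
  show glAut q.1 (h : Gl q.1) (padicEmbedding (q.1 : ℕ) (𝔓.σ q w (y : Qb))) =
    padicEmbedding (q.1 : ℕ) (𝔓.σ q w (((𝔓.σ q w)⁻¹ * rl q.1 h.1 * 𝔓.σ q w) (y : Qb)))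
  have h1 : 𝔓.σ q w (((𝔓.σ q w)⁻¹ * rl q.1 h.1 * 𝔓.σ q w) (y : Qb)) =
      rl q.1 h.1 (𝔓.σ q w (y : Qb)) := by
    simp only [AlgEquiv.mul_apply]
    exact AlgEquiv.apply_symm_apply _ _
  rw [h1]
  exact (padicEmbedding_localGaloisToGlobal (q.1 : ℕ) (glAut q.1 (h : Gl q.1))
    (𝔓.σ q w (y : Qb))).symm

end compat

/-- The forward half of `Bri.Stmt_LocS`. -/
def Stmt_LocS_Fwd : Prop :=
  ∀ (S : Finset Nat.Primes) (K N : IntermediateField ℚ Qb) (hKN : K ≤ N) [NumberField ↥K]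
    [NumberField ↥(H6.NK hKN)] [IsGalois ↥K ↥(H6.NK hKN)] (𝔓 : PlaceSys S K) (q : ↥S)
    (w : 𝔓.W q) (c : ↥K.fixingSubgroup × ↥K.fixingSubgroup → Qbˣ)
    (x : groupCohomology (repL ↥K ↥(H6.NK hKN)) 2), Real₂ hKN c x →
      locMap ↥K ↥(H6.NK hKN) (plσ K q.1 (𝔓.σ q w)) 2 x = 0 → LocTrivS 𝔓 q w c

/-- The backward half of `Bri.Stmt_LocS`. -/
def Stmt_LocS_Bwd : Prop :=
  ∀ (S : Finset Nat.Primes) (K N : IntermediateField ℚ Qb) (hKN : K ≤ N) [NumberField ↥K]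
    [NumberField ↥(H6.NK hKN)] [IsGalois ↥K ↥(H6.NK hKN)] (𝔓 : PlaceSys S K) (q : ↥S)
    (w : 𝔓.W q) (c : ↥K.fixingSubgroup × ↥K.fixingSubgroup → Qbˣ)
    (x : groupCohomology (repL ↥K ↥(H6.NK hKN)) 2), Real₂ hKN c x →
      LocTrivS 𝔓 q w c → locMap ↥K ↥(H6.NK hKN) (plσ K q.1 (𝔓.σ q w)) 2 x = 0

theorem stmt_LocS_of (h1 : Stmt_LocS_Fwd) (h2 : Stmt_LocS_Bwd) : Bri.Stmt_LocS :=
  fun S K N hKN _ _ _ 𝔓 q w c x hx =>
    ⟨h1 S K N hKN 𝔓 q w c x hx, h2 S K N hKN 𝔓 q w c x hx⟩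

/-- a cocycle in Mathlib's sense is `cocyclesOfIsMulCocycle₂` of its multiplicative form -/
lemma cocycles₂_eq {G M : Type} [Group G] [CommGroup M] [MulDistribMulAction G M]
    (f : cocycles₂ (Rep.ofMulDistribMulAction G M)) :
    cocyclesOfIsMulCocycle₂ (@isMulCocycle₂_of_mem_cocycles₂ G M _ _ _ f.1 f.2) = f :=
  Subtype.ext rfl

theorem stmt_LocS_Fwd (hZ : Stmt_LocS_H2Zero) : Stmt_LocS_Fwd := by
  intro S K N hKN _ _ _ 𝔓 q w c x hx hloc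
  obtain ⟨f, hfc, hfx⟩ := hx
  -- the localised cocycle is a coboundary
  have hf' := @isMulCocycle₂_of_mem_cocycles₂ (↥(H6.NK hKN) ≃ₐ[↥K] ↥(H6.NK hKN))
    (↥(H6.NK hKN))ˣ _ _ _ f.1 f.2
  have hx' : locMap ↥K ↥(H6.NK hKN) (plσ K q.1 (𝔓.σ q w)) 2
      (H2π (repL ↥K ↥(H6.NK hKN)) (cocyclesOfIsMulCocycle₂ hf')) = 0 := by
    rw [cocycles₂_eq, hfx]
    exact hloc
  obtain ⟨Bt, hBt⟩ := (hZ ↥K ↥(H6.NK hKN) (plσ K q.1 (𝔓.σ q w)) _ hf').1 hx'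
  -- the local cochain
  let β : 𝔓.Γw q w → PadicAlgCl (q.1 : ℕ) := fun h =>
    πN hKN q.1 (𝔓.σ q w) ((Bt (resG hKN (𝔓.ρw q w h)) :
      (LocAlg ↥K ↥(H6.NK hKN) (plσ K q.1 (𝔓.σ q w)))ˣ) :
        LocAlg ↥K ↥(H6.NK hKN) (plσ K q.1 (𝔓.σ q w)))
  have hβ0 : ∀ h, β h ≠ 0 := by
    intro h
    exact ((Bt (resG hKN (𝔓.ρw q w h))).isUnit.map (πN hKN q.1 (𝔓.σ q w))).ne_zero
  refine ⟨β, hβ0, ?_, ?_⟩
  · -- level constancy: the level field is `σ_w N`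
    refine ⟨IntermediateField.map ((𝔓.σ q w : Qb ≃ₐ[ℚ] Qb) : Qb →ₐ[ℚ] Qb) N, ?_, ?_⟩
    · have : FiniteDimensional ℚ ↥N := ‹NumberField ↥(H6.NK hKN)›.to_finiteDimensional
      exact inferInstance
    · intro g s hs
      have h1 : resG hKN (𝔓.ρw q w s) = 1 := by
        apply resG_eq_one
        intro y hy
        show ((𝔓.σ q w)⁻¹ * rl q.1 s.1 * 𝔓.σ q w) y = y
        have h2 : rl q.1 s.1 (𝔓.σ q w y) = 𝔓.σ q w y :=
          (IntermediateField.mem_fixingSubgroup_iff _ _).1 hs _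
            ⟨y, hy, rfl⟩
        simp only [AlgEquiv.mul_apply]
        rw [h2]
        exact AlgEquiv.symm_apply_apply _ _
      show πN hKN q.1 (𝔓.σ q w) ((Bt (resG hKN (𝔓.ρw q w (g * s))) : _) : _) =
        πN hKN q.1 (𝔓.σ q w) ((Bt (resG hKN (𝔓.ρw q w g)) : _) : _)
      rw [map_mul, map_mul, h1, mul_one]
  · intro h₁ h₂
    have key := hBt (resG hKN (𝔓.ρw q w h₁)) (resG hKN (𝔓.ρw q w h₂))
    have key2 := congrArg (fun u : (LocAlg ↥K ↥(H6.NK hKN) (plσ K q.1 (𝔓.σ q w)))ˣ =>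
      πN hKN q.1 (𝔓.σ q w) (u : LocAlg ↥K ↥(H6.NK hKN) (plσ K q.1 (𝔓.σ q w)))) key
    simp only [Units.val_mul, map_mul, map_units_inv] at key2
    rw [πN_locHom] at key2
    have h3 : πN hKN q.1 (𝔓.σ q w)
        (((resG hKN (𝔓.ρw q w h₁) • Bt (resG hKN (𝔓.ρw q w h₂)) :
          (LocAlg ↥K ↥(H6.NK hKN) (plσ K q.1 (𝔓.σ q w)))ˣ)) :
            LocAlg ↥K ↥(H6.NK hKN) (plσ K q.1 (𝔓.σ q w))) =
        glAut q.1 (h₁ : Gl q.1) (β h₂) :=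
      πN_smul hKN q.1 (𝔓.σ q w) (resG hKN (𝔓.ρw q w h₁)) (glAut q.1 (h₁ : Gl q.1))
        (fun y => glAut_jN hKN 𝔓 q w h₁ y) _
    rw [h3] at key2
    have h4 : padicEmbedding (q.1 : ℕ)
        (𝔓.σ q w ((c (𝔓.ρw q w h₁, 𝔓.ρw q w h₂) : Qbˣ) : Qb)) =
        jN hKN q.1 (𝔓.σ q w) ((Additive.toMul (f.1 (resG hKN (𝔓.ρw q w h₁),
          resG hKN (𝔓.ρw q w h₂))) : (↥(H6.NK hKN))ˣ) : ↥(H6.NK hKN)) := by
      rw [← hfc]
      rfl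
    rw [h4]
    have h5 : β (h₁ * h₂) = πN hKN q.1 (𝔓.σ q w)
        ((Bt (resG hKN (𝔓.ρw q w h₁) * resG hKN (𝔓.ρw q w h₂)) : _) : _) := by
      show πN hKN q.1 (𝔓.σ q w) ((Bt (resG hKN (𝔓.ρw q w (h₁ * h₂))) : _) : _) = _
      rw [map_mul, map_mul]
    have h6 := hβ0 (h₁ * h₂)
    rw [h5] at h6 ⊢
    have key3 : jN hKN q.1 (𝔓.σ q w) ((Additive.toMul (f.1 (resG hKN (𝔓.ρw q w h₁),
          resG hKN (𝔓.ρw q w h₂))) : (↥(H6.NK hKN))ˣ) : ↥(H6.NK hKN)) =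
        glAut q.1 (h₁ : Gl q.1) (β h₂) *
          (πN hKN q.1 (𝔓.σ q w)
            ((Bt (resG hKN (𝔓.ρw q w h₁) * resG hKN (𝔓.ρw q w h₂)) : _) : _))⁻¹ * β h₁ := key2
    rw [key3]
    field_simp

end Fermat.Agent.S55.CFT.GS.H68

end
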