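/-
S55 package E4, island GS, Layer B, sub-package LOC-S (sub-coordinator: helper68).
Plan: NOTES/plan/S55_LOCS.md.  The leaf LOCS-DESC from the local leaf LOCS-H90 (helper47):
`stmt_LocS_Desc_of : GS.Stmt_LocS_H90 → H68.Stmt_LocS_Desc`.

`F₀ = ℚ_q(j K)` (`LOC.H45P.Floc`), `E = ℚ_q(j N)`; `Γ_w = F₀.fixingSubgroup`
(`LOC.H45P.mem_fixingSubgroup_Floc`, `LOC.H45P.mem_Γw_iff`); `E` is stable under `Γ_w`
(`H68.glAut_jN`); the level of `β` is a local level by `LOC.H5.stmt_L5_Krasner` (b).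
-/
import Fermat.Agent.S55.CFT.GS.H68_LocS_Defs3
import Fermat.Agent.S55.CFT.GS.H68_LocS_Fwd
import Fermat.Agent.S55.CFT.LOC.H45_Places
import Fermat.Agent.S55.CFT.LOC.H5_Krasner

set_option autoImplicit false
set_option linter.unusedSectionVars false
set_option linter.style.haveILetI false
set_option linter.unusedVariables false

open CategoryTheory groupCohomology ExtCitation

noncomputable section

namespace Fermat.Agent.S55.CFT.GS.H47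

open Fermat.Agent.S55 Fermat.Agent.S55.Top Fermat.Agent.S55.CFT Fermat.Agent.S55.CFT.GS.Bri
  Fermat.Agent.S55.CFT.GS.H68

local notation "Qb" => AlgebraicClosure ℚ

attribute [local instance] fact_primes

section aux

variable {q : ℕ} [Fact q.Prime]

/-- an automorphism fixing a generating set fixes the generated field -/
lemma h47_mem_fixingSubgroup_adjoin (T : Set (PadicAlgCl q))
    (s : PadicAlgCl q ≃ₐ[ℚ_[q]] PadicAlgCl q) (hs : ∀ x ∈ T, s x = x) :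
    s ∈ (IntermediateField.adjoin ℚ_[q] T).fixingSubgroup := by
  rw [IntermediateField.mem_fixingSubgroup_iff]
  intro x hx
  induction hx using IntermediateField.adjoin_induction with
  | mem y hy => exact hs y hy
  | algebraMap y => exact s.commutes y
  | add y z _ _ hy hz => rw [map_add, hy, hz]
  | inv y _ hy => rw [map_inv₀, hy]
  | mul y z _ _ hy hz => rw [map_mul, hy, hz]

/-- an automorphism mapping a generating set into the generated field preserves the field -/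
lemma h47_map_mem_adjoin (T : Set (PadicAlgCl q))
    (s : PadicAlgCl q ≃ₐ[ℚ_[q]] PadicAlgCl q)
    (hs : ∀ x ∈ T, s x ∈ IntermediateField.adjoin ℚ_[q] T) (x : PadicAlgCl q)
    (hx : x ∈ IntermediateField.adjoin ℚ_[q] T) : s x ∈ IntermediateField.adjoin ℚ_[q] T := by
  induction hx using IntermediateField.adjoin_induction with
  | mem y hy => exact hs y hy
  | algebraMap y =>
    rw [s.commutes]
    exact IntermediateField.algebraMap_mem _ y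
  | add y z _ _ hy hz =>
    rw [map_add]
    exact add_mem hy hz
  | inv y _ hy =>
    rw [map_inv₀]
    exact inv_mem hy
  | mul y z _ _ hy hz =>
    rw [map_mul]
    exact mul_mem hy hz

end aux

/-- **LOCS-DESC** from **LOCS-H90**. -/
theorem stmt_LocS_Desc_of (h90 : GS.Stmt_LocS_H90) : H68.Stmt_LocS_Desc := by
  intro S K N hKN _ _ _ 𝔓 q w f hloc
  obtain ⟨β, hβ0, hβlev, hβ⟩ := hloc
  have hfdK : FiniteDimensional ℚ ↥K := inferInstance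
  have hfdN : FiniteDimensional ℚ ↥N := ‹NumberField ↥(H6.NK hKN)›.to_finiteDimensional
  -- the fields
  let F₀ : IntermediateField ℚ_[(q.1 : ℕ)] (PadicAlgCl (q.1 : ℕ)) :=
    LOC.H45P.Floc (q.1 : ℕ) K (𝔓.σ q w)
  let E : IntermediateField ℚ_[(q.1 : ℕ)] (PadicAlgCl (q.1 : ℕ)) :=
    IntermediateField.adjoin ℚ_[(q.1 : ℕ)] (Set.range (jN hKN q.1 (𝔓.σ q w)))
  have hF₀fd : FiniteDimensional ℚ_[(q.1 : ℕ)] ↥F₀ :=
    LOC.H45P.finiteDimensional_Floc _ _ _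
  have hEle : E ≤ LOC.H45P.Floc (q.1 : ℕ) N (𝔓.σ q w) := by
    refine IntermediateField.adjoin_le_iff.2 ?_
    rintro _ ⟨y, rfl⟩
    exact LOC.H45P.mem_Floc (q.1 : ℕ) N (𝔓.σ q w) y.2
  have hEfd : FiniteDimensional ℚ_[(q.1 : ℕ)] ↥E := by
    have := LOC.H45P.finiteDimensional_Floc (q.1 : ℕ) N (𝔓.σ q w)
    exact Module.Finite.of_injective (IntermediateField.inclusion hEle).toLinearMap
      (IntermediateField.inclusion_injective hEle)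
  have hFE : F₀ ≤ E := by
    refine IntermediateField.adjoin_le_iff.2 ?_
    rintro _ ⟨x, hx, rfl⟩
    exact IntermediateField.subset_adjoin _ _ ⟨⟨x, hKN hx⟩, rfl⟩
  have hΓ : ∀ h : Gl q.1, h ∈ 𝔓.Γw q w ↔ glAut q.1 h ∈ F₀.fixingSubgroup := by
    intro h
    rw [LOC.H45P.mem_fixingSubgroup_Floc, LOC.H45P.mem_Γw_iff]
    exact Iff.rfl
  -- conversions
  let toΓ : ↥F₀.fixingSubgroup → 𝔓.Γw q w := fun h => ⟨h.1, (hΓ h.1).2 h.2⟩
  let ofΓ : 𝔓.Γw q w → ↥F₀.fixingSubgroup := fun h => ⟨glAut q.1 h.1, (hΓ h.1).1 h.2⟩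
  have htoΓ_mul : ∀ a b, toΓ (a * b) = toΓ a * toΓ b := fun a b => Subtype.ext rfl
  have hofΓ_mul : ∀ a b, ofΓ (a * b) = ofΓ a * ofΓ b := fun a b => Subtype.ext rfl
  have hto_of : ∀ h, toΓ (ofΓ h) = h := fun h => Subtype.ext rfl
  -- `res ρ_w s = 1` for the elements fixing `j N`
  have hres1 : ∀ s : 𝔓.Γw q w,
      (∀ y : ↥(H6.NK hKN), glAut q.1 (s : Gl q.1) (jN hKN q.1 (𝔓.σ q w) y) =
        jN hKN q.1 (𝔓.σ q w) y) → resG hKN (𝔓.ρw q w s) = 1 := by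
    intro s hs
    apply AlgEquiv.ext
    intro y
    apply jN_injective hKN q.1 (𝔓.σ q w)
    rw [← glAut_jN hKN 𝔓 q w s y, hs y]
    rfl
  -- `E` is stable
  have hstab : ∀ h : PadicAlgCl (q.1 : ℕ) ≃ₐ[ℚ_[(q.1 : ℕ)]] PadicAlgCl (q.1 : ℕ),
      h ∈ F₀.fixingSubgroup → ∀ x : PadicAlgCl (q.1 : ℕ), x ∈ E → h x ∈ E := by
    intro h hh x hx
    refine h47_map_mem_adjoin _ h ?_ x hx
    rintro _ ⟨y, rfl⟩
    have h2 : h (jN hKN q.1 (𝔓.σ q w) y) =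
        jN hKN q.1 (𝔓.σ q w) (resG hKN (𝔓.ρw q w (toΓ ⟨h, hh⟩)) y) :=
      glAut_jN hKN 𝔓 q w (toΓ ⟨h, hh⟩) y
    rw [h2]
    exact IntermediateField.subset_adjoin _ _ ⟨_, rfl⟩
  -- the cochains
  let cw : ↥F₀.fixingSubgroup × ↥F₀.fixingSubgroup → PadicAlgCl (q.1 : ℕ) := fun t =>
    jN hKN q.1 (𝔓.σ q w)
      ((f (resG hKN (𝔓.ρw q w (toΓ t.1)), resG hKN (𝔓.ρw q w (toΓ t.2))) :
        (↥(H6.NK hKN))ˣ) : ↥(H6.NK hKN))
  let β' : ↥F₀.fixingSubgroup → PadicAlgCl (q.1 : ℕ) := fun h => β (toΓ h)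
  have hcwE : ∀ t, cw t ∈ E := fun t => IntermediateField.subset_adjoin _ _ ⟨_, rfl⟩
  have hcw0 : ∀ t, cw t ≠ 0 := by
    intro t
    exact ((f (resG hKN (𝔓.ρw q w (toΓ t.1)), resG hKN (𝔓.ρw q w (toΓ t.2)))).isUnit.map
      (jN hKN q.1 (𝔓.σ q w))).ne_zero
  have hfix : ∀ s : ↥F₀.fixingSubgroup,
      (s : PadicAlgCl (q.1 : ℕ) ≃ₐ[ℚ_[(q.1 : ℕ)]] PadicAlgCl (q.1 : ℕ)) ∈ E.fixingSubgroup →
      resG hKN (𝔓.ρw q w (toΓ s)) = 1 := by
    intro s hs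
    refine hres1 (toΓ s) fun y => ?_
    exact (IntermediateField.mem_fixingSubgroup_iff _ _).1 hs _
      (IntermediateField.subset_adjoin _ _ ⟨y, rfl⟩)
  have hcwinv : ∀ h₁ h₂ s₁ s₂ : ↥F₀.fixingSubgroup,
      (s₁ : PadicAlgCl (q.1 : ℕ) ≃ₐ[ℚ_[(q.1 : ℕ)]] PadicAlgCl (q.1 : ℕ)) ∈ E.fixingSubgroup →
      (s₂ : PadicAlgCl (q.1 : ℕ) ≃ₐ[ℚ_[(q.1 : ℕ)]] PadicAlgCl (q.1 : ℕ)) ∈ E.fixingSubgroup →
      cw (h₁ * s₁, h₂ * s₂) = cw (h₁, h₂) := by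
    intro h₁ h₂ s₁ s₂ hs₁ hs₂
    show jN hKN q.1 (𝔓.σ q w)
      ((f (resG hKN (𝔓.ρw q w (toΓ (h₁ * s₁))), resG hKN (𝔓.ρw q w (toΓ (h₂ * s₂)))) :
        (↥(H6.NK hKN))ˣ) : ↥(H6.NK hKN)) = jN hKN q.1 (𝔓.σ q w)
      ((f (resG hKN (𝔓.ρw q w (toΓ h₁)), resG hKN (𝔓.ρw q w (toΓ h₂))) :
        (↥(H6.NK hKN))ˣ) : ↥(H6.NK hKN))
    rw [htoΓ_mul, htoΓ_mul, map_mul, map_mul, map_mul, map_mul, hfix s₁ hs₁, hfix s₂ hs₂,
      mul_one, mul_one]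
  have hβ'0 : ∀ h, β' h ≠ 0 := fun h => hβ0 _
  have hβloc : LOC.IsLoc₁ F₀.fixingSubgroup β' := by
    obtain ⟨F, hF, hFc⟩ := hβlev
    obtain ⟨E', hE', hE'c⟩ := (LOC.H5.stmt_L5_Krasner (q.1 : ℕ)).2 F hF
    refine ⟨E', hE', fun g s hs => ?_⟩
    show β (toΓ (g * s)) = β (toΓ g)
    rw [htoΓ_mul]
    exact hFc (toΓ g) (toΓ s) (hE'c _ hs)
  have hcob : ∀ h₁ h₂ : ↥F₀.fixingSubgroup,
      cw (h₁, h₂) * β' (h₁ * h₂) =
        (h₁ : PadicAlgCl (q.1 : ℕ) ≃ₐ[ℚ_[(q.1 : ℕ)]] PadicAlgCl (q.1 : ℕ)) (β' h₂) * β' h₁ := by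
    intro h₁ h₂
    have := hβ (toΓ h₁) (toΓ h₂)
    rw [← htoΓ_mul] at this
    exact this
  obtain ⟨b, hb0, hbE, hbinv, hbcob⟩ :=
    h90 (q.1 : ℕ) F₀ E hF₀fd hEfd hFE hstab cw β' hcwE hcw0 hcwinv hβ'0 hβloc hcob
  refine ⟨fun h => b (ofΓ h), fun h => hb0 _, fun h => hbE _, ?_, ?_⟩
  · intro h s hs
    show b (ofΓ (h * s)) = b (ofΓ h)
    rw [hofΓ_mul]
    refine hbinv _ _ ?_
    refine h47_mem_fixingSubgroup_adjoin _ _ ?_
    rintro _ ⟨y, rfl⟩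
    exact hs y
  · intro h₁ h₂
    have := hbcob (ofΓ h₁) (ofΓ h₂)
    rw [← hofΓ_mul] at this
    exact this

end Fermat.Agent.S55.CFT.GS.H47

end
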