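/-
S55 package E4, island GS, Layer B, sub-package LOC-S, leaf **LOCS-H2Z** (helper5):
`Stmt_LocS_H2Zero`: the class of a multiplicative 2-cocycle has zero local component at `v` iff
the localised cocycle is a multiplicative coboundary.
-/
import Fermat.Agent.S55.CFT.GS.H68_LocS_Defs

set_option autoImplicit false

open CategoryTheory groupCohomology

noncomputable section

namespace Fermat.Agent.S55.CFT.GS.H5

open Fermat.Agent.S55.CFT Fermat.Agent.S55.CFT.GS

/-- **LOCS-H2Z**. -/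
theorem stmt_LocS_H2Zero : Stmt_LocS_H2Zero := by
  intro K L _ _ _ _ _ v f hf
  have e : locMap K L v 2 (H2π (repL K L) (cocyclesOfIsMulCocycle₂ hf)) =
      H2π (repJv K L v) (mapCocycles₂ (MonoidHom.id (L ≃ₐ[K] L)) (locRep K L v)
        (cocyclesOfIsMulCocycle₂ hf)) :=
    H2π_comp_map_apply (A := repL K L) (B := repJv K L v) (MonoidHom.id (L ≃ₐ[K] L))
      (locRep K L v) (cocyclesOfIsMulCocycle₂ hf)
  rw [e, H2π_eq_zero_iff]
  constructor
  · rintro ⟨y, hy⟩
    refine ⟨fun σ => Additive.toMul (y σ), fun σ τ => ?_⟩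
    have h1 := congrFun hy (σ, τ)
    have h2 : (repJv K L v).ρ σ (y τ) - y (σ * τ) + y σ =
        (Additive.ofMul (locHom K L v (f (σ, τ))) : repJv K L v) := h1
    have h3 : σ • (Additive.toMul (y τ) : (LocAlg K L v)ˣ) /
        (Additive.toMul (y (σ * τ)) : (LocAlg K L v)ˣ) * (Additive.toMul (y σ) : (LocAlg K L v)ˣ) =
        locHom K L v (f (σ, τ)) := h2
    rw [← h3, div_eq_mul_inv]
  · rintro ⟨β, hβ⟩
    refine ⟨fun σ => Additive.ofMul (β σ), funext fun ⟨σ, τ⟩ => ?_⟩
    have h3 : σ • β τ / β (σ * τ) * β σ = locHom K L v (f (σ, τ)) := by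
      rw [hβ σ τ, div_eq_mul_inv]
    exact h3

end Fermat.Agent.S55.CFT.GS.H5
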