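/-
S55 package E4, island GS, Layer B, sub-package LOC-S (sub-coordinator: helper68).
Plan: NOTES/plan/S55_LOCS.md.  Two small leaves of the backward assembly.
-/
import Fermat.Agent.S55.CFT.GS.H68_LocS_Fwd

set_option autoImplicit false

open CategoryTheory groupCohomology ExtCitation

noncomputable section

namespace Fermat.Agent.S55.CFT.GS.H68

open Fermat.Agent.S55 Fermat.Agent.S55.Top Fermat.Agent.S55.CFT Fermat.Agent.S55.CFT.GS.Bri

local notation "Qb" => AlgebraicClosure ℚ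

attribute [local instance] fact_primes

/-- **LOCS-RNG**: `ℚ_q(j N)` is contained in the range of the projection `π`.
(`range π` contains `ℚ_q` and `j N` (`πN_locHom` / `πN_mk_tmul`) and is a field, because
`LocAlg ⧸ ker π` is one (`ker_πN_isMaximal`): `IntermediateField.adjoin_induction`.) -/
def Stmt_LocS_Rng : Prop :=
  ∀ (K N : IntermediateField ℚ Qb) (hKN : K ≤ N) [NumberField ↥K] [NumberField ↥(H6.NK hKN)]
    (q : Nat.Primes) (σ : GQ) (x : PadicAlgCl (q : ℕ)),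
    x ∈ IntermediateField.adjoin ℚ_[(q : ℕ)] (Set.range (jN hKN q σ)) →
    ∃ z : LocAlg ↥K ↥(H6.NK hKN) (plσ K q σ), πN hKN q σ z = x

/-- **LOCS-MEM**: a local automorphism `h` with `h ∘ j = j ∘ d`, `d ∈ Gal(N/K)`, lies in `Γ_w`,
and `res (ρ_w h) = d`.
(`h` fixes `j K` pointwise since `d` fixes `K`; so `σ_w⁻¹ (rl h) σ_w` fixes `K`
(`padicEmbedding_localGaloisToGlobal`, injectivity of `padicEmbedding`), i.e. `rl h` fixes the
coset `σ_w G_K = (𝔓.loc q).rep w` (`PlaceSys.σ_smul`, `PlaceSys.mem_Γw`); `res (ρ_w h) = d` by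
`H68.glAut_jN` and the injectivity of `j`.) -/
def Stmt_LocS_Mem : Prop :=
  ∀ (S : Finset Nat.Primes) (K N : IntermediateField ℚ Qb) (hKN : K ≤ N) [NumberField ↥K]
    [NumberField ↥(H6.NK hKN)] [IsGalois ↥K ↥(H6.NK hKN)] (𝔓 : PlaceSys S K) (q : ↥S)
    (w : 𝔓.W q) (d : ↥(H6.NK hKN) ≃ₐ[↥K] ↥(H6.NK hKN)) (h : Gl q.1),
    (∀ y : ↥(H6.NK hKN), glAut q.1 h (jN hKN q.1 (𝔓.σ q w) y) =
      jN hKN q.1 (𝔓.σ q w) (d y)) →
    ∃ hm : h ∈ 𝔓.Γw q w, resG hKN (𝔓.ρw q w ⟨h, hm⟩) = d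

end Fermat.Agent.S55.CFT.GS.H68

end
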