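/-
S55 package E4, island GS, Layer B, sub-package LOC-S, leaves **LOCS-RNG** and **LOCS-MEM**
(helper5): `H68.Stmt_LocS_Rng`, `H68.Stmt_LocS_Mem` of `GS/H68_LocS_Defs4.lean`.
-/
import Fermat.Agent.S55.CFT.GS.H68_LocS_Defs4

set_option autoImplicit false
set_option linter.unusedSectionVars false
set_option linter.style.haveILetI false
set_option linter.unusedVariables false

open CategoryTheory groupCohomology ExtCitation TensorProduct

noncomputable section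

namespace Fermat.Agent.S55.CFT.GS.H5

open Fermat.Agent.S55 Fermat.Agent.S55.Top Fermat.Agent.S55.CFT Fermat.Agent.S55.CFT.GS.Bri
  Fermat.Agent.S55.CFT.GS.H68

local notation "Qb" => AlgebraicClosure ℚ

attribute [local instance] fact_primes

/-- **LOCS-RNG**. -/
theorem stmt_LocS_Rng : Stmt_LocS_Rng := by
  intro K N hKN _ _ q σ x hx
  have hmax := ker_πN_isMaximal hKN q σ
  induction hx using IntermediateField.adjoin_induction with
  | mem y hy =>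
    obtain ⟨y₀, rfl⟩ := hy
    refine ⟨Ideal.Quotient.mk _ ((1 : Qp q) ⊗ₜ[ℚ] y₀), ?_⟩
    rw [πN_mk_tmul, map_one, one_mul]
  | algebraMap a =>
    refine ⟨Ideal.Quotient.mk _ ((a : Qp q) ⊗ₜ[ℚ] (1 : ↥(H6.NK hKN))), ?_⟩
    rw [πN_mk_tmul, map_one, mul_one]
  | add y z _ _ hy hz =>
    obtain ⟨a, rfl⟩ := hy
    obtain ⟨b, rfl⟩ := hz
    exact ⟨a + b, map_add _ _ _⟩
  | inv y _ hy =>
    obtain ⟨a, rfl⟩ := hy
    by_cases h0 : πN hKN q σ a = 0
    · exact ⟨0, by rw [h0, inv_zero, map_zero]⟩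
    · have ha : a ∉ RingHom.ker (πN hKN q σ) := h0
      obtain ⟨b, i, hi, hbi⟩ := hmax.exists_inv ha
      refine ⟨b, ?_⟩
      have h1 := congrArg (πN hKN q σ) hbi
      rw [map_add, map_mul, map_one, (RingHom.mem_ker).1 hi, add_zero] at h1
      exact eq_inv_of_mul_eq_one_left h1
  | mul y z _ _ hy hz =>
    obtain ⟨a, rfl⟩ := hy
    obtain ⟨b, rfl⟩ := hz
    exact ⟨a * b, map_mul _ _ _⟩

/-- **LOCS-MEM**. -/
theorem stmt_LocS_Mem : Stmt_LocS_Mem := by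
  intro S K N hKN _ _ _ 𝔓 q w d h hd
  -- `g = σ_w⁻¹ (rl h) σ_w` fixes `K`
  have hfix : ∀ k : Qb, k ∈ K → rl q.1 h (𝔓.σ q w k) = 𝔓.σ q w k := by
    intro k hk
    apply (padicEmbedding (q.1 : ℕ)).injective
    have h1 := hd (algebraMap ↥K ↥(H6.NK hKN) ⟨k, hk⟩)
    rw [AlgEquiv.commutes] at h1
    have h2 : padicEmbedding (q.1 : ℕ) (rl q.1 h (𝔓.σ q w k)) =
        glAut q.1 h (padicEmbedding (q.1 : ℕ) (𝔓.σ q w k)) :=
      padicEmbedding_localGaloisToGlobal (q.1 : ℕ) h (𝔓.σ q w k)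
    exact h2.trans h1
  have hgK : (𝔓.σ q w)⁻¹ * rl q.1 h * 𝔓.σ q w ∈ K.fixingSubgroup := by
    rw [IntermediateField.mem_fixingSubgroup_iff]
    intro k hk
    simp only [AlgEquiv.mul_apply]
    rw [hfix k hk]
    exact (𝔓.σ q w).symm_apply_apply k
  have hm : h ∈ 𝔓.Γw q w := by
    rw [PlaceSys.mem_Γw, ← 𝔓.σ_smul q w]
    have h3 : ((𝔓.σ q w)⁻¹ * rl q.1 h * 𝔓.σ q w) • x0 K = x0 K := by
      show (((𝔓.σ q w)⁻¹ * rl q.1 h * 𝔓.σ q w) • ((1 : GQ) : GQ ⧸ K.fixingSubgroup)) = _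
      rw [MulAction.Quotient.smul_mk, smul_eq_mul, mul_one]
      rw [QuotientGroup.eq, mul_one]
      exact K.fixingSubgroup.inv_mem hgK
    calc rl q.1 h • 𝔓.σ q w • x0 K
        = 𝔓.σ q w • (((𝔓.σ q w)⁻¹ * rl q.1 h * 𝔓.σ q w) • x0 K) := by
          rw [← mul_smul, ← mul_smul]
          congr 1
          group
      _ = 𝔓.σ q w • x0 K := by rw [h3]
  refine ⟨hm, ?_⟩
  apply AlgEquiv.ext
  intro y
  apply jN_injective hKN q.1 (𝔓.σ q w)
  rw [← glAut_jN hKN 𝔓 q w ⟨h, hm⟩ y]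
  exact hd y

end Fermat.Agent.S55.CFT.GS.H5
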