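/-
S55 package E4, island GS, Layer B, sub-package LOC-S, leaf LOCS-SH2 (helper9):
Shapiro's lemma in degree 2 for the units of a `G`-ring, by hand (homogeneous prism formula).
-/
import Fermat.Agent.S55.CFT.GS.H68_LocS_Defs

set_option autoImplicit false
set_option linter.unusedSectionVars false
set_option linter.style.haveILetI false

noncomputable section

namespace Fermat.Agent.S55.CFT.GS.H9

open Fermat.Agent.S55.CFT

/-- The prism identity, additive form. -/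
theorem prism_add {A : Type} [AddCommGroup A] (a b c d e f g h i j k l m : A)
    (hψ : a = b + -c + d) (hA : a + e = f + g) (hB : h + i = f + j) (hC : k + i = l + m) :
    (b + -h + k) + -(c + -e + l) + (d + -g + j) = m := by
  linear_combination (norm := abel) -hψ + hA - hB + hC

/-- The prism identity, multiplicative form. -/
theorem prism_mul {A : Type} [CommGroup A] (a b c d e f g h i j k l m : A)
    (hψ : a = b * c⁻¹ * d) (hA : a * e = f * g) (hB : h * i = f * j) (hC : k * i = l * m) :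
    (b * h⁻¹ * k) * (c * e⁻¹ * l)⁻¹ * (d * g⁻¹ * j) = m :=
  prism_add (A := Additive A) (Additive.ofMul a) (Additive.ofMul b) (Additive.ofMul c)
    (Additive.ofMul d) (Additive.ofMul e) (Additive.ofMul f) (Additive.ofMul g)
    (Additive.ofMul h) (Additive.ofMul i) (Additive.ofMul j) (Additive.ofMul k)
    (Additive.ofMul l) (Additive.ofMul m) hψ hA hB hC

/-- The homogeneous prism: a homogeneous 2-cocycle `Φ` whose restriction along `r`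
is the coboundary of `ψ` is the coboundary of `θ`. -/
theorem prism {X A : Type} [CommGroup A] (Φ : X → X → X → A) (r : X → X) (ψ : X → X → A)
    (hΦ : ∀ x₀ x₁ x₂ x₃, Φ x₁ x₂ x₃ * Φ x₀ x₁ x₃ = Φ x₀ x₂ x₃ * Φ x₀ x₁ x₂)
    (hψ : ∀ x₀ x₁ x₂,
      Φ (r x₀) (r x₁) (r x₂) = ψ x₁ x₂ * (ψ x₀ x₂)⁻¹ * ψ x₀ x₁)
    (x₀ x₁ x₂ : X) :
    (ψ x₁ x₂ * (Φ x₁ (r x₁) (r x₂))⁻¹ * Φ x₁ x₂ (r x₂)) *
      (ψ x₀ x₂ * (Φ x₀ (r x₀) (r x₂))⁻¹ * Φ x₀ x₂ (r x₂))⁻¹ *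
      (ψ x₀ x₁ * (Φ x₀ (r x₀) (r x₁))⁻¹ * Φ x₀ x₁ (r x₁)) = Φ x₀ x₁ x₂ :=
  prism_mul _ _ _ _ _ _ _ _ _ _ _ _ _ (hψ x₀ x₁ x₂) (hΦ x₀ (r x₀) (r x₁) (r x₂))
    (hΦ x₀ x₁ (r x₁) (r x₂)) (hΦ x₀ x₁ x₂ (r x₂))

section

variable {G : Type} [Group G] {B : Type} [CommRing B] [MulSemiringAction G B]
  (M : Ideal B)

/-- The class of `g u` modulo `M`. -/
def ev (g : G) (u : Bˣ) : (B ⧸ M)ˣ := H58.redUnits M (H58.unitsSmul G B g u)

lemma ev_mul (g : G) (u v : Bˣ) : ev M g (u * v) = ev M g u * ev M g v := by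
  unfold ev
  rw [map_mul, map_mul]

lemma ev_inv (g : G) (u : Bˣ) : ev M g u⁻¹ = (ev M g u)⁻¹ := by
  unfold ev
  rw [map_inv, map_inv]

lemma ev_smul (g h : G) (u : Bˣ) : ev M g (H58.unitsSmul G B h u) = ev M (g * h) u := by
  unfold ev
  apply congrArg (H58.redUnits M)
  apply Units.ext
  exact (mul_smul g h _).symm

lemma ev_decomp_mul (d : H58.decomp G M) (g : G) (u : Bˣ) :
    ev M ((d : G) * g) u = H58.unitsSmul (H58.decomp G M) (B ⧸ M) d (ev M g u) := by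
  unfold ev
  rw [← H58.redUnits_smul]
  apply congrArg (H58.redUnits M)
  apply Units.ext
  exact mul_smul (d : G) g _

lemma ev_decomp (d : H58.decomp G M) (u : Bˣ) :
    ev M (d : G) u = H58.unitsSmul (H58.decomp G M) (B ⧸ M) d (H58.redUnits M u) := by
  unfold ev
  rw [← H58.redUnits_smul]

variable {M}

theorem unit_ext (hJ : H58.OrbitSeparates G M) (u u' : Bˣ)
    (h : ∀ g : G, ev M g u = ev M g u') : u = u' := by
  have h1 : H58.toCoindUnits G M (Additive.ofMul u) = H58.toCoindUnits G M (Additive.ofMul u') := by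
    apply Subtype.ext
    funext g
    rw [H58.toCoindUnits_apply, H58.toCoindUnits_apply]
    exact congrArg Additive.ofMul (h g)
  exact Additive.ofMul.injective (H58.toCoindUnits_injective hJ h1)

theorem exists_unit [Finite G] [M.IsMaximal] (hJ : H58.OrbitSeparates G M)
    (f : G → (B ⧸ M)ˣ)
    (hf : ∀ (d : H58.decomp G M) (g : G),
      f ((d : G) * g) = H58.unitsSmul (H58.decomp G M) (B ⧸ M) d (f g)) :
    ∃ u : Bˣ, ∀ g : G, ev M g u = f g := by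
  obtain ⟨a, ha⟩ := H58.toCoindUnits_surjective hJ
    ⟨fun g => Additive.ofMul (f g), fun d g => congrArg Additive.ofMul (hf d g)⟩
  refine ⟨a.toMul, fun g => ?_⟩
  have h1 := congrFun (congrArg Subtype.val ha) g
  rw [H58.toCoindUnits_apply] at h1
  exact Additive.ofMul.injective h1

end

/-- **LOCS-SH2**: Shapiro's lemma in degree 2 for the units of a `G`-ring. -/
theorem stmt_LocS_Shapiro2 : Stmt_LocS_Shapiro2 := by
  intro G _ _ B _ _ M _ hJ c hc b hb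
  classical
  -- the homogeneous cocycle
  set Φ : G → G → G → (B ⧸ M)ˣ := fun x₀ x₁ x₂ => ev M x₀ (c (x₀⁻¹ * x₁, x₁⁻¹ * x₂)) with hΦdef
  have hΦ : ∀ x₀ x₁ x₂ x₃, Φ x₁ x₂ x₃ * Φ x₀ x₁ x₃ = Φ x₀ x₂ x₃ * Φ x₀ x₁ x₂ := by
    intro x₀ x₁ x₂ x₃
    have h1 := congrArg (ev M x₀) (hc (x₀⁻¹ * x₁) (x₁⁻¹ * x₂) (x₂⁻¹ * x₃))
    rw [ev_mul, ev_mul, ev_smul] at h1
    have e1 : x₀ * (x₀⁻¹ * x₁) = x₁ := by group
    have e2 : x₁⁻¹ * x₂ * (x₂⁻¹ * x₃) = x₁⁻¹ * x₃ := by group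
    have e3 : x₀⁻¹ * x₁ * (x₁⁻¹ * x₂) = x₀⁻¹ * x₂ := by group
    rw [e1, e2, e3] at h1
    exact h1
  have hΦeq : ∀ (d : H58.decomp G M) (x₀ x₁ x₂ : G),
      Φ ((d : G) * x₀) ((d : G) * x₁) ((d : G) * x₂) =
        H58.unitsSmul (H58.decomp G M) (B ⧸ M) d (Φ x₀ x₁ x₂) := by
    intro d x₀ x₁ x₂
    have e1 : ((d : G) * x₀)⁻¹ * ((d : G) * x₁) = x₀⁻¹ * x₁ := by group
    have e2 : ((d : G) * x₁)⁻¹ * ((d : G) * x₂) = x₁⁻¹ * x₂ := by group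
    show ev M ((d : G) * x₀) (c (((d : G) * x₀)⁻¹ * ((d : G) * x₁),
      ((d : G) * x₁)⁻¹ * ((d : G) * x₂))) = _
    rw [e1, e2, ev_decomp_mul]
  -- the retraction
  obtain ⟨T, hT, -⟩ := Subgroup.exists_isComplement_right (H58.decomp G M) (1 : G)
  set ρ : G → H58.decomp G M := fun g => (hT.equiv g).1 with hρdef
  have hρ : ∀ (d : H58.decomp G M) (g : G), ρ ((d : G) * g) = d * ρ g := by
    intro d g
    show (hT.equiv ((d : G) * g)).1 = d * (hT.equiv g).1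
    rw [hT.equiv_mul_left d g]
  set r : G → G := fun g => (ρ g : G) with hrdef
  have hr : ∀ (d : H58.decomp G M) (g : G), r ((d : G) * g) = (d : G) * r g := by
    intro d g
    show ((ρ ((d : G) * g) : H58.decomp G M) : G) = (d : G) * (ρ g : G)
    rw [hρ d g]
    rfl
  -- the coboundary on `D`
  set ψ₀ : H58.decomp G M → H58.decomp G M → (B ⧸ M)ˣ := fun y₀ y₁ =>
    H58.unitsSmul (H58.decomp G M) (B ⧸ M) y₀ (b (y₀⁻¹ * y₁)) with hψ₀def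
  have hsm : ∀ (d e : H58.decomp G M) (a : (B ⧸ M)ˣ),
      H58.unitsSmul (H58.decomp G M) (B ⧸ M) d (H58.unitsSmul (H58.decomp G M) (B ⧸ M) e a) =
        H58.unitsSmul (H58.decomp G M) (B ⧸ M) (d * e) a := by
    intro d e a
    apply Units.ext
    exact (mul_smul d e (a : B ⧸ M)).symm
  have hψ₀ : ∀ y₀ y₁ y₂ : H58.decomp G M,
      Φ (y₀ : G) (y₁ : G) (y₂ : G) = ψ₀ y₁ y₂ * (ψ₀ y₀ y₂)⁻¹ * ψ₀ y₀ y₁ := by
    intro y₀ y₁ y₂
    have h1 := congrArg (H58.unitsSmul (H58.decomp G M) (B ⧸ M) y₀) (hb (y₀⁻¹ * y₁) (y₁⁻¹ * y₂))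
    rw [map_mul, map_mul, map_inv, hsm, ← ev_decomp] at h1
    have e1 : y₀ * (y₀⁻¹ * y₁) = y₁ := by group
    have e2 : y₀⁻¹ * y₁ * (y₁⁻¹ * y₂) = y₀⁻¹ * y₂ := by group
    rw [e1, e2] at h1
    exact h1
  have hψ₀eq : ∀ d y₀ y₁ : H58.decomp G M,
      ψ₀ (d * y₀) (d * y₁) = H58.unitsSmul (H58.decomp G M) (B ⧸ M) d (ψ₀ y₀ y₁) := by
    intro d y₀ y₁
    have e1 : (d * y₀)⁻¹ * (d * y₁) = y₀⁻¹ * y₁ := by group
    show H58.unitsSmul (H58.decomp G M) (B ⧸ M) (d * y₀) (b ((d * y₀)⁻¹ * (d * y₁))) = _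
    rw [e1, hsm]
  -- `ψ` on `G` through the retraction
  set ψ : G → G → (B ⧸ M)ˣ := fun x₀ x₁ => ψ₀ (ρ x₀) (ρ x₁) with hψdef
  have hψ : ∀ x₀ x₁ x₂ : G,
      Φ (r x₀) (r x₁) (r x₂) = ψ x₁ x₂ * (ψ x₀ x₂)⁻¹ * ψ x₀ x₁ :=
    fun x₀ x₁ x₂ => hψ₀ (ρ x₀) (ρ x₁) (ρ x₂)
  have hψeq : ∀ (d : H58.decomp G M) (x₀ x₁ : G),
      ψ ((d : G) * x₀) ((d : G) * x₁) =
        H58.unitsSmul (H58.decomp G M) (B ⧸ M) d (ψ x₀ x₁) := by
    intro d x₀ x₁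
    show ψ₀ (ρ ((d : G) * x₀)) (ρ ((d : G) * x₁)) = _
    rw [hρ, hρ, hψ₀eq]
  -- the homogeneous 1-cochain
  set θ : G → G → (B ⧸ M)ˣ := fun x₀ x₁ =>
    ψ x₀ x₁ * (Φ x₀ (r x₀) (r x₁))⁻¹ * Φ x₀ x₁ (r x₁) with hθdef
  have hθ : ∀ x₀ x₁ x₂ : G, θ x₁ x₂ * (θ x₀ x₂)⁻¹ * θ x₀ x₁ = Φ x₀ x₁ x₂ :=
    fun x₀ x₁ x₂ => prism Φ r ψ hΦ hψ x₀ x₁ x₂
  have hθeq : ∀ (d : H58.decomp G M) (x₀ x₁ : G),
      θ ((d : G) * x₀) ((d : G) * x₁) =
        H58.unitsSmul (H58.decomp G M) (B ⧸ M) d (θ x₀ x₁) := by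
    intro d x₀ x₁
    show ψ ((d : G) * x₀) ((d : G) * x₁) *
      (Φ ((d : G) * x₀) (r ((d : G) * x₀)) (r ((d : G) * x₁)))⁻¹ *
      Φ ((d : G) * x₀) ((d : G) * x₁) (r ((d : G) * x₁)) =
      H58.unitsSmul (H58.decomp G M) (B ⧸ M) d
        (ψ x₀ x₁ * (Φ x₀ (r x₀) (r x₁))⁻¹ * Φ x₀ x₁ (r x₁))
    rw [hr, hr, hψeq, hΦeq, hΦeq, map_mul, map_mul, map_inv]
  -- the inhomogeneous 1-cochain with values in `Bˣ`
  have hex : ∀ σ : G, ∃ u : Bˣ, ∀ g : G, ev M g u = θ g (g * σ) := by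
    intro σ
    refine exists_unit hJ (fun g => θ g (g * σ)) (fun d g => ?_)
    show θ ((d : G) * g) ((d : G) * g * σ) = _
    rw [mul_assoc, hθeq]
  choose β hβ using hex
  refine ⟨β, fun σ τ => unit_ext hJ _ _ (fun g => ?_)⟩
  rw [ev_mul, ev_mul, ev_inv, ev_smul, hβ, hβ, hβ, ← mul_assoc g σ τ, hθ]
  show ev M g (c (σ, τ)) = ev M g (c (g⁻¹ * (g * σ), (g * σ)⁻¹ * (g * σ * τ)))
  have e1 : g⁻¹ * (g * σ) = σ := by group
  have e2 : (g * σ)⁻¹ * (g * σ * τ) = τ := by group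
  rw [e1, e2]

end Fermat.Agent.S55.CFT.GS.H9

end
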