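/-
S55 package E4, island GS, Layer B, sub-package LOC-S (helper68): the final assembly
`H68.stmt_LocS : Bri.Stmt_LocS` from the leaves
SH2 (helper9), H2Z (helper5), DEC (helper80), H90 (helper25), DESC (helper47), RNG + MEM (helper5)
and the two directions `stmt_LocS_Fwd`, `stmt_LocS_Bwd`.
-/
import Fermat.Agent.S55.CFT.GS.H68_LocS_Bwd
import Fermat.Agent.S55.CFT.GS.H9_LocSShapiro2
import Fermat.Agent.S55.CFT.GS.H5_H2Zero
import Fermat.Agent.S55.CFT.GS.H80_LocSDec
import Fermat.Agent.S55.CFT.GS.H25_LocSH90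
import Fermat.Agent.S55.CFT.GS.H47_LocSDesc
import Fermat.Agent.S55.CFT.GS.H5_LocSRngMem

set_option autoImplicit false

namespace Fermat.Agent.S55.CFT.GS.H68

/-- **LOC-S** (local triviality of a realised class at the places over `S`). -/
theorem stmt_LocS : Bri.Stmt_LocS :=
  stmt_LocS_of (stmt_LocS_Fwd H5.stmt_LocS_H2Zero)
    (stmt_LocS_Bwd H9.stmt_LocS_Shapiro2 H5.stmt_LocS_H2Zero H80.stmt_LocS_Dec
      (H47.stmt_LocS_Desc_of H25.stmt_LocS_H90) H5.stmt_LocS_Rng H5.stmt_LocS_Mem)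

end Fermat.Agent.S55.CFT.GS.H68
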