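/-
S55 package E4, island GS, Layer B, leaf UNR-H2 (helper68): `Bri.Stmt_UnrH2`
(`H²(Gal(E/F₀), U_E) = 0` for unramified `E/F₀`, cochain form).
Route: descend to `Δ = Gal(E/F₀)` (cyclic); every class of `H²(Δ, U_E)` is cyclic
(`H19.exists_cycCl`), and a cyclic class vanishes iff the invariant is a norm
(`H19.cycCl_eq_zero_iff`); units are norms of units (LOC-2b, `LOC.H68.stmt_UnramNormUnits`).
-/
import Fermat.Agent.S55.CFT.GS.H68_UnrH2_Defs
import Fermat.Agent.S55.CFT.H19_CycAbs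
import Fermat.Agent.S55.CFT.LOC.H68_FL
import Fermat.Agent.S55.CFT.LOC.H68_UnramNorm
import Fermat.Agent.S55.CFT.GS.H25_LocSH90

set_option autoImplicit false
set_option linter.unusedSectionVars false
set_option linter.style.haveILetI false
set_option linter.unusedVariables false

open CategoryTheory groupCohomology

noncomputable section

namespace Fermat.Agent.S55.CFT.GS.H68

open Fermat.Agent.S55.CFT

/-- `H²` of a finite cyclic group vanishes if every invariant is a norm (multiplicative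
cochain form). -/
theorem isMulCoboundary₂_of_cyclic_norm {Δ U : Type} [Group Δ] [Fintype Δ] [CommGroup U]
    [MulDistribMulAction Δ U] (σ : Δ) (hσ : ∀ x, x ∈ Subgroup.zpowers σ)
    (hN : ∀ a : U, (∀ g : Δ, g • a = a) → ∃ b : U, a = ∏ x : Δ, x • b)
    (f : Δ × Δ → U) (hf : IsMulCocycle₂ f) : IsMulCoboundary₂ f := by
  obtain ⟨e, he⟩ := H13.exists_dlog σ hσ
  obtain ⟨a, ha, hx⟩ := H19.exists_cycCl (Rep.ofMulDistribMulAction Δ U) he
    (H2π (Rep.ofMulDistribMulAction Δ U) (cocyclesOfIsMulCocycle₂ hf))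
  obtain ⟨b, hb⟩ := hN (Additive.toMul a) (fun g => ha g)
  have h0 : H19.cycCl (Rep.ofMulDistribMulAction Δ U) he a ha = 0 := by
    rw [H19.cycCl_eq_zero_iff]
    refine ⟨Additive.ofMul b, ?_⟩
    have h1 : (∑ x : Δ, (Rep.ofMulDistribMulAction Δ U).ρ x (Additive.ofMul b)) =
        Additive.ofMul (∏ x : Δ, x • b) := by
      rw [ofMul_prod]
      rfl
    rw [h1, ← hb]
    rfl
  rw [h0] at hx
  have h2 := (H2π_eq_zero_iff _).1 hx
  exact isMulCoboundary₂_of_mem_coboundaries₂ _ h2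

section units

variable {q : ℕ} [Fact q.Prime] (F₀ : IntermediateField ℚ_[q] (PadicAlgCl q))
  (E' : IntermediateField ↥F₀ (PadicAlgCl q))

theorem ist_top : IsScalarTower ℚ_[q] ↥E' (PadicAlgCl q) :=
  IsScalarTower.of_algebraMap_eq (fun _ => rfl)

attribute [local instance] ist_top

theorem nrm_eq_norm_top (y : ↥E') : LOC.nrm q ↥E' y = ‖(y : PadicAlgCl q)‖ := by
  rw [← PadicAlgCl.spectralNorm_eq]
  exact spectralNorm.eq_of_tower (K := ℚ_[q]) (L := PadicAlgCl q) (E := ↥E') y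

theorem nrm_eq_norm_base (x : ↥F₀) : LOC.nrm q ↥F₀ x = ‖(x : PadicAlgCl q)‖ := by
  rw [← PadicAlgCl.spectralNorm_eq]
  exact spectralNorm.eq_of_tower (K := ℚ_[q]) (L := PadicAlgCl q) (E := ↥F₀) x

theorem norm_aut_eq (τ : ↥E' ≃ₐ[↥F₀] ↥E') (y : ↥E') :
    ‖((τ y : ↥E') : PadicAlgCl q)‖ = ‖(y : PadicAlgCl q)‖ := by
  rw [← nrm_eq_norm_top, ← nrm_eq_norm_top]
  exact (spectralNorm_eq_of_equiv (τ.restrictScalars ℚ_[q]) y).symm

/-- the units of `E` of absolute value `1` -/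
def unitSub : Subgroup (↥E')ˣ where
  carrier := {u | ‖(((u : (↥E')ˣ) : ↥E') : PadicAlgCl q)‖ = 1}
  mul_mem' := by
    intro a b ha hb
    show ‖((((a * b : (↥E')ˣ)) : ↥E') : PadicAlgCl q)‖ = 1
    rw [Units.val_mul, MulMemClass.coe_mul, norm_mul, ha, hb, one_mul]
  one_mem' := by
    show ‖((((1 : (↥E')ˣ)) : ↥E') : PadicAlgCl q)‖ = 1
    simp
  inv_mem' := by
    intro a ha
    show ‖((((a⁻¹ : (↥E')ˣ)) : ↥E') : PadicAlgCl q)‖ = 1
    have h1 : ((a : ↥E') : PadicAlgCl q) * (((a⁻¹ : (↥E')ˣ) : ↥E') : PadicAlgCl q) = 1 := by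
      rw [← MulMemClass.coe_mul, ← Units.val_mul, mul_inv_cancel]
      rfl
    have h2 := congrArg norm h1
    rw [norm_mul, ha, one_mul, norm_one] at h2
    exact h2

theorem mem_unitSub (u : (↥E')ˣ) :
    u ∈ unitSub F₀ E' ↔ ‖(((u : (↥E')ˣ) : ↥E') : PadicAlgCl q)‖ = 1 := Iff.rfl

/-- the action of `Gal(E/F₀)` on the units of absolute value `1` -/
instance unitAct : MulDistribMulAction (↥E' ≃ₐ[↥F₀] ↥E') ↥(unitSub F₀ E') where
  smul τ u := ⟨Units.map (τ : ↥E' →* ↥E') u.1, by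
    rw [mem_unitSub]
    exact (norm_aut_eq F₀ E' τ _).trans u.2⟩
  one_smul u := by
    apply Subtype.ext
    apply Units.ext
    rfl
  mul_smul a b u := by
    apply Subtype.ext
    apply Units.ext
    rfl
  smul_mul τ u v := by
    apply Subtype.ext
    apply Units.ext
    exact map_mul τ _ _
  smul_one τ := by
    apply Subtype.ext
    apply Units.ext
    exact map_one τ

theorem unitAct_val (τ : ↥E' ≃ₐ[↥F₀] ↥E') (u : ↥(unitSub F₀ E')) :
    (((τ • u : ↥(unitSub F₀ E')) : (↥E')ˣ) : ↥E') = τ ((u : (↥E')ˣ) : ↥E') := rfl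

theorem unitAct_val' (τ : ↥E' ≃ₐ[↥F₀] ↥E') (u : ↥(unitSub F₀ E')) :
    (((τ • u : ↥(unitSub F₀ E')) : (↥E')ˣ)) = Units.map (τ : ↥E' →* ↥E') u.1 := rfl

/-- the value of an element of `unitSub` -/
def unitVal : ↥(unitSub F₀ E') →* ↥E' :=
  (Units.coeHom ↥E').comp (unitSub F₀ E').subtype

theorem unitVal_apply (u : ↥(unitSub F₀ E')) :
    unitVal F₀ E' u = ((u : (↥E')ˣ) : ↥E') := rfl

theorem unitVal_injective : Function.Injective (unitVal F₀ E') := by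
  intro a b h
  apply Subtype.ext
  apply Units.ext
  exact h

theorem unitVal_smul (τ : ↥E' ≃ₐ[↥F₀] ↥E') (u : ↥(unitSub F₀ E')) :
    unitVal F₀ E' (τ • u) = τ (unitVal F₀ E' u) := rfl

theorem norm_unitVal (u : ↥(unitSub F₀ E')) : ‖((unitVal F₀ E' u : ↥E') : PadicAlgCl q)‖ = 1 :=
  u.2

/-- an element of norm `1` as an element of `unitSub` -/
def mkUnit (y : ↥E') (hy : ‖(y : PadicAlgCl q)‖ = 1) : ↥(unitSub F₀ E') :=
  ⟨Units.mk0 y (by
    rintro rfl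
    simp at hy), hy⟩

theorem unitVal_mkUnit (y : ↥E') (hy : ‖(y : PadicAlgCl q)‖ = 1) :
    unitVal F₀ E' (mkUnit F₀ E' y hy) = y := rfl

/-- **UNR-H2, core**, general form. -/
theorem core_gen [FiniteDimensional ℚ_[q] ↥F₀] [FiniteDimensional ↥F₀ ↥E'] [IsGalois ↥F₀ ↥E']
    (hcyc : IsCyclic (↥E' ≃ₐ[↥F₀] ↥E')) (hunr : LOC.IsUnram q ↥F₀ ↥E')
    (c : (↥E' ≃ₐ[↥F₀] ↥E') × (↥E' ≃ₐ[↥F₀] ↥E') → ↥E')
    (hc1 : ∀ t, ‖((c t : ↥E') : PadicAlgCl q)‖ = 1)
    (hcoc : ∀ τ₁ τ₂ τ₃ : ↥E' ≃ₐ[↥F₀] ↥E',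
      τ₁ (c (τ₂, τ₃)) * c (τ₁, τ₂ * τ₃) = c (τ₁ * τ₂, τ₃) * c (τ₁, τ₂)) :
    ∃ u : (↥E' ≃ₐ[↥F₀] ↥E') → ↥E', (∀ τ, ‖((u τ : ↥E') : PadicAlgCl q)‖ = 1) ∧
      ∀ τ₁ τ₂ : ↥E' ≃ₐ[↥F₀] ↥E', c (τ₁, τ₂) * u (τ₁ * τ₂) = τ₁ (u τ₂) * u τ₁ := by
  classical
  obtain ⟨σ, hσ⟩ := hcyc.exists_generator
  let f : (↥E' ≃ₐ[↥F₀] ↥E') × (↥E' ≃ₐ[↥F₀] ↥E') → ↥(unitSub F₀ E') :=
    fun t => mkUnit F₀ E' (c t) (hc1 t)
  have hf : IsMulCocycle₂ f := by
    intro g h j
    apply unitVal_injective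
    rw [map_mul, map_mul, unitVal_smul]
    exact (hcoc g h j).symm
  have hN : ∀ a : ↥(unitSub F₀ E'), (∀ g : ↥E' ≃ₐ[↥F₀] ↥E', g • a = a) →
      ∃ b : ↥(unitSub F₀ E'), a = ∏ x : ↥E' ≃ₐ[↥F₀] ↥E', x • b := by
    intro a ha
    have hfix : ∀ g : ↥E' ≃ₐ[↥F₀] ↥E', g (unitVal F₀ E' a) = unitVal F₀ E' a := by
      intro g
      rw [← unitVal_smul, ha g]
    obtain ⟨x, hx⟩ := (IsGalois.mem_range_algebraMap_iff_fixed (F := ↥F₀) (E := ↥E')
      (unitVal F₀ E' a)).2 hfix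
    have hx1 : LOC.nrm q ↥F₀ x = 1 := by
      rw [nrm_eq_norm_base]
      have h1 : ((x : ↥F₀) : PadicAlgCl q) = ((unitVal F₀ E' a : ↥E') : PadicAlgCl q) :=
        congrArg (Subtype.val : ↥E' → PadicAlgCl q) hx
      rw [h1]
      exact norm_unitVal F₀ E' a
    obtain ⟨w, hw1, hw⟩ := LOC.H68.stmt_UnramNormUnits q ↥F₀ ↥E' hcyc hunr x hx1
    have hw1' : ‖((w : ↥E') : PadicAlgCl q)‖ = 1 := by
      rw [← nrm_eq_norm_top]
      exact hw1
    refine ⟨mkUnit F₀ E' w hw1', ?_⟩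
    apply unitVal_injective
    rw [map_prod]
    have h2 := Algebra.norm_eq_prod_automorphisms ↥F₀ w
    rw [hw, hx] at h2
    rw [h2]
    apply Finset.prod_congr
    · ext
      simp
    · intro τ _
      rfl
  obtain ⟨x, hx⟩ := isMulCoboundary₂_of_cyclic_norm σ hσ hN f hf
  refine ⟨fun τ => unitVal F₀ E' (x τ), fun τ => norm_unitVal F₀ E' _, ?_⟩
  intro τ₁ τ₂
  have h1 := hx τ₁ τ₂
  have h2 : f (τ₁, τ₂) * x (τ₁ * τ₂) = τ₁ • x τ₂ * x τ₁ := by
    rw [← h1]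
    rw [div_mul_eq_mul_div, div_mul_cancel]
  have h3 := congrArg (unitVal F₀ E') h2
  rw [map_mul, map_mul, unitVal_smul] at h3
  exact h3

end units

section final

variable {q : ℕ} [Fact q.Prime]

theorem stmt_UnrH2_Core : Stmt_UnrH2_Core := by
  intro q _ F₀ E hF hE hle hst hval hφ c hc1 hcoc
  classical
  haveI := hF
  haveI := hE
  haveI : Normal ↥F₀ ↥(IntermediateField.extendScalars hle) :=
    H25.normal_extendScalars F₀ E hle hst
  haveI : FiniteDimensional ℚ_[q] ↥(IntermediateField.extendScalars hle) := by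
    show FiniteDimensional ℚ_[q] ↥E
    infer_instance
  haveI : FiniteDimensional ↥F₀ ↥(IntermediateField.extendScalars hle) :=
    FiniteDimensional.right ℚ_[q] ↥F₀ _
  haveI : IsGalois ↥F₀ ↥(IntermediateField.extendScalars hle) := ⟨⟩
  -- cyclic
  have hcyc : IsCyclic (↥(IntermediateField.extendScalars hle) ≃ₐ[↥F₀]
      ↥(IntermediateField.extendScalars hle)) := by
    obtain ⟨φ, hφ'⟩ := hφ
    refine ⟨⟨LOC.H68.resΓ F₀ (IntermediateField.extendScalars hle) φ, ?_⟩⟩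
    intro τ
    obtain ⟨h, rfl⟩ := LOC.H68.resΓ_surjective F₀ (IntermediateField.extendScalars hle) τ
    obtain ⟨n, s, hs, rfl⟩ := hφ' h
    have hs1 : LOC.H68.resΓ F₀ (IntermediateField.extendScalars hle) s = 1 := by
      rw [LOC.H68.resΓ_eq_one_iff]
      intro x hx
      exact (IntermediateField.mem_fixingSubgroup_iff E _).1 hs x hx
    refine ⟨(n : ℤ), ?_⟩
    show LOC.H68.resΓ F₀ (IntermediateField.extendScalars hle) φ ^ (n : ℤ) = _
    rw [map_mul, map_pow, hs1, mul_one, zpow_natCast]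
  -- unramified
  have hunr : LOC.IsUnram q ↥F₀ ↥(IntermediateField.extendScalars hle) := by
    intro y
    by_cases hy : y = 0
    · refine ⟨0, ?_⟩
      rw [hy, LOC.nrm_zero, LOC.nrm_zero]
    · have hy' : (y : PadicAlgCl q) ≠ 0 := fun h => hy (Subtype.ext h)
      obtain ⟨k, hk⟩ := hval (y : PadicAlgCl q) y.2 hy'
      refine ⟨((q : ℕ) : ↥F₀) ^ k, ?_⟩
      rw [nrm_eq_norm_top, nrm_eq_norm_base, hk]
      have h1 : (((((q : ℕ) : ↥F₀) ^ k : ↥F₀)) : PadicAlgCl q) = ((q : ℕ) : PadicAlgCl q) ^ k := by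
        have := map_zpow₀ (algebraMap ↥F₀ (PadicAlgCl q)) ((q : ℕ) : ↥F₀) k
        rw [map_natCast] at this
        exact this
      rw [h1, norm_zpow]
  exact core_gen F₀ (IntermediateField.extendScalars hle) hcyc hunr c hc1 hcoc

end final

end Fermat.Agent.S55.CFT.GS.H68

end
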