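/-
S55 package E4, island GS, LAYER B (helper6): `Bri.Stmt_ResLoc_fwd` (`LocTrivS → ResTrivAt` at a
place over `q ∉ S`) from the local leaf `Bri.Stmt_UnrVal` (`GS/H64_ResLocDefs.lean`).

Route: `β ↦ b₁` with values in `E = ℚ_q(j_w N)`, constant modulo `Gal(Ω/E)`
(`GS.H25.stmt_LocS_H90`); `ψ(h) = |j_w b(ρ_w h)| / |b₁(h)|ᵖ` is a homomorphism
`Gal(Ω/F₀) → ℝ_{>0}` which is trivial on `Gal(Ω/E)`, and some positive power of every `h` lies in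
`Gal(Ω/E)`, so `ψ = 1`; `|b₁(h)| ∈ q^ℤ` (`Bri.Stmt_UnrVal`); every element of the decomposition
group of `A` in `G_K` is `ρ_w h` modulo `G_N` (`Lib.LocalGlobalDense.exists_local_lift_field`).
Translation lemmas: `GS/H64_ResLocBwd.lean` (helper64).
-/
import Fermat.Agent.S55.CFT.GS.H64_ResLocBwd
import Fermat.Agent.S55.CFT.GS.H25_LocSH90

set_option autoImplicit false
set_option linter.style.haveILetI false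
set_option linter.unusedSectionVars false
set_option linter.unusedVariables false

open CategoryTheory groupCohomology ExtCitation

open scoped Pointwise

noncomputable section

namespace Fermat.Agent.S55.CFT.GS.H6

open Fermat.Agent.S55 Fermat.Agent.S55.Top Fermat.Agent.S55.CFT Fermat.Agent.S55.CFT.GS.Bri
  Fermat.Agent.S55.CFT.LOC.H45P Fermat.Agent.S55.CFT.GS.H64

local notation "Qb" => AlgebraicClosure ℚ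

attribute [local instance] Fermat.Agent.S55.CFT.fact_primes

/-- Some positive power of an automorphism fixes a given finite-dimensional intermediate field
pointwise. -/
theorem rlf_exists_pow_mem {k Ω : Type*} [Field k] [Field Ω] [Algebra k Ω]
    (E : IntermediateField k Ω) [FiniteDimensional k E] (h : Ω ≃ₐ[k] Ω) :
    ∃ n : ℕ, 0 < n ∧ h ^ n ∈ E.fixingSubgroup := by
  let f : ℕ → (E →ₐ[k] Ω) := fun n => ((h ^ n : Ω ≃ₐ[k] Ω) : Ω →ₐ[k] Ω).comp E.val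
  have key : ∀ m n : ℕ, m < n → f m = f n → ∃ n : ℕ, 0 < n ∧ h ^ n ∈ E.fixingSubgroup := by
    intro m n hlt hf
    refine ⟨n - m, Nat.sub_pos_of_lt hlt, ?_⟩
    rw [IntermediateField.mem_fixingSubgroup_iff]
    intro x hx
    have h1 : (h ^ m) x = (h ^ n) x := DFunLike.congr_fun hf ⟨x, hx⟩
    have h2 : h ^ n = h ^ m * h ^ (n - m) := by rw [← pow_add, Nat.add_sub_cancel' hlt.le]
    rw [h2, AlgEquiv.mul_apply] at h1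
    exact ((h ^ m).injective h1).symm
  obtain ⟨m, n, hmn, hf⟩ := Finite.exists_ne_map_eq_of_infinite f
  rcases lt_or_gt_of_ne hmn with hlt | hlt
  · exact key m n hlt hf
  · exact key n m hlt hf.symm

section core

variable (q : ℕ) [Fact q.Prime]

local notation "Ω" => PadicAlgCl q

theorem rlf_norm_algEquiv (τ : Ω ≃ₐ[ℚ_[q]] Ω) (y : Ω) : ‖τ y‖ = ‖y‖ :=
  congrArg NNReal.toReal (nnnorm_padicAlgCl_algEquiv q τ y)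

/-- The local core of `RESLOC (⟹)`: if `cwᵖ = d bw` and `cw = d b₁` with `bw`, `b₁` constant
modulo `Gal(Ω/E)`, `E` finite over `ℚ_q`, then `|bw| = |b₁|ᵖ`. -/
theorem rlf_core (p : ℕ) (F₀ E : IntermediateField ℚ_[q] Ω) (hE : FiniteDimensional ℚ_[q] ↥E)
    (cw : ↥F₀.fixingSubgroup × ↥F₀.fixingSubgroup → Ω) (bw b₁ : ↥F₀.fixingSubgroup → Ω)
    (hcw0 : ∀ t, cw t ≠ 0) (hbw0 : ∀ h, bw h ≠ 0) (hb₁0 : ∀ h, b₁ h ≠ 0)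
    (hbwlev : ∀ h s : ↥F₀.fixingSubgroup, (s : Ω ≃ₐ[ℚ_[q]] Ω) ∈ E.fixingSubgroup →
      bw (h * s) = bw h)
    (hb₁lev : ∀ h s : ↥F₀.fixingSubgroup, (s : Ω ≃ₐ[ℚ_[q]] Ω) ∈ E.fixingSubgroup →
      b₁ (h * s) = b₁ h)
    (hpw : ∀ h₁ h₂ : ↥F₀.fixingSubgroup,
      cw (h₁, h₂) ^ p * bw (h₁ * h₂) = (h₁ : Ω ≃ₐ[ℚ_[q]] Ω) (bw h₂) * bw h₁)
    (hb₁ : ∀ h₁ h₂ : ↥F₀.fixingSubgroup,
      cw (h₁, h₂) * b₁ (h₁ * h₂) = (h₁ : Ω ≃ₐ[ℚ_[q]] Ω) (b₁ h₂) * b₁ h₁)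
    (h : ↥F₀.fixingSubgroup) : ‖bw h‖ = ‖b₁ h‖ ^ p := by
  set ψ : ↥F₀.fixingSubgroup → ℝ := fun h => ‖bw h‖ / ‖b₁ h‖ ^ p with hψ
  have hBpos : ∀ h, 0 < ‖bw h‖ := fun h => norm_pos_iff.mpr (hbw0 h)
  have hYpos : ∀ h, 0 < ‖b₁ h‖ := fun h => norm_pos_iff.mpr (hb₁0 h)
  have hCpos : ∀ t, 0 < ‖cw t‖ := fun t => norm_pos_iff.mpr (hcw0 t)
  have hψpos : ∀ h, 0 < ψ h := fun h => div_pos (hBpos h) (pow_pos (hYpos h) p)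
  have hψmul : ∀ h₁ h₂, ψ (h₁ * h₂) = ψ h₁ * ψ h₂ := by
    intro h₁ h₂
    have e1 : ‖cw (h₁, h₂)‖ ^ p * ‖bw (h₁ * h₂)‖ = ‖bw h₂‖ * ‖bw h₁‖ := by
      have := congrArg norm (hpw h₁ h₂)
      rwa [norm_mul, norm_pow, norm_mul, rlf_norm_algEquiv] at this
    have e2 : ‖cw (h₁, h₂)‖ * ‖b₁ (h₁ * h₂)‖ = ‖b₁ h₂‖ * ‖b₁ h₁‖ := by
      have := congrArg norm (hb₁ h₁ h₂)
      rwa [norm_mul, norm_mul, rlf_norm_algEquiv] at this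
    have hC := hCpos (h₁, h₂)
    have hY := hYpos (h₁ * h₂)
    have hY1 := hYpos h₁
    have hY2 := hYpos h₂
    simp only [hψ]
    rw [div_mul_div_comm, div_eq_div_iff (pow_pos hY p).ne'
      (mul_pos (pow_pos hY1 p) (pow_pos hY2 p)).ne']
    apply mul_left_cancel₀ (pow_pos hC p).ne'
    calc ‖cw (h₁, h₂)‖ ^ p * (‖bw (h₁ * h₂)‖ * (‖b₁ h₁‖ ^ p * ‖b₁ h₂‖ ^ p))
        = (‖cw (h₁, h₂)‖ ^ p * ‖bw (h₁ * h₂)‖) * (‖b₁ h₂‖ * ‖b₁ h₁‖) ^ p := by ring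
      _ = (‖bw h₂‖ * ‖bw h₁‖) * (‖cw (h₁, h₂)‖ * ‖b₁ (h₁ * h₂)‖) ^ p := by rw [e1, e2]
      _ = ‖cw (h₁, h₂)‖ ^ p * (‖bw h₁‖ * ‖bw h₂‖ * ‖b₁ (h₁ * h₂)‖ ^ p) := by ring
  have hψone : ψ 1 = 1 := by
    have h1 := hψmul 1 1
    rw [mul_one] at h1
    have h2 : ψ 1 * 1 = ψ 1 * ψ 1 := by rw [mul_one]; exact h1
    exact (mul_left_cancel₀ (hψpos 1).ne' h2).symm
  have hψpow : ∀ (h : ↥F₀.fixingSubgroup) (n : ℕ), ψ (h ^ n) = ψ h ^ n := by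
    intro h n
    induction n with
    | zero => rw [pow_zero, pow_zero, hψone]
    | succ n ih => rw [pow_succ, pow_succ, hψmul, ih]
  have hψs : ∀ s : ↥F₀.fixingSubgroup, (s : Ω ≃ₐ[ℚ_[q]] Ω) ∈ E.fixingSubgroup → ψ s = 1 := by
    intro s hs
    have h1 : ψ s = ψ 1 := by
      have e1 := hbwlev 1 s hs
      have e2 := hb₁lev 1 s hs
      rw [one_mul] at e1 e2
      simp only [hψ, e1, e2]
    rw [h1, hψone]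
  obtain ⟨n, hn, hmem⟩ := rlf_exists_pow_mem E (h : Ω ≃ₐ[ℚ_[q]] Ω)
  have h1 : ψ h ^ n = 1 := by
    rw [← hψpow]
    exact hψs _ (by simpa using hmem)
  have h2 : ψ h = 1 := (pow_eq_one_iff_of_nonneg (hψpos h).le hn.ne').1 h1
  have h3 : ‖bw h‖ / ‖b₁ h‖ ^ p = 1 := h2
  rwa [div_eq_one_iff_eq (pow_pos (hYpos h) p).ne'] at h3

end core

section transl

variable {S' : Finset Nat.Primes} {K : IntermediateField ℚ Qb} (𝔓 : PlaceSys S' K) (q : ↥S')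
  (w : 𝔓.W q)

/-- `ord_A(x) = k` from the norm of `j_w x`. -/
theorem rlf_ordIs_of_norm_jw (A : ValuationSubring Qb) (hA : 𝔓.σ q w • A = primeLocalPlace q.1)
    {x : Qb} (hx : x ≠ 0) {k : ℤ}
    (h : ‖jw 𝔓 q w x‖ = ‖(((q.1 : ℕ) : ℕ) : PadicAlgCl (q.1 : ℕ))‖ ^ k) :
    OrdIs A (q.1 : ℕ) x k := by
  have hq0 : (((q.1 : ℕ) : ℕ) : Qb) ≠ 0 := by exact_mod_cast q.1.2.ne_zero
  have hz0 : x / (((q.1 : ℕ) : ℕ) : Qb) ^ k ≠ 0 := div_ne_zero hx (zpow_ne_zero _ hq0)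
  have hq0' := norm_q_pos (q.1 : ℕ)
  have h5 : ‖jw 𝔓 q w (x / (((q.1 : ℕ) : ℕ) : Qb) ^ k)‖ = 1 := by
    rw [map_div₀, map_zpow₀, map_natCast, norm_div, norm_zpow, h]
    exact div_self (zpow_ne_zero _ hq0'.ne')
  have h1 : x / (((q.1 : ℕ) : ℕ) : Qb) ^ k ∈ A :=
    (mem_iff_norm_jw 𝔓 q w A hA _).2 h5.le
  have h2 : (x / (((q.1 : ℕ) : ℕ) : Qb) ^ k)⁻¹ ∈ A := by
    refine (mem_iff_norm_jw 𝔓 q w A hA _).2 ?_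
    rw [map_inv₀, norm_inv, h5, inv_one]
  have hv : A.valuation (x / (((q.1 : ℕ) : ℕ) : Qb) ^ k) = 1 :=
    (H6.valuation_eq_one_iff_mem A _ hz0).2 ⟨h1, h2⟩
  rw [map_div₀, map_zpow₀] at hv
  show A.valuation x = A.valuation (((q.1 : ℕ) : ℕ) : Qb) ^ k
  have hne : A.valuation (((q.1 : ℕ) : ℕ) : Qb) ^ k ≠ 0 :=
    zpow_ne_zero _ ((Valuation.ne_zero_iff _).mpr hq0)
  exact (div_eq_one_iff_eq hne).1 hv

/-- Every element of the decomposition group of `A = σ_w⁻¹ • primeLocalPlace q` in `G_K` agrees on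
a given finite level field `N ⊇ K` with `ρ_w h` for some `h ∈ Γ_w`. -/
theorem rlf_exists_local (N : IntermediateField ℚ Qb) [FiniteDimensional ℚ N] (hKN : K ≤ N)
    (A : ValuationSubring Qb) (hA : 𝔓.σ q w • A = primeLocalPlace q.1)
    (g : ↥K.fixingSubgroup) (hg : (g : GQ) • A = A) :
    ∃ h : 𝔓.Γw q w, ∀ y : Qb, y ∈ N → (𝔓.ρw q w h : GQ) y = (g : GQ) y := by
  have hd : (𝔓.σ q w * (g : GQ) * (𝔓.σ q w)⁻¹) • primeLocalPlace q.1 = primeLocalPlace q.1 := by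
    rw [mul_smul, mul_smul, ← hA, inv_smul_smul, hg]
  have hd' : (𝔓.σ q w * (g : GQ) * (𝔓.σ q w)⁻¹) ∈
      (padicPlace (q.1 : ℕ)).decompositionSubgroup ℚ := hd
  have : FiniteDimensional ℚ (N.map ((𝔓.σ q w : Qb ≃ₐ[ℚ] Qb) : Qb →ₐ[ℚ] Qb)) :=
    IntermediateField.finiteDimensional_map _
  obtain ⟨τ, hτ⟩ := Fermat.Agent.Lib.LocalGlobalDense.exists_local_lift_field (q.1 : ℕ) _ hd'
    (N.map ((𝔓.σ q w : Qb ≃ₐ[ℚ] Qb) : Qb →ₐ[ℚ] Qb))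
  have hτN : ∀ y : Qb, y ∈ N →
      ((𝔓.σ q w)⁻¹ * rl q.1 (show Gl q.1 from τ) * 𝔓.σ q w) y = (g : GQ) y := by
    intro y hy
    have h1 : 𝔓.σ q w y ∈ N.map ((𝔓.σ q w : Qb ≃ₐ[ℚ] Qb) : Qb →ₐ[ℚ] Qb) :=
      (IntermediateField.mem_map N).mpr ⟨y, hy, rfl⟩
    have h2 := hτ _ h1
    show (𝔓.σ q w)⁻¹ (rl q.1 (show Gl q.1 from τ) (𝔓.σ q w y)) = (g : GQ) y
    have h3 : rl q.1 (show Gl q.1 from τ) (𝔓.σ q w y) =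
        (𝔓.σ q w * (g : GQ) * (𝔓.σ q w)⁻¹) (𝔓.σ q w y) := h2
    rw [h3]
    simp only [AlgEquiv.mul_apply]
    have h4 : (𝔓.σ q w)⁻¹ (𝔓.σ q w y) = y := AlgEquiv.symm_apply_apply _ y
    rw [h4]
    exact AlgEquiv.symm_apply_apply _ _
  have hτΓ : (show Gl q.1 from τ) ∈ 𝔓.Γw q w := by
    rw [mem_Γw_iff, IntermediateField.mem_fixingSubgroup_iff]
    intro x hx
    rw [hτN x (hKN hx)]
    exact (IntermediateField.mem_fixingSubgroup_iff K _).mp g.2 x hx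
  exact ⟨⟨(show Gl q.1 from τ), hτΓ⟩, hτN⟩

end transl

/-- **RESLOC (⟹)** from the local leaf `Bri.Stmt_UnrVal`. -/
theorem stmt_ResLoc_fwd_of (hVal : Stmt_UnrVal) : Stmt_ResLoc_fwd := by
  intro p _ S K N hKN hNS hstab S' 𝔓 q w hq A hA c b hc hcoc hb hpow hloc g hgA
  obtain ⟨β, hβ0, hβlev, hβ⟩ := hloc
  have hKS : K.IsUnramifiedOutside S := hNS.of_le hKN
  have hfdK : FiniteDimensional ℚ K := hKS.1
  have hfdN : FiniteDimensional ℚ N := hNS.1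
  have hρN : ∀ s : ↥(Floc (q.1 : ℕ) K (𝔓.σ q w)).fixingSubgroup,
      (s : PadicAlgCl (q.1 : ℕ) ≃ₐ[ℚ_[(q.1 : ℕ)]] PadicAlgCl (q.1 : ℕ)) ∈
        (Floc (q.1 : ℕ) N (𝔓.σ q w)).fixingSubgroup →
      ((𝔓.ρw q w (ofLoc 𝔓 q w s) : ↥K.fixingSubgroup) : GQ) ∈ N.fixingSubgroup :=
    fun s hs => (ρw_mem_iff_Floc 𝔓 q w N (ofLoc 𝔓 q w s)).2 hs
  -- the local cochains
  set cw : ↥(Floc (q.1 : ℕ) K (𝔓.σ q w)).fixingSubgroup ×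
      ↥(Floc (q.1 : ℕ) K (𝔓.σ q w)).fixingSubgroup → PadicAlgCl (q.1 : ℕ) :=
    fun t => jw 𝔓 q w ((c (𝔓.ρw q w (ofLoc 𝔓 q w t.1), 𝔓.ρw q w (ofLoc 𝔓 q w t.2)) : Qbˣ) : Qb)
    with hcw
  set bw : ↥(Floc (q.1 : ℕ) K (𝔓.σ q w)).fixingSubgroup → PadicAlgCl (q.1 : ℕ) :=
    fun h => jw 𝔓 q w ((b (𝔓.ρw q w (ofLoc 𝔓 q w h)) : Qbˣ) : Qb) with hbw
  set β' : ↥(Floc (q.1 : ℕ) K (𝔓.σ q w)).fixingSubgroup → PadicAlgCl (q.1 : ℕ) :=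
    fun h => β (ofLoc 𝔓 q w h) with hβ'
  have hcwE : ∀ t, cw t ∈ Floc (q.1 : ℕ) N (𝔓.σ q w) := fun t =>
    jw_mem_Floc 𝔓 q w N (hc.2 _)
  have hcw0 : ∀ t, cw t ≠ 0 := fun t => (map_ne_zero _).mpr (Units.ne_zero _)
  have hbw0 : ∀ h, bw h ≠ 0 := fun h => (map_ne_zero _).mpr (Units.ne_zero _)
  have hcwlev : ∀ h₁ h₂ s₁ s₂ : ↥(Floc (q.1 : ℕ) K (𝔓.σ q w)).fixingSubgroup,
      (s₁ : PadicAlgCl (q.1 : ℕ) ≃ₐ[ℚ_[(q.1 : ℕ)]] PadicAlgCl (q.1 : ℕ)) ∈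
        (Floc (q.1 : ℕ) N (𝔓.σ q w)).fixingSubgroup →
      (s₂ : PadicAlgCl (q.1 : ℕ) ≃ₐ[ℚ_[(q.1 : ℕ)]] PadicAlgCl (q.1 : ℕ)) ∈
        (Floc (q.1 : ℕ) N (𝔓.σ q w)).fixingSubgroup →
      cw (h₁ * s₁, h₂ * s₂) = cw (h₁, h₂) := by
    intro h₁ h₂ s₁ s₂ hs₁ hs₂
    simp only [hcw, ofLoc_mul, map_mul]
    rw [hc.1 _ _ _ _ (hρN s₁ hs₁) (hρN s₂ hs₂)]
  have hbwlev : ∀ h s : ↥(Floc (q.1 : ℕ) K (𝔓.σ q w)).fixingSubgroup,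
      (s : PadicAlgCl (q.1 : ℕ) ≃ₐ[ℚ_[(q.1 : ℕ)]] PadicAlgCl (q.1 : ℕ)) ∈
        (Floc (q.1 : ℕ) N (𝔓.σ q w)).fixingSubgroup → bw (h * s) = bw h := by
    intro h s hs
    simp only [hbw, ofLoc_mul, map_mul]
    rw [hb.1 _ _ (hρN s hs)]
  -- `cwᵖ = d bw`
  have hpw : ∀ h₁ h₂ : ↥(Floc (q.1 : ℕ) K (𝔓.σ q w)).fixingSubgroup,
      cw (h₁, h₂) ^ p * bw (h₁ * h₂) =
        (h₁ : PadicAlgCl (q.1 : ℕ) ≃ₐ[ℚ_[(q.1 : ℕ)]] PadicAlgCl (q.1 : ℕ)) (bw h₂) * bw h₁ := by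
    intro h₁ h₂
    have h1 := hpow (𝔓.ρw q w (ofLoc 𝔓 q w h₁), 𝔓.ρw q w (ofLoc 𝔓 q w h₂))
    simp only [mOne] at h1
    rw [div_mul_eq_mul_div, eq_div_iff_mul_eq'] at h1
    have h2 := congrArg (fun u : Qbˣ => jw 𝔓 q w (u : Qb)) h1
    simp only [Units.val_mul, Units.val_pow_eq_pow_val, map_mul, map_pow] at h2
    have h3 : jw 𝔓 q w (((𝔓.ρw q w (ofLoc 𝔓 q w h₁) •
        b (𝔓.ρw q w (ofLoc 𝔓 q w h₂)) : Qbˣ)) : Qb) =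
        (h₁ : PadicAlgCl (q.1 : ℕ) ≃ₐ[ℚ_[(q.1 : ℕ)]] PadicAlgCl (q.1 : ℕ)) (bw h₂) :=
      jw_ρw 𝔓 q w (ofLoc 𝔓 q w h₁) _
    rw [h3] at h2
    simp only [hcw, hbw, ofLoc_mul, map_mul]
    exact h2
  -- `β'` is locally level constant
  have hβ'loc : LOC.IsLoc₁ (Floc (q.1 : ℕ) K (𝔓.σ q w)).fixingSubgroup β' := by
    obtain ⟨L, hLfd, hL⟩ := hβlev
    haveI := hLfd
    refine ⟨Floc (q.1 : ℕ) L 1, finiteDimensional_Floc _ _ _, ?_⟩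
    intro g' s hs
    have h1 := (mem_fixingSubgroup_Floc (q.1 : ℕ) L 1 _).1 hs
    rw [inv_one, one_mul, mul_one] at h1
    exact hL (ofLoc 𝔓 q w g') (ofLoc 𝔓 q w s) h1
  have hβ'eq : ∀ h₁ h₂ : ↥(Floc (q.1 : ℕ) K (𝔓.σ q w)).fixingSubgroup,
      cw (h₁, h₂) * β' (h₁ * h₂) =
        (h₁ : PadicAlgCl (q.1 : ℕ) ≃ₐ[ℚ_[(q.1 : ℕ)]] PadicAlgCl (q.1 : ℕ)) (β' h₂) * β' h₁ :=
    fun h₁ h₂ => hβ (ofLoc 𝔓 q w h₁) (ofLoc 𝔓 q w h₂)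
  obtain ⟨b₁, hb₁0, hb₁E, hb₁lev, hb₁⟩ := H25.stmt_LocS_H90 (q.1 : ℕ)
    (Floc (q.1 : ℕ) K (𝔓.σ q w)) (Floc (q.1 : ℕ) N (𝔓.σ q w))
    (finiteDimensional_Floc _ _ _) (finiteDimensional_Floc _ _ _) (Floc_mono hKN _ _)
    (Floc_stable 𝔓 q w N hstab) cw β' hcwE hcw0 hcwlev (fun h => hβ0 _) hβ'loc hβ'eq
  -- the element of `Γ_w` inducing `g` on `N`
  obtain ⟨h, hh⟩ := rlf_exists_local 𝔓 q w N hKN A hA g hgA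
  have hgN : ((g⁻¹ * 𝔓.ρw q w h : ↥K.fixingSubgroup) : GQ) ∈ N.fixingSubgroup := by
    rw [IntermediateField.mem_fixingSubgroup_iff]
    intro y hy
    show ((g : GQ)⁻¹ * (𝔓.ρw q w h : GQ)) y = y
    rw [AlgEquiv.mul_apply, hh y hy]
    exact AlgEquiv.symm_apply_apply _ y
  have hbg : b (𝔓.ρw q w h) = b g := by
    have h1 := hb.1 g (g⁻¹ * 𝔓.ρw q w h) hgN
    rwa [mul_inv_cancel_left] at h1
  have hnorm := rlf_core (q.1 : ℕ) p (Floc (q.1 : ℕ) K (𝔓.σ q w))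
    (Floc (q.1 : ℕ) N (𝔓.σ q w)) (finiteDimensional_Floc _ _ _) cw bw b₁ hcw0 hbw0 hb₁0
    hbwlev hb₁lev hpw hb₁ (toLoc 𝔓 q w h)
  obtain ⟨k, hk⟩ := hVal S N hNS (q.1 : ℕ) (fun q' hq' => by
      have : q' = q.1 := Subtype.ext hq'
      rw [this]
      exact hq) (𝔓.σ q w) (b₁ (toLoc 𝔓 q w h)) (hb₁E _) (hb₁0 _)
  refine ⟨k, rlf_ordIs_of_norm_jw 𝔓 q w A hA (Units.ne_zero _) ?_⟩
  have h1 : bw (toLoc 𝔓 q w h) = jw 𝔓 q w ((b g : Qbˣ) : Qb) := by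
    simp only [hbw, ofLoc_toLoc, hbg]
  rw [← h1, hnorm, hk, ← zpow_natCast, ← zpow_mul, mul_comm]

end Fermat.Agent.S55.CFT.GS.H6

end
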