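/-
S55 package E4, island GS, Layer B, local leaf **UNR-VAL** (helper78): `Bri.Stmt_UnrVal` of
`GS/H64_ResLocDefs.lean`.

If `N` is unramified outside `S` and `q ∉ S`, the value group of `ℚ_q(ι_q(σ N))` is `q^ℤ`.

Route: the place `A = {x : ‖ι σ x‖ ≤ 1}` of `ℚ̄` lies over `q`, its inertia group fixes `N`, so every
non-zero `x ∈ N` has `A.valuation x = A.valuation q ^ k` (`R.H6.stmt_UnrFix`), i.e.
`‖ι σ x‖ = ‖q‖ ^ k`.  The field `ι σ N` is dense in `ℚ_q(ι σ N)` (its closure is a subfield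
containing `ℚ_q`), and the norm is ultrametric.
-/
import Fermat.Agent.S55.CFT.GS.H64_ResLocDefs
import Fermat.Agent.R.H6_UnrFix

set_option autoImplicit false
set_option linter.unusedSectionVars false
set_option linter.unusedVariables false
set_option linter.style.haveILetI false

noncomputable section

namespace Fermat.Agent.S55.CFT.GS.H78

open Fermat.Agent.S55 Fermat.Agent.S55.Top Fermat.Agent.S55.CFT

local notation "Qb" => AlgebraicClosure ℚ

section bridge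

variable (q : ℕ) [Fact q.Prime] (σ : GQ)

/-- `ι_q ∘ σ : ℚ̄ → ℚ̄_q`. -/
def jsig : Qb →+* PadicAlgCl q :=
  (padicEmbedding q).toRingHom.comp (σ.toRingEquiv.toRingHom)

theorem jsig_apply (x : Qb) : jsig q σ x = padicEmbedding q (σ x) := rfl

/-- The place of `ℚ̄` cut out by `ι_q ∘ σ`. -/
def plSig : ValuationSubring Qb := (padicIntegers q).comap (jsig q σ)

theorem mem_plSig (x : Qb) : x ∈ plSig q σ ↔ ‖jsig q σ x‖ ≤ 1 := by
  show ‖jsig q σ x‖₊ ≤ 1 ↔ ‖jsig q σ x‖ ≤ 1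
  rw [← coe_nnnorm]
  exact_mod_cast Iff.rfl

theorem norm_natCast_self_lt : ‖((q : ℕ) : PadicAlgCl q)‖ < 1 := by
  have h1 : algebraMap ℚ_[q] (PadicAlgCl q) (q : ℚ_[q]) = (q : PadicAlgCl q) :=
    map_natCast _ _
  rw [← h1]
  have h2 := PadicAlgCl.norm_extends q (q : ℚ_[q])
  rw [h2, Padic.norm_p]
  have hq : (1 : ℝ) < q := by exact_mod_cast (Fact.out : q.Prime).one_lt
  exact inv_lt_one_of_one_lt₀ hq

theorem norm_natCast_self_pos : 0 < ‖((q : ℕ) : PadicAlgCl q)‖ := by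
  rw [norm_pos_iff]
  exact_mod_cast (Fact.out : q.Prime).ne_zero

theorem plSig_liesOver : (plSig q σ).LiesOverPrime q := by
  show ((q : ℕ) : Qb) ∈ (plSig q σ).nonunits
  rw [ValuationSubring.mem_nonunits_iff_or]
  right
  intro h
  rw [mem_plSig, map_inv₀, map_natCast, norm_inv] at h
  have h1 := norm_natCast_self_lt q
  have h2 := norm_natCast_self_pos q
  have h3 : 1 < ‖((q : ℕ) : PadicAlgCl q)‖⁻¹ := (one_lt_inv₀ h2).2 h1
  exact absurd h (not_le.2 h3)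

/-- From valuations at the place to norms. -/
theorem norm_eq_of_valuation_eq {x y : Qb} (hy : y ≠ 0) (k : ℤ)
    (h : (plSig q σ).valuation x = (plSig q σ).valuation y ^ k) :
    ‖jsig q σ x‖ = ‖jsig q σ y‖ ^ k := by
  have hvy : (plSig q σ).valuation y ≠ 0 := ((plSig q σ).valuation.ne_zero_iff).2 hy
  have hyk : y ^ k ≠ 0 := zpow_ne_zero k hy
  have hz : (plSig q σ).valuation (x / y ^ k) = 1 := by
    rw [map_div₀, map_zpow₀, h, div_self (zpow_ne_zero k hvy)]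
  have hz1 : x / y ^ k ∈ plSig q σ := ((plSig q σ).valuation_le_one_iff _).1 hz.le
  have hz2 : (x / y ^ k)⁻¹ ∈ plSig q σ := by
    rw [← (plSig q σ).valuation_le_one_iff, map_inv₀, hz, inv_one]
  rw [mem_plSig] at hz1 hz2
  rw [map_inv₀, norm_inv] at hz2
  have hjy : jsig q σ y ≠ 0 := (map_ne_zero_iff _ (jsig q σ).injective).2 hy
  have hjyk : ‖jsig q σ y‖ ^ k ≠ 0 := zpow_ne_zero k (norm_ne_zero_iff.2 hjy)
  have hpos : 0 < ‖jsig q σ y‖ ^ k := zpow_pos (norm_pos_iff.2 hjy) k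
  rw [map_div₀, map_zpow₀, norm_div, norm_zpow] at hz1 hz2
  have h1 : ‖jsig q σ x‖ ≤ ‖jsig q σ y‖ ^ k := by
    rwa [div_le_one hpos] at hz1
  have hx : x ≠ 0 := by
    rintro rfl
    rw [map_zero] at h
    exact (zpow_ne_zero k hvy) h.symm
  have h0 : 0 < ‖jsig q σ x‖ :=
    norm_pos_iff.2 ((map_ne_zero_iff _ (jsig q σ).injective).2 hx)
  have h2 : ‖jsig q σ y‖ ^ k ≤ ‖jsig q σ x‖ := by
    by_contra hlt
    rw [not_le] at hlt
    have h3 : ‖jsig q σ x‖ / ‖jsig q σ y‖ ^ k < 1 := (div_lt_one hpos).2 hlt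
    have h4 : 0 < ‖jsig q σ x‖ / ‖jsig q σ y‖ ^ k := div_pos h0 hpos
    have h5 : 1 < (‖jsig q σ x‖ / ‖jsig q σ y‖ ^ k)⁻¹ := (one_lt_inv₀ h4).2 h3
    exact absurd hz2 (not_le.2 h5)
  exact le_antisymm h1 h2

end bridge

section dense

variable (q : ℕ) [Fact q.Prime] (σ : GQ) (N : IntermediateField ℚ Qb)

/-- The subfield `ι σ N` of `ℚ̄_q`. -/
def imgField : Subfield (PadicAlgCl q) := N.toSubfield.map (jsig q σ)

theorem mem_imgField {y : PadicAlgCl q} :
    y ∈ imgField q σ N ↔ ∃ x ∈ N, jsig q σ x = y := by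
  unfold imgField
  rw [Subfield.mem_map]
  rfl

theorem algebraMap_mem_closure (c : ℚ_[q]) :
    algebraMap ℚ_[q] (PadicAlgCl q) c ∈ (imgField q σ N).topologicalClosure := by
  show algebraMap ℚ_[q] (PadicAlgCl q) c ∈ closure ((imgField q σ N : Set (PadicAlgCl q)))
  rw [Metric.mem_closure_iff]
  intro ε hε
  obtain ⟨r, hr⟩ := Padic.rat_dense q c hε
  refine ⟨jsig q σ (r : Qb), ?_, ?_⟩
  · exact (mem_imgField q σ N).2 ⟨(r : Qb), SubfieldClass.ratCast_mem N r, rfl⟩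
  · rw [dist_eq_norm]
    have h1 : jsig q σ (r : Qb) = algebraMap ℚ_[q] (PadicAlgCl q) (r : ℚ_[q]) := by
      rw [map_ratCast, map_ratCast]
    rw [h1, ← map_sub]
    have h2 := PadicAlgCl.norm_extends q (c - (r : ℚ_[q]))
    rw [show ((c - (r : ℚ_[q]) : ℚ_[q]) : PadicAlgCl q) =
      algebraMap ℚ_[q] (PadicAlgCl q) (c - (r : ℚ_[q])) from rfl] at h2
    rw [h2]
    exact hr

/-- `ι σ N` is dense in `ℚ_q(ι σ N)`. -/
theorem mem_closure_of_mem_Floc {y : PadicAlgCl q} (hy : y ∈ LOC.H45P.Floc q N σ) :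
    y ∈ (imgField q σ N).topologicalClosure := by
  unfold LOC.H45P.Floc at hy
  induction hy using IntermediateField.adjoin_induction with
  | mem y hy =>
    obtain ⟨x, hx, rfl⟩ := hy
    exact (imgField q σ N).le_topologicalClosure ((mem_imgField q σ N).2 ⟨x, hx, rfl⟩)
  | algebraMap c => exact algebraMap_mem_closure q σ N c
  | add y z _ _ hy hz => exact add_mem hy hz
  | inv y _ hy => exact inv_mem hy
  | mul y z _ _ hy hz => exact mul_mem hy hz

/-- Approximation of a non-zero element of `ℚ_q(ι σ N)` by an element of `ι σ N` of the same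
norm. -/
theorem exists_norm_eq {y : PadicAlgCl q} (hy : y ∈ LOC.H45P.Floc q N σ) (hy0 : y ≠ 0) :
    ∃ x ∈ N, x ≠ 0 ∧ ‖jsig q σ x‖ = ‖y‖ := by
  have h1 := mem_closure_of_mem_Floc q σ N hy
  have h2 : y ∈ closure ((imgField q σ N : Set (PadicAlgCl q))) := h1
  rw [Metric.mem_closure_iff] at h2
  obtain ⟨b, hb, hdist⟩ := h2 ‖y‖ (norm_pos_iff.2 hy0)
  obtain ⟨x, hx, rfl⟩ := (mem_imgField q σ N).1 hb
  rw [dist_eq_norm] at hdist
  have hle : ‖jsig q σ x‖ ≤ ‖y‖ := by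
    have h3 : jsig q σ x = y + (jsig q σ x - y) := by ring
    have h4 := IsUltrametricDist.norm_add_le_max y (jsig q σ x - y)
    rw [← h3, norm_sub_rev (jsig q σ x) y] at h4
    exact h4.trans (max_le le_rfl hdist.le)
  have hge : ‖y‖ ≤ ‖jsig q σ x‖ := by
    by_contra hlt
    rw [not_le] at hlt
    have h3 : y = jsig q σ x + (y - jsig q σ x) := by ring
    have h4 := IsUltrametricDist.norm_add_le_max (jsig q σ x) (y - jsig q σ x)
    rw [← h3] at h4
    exact absurd h4 (not_le.2 (max_lt hlt hdist))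
  have heq : ‖jsig q σ x‖ = ‖y‖ := le_antisymm hle hge
  refine ⟨x, hx, ?_, heq⟩
  rintro rfl
  rw [map_zero, norm_zero] at heq
  exact hy0 (norm_eq_zero.1 heq.symm)

end dense

/-- **UNR-VAL**. -/
theorem stmt_UnrVal : Bri.Stmt_UnrVal := by
  intro S N hN q _ hqS σ y hy hy0
  have hq : q.Prime := Fact.out
  obtain ⟨x, hxN, hx0, hxy⟩ := exists_norm_eq q σ N hy hy0
  have hqS' : (⟨q, hq⟩ : Nat.Primes) ∉ S := hqS ⟨q, hq⟩ rfl
  have hfix : ∀ τ ∈ (plSig q σ).inertiaSubgroupIn ℚ, τ x = x := by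
    intro τ hτ
    have h1 := hN.2 ⟨q, hq⟩ hqS' (plSig q σ) (plSig_liesOver q σ) hτ
    exact (IntermediateField.mem_fixingSubgroup_iff N τ).mp h1 x hxN
  obtain ⟨k, hk⟩ := Fermat.Agent.R.H6.stmt_UnrFix q hq (plSig q σ) (plSig_liesOver q σ) x hx0 hfix
  have hq0 : ((q : ℕ) : Qb) ≠ 0 := by exact_mod_cast hq.ne_zero
  have h2 := norm_eq_of_valuation_eq q σ hq0 k hk
  rw [map_natCast] at h2
  exact ⟨k, by rw [← hxy, h2]⟩

end Fermat.Agent.S55.CFT.GS.H78
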