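/-
S55 package E4, island GS, LAYER B (helper6): `Bri.Stmt_ResLoc_fwd`, closed
(`H6.stmt_ResLoc_fwd_of` + `H78.stmt_UnrVal`).
-/
import Fermat.Agent.S55.CFT.GS.H6_ResLocFwd
import Fermat.Agent.S55.CFT.GS.H78_UnrVal

set_option autoImplicit false

namespace Fermat.Agent.S55.CFT.GS.H6

/-- **RESLOC (⟹)**. -/
theorem stmt_ResLoc_fwd : Bri.Stmt_ResLoc_fwd := stmt_ResLoc_fwd_of H78.stmt_UnrVal

end Fermat.Agent.S55.CFT.GS.H6
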