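/-
S55/E4 island GS (helper24, coordinator): the island is CLOSED.

`stmt_I2 : Top.Stmt_I2`, `stmt_I3 : Top.Stmt_I3`, `stmt_I4 : Top.Stmt_I4`, unconditional:
`wire_I2/I3/I4` (`GS/H24_Wire.lean`) applied to
* LOC-S `H68.stmt_LocS` (helper68 + helpers 5, 9, 25, 47, 80),
* RESLOC `H6.stmt_ResLoc_fwd` (helper6), `H64.stmt_ResLoc_bwd_of` (helper64) with
  UNR-H2 `H25.stmt_UnrH2_of H68.stmt_UnrH2_Core` (helpers 25, 68) and UNR-VAL `H78.stmt_UnrVal`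
  (helper78),
* UNN `CFT.H96.stmt_UnrNorm` (helper96).
-/
import Fermat.Agent.S55.CFT.GS.H24_Wire
import Fermat.Agent.S55.CFT.GS.H68_LocS_Final
import Fermat.Agent.S55.CFT.GS.H6_ResLocFwdFinal
import Fermat.Agent.S55.CFT.GS.H64_ResLocBwd
import Fermat.Agent.S55.CFT.GS.H25_UnrH2Desc
import Fermat.Agent.S55.CFT.GS.H68_UnrH2
import Fermat.Agent.S55.CFT.GS.H78_UnrVal
import Fermat.Agent.S55.CFT.H96_UnrNorm

set_option autoImplicit false

noncomputable section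

namespace Fermat.Agent.S55.CFT.GS.H24

open Fermat.Agent.S55 Fermat.Agent.S55.Top Fermat.Agent.S55.CFT Fermat.Agent.S55.CFT.GS
  Fermat.Agent.S55.CFT.GS.Bri

/-- RESLOC (⟸), unconditional. -/
theorem final_ResLoc_bwd : Stmt_ResLoc_bwd :=
  H64.stmt_ResLoc_bwd_of (H25.stmt_UnrH2_of H68.stmt_UnrH2_Core) H78.stmt_UnrVal

/-- **I2** of PT-LIN, unconditional. -/
theorem stmt_I2 : Stmt_I2 :=
  wire_I2 CFT.H96.stmt_UnrNorm H68.stmt_LocS H6.stmt_ResLoc_fwd final_ResLoc_bwd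

/-- **I3** of PT-LIN, unconditional. -/
theorem stmt_I3 : Stmt_I3 :=
  wire_I3 H68.stmt_LocS H6.stmt_ResLoc_fwd final_ResLoc_bwd

/-- **I4** of PT-LIN, unconditional. -/
theorem stmt_I4 : Stmt_I4 :=
  wire_I4 CFT.H96.stmt_UnrNorm H68.stmt_LocS H6.stmt_ResLoc_fwd final_ResLoc_bwd

end Fermat.Agent.S55.CFT.GS.H24

end
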