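/-
S55/E4 island GS (helper24), assembly GS-ASM3, part (a), counting:
`#Z¹_S(G_K, 𝔽_p) = [V_S : Kˣᵖ]`, `V_S = Kˣ ∩ (Ωˣ)ᵖ`.
-/
import Fermat.Agent.S55.CFT.GS.H24_KummerH1

set_option autoImplicit false
set_option linter.unusedSectionVars false
set_option linter.unusedVariables false
set_option linter.style.haveILetI false

open CategoryTheory Module groupCohomology ExtCitation

noncomputable section

namespace Fermat.Agent.S55.CFT.GS.H24

open Fermat.Agent.S55 Fermat.Agent.S55.Top Fermat.Agent.S55.CFT.GS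

local notation "Qb" => AlgebraicClosure ℚ

section subgroups

variable (S : Finset Nat.Primes) (p : ℕ) (K : IntermediateField ℚ Qb)

/-- `V_S = Kˣ ∩ (Ωˣ)ᵖ` as a subgroup. -/
def VSs : Subgroup Qbˣ := KxS K ⊓ (OmS S).map (powMonoidHom p)

/-- `Kˣᵖ` as a subgroup. -/
def KPs : Subgroup Qbˣ := (KxS K).map (powMonoidHom p)

variable {S p K}

theorem mem_VSs {a : Qbˣ} : a ∈ VSs S p K ↔ (a : Qb) ∈ K ∧ InW S p a := by
  unfold VSs InW
  rw [Subgroup.mem_inf, Subgroup.mem_map]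
  constructor
  · rintro ⟨h1, t, ht, rfl⟩
    exact ⟨h1, t, ht, rfl⟩
  · rintro ⟨h1, t, ht, rfl⟩
    exact ⟨h1, t, ht, rfl⟩

theorem coe_VSs : (VSs S p K : Set Qbˣ) = VS S p K := by
  ext a
  exact mem_VSs

theorem mem_KPs {a : Qbˣ} : a ∈ KPs p K ↔ ∃ b : Qbˣ, (b : Qb) ∈ K ∧ b ^ p = a := by
  unfold KPs
  rw [Subgroup.mem_map]
  rfl

theorem KPs_le_VSs (hK : K.IsUnramifiedOutside S) : KPs p K ≤ VSs S p K := by
  intro a ha
  obtain ⟨b, hb, rfl⟩ := mem_KPs.1 ha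
  exact mem_VSs.2 ⟨(KxS K).pow_mem hb p, b, inOm_of_mem hK hb, rfl⟩

end subgroups

section count

variable {p : ℕ} [Fact p.Prime] {S : Finset Nat.Primes} {K : IntermediateField ℚ Qb}
  {ζ : Qbˣ}

/-- The Kummer homomorphism `R → Z¹_S(G_K, 𝔽_p)`. -/
def kumHom (hζ : IsPrimitiveRoot ζ p) (hζK : ζ ∈ KxS K) :
    ↥(RS S p K) →* Multiplicative ↥(Z1K (ZMod p) S K) where
  toFun t := Multiplicative.ofAdd ⟨kum hζ (t : Qbˣ), kum_mem_Z1K hζ t.2 hζK⟩
  map_one' := by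
    apply Multiplicative.toAdd.injective
    apply Subtype.ext
    show kum hζ ((1 : ↥(RS S p K)) : Qbˣ) = 0
    rw [kum_eq_zero_iff hζ (by simp [(KxS K).one_mem])]
    exact (KxS K).one_mem
  map_mul' := by
    intro t t'
    apply Multiplicative.toAdd.injective
    apply Subtype.ext
    show kum hζ ((t : Qbˣ) * (t' : Qbˣ)) = kum hζ (t : Qbˣ) + kum hζ (t' : Qbˣ)
    exact kum_mul hζ t.2.2 t'.2.2

theorem kumHom_surjective (hζ : IsPrimitiveRoot ζ p) (hH90 : Stmt_GS_H90) (hK : K.IsUnramifiedOutside S)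
    (hζK : ζ ∈ KxS K) : Function.Surjective (kumHom (S := S) hζ hζK) := by
  intro χ
  obtain ⟨t, ht, hkt⟩ := exists_kum_eq hζ hH90 hK hζK (Multiplicative.toAdd χ).2
  refine ⟨⟨t, ht⟩, ?_⟩
  apply Multiplicative.toAdd.injective
  apply Subtype.ext
  exact hkt

theorem kumHom_ker (hζ : IsPrimitiveRoot ζ p) (hζK : ζ ∈ KxS K) :
    (kumHom (S := S) hζ hζK).ker = (KxS K).subgroupOf (RS S p K) := by
  ext t
  rw [MonoidHom.mem_ker, Subgroup.mem_subgroupOf, ← kum_eq_zero_iff hζ t.2.2]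
  constructor
  · intro h
    have := congrArg (fun x => (Multiplicative.toAdd x : ↥(Z1K (ZMod p) S K)).1) h
    exact this
  · intro h
    apply Multiplicative.toAdd.injective
    apply Subtype.ext
    exact h

/-- `#Z¹_S(G_K, 𝔽_p) = [R : Kˣ]`. -/
theorem card_Z1K_eq_relIndex (hζ : IsPrimitiveRoot ζ p) (hH90 : Stmt_GS_H90) (hK : K.IsUnramifiedOutside S)
    (hζK : ζ ∈ KxS K) :
    Nat.card ↥(Z1K (ZMod p) S K) = (KxS K).relIndex (RS S p K) := by
  have e := QuotientGroup.quotientKerEquivOfSurjective (kumHom (S := S) hζ hζK)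
    (kumHom_surjective hζ hH90 hK hζK)
  have h1 : Nat.card (↥(RS S p K) ⧸ (kumHom (S := S) hζ hζK).ker) =
      Nat.card (Multiplicative ↥(Z1K (ZMod p) S K)) := Nat.card_congr e.toEquiv
  have h2 : Nat.card (Multiplicative ↥(Z1K (ZMod p) S K)) = Nat.card ↥(Z1K (ZMod p) S K) :=
    Nat.card_congr Multiplicative.toAdd
  rw [← h2, ← h1, kumHom_ker]
  rfl

/-- The `p`-th power map `R → V_S`. -/
def powR : ↥(RS S p K) →* ↥(VSs S p K) where
  toFun t := ⟨(t : Qbˣ) ^ p, mem_VSs.2 ⟨t.2.2, (t : Qbˣ), t.2.1, rfl⟩⟩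
  map_one' := by
    apply Subtype.ext
    simp
  map_mul' := by
    intro t t'
    apply Subtype.ext
    simp [mul_pow]

theorem powR_surjective : Function.Surjective (powR (p := p) (S := S) (K := K)) := by
  rintro ⟨a, ha⟩
  obtain ⟨haK, t, htΩ, rfl⟩ := mem_VSs.1 ha
  exact ⟨⟨t, htΩ, haK⟩, rfl⟩

theorem comap_powR (hζ : IsPrimitiveRoot ζ p) (hζK : ζ ∈ KxS K) :
    ((KPs p K).subgroupOf (VSs S p K)).comap (powR (p := p) (S := S) (K := K)) =
      (KxS K).subgroupOf (RS S p K) := by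
  ext t
  rw [Subgroup.mem_comap, Subgroup.mem_subgroupOf, Subgroup.mem_subgroupOf]
  show (t : Qbˣ) ^ p ∈ KPs p K ↔ (t : Qbˣ) ∈ KxS K
  constructor
  · intro h
    obtain ⟨b, hb, hbt⟩ := mem_KPs.1 h
    have h1 : ((t : Qbˣ) / b) ^ p = 1 := by
      rw [div_pow, hbt, div_self']
    obtain ⟨c, hc⟩ := exists_zp hζ h1
    have h2 : (t : Qbˣ) = ζ ^ c.val * b := by
      rw [hc, div_mul_cancel]
    rw [h2]
    exact (KxS K).mul_mem ((KxS K).pow_mem hζK _) hb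
  · intro h
    exact mem_KPs.2 ⟨(t : Qbˣ), h, rfl⟩

/-- `[R : Kˣ] = [V_S : Kˣᵖ]`. -/
theorem relIndex_RS_eq (hζ : IsPrimitiveRoot ζ p) (hζK : ζ ∈ KxS K) :
    (KxS K).relIndex (RS S p K) = (KPs p K).relIndex (VSs S p K) := by
  show ((KxS K).subgroupOf (RS S p K)).index = ((KPs p K).subgroupOf (VSs S p K)).index
  rw [← comap_powR hζ hζK]
  exact Subgroup.index_comap_of_surjective _ powR_surjective

/-- **Kummer**: `#Z¹_S(G_K, 𝔽_p) = [V_S : Kˣᵖ]`. -/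
theorem card_Z1K (hζ : IsPrimitiveRoot ζ p) (hH90 : Stmt_GS_H90) (hK : K.IsUnramifiedOutside S) (hζK : ζ ∈ KxS K) :
    Nat.card ↥(Z1K (ZMod p) S K) = (KPs p K).relIndex (VSs S p K) := by
  rw [card_Z1K_eq_relIndex hζ hH90 hK hζK, relIndex_RS_eq hζ hζK]

end count

end Fermat.Agent.S55.CFT.GS.H24

end
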