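/-
S55/E4 island GS (helper24), assembly GS-ASM3: Kummer extensions by `S`-units are unramified
outside `S` (`p ∈ S`).  Hence `U_K ⊆ W = (Ωˣ)ᵖ` and `U_K Kˣᵖ ⊆ V_S`.
-/
import Fermat.Agent.S55.CFT.GS.H24_KummerCount
import Fermat.Agent.S05.H15_Val

set_option autoImplicit false
set_option linter.unusedSectionVars false
set_option linter.unusedVariables false
set_option linter.style.haveILetI false

open CategoryTheory Module groupCohomology ExtCitation

noncomputable section

namespace Fermat.Agent.S55.CFT.GS.H24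

open Fermat.Agent.S55 Fermat.Agent.S55.Top Fermat.Agent.S55.CFT.GS

local notation "Qb" => AlgebraicClosure ℚ

section val

variable (A : ValuationSubring Qb)

/-- Inertia acts trivially modulo the maximal ideal. -/
theorem inertia_val_lt {σ : GQ} (hσ : σ ∈ A.inertiaSubgroupIn ℚ) {a : Qb} (ha : a ∈ A) :
    A.valuation (σ a - a) < 1 := by
  obtain ⟨g, hg, rfl⟩ := hσ
  have h1 : g • (IsLocalRing.residue A ⟨a, ha⟩) = IsLocalRing.residue A ⟨a, ha⟩ := by
    have := MonoidHom.mem_ker.mp hg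
    have h2 := congrArg (fun e : RingAut (IsLocalRing.ResidueField A) =>
      e (IsLocalRing.residue A ⟨a, ha⟩)) this
    exact h2
  rw [← IsLocalRing.ResidueField.residue_smul, ← sub_eq_zero, ← map_sub,
    IsLocalRing.residue_eq_zero_iff, ← ValuationSubring.coe_mem_nonunits_iff,
    A.mem_nonunits_iff] at h1
  exact h1

/-- `x ^ n = 1` forces `|x| = 1`. -/
theorem val_eq_one_of_pow {x : Qb} {n : ℕ} (hn : n ≠ 0) (h : A.valuation x ^ n = 1) :
    A.valuation x = 1 :=
  (pow_eq_one_iff.1 h).resolve_right hn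

/-- A nontrivial `p`-th root of unity is not congruent to `1` at a place prime to `p`. -/
theorem not_val_sub_one_lt {p : ℕ} (hp : p.Prime) (hAp : A.valuation (p : Qb) = 1) {ω : Qb}
    (hω : ω ^ p = 1) (hω1 : ω ≠ 1) : ¬ A.valuation (ω - 1) < 1 := by
  intro hlt
  have hωA : A.valuation ω ≤ 1 := by
    have h : A.valuation ω ^ p = 1 := by rw [← map_pow, hω, map_one]
    exact (val_eq_one_of_pow A hp.ne_zero h).le
  have hsum : ∑ i ∈ Finset.range p, ω ^ i = 0 := by
    have h := mul_geom_sum ω p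
    rw [hω, sub_self] at h
    exact (mul_eq_zero.1 h).resolve_left (sub_ne_zero.2 hω1)
  have hsum2 : ∑ i ∈ Finset.range p, (ω ^ i - 1) = -(p : Qb) := by
    rw [Finset.sum_sub_distrib, hsum]
    simp
  have hlt2 : A.valuation (∑ i ∈ Finset.range p, (ω ^ i - 1)) < 1 := by
    apply Valuation.map_sum_lt _ one_ne_zero
    intro i _
    rw [← mul_geom_sum, map_mul]
    have h1 : A.valuation (∑ j ∈ Finset.range i, ω ^ j) ≤ 1 := by
      apply Valuation.map_sum_le
      intro j _
      rw [map_pow]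
      exact pow_le_one' hωA j
    calc A.valuation (ω - 1) * A.valuation (∑ j ∈ Finset.range i, ω ^ j)
        ≤ A.valuation (ω - 1) * 1 := by gcongr
      _ < 1 := by rw [mul_one]; exact hlt
  rw [hsum2, Valuation.map_neg, hAp] at hlt2
  exact lt_irrefl _ hlt2

/-- Inertia at a place prime to `p` fixes the `p`-th roots of units. -/
theorem inertia_fix_root {p : ℕ} (hp : p.Prime) (hAp : A.valuation (p : Qb) = 1) {σ : GQ}
    (hσ : σ ∈ A.inertiaSubgroupIn ℚ) {t : Qb} (ht : A.valuation (t ^ p) = 1)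
    (hfix : σ (t ^ p) = t ^ p) : σ t = t := by
  have ht1 : A.valuation t = 1 := by
    rw [map_pow] at ht
    exact val_eq_one_of_pow A hp.ne_zero ht
  have ht0 : t ≠ 0 := by
    rintro rfl
    simp at ht1
  have htA : t ∈ A := (A.valuation_le_one_iff t).1 ht1.le
  by_contra hne
  have h1 := inertia_val_lt A hσ htA
  have hω : (σ t / t) ^ p = 1 := by
    rw [div_pow, ← map_pow, hfix, div_self (pow_ne_zero p ht0)]
  have hω1 : σ t / t ≠ 1 := by
    intro h
    exact hne ((div_eq_one_iff_eq ht0).1 h)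
  apply not_val_sub_one_lt A hp hAp hω hω1
  have e : σ t / t - 1 = (σ t - t) / t := by
    field_simp
  rw [e, map_div₀, ht1, div_one]
  exact h1

end val

section kumunr

variable {p : ℕ} [Fact p.Prime] {S : Finset Nat.Primes} {K : IntermediateField ℚ Qb}

/-- The valuation of `p` at a place over a prime `q ≠ p`. -/
theorem val_p_eq_one (hp : pPrime p ∈ S) {q : Nat.Primes} (hq : q ∉ S)
    {A : ValuationSubring Qb} (hA : A.LiesOverPrime (q : ℕ)) : A.valuation (p : Qb) = 1 := by
  have hpq : ¬ ((q : ℕ) : ℤ) ∣ ((p : ℕ) : ℤ) := by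
    intro h
    have h2 : (q : ℕ) ∣ p := Int.natCast_dvd_natCast.1 h
    have h3 : (q : ℕ) = p := (Nat.prime_dvd_prime_iff_eq q.2 (Fact.out : p.Prime)).1 h2
    apply hq
    have h4 : q = pPrime p := Subtype.ext h3
    rw [h4]
    exact hp
  have := Fermat.Agent.S05.H15.valuation_intCast_eq_one_of_not_dvd (A := A) q.2 hA hpq
  simpa using this

/-- **Kummer extensions by `S`-units are unramified outside `S`.** -/
theorem inOm_root (hp : pPrime p ∈ S) (hK : K.IsUnramifiedOutside S) {u : Qbˣ}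
    (huK : (u : Qb) ∈ K)
    (hu : ∀ q : Nat.Primes, q ∉ S → ∀ A : ValuationSubring Qb,
      A.LiesOverPrime (q : ℕ) → A.valuation (u : Qb) = 1)
    {t : Qbˣ} (ht : t ^ p = u) : InOm S (t : Qb) := by
  have htu : (t : Qb) ^ p = (u : Qb) := by
    rw [← Units.val_pow_eq_pow_val, ht]
  have hgal := h49_qbar_isGalois
  have hint : IsIntegral ℚ (t : Qb) := IsGalois.integral ℚ _
  have hT : (IntermediateField.adjoin ℚ {(t : Qb)}).IsUnramifiedOutside S := by
    refine ⟨IntermediateField.adjoin.finiteDimensional hint, fun q hq A hA => ?_⟩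
    rw [← IntermediateField.le_iff_le, IntermediateField.adjoin_simple_le_iff,
      IntermediateField.mem_fixedField_iff]
    intro σ hσ
    have hσK : σ ∈ K.fixingSubgroup := hK.2 q hq A hA hσ
    apply inertia_fix_root A (Fact.out : p.Prime) (val_p_eq_one hp hq hA) hσ
    · rw [htu]
      exact hu q hq A hA
    · rw [htu]
      exact (IntermediateField.mem_fixingSubgroup_iff _ _).1 hσK _ huK
  exact ⟨_, hT, IntermediateField.mem_adjoin_simple_self ℚ (t : Qb)⟩

/-- `U_K ⊆ W`. -/
theorem inW_of_mem_UK (hp : pPrime p ∈ S) (hK : K.IsUnramifiedOutside S) {u : Qbˣ}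
    (hu : u ∈ UK S K) : InW S p u := by
  obtain ⟨t, ht⟩ : ∃ t : Qb, t ^ p = (u : Qb) :=
    IsAlgClosed.exists_pow_nat_eq (u : Qb) (Fact.out : p.Prime).pos
  have ht0 : t ≠ 0 := by
    rintro rfl
    rw [zero_pow (Fact.out : p.Prime).ne_zero] at ht
    exact u.ne_zero ht.symm
  have e : (Units.mk0 t ht0) ^ p = u := by
    apply Units.ext
    rw [Units.val_pow_eq_pow_val]
    exact ht
  exact ⟨Units.mk0 t ht0, inOm_root hp hK hu.1 hu.2.2 e, e⟩

/-- `U_K Kˣᵖ ⊆ V_S`. -/
theorem UKP_subset_VS (hp : pPrime p ∈ S) (hK : K.IsUnramifiedOutside S) :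
    UKP S p K ⊆ VS S p K := by
  rintro a ⟨u, b, hu, hb, rfl⟩
  obtain ⟨t, htΩ, ht⟩ := inW_of_mem_UK (p := p) hp hK hu
  refine ⟨?_, t * b, ?_, ?_⟩
  · rw [Units.val_mul, Units.val_pow_eq_pow_val]
    exact mul_mem hu.1 (pow_mem hb p)
  · rw [Units.val_mul]
    exact inOm_mul htΩ (inOm_of_mem hK hb)
  · rw [mul_pow, ht]

end kumunr

end Fermat.Agent.S55.CFT.GS.H24

end
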