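/-
S55 package E4, island GS, leaf GS-UR, part **UR-U** (helper1): the group `U_K` (defined with the
valuation subrings of `ℚ̄` over the primes outside `S`) is the image in `ℚ̄ˣ` of the group of
`S_K`-units of the number field `K` (Mathlib `Set.unit`), so the two indices of `p`-th powers
agree.

* `exists_prime_mem_of_natCast_mem` : a prime ideal containing a positive integer contains a prime
  number;
* `exists_place_over` : every prime `v` of `𝓞 K` lies under a valuation subring of `ℚ̄`;
* `valuation_eq_one_of_val_eq_one` : for `a ∈ K`, a unit at a place `A` is a unit at the prime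
  of `K` under `A` (converse of `Lib.UnramVal.val_eq_one_of_valuation_eq_one`);
* `index_range_pow_congr` : the index of the `p`-th powers is an isomorphism invariant;
* `stmt_UR_U : H6.Stmt_UR_U`.
-/
import Fermat.Agent.S55.CFT.GS.H6_UR_Defs

set_option autoImplicit false
set_option linter.style.haveILetI false
set_option linter.unusedSectionVars false

open scoped NumberField

noncomputable section

namespace Fermat.Agent.S55.CFT.GS.H01

open Fermat.Agent.S55 Fermat.Agent.S55.Top Fermat.Agent.Lib.FrobExists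
  Fermat.Agent.Lib.Minkowski Fermat.Agent.Lib.UnramVal IsDedekindDomain

local notation "Qb" => AlgebraicClosure ℚ

/-! ### Generalities -/

/-- The index of the `p`-th powers is an isomorphism invariant. -/
theorem index_range_pow_congr {G G' : Type*} [CommGroup G] [CommGroup G'] (e : G ≃* G')
    (p : ℕ) :
    (powMonoidHom p : G →* G).range.index = (powMonoidHom p : G' →* G').range.index := by
  have h : (powMonoidHom p : G →* G).range.map e.toMonoidHom
      = (powMonoidHom p : G' →* G').range := by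
    ext x
    simp only [Subgroup.mem_map, MonoidHom.mem_range, powMonoidHom_apply]
    constructor
    · rintro ⟨y, ⟨z, rfl⟩, rfl⟩
      exact ⟨e z, by simp⟩
    · rintro ⟨z, rfl⟩
      exact ⟨(e.symm z) ^ p, ⟨e.symm z, rfl⟩, by simp⟩
  rw [← h]
  exact (Subgroup.index_map_equiv _ e).symm

/-- A prime ideal containing a positive integer contains a prime number. -/
theorem exists_prime_mem_of_natCast_mem {R : Type*} [CommRing R] (P : Ideal R) [hP : P.IsPrime]
    (n : ℕ) (hn : 0 < n) (hmem : (n : R) ∈ P) : ∃ q : ℕ, q.Prime ∧ (q : R) ∈ P := by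
  induction n using Nat.strong_induction_on with
  | _ n ih =>
    by_cases h1 : n = 1
    · exfalso
      rw [h1, Nat.cast_one] at hmem
      exact hP.ne_top ((Ideal.eq_top_iff_one P).mpr hmem)
    · have hq := Nat.minFac_prime h1
      obtain ⟨m, hm⟩ := Nat.minFac_dvd n
      have hm0 : 0 < m := by
        rcases Nat.eq_zero_or_pos m with h | h
        · rw [h, mul_zero] at hm; omega
        · exact h
      have hmem' : ((n.minFac : R) * (m : R)) ∈ P := by
        rw [← Nat.cast_mul, ← hm]; exact hmem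
      rcases hP.mem_or_mem hmem' with h | h
      · exact ⟨n.minFac, hq, h⟩
      · refine ih m ?_ hm0 h
        have h2 := hq.two_le
        nlinarith

/-! ### Places of `ℚ̄` over the primes of `K` -/

section places

variable (K : IntermediateField ℚ Qb) [NumberField ↥K]

/-- Every prime of `𝓞 K` lies under a valuation subring of `ℚ̄`. -/
theorem exists_place_over (v : HeightOneSpectrum (𝓞 ↥K)) :
    ∃ A : ValuationSubring Qb, primeBelow K A = v.asIdeal := by
  classical
  let f : 𝓞 ↥K →+* Qb := algebraMap (𝓞 ↥K) Qb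
  have hf : Function.Injective f := FaithfulSMul.algebraMap_injective (𝓞 ↥K) Qb
  let R : Subring Qb := f.range
  let φ : 𝓞 ↥K →+* R := f.rangeRestrict
  have hφs : Function.Surjective φ := f.rangeRestrict_surjective
  let I : Ideal R := v.asIdeal.map φ
  have hI : I ≠ ⊤ := by
    intro h
    have h1 : (1 : R) ∈ I := by rw [h]; exact Submodule.mem_top
    obtain ⟨x, hx, hx1⟩ := (Ideal.mem_map_iff_of_surjective φ hφs).mp h1
    have h2 : f x = f 1 := by
      have h := congrArg Subtype.val hx1
      rw [map_one]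
      exact h
    have h3 : x = 1 := hf h2
    rw [h3] at hx
    exact v.isPrime.ne_top ((Ideal.eq_top_iff_one _).mpr hx)
  obtain ⟨B, -, hB⟩ := Ideal.image_subset_nonunits_valuationSubring I hI
  refine ⟨B, ?_⟩
  have hle : v.asIdeal ≤ primeBelow K B := by
    intro b hb
    rw [mem_primeBelow]
    have h1 : f b ∈ B.nonunits := by
      apply hB
      exact ⟨φ b, Ideal.mem_map_of_mem φ hb, rfl⟩
    exact B.mem_nonunits_iff.mp h1
  exact (v.isMaximal.eq_of_le (primeBelow_isPrime K B).ne_top hle).symm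

variable {K}

/-- A unit at `A` is a unit at the prime of `K` under `A`. -/
theorem valuation_eq_one_of_val_eq_one (v : HeightOneSpectrum (𝓞 ↥K)) (A : ValuationSubring Qb)
    (hA : primeBelow K A = v.asIdeal) (a : ↥K) (ha : A.valuation (a : Qb) = 1) :
    v.valuation ↥K a = 1 := by
  have hcast : ∀ b : 𝓞 ↥K, algebraMap (𝓞 ↥K) Qb b = ((algebraMap (𝓞 ↥K) ↥K b : ↥K) : Qb) :=
    fun b => rfl
  have hnot : ∀ b : 𝓞 ↥K, b ∉ v.asIdeal →
      A.valuation ((algebraMap (𝓞 ↥K) ↥K b : ↥K) : Qb) = 1 := by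
    intro b hb
    rw [← hcast]
    exact val_eq_one_of_notMem K A b (by rw [hA]; exact hb)
  have hconv : ∀ b : 𝓞 ↥K, A.valuation ((algebraMap (𝓞 ↥K) ↥K b : ↥K) : Qb) = 1 →
      v.valuation ↥K (algebraMap (𝓞 ↥K) ↥K b) = 1 := by
    intro b hb
    rw [HeightOneSpectrum.valuation_eq_one_iff_notMem, ← hA, mem_primeBelow, hcast, hb]
    exact lt_irrefl _
  obtain ⟨n, d, h | h⟩ := HeightOneSpectrum.exists_primeCompl_mul_eq_or_mul_eq (K := ↥K) v a
  · have hd : v.valuation ↥K (algebraMap (𝓞 ↥K) ↥K d) = 1 :=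
      (HeightOneSpectrum.valuation_eq_one_iff_notMem (v := v)).mpr d.2
    have h3 : (a : Qb) * ((algebraMap (𝓞 ↥K) ↥K d : ↥K) : Qb)
        = ((algebraMap (𝓞 ↥K) ↥K n : ↥K) : Qb) := by
      rw [← h]; rfl
    have h4 := congrArg A.valuation h3
    rw [map_mul, ha, hnot d d.2, one_mul] at h4
    have hn := hconv n h4.symm
    have h5 := congrArg (v.valuation ↥K) h
    rw [map_mul, hd, mul_one, hn] at h5
    exact h5
  · have hd : v.valuation ↥K (algebraMap (𝓞 ↥K) ↥K d) = 1 :=
      (HeightOneSpectrum.valuation_eq_one_iff_notMem (v := v)).mpr d.2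
    have h3 : (a : Qb) * ((algebraMap (𝓞 ↥K) ↥K n : ↥K) : Qb)
        = ((algebraMap (𝓞 ↥K) ↥K d : ↥K) : Qb) := by
      rw [← h]; rfl
    have h4 := congrArg A.valuation h3
    rw [map_mul, ha, hnot d d.2, one_mul] at h4
    have hn := hconv n h4
    have h5 := congrArg (v.valuation ↥K) h
    rw [map_mul, hd, hn, mul_one] at h5
    exact h5

/-- Every prime of `𝓞 K` contains a prime number. -/
theorem exists_prime_mem (v : HeightOneSpectrum (𝓞 ↥K)) :
    ∃ q : ℕ, q.Prime ∧ ((q : ℕ) : 𝓞 ↥K) ∈ v.asIdeal := by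
  haveI := v.isPrime
  have h0 : Ideal.absNorm v.asIdeal ≠ 0 := by
    rw [Ne, Ideal.absNorm_eq_zero_iff]
    exact v.ne_bot
  exact exists_prime_mem_of_natCast_mem v.asIdeal (Ideal.absNorm v.asIdeal)
    (Nat.pos_of_ne_zero h0) (Ideal.absNorm_mem v.asIdeal)

end places

/-! ### UR-U -/

/-- **UR-U.** -/
theorem stmt_UR_U : H6.Stmt_UR_U := by
  intro S K _ hK SK hSK p
  haveI : FiniteDimensional ℚ ↥K := NumberField.to_finiteDimensional
  let φ : (↥K)ˣ →* Qbˣ := Units.map ((algebraMap ↥K Qb : ↥K →+* Qb) : ↥K →* Qb)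
  have hφ : Function.Injective φ :=
    Units.map_injective (algebraMap ↥K Qb).injective
  have hφv : ∀ x : (↥K)ˣ, ((φ x : Qbˣ) : Qb) = ((x : ↥K) : Qb) := fun x => rfl
  refine ⟨((SK : Set (HeightOneSpectrum (𝓞 ↥K))).unit ↥K).map φ, ?_, ?_⟩
  · ext u
    constructor
    · rintro ⟨x, hx, rfl⟩
      refine ⟨?_, ⟨K, hK, ?_⟩, fun q hq A hA => ?_⟩
      · rw [hφv]; exact (x : ↥K).2
      · rw [hφv]; exact (x : ↥K).2
      · rw [hφv]
        apply val_eq_one_of_valuation_eq_one K (q : ℕ) q.2 A hA (x : ↥K)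
        apply hx
        -- the prime under `A` is not in `SK`
        intro hv
        obtain ⟨q', hq'S, hq'⟩ := (hSK _).mp (Finset.mem_coe.mp hv)
        have hqmem : (((q : ℕ) : 𝓞 ↥K)) ∈ (vBelow K (q : ℕ) q.2 A hA).asIdeal :=
          natCast_mem_primeBelow K A (q : ℕ) hA
        have hne : (q : ℕ) ≠ (q' : ℕ) := by
          intro h
          apply hq
          have : q = q' := Subtype.ext h
          rw [this]; exact hq'S
        have hcop : Nat.Coprime (q : ℕ) (q' : ℕ) := (Nat.coprime_primes q.2 q'.2).mpr hne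
        have hprime := (vBelow K (q : ℕ) q.2 A hA).isPrime
        apply hprime.ne_top
        rw [Ideal.eq_top_iff_one]
        have hbez : ((q : ℕ) : ℤ) * Nat.gcdA q q' + ((q' : ℕ) : ℤ) * Nat.gcdB q q' = 1 := by
          have := Nat.gcd_eq_gcd_ab (q : ℕ) (q' : ℕ)
          rw [hcop.gcd_eq_one] at this
          exact_mod_cast this.symm
        have h1 : (((((q : ℕ) : ℤ) * Nat.gcdA q q' + ((q' : ℕ) : ℤ) * Nat.gcdB q q' : ℤ))
            : 𝓞 ↥K) = 1 := by
          rw [hbez, Int.cast_one]
        rw [← h1]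
        push_cast
        exact Ideal.add_mem _ (Ideal.mul_mem_right _ _ hqmem) (Ideal.mul_mem_right _ _ hq')
    · rintro ⟨huK, -, hu⟩
      have hu0 : (⟨(u : Qb), huK⟩ : ↥K) ≠ 0 := fun h => u.ne_zero (congrArg Subtype.val h)
      refine ⟨Units.mk0 ⟨(u : Qb), huK⟩ hu0, ?_, Units.ext rfl⟩
      intro v hv
      rw [Units.val_mk0]
      obtain ⟨A, hA⟩ := exists_place_over K v
      obtain ⟨q, hqp, hq⟩ := exists_prime_mem v
      have hqS : (⟨q, hqp⟩ : Nat.Primes) ∉ S := by
        intro hqS
        apply hv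
        exact Finset.mem_coe.mpr ((hSK v).mpr ⟨⟨q, hqp⟩, hqS, hq⟩)
      have hAq : A.LiesOverPrime q := by
        have h1 : ((q : ℕ) : 𝓞 ↥K) ∈ primeBelow K A := by rw [hA]; exact hq
        rw [mem_primeBelow, map_natCast] at h1
        exact A.mem_nonunits_iff.mpr h1
      exact valuation_eq_one_of_val_eq_one v A hA ⟨(u : Qb), huK⟩ (hu ⟨q, hqp⟩ hqS A hAq)
  · exact index_range_pow_congr
      ((((SK : Set (HeightOneSpectrum (𝓞 ↥K))).unit ↥K).equivMapOfInjective φ hφ).symm) p

end Fermat.Agent.S55.CFT.GS.H01
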