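/-
S55 package E4, island GS, leaf **CD-ABS** (`H6.Stmt_CD_ABS`), helper93.

Pure group theory: with `C = D / ε(Kx)` (finite),
`V / (V ⊓ V') ≅ C[p]` (via `a ↦ [ε a / p]`) and `T / (T ⊓ T') ↪ C / p C` (via `t ↦ [ε t]`),
and `#C[p] = #(C / p C)` for a finite abelian group.
-/
import Fermat.Agent.S55.CFT.GS.H6_CD_Defs

set_option autoImplicit false

noncomputable section

namespace Fermat.Agent.S55.CFT.GS.H93

open Fermat.Agent.S55.CFT.GS.H6

section Abs

variable {G D : Type} [CommGroup G] [AddCommGroup D]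

/-- `ε 1 = 0` for a map additive on a subgroup. -/
theorem cdabs_eps_one {T : Subgroup G} {ε : G → D}
    (hε : ∀ x ∈ T, ∀ y ∈ T, ε (x * y) = ε x + ε y) : ε 1 = 0 := by
  have h := hε 1 T.one_mem 1 T.one_mem
  rw [mul_one] at h
  have h2 : ε 1 + 0 = ε 1 + ε 1 := by rw [add_zero]; exact h
  exact (add_left_cancel h2).symm

/-- `ε x⁻¹ = - ε x` for a map additive on a subgroup. -/
theorem cdabs_eps_inv {T : Subgroup G} {ε : G → D}
    (hε : ∀ x ∈ T, ∀ y ∈ T, ε (x * y) = ε x + ε y) {x : G} (hx : x ∈ T) : ε x⁻¹ = - ε x := by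
  have h := hε x hx x⁻¹ (T.inv_mem hx)
  rw [mul_inv_cancel, cdabs_eps_one hε] at h
  exact eq_neg_of_add_eq_zero_right h.symm

/-- `ε (x ^ n) = n • ε x` for a map additive on a subgroup. -/
theorem cdabs_eps_pow {T : Subgroup G} {ε : G → D}
    (hε : ∀ x ∈ T, ∀ y ∈ T, ε (x * y) = ε x + ε y) {x : G} (hx : x ∈ T) (n : ℕ) :
    ε (x ^ n) = n • ε x := by
  induction n with
  | zero => rw [pow_zero, zero_smul]; exact cdabs_eps_one hε
  | succ n ih =>
    rw [pow_succ, hε _ (T.pow_mem hx n) _ hx, ih, succ_nsmul]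

/-- The restriction of `ε` to a subgroup of `T`, as a homomorphism. -/
def cdabsHom (T : Subgroup G) (ε : G → D)
    (hε : ∀ x ∈ T, ∀ y ∈ T, ε (x * y) = ε x + ε y) (H : Subgroup G) (hH : H ≤ T) :
    Additive H →+ D where
  toFun a := ε (Additive.toMul a : H)
  map_zero' := cdabs_eps_one hε
  map_add' a b := hε _ (hH (Additive.toMul a : H).2) _ (hH (Additive.toMul b : H).2)

/-- For a finite additive commutative group, the kernel of multiplication by `p` has as many
elements as the cokernel. -/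
theorem cdabs_card_ker_eq_index {C : Type} [AddCommGroup C] [Finite C] (m : C →+ C) :
    Nat.card m.ker = m.range.index := by
  have h1 := AddSubgroup.card_mul_index m.ker
  have h2 := AddSubgroup.index_ker m
  have h3 := AddSubgroup.card_mul_index m.range
  have h4 : 0 < Nat.card m.range := Nat.card_pos
  rw [h2, ← h3, mul_comm] at h1
  exact Nat.eq_of_mul_eq_mul_left h4 h1

/-- **CD-ABS**, the main computation. -/
theorem cdabs_main (p : ℕ) (Kx W T U : Subgroup G) (hKT : Kx ≤ T) (_hWT : W ≤ T)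
    (hUK : U ≤ Kx) (ε : G → D) (hε : ∀ x ∈ T, ∀ y ∈ T, ε (x * y) = ε x + ε y)
    (htf : ∀ x : D, p • x = 0 → x = 0)
    (hfin : ∃ F : Finset D, ∀ x : D, ∃ f ∈ F, ∃ a ∈ Kx, x = f + ε a)
    (hW : ∀ t ∈ T, (t ∈ W ↔ ∃ x : D, ε t = p • x))
    (hU : ∀ a ∈ Kx, (a ∈ U ↔ ε a = 0))
    (V V' T' : Subgroup G)
    (hV : ∀ x, x ∈ V ↔ x ∈ Kx ∧ x ∈ W)
    (hV' : ∀ x, x ∈ V' ↔ ∃ u b, u ∈ U ∧ b ∈ Kx ∧ x = u * b ^ p)
    (hT' : ∀ x, x ∈ T' ↔ ∃ c s, c ∈ Kx ∧ s ∈ W ∧ x = c * s) :
    V'.relIndex V ≠ 0 ∧ T'.relIndex T ≠ 0 ∧ T'.relIndex T ≤ V'.relIndex V := by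
  classical
  -- cancellation of `p`
  have hcanc : ∀ x y : D, p • x = p • y → x = y := by
    intro x y h
    have : p • (x - y) = 0 := by rw [smul_sub, h, sub_self]
    exact sub_eq_zero.mp (htf _ this)
  -- the image of `Kx`
  let eK : Additive Kx →+ D := cdabsHom T ε hε Kx hKT
  let E : AddSubgroup D := eK.range
  have hE : ∀ x : D, x ∈ E ↔ ∃ a ∈ Kx, x = ε a := by
    intro x
    constructor
    · rintro ⟨a, rfl⟩
      exact ⟨(Additive.toMul a : Kx), (Additive.toMul a : Kx).2, rfl⟩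
    · rintro ⟨a, ha, rfl⟩
      exact ⟨Additive.ofMul ⟨a, ha⟩, rfl⟩
  let π : D →+ D ⧸ E := QuotientAddGroup.mk' E
  have hπ0 : ∀ x : D, π x = 0 ↔ x ∈ E := fun x => QuotientAddGroup.eq_zero_iff x
  -- finiteness of the quotient
  have hCfin : Finite (D ⧸ E) := by
    obtain ⟨F, hF⟩ := hfin
    have hsurj : Function.Surjective (fun f : F => π (f : D)) := by
      intro c
      obtain ⟨x, rfl⟩ := QuotientAddGroup.mk'_surjective E c
      obtain ⟨f, hf, a, ha, rfl⟩ := hF x
      refine ⟨⟨f, hf⟩, ?_⟩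
      change π f = π (f + ε a)
      rw [map_add, (hπ0 (ε a)).mpr ((hE _).mpr ⟨a, ha, rfl⟩), add_zero]
    exact Finite.of_surjective _ hsurj
  -- multiplication by `p`
  let m : D ⧸ E →+ D ⧸ E := nsmulAddMonoidHom p
  have hm : ∀ c, m c = p • c := fun c => rfl
  -- the quotient `ε t / p`
  let q : G → D := fun t => if h : ∃ x : D, ε t = p • x then h.choose else 0
  have hq : ∀ t, (∃ x : D, ε t = p • x) → ε t = p • q t := by
    intro t h
    simp only [q, dif_pos h]
    exact h.choose_spec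
  have hVT : ∀ a, a ∈ V → a ∈ T := fun a ha => hKT ((hV a).mp ha).1
  have hqV : ∀ a, a ∈ V → ε a = p • q a := fun a ha =>
    hq a ((hW a (hVT a ha)).mp ((hV a).mp ha).2)
  -- the homomorphism `φ`
  let φ : V →* Multiplicative (D ⧸ E) :=
    { toFun := fun a => Multiplicative.ofAdd (π (q a))
      map_one' := by
        have h1 : q (1 : G) = 0 := by
          apply hcanc
          rw [← hqV 1 V.one_mem, cdabs_eps_one hε, smul_zero]
        change Multiplicative.ofAdd (π (q ((1 : V) : G))) = 1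
        rw [Subgroup.coe_one, h1, map_zero]
        rfl
      map_mul' := by
        intro a b
        have h1 : q ((a : G) * b) = q a + q b := by
          apply hcanc
          rw [← hqV _ (V.mul_mem a.2 b.2), hε _ (hVT _ a.2) _ (hVT _ b.2), hqV _ a.2, hqV _ b.2,
            smul_add]
        change Multiplicative.ofAdd (π (q (((a * b : V)) : G))) = _
        rw [Subgroup.coe_mul, h1, map_add]
        rfl }
  have hφ : ∀ a : V, φ a = Multiplicative.ofAdd (π (q a)) := fun a => rfl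
  -- the kernel of `φ`
  have hkerφ : φ.ker = V'.subgroupOf V := by
    ext a
    rw [MonoidHom.mem_ker, Subgroup.mem_subgroupOf, hφ, hV']
    have hone : (Multiplicative.ofAdd (π (q a)) = 1) ↔ π (q a) = 0 := by
      constructor
      · intro h; exact Multiplicative.ofAdd.injective h
      · intro h; rw [h]; rfl
    rw [hone, hπ0, hE]
    have haK : (a : G) ∈ Kx := ((hV a).mp a.2).1
    constructor
    · rintro ⟨b, hb, hqb⟩
      have hbT : b ∈ T := hKT hb
      have hbp : ε (b ^ p) = ε a := by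
        rw [cdabs_eps_pow hε hbT, hqV _ a.2, hqb]
      refine ⟨(a : G) * (b ^ p)⁻¹, b, ?_, hb, ?_⟩
      · have hmem : (a : G) * (b ^ p)⁻¹ ∈ Kx := Kx.mul_mem haK (Kx.inv_mem (Kx.pow_mem hb p))
        rw [hU _ hmem, hε _ (hKT haK) _ (T.inv_mem (T.pow_mem hbT p)),
          cdabs_eps_inv hε (T.pow_mem hbT p), hbp, add_neg_cancel]
      · rw [inv_mul_cancel_right]
    · rintro ⟨u, b, hu, hb, hab⟩
      refine ⟨b, hb, ?_⟩
      apply hcanc
      have huK : u ∈ Kx := hUK hu
      rw [← hqV _ a.2, hab, hε _ (hKT huK) _ (T.pow_mem (hKT hb) p), (hU u huK).mp hu, zero_add,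
        cdabs_eps_pow hε (hKT hb)]
  -- the range of `φ` contains the kernel of `m`
  have hrangeφ : Nat.card m.ker ≤ Nat.card φ.range := by
    have hex : ∀ c : m.ker, ∃ a : V, φ a = Multiplicative.ofAdd (c : D ⧸ E) := by
      rintro ⟨c, hc⟩
      obtain ⟨x, rfl⟩ := QuotientAddGroup.mk'_surjective E c
      have hpx : p • x ∈ E := by
        rw [← hπ0, map_nsmul]
        exact hc
      obtain ⟨a, ha, hax⟩ := (hE _).mp hpx
      have haW : a ∈ W := (hW a (hKT ha)).mpr ⟨x, hax.symm⟩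
      have haV : a ∈ V := (hV a).mpr ⟨ha, haW⟩
      refine ⟨⟨a, haV⟩, ?_⟩
      rw [hφ]
      have : q a = x := by
        apply hcanc
        rw [← hqV a haV, hax]
      change Multiplicative.ofAdd (π (q a)) = Multiplicative.ofAdd (π x)
      rw [this]
    let j : m.ker → φ.range := fun c => ⟨Multiplicative.ofAdd (c : D ⧸ E), by
      obtain ⟨a, ha⟩ := hex c
      exact ⟨a, ha⟩⟩
    have hj : Function.Injective j := by
      intro c c' h
      have := congrArg Subtype.val h
      exact Subtype.ext (Multiplicative.ofAdd.injective this)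
    exact Nat.card_le_card_of_injective j hj
  -- the homomorphism `ψ`
  let ρ : D ⧸ E →+ (D ⧸ E) ⧸ m.range := QuotientAddGroup.mk' m.range
  let ψ : T →* Multiplicative ((D ⧸ E) ⧸ m.range) :=
    { toFun := fun t => Multiplicative.ofAdd (ρ (π (ε t)))
      map_one' := by
        change Multiplicative.ofAdd (ρ (π (ε ((1 : T) : G)))) = 1
        rw [Subgroup.coe_one, cdabs_eps_one hε, map_zero, map_zero]
        rfl
      map_mul' := by
        intro a b
        change Multiplicative.ofAdd (ρ (π (ε ((a * b : T) : G)))) = _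
        rw [Subgroup.coe_mul, hε _ a.2 _ b.2, map_add, map_add]
        rfl }
  have hψ : ∀ t : T, ψ t = Multiplicative.ofAdd (ρ (π (ε t))) := fun t => rfl
  have hkerψ : ψ.ker ≤ T'.subgroupOf T := by
    intro t ht
    rw [MonoidHom.mem_ker, hψ] at ht
    have h0 : ρ (π (ε t)) = 0 := Multiplicative.ofAdd.injective ht
    have h1 : π (ε t) ∈ m.range := (QuotientAddGroup.eq_zero_iff _).mp h0
    obtain ⟨c, hc⟩ := h1
    obtain ⟨x, rfl⟩ := QuotientAddGroup.mk'_surjective E c
    rw [hm] at hc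
    have h2 : ε t - p • x ∈ E := by
      rw [← hπ0, map_sub, map_nsmul]
      change π (ε t) - p • π x = 0
      rw [sub_eq_zero]
      exact hc.symm
    obtain ⟨a, ha, hax⟩ := (hE _).mp h2
    rw [Subgroup.mem_subgroupOf, hT']
    have haT : a ∈ T := hKT ha
    refine ⟨a, (t : G) * a⁻¹, ha, ?_, by rw [mul_comm (t : G), mul_inv_cancel_left]⟩
    rw [hW _ (T.mul_mem t.2 (T.inv_mem haT))]
    refine ⟨x, ?_⟩
    rw [hε _ t.2 _ (T.inv_mem haT), cdabs_eps_inv hε haT, ← hax]
    abel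
  -- the indices
  have hV'idx : V'.relIndex V = Nat.card φ.range := by
    rw [Subgroup.relIndex, ← hkerφ, Subgroup.index_ker]
  have hψpos : 0 < Nat.card ψ.range := Nat.card_pos
  have hφpos : 0 < Nat.card φ.range := Nat.card_pos
  have hT'dvd : T'.relIndex T ∣ Nat.card ψ.range := by
    rw [Subgroup.relIndex, ← Subgroup.index_ker]
    exact Subgroup.index_dvd_of_le hkerψ
  have hT'le : T'.relIndex T ≤ Nat.card ψ.range := Nat.le_of_dvd hψpos hT'dvd
  have hψle : Nat.card ψ.range ≤ m.range.index := by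
    have h1 : Nat.card ψ.range ≤ Nat.card (Multiplicative ((D ⧸ E) ⧸ m.range)) :=
      Nat.card_le_card_of_injective (fun x : ψ.range => (x : Multiplicative ((D ⧸ E) ⧸ m.range)))
        Subtype.val_injective
    have h2 : Nat.card (Multiplicative ((D ⧸ E) ⧸ m.range)) = m.range.index :=
      Nat.card_congr Multiplicative.toAdd
    rw [h2] at h1
    exact h1
  refine ⟨?_, ?_, ?_⟩
  · rw [hV'idx]; exact hφpos.ne'
  · intro h0
    rw [h0] at hT'dvd
    exact hψpos.ne' (Nat.eq_zero_of_zero_dvd hT'dvd)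
  · calc T'.relIndex T ≤ Nat.card ψ.range := hT'le
      _ ≤ m.range.index := hψle
      _ = Nat.card m.ker := (cdabs_card_ker_eq_index m).symm
      _ ≤ Nat.card φ.range := hrangeφ
      _ = V'.relIndex V := hV'idx.symm

end Abs

/-- **CD-ABS**: `H6.Stmt_CD_ABS`. -/
theorem stmt_CD_ABS : Stmt_CD_ABS := by
  intro G D _ _ p _ Kx W T U hKT hWT hUK ε hε htf hfin hW hU V V' T' hV hV' hT'
  exact cdabs_main p Kx W T U hKT hWT hUK ε hε htf hfin hW hU V V' T' hV hV' hT'

end Fermat.Agent.S55.CFT.GS.H93
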