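/-
S55 package E4, island GS, leaf **CD-NF** (`H6.Stmt_CD_NF`), helper93.

For a number field `K` and any set `P` of primes of `𝓞 K` the cokernel of
`Kˣ → (P →₀ ℤ)`, `a ↦ (ord_v a)_v`, is finite: it is a quotient of a subgroup of the class group.
-/
import Fermat.Agent.S55.CFT.GS.H6_CD_Defs

set_option autoImplicit false

open scoped NumberField nonZeroDivisors

noncomputable section

namespace Fermat.Agent.S55.CFT.GS.H93

open Fermat.Agent.S55.CFT.GS.H6 IsDedekindDomain FractionalIdeal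

section Count

variable {R : Type*} [CommRing R] [IsDedekindDomain R] (K : Type*) [Field K] [Algebra R K]
  [IsFractionRing R K] (v : HeightOneSpectrum R)

/-- The `v`-adic valuation of a non-zero element of `R` in terms of `FractionalIdeal.count`. -/
theorem cdnf_count_span (r : R) (hr : r ≠ 0) :
    count K v ((Ideal.span {r} : Ideal R) : FractionalIdeal R⁰ K)
      = -WithZero.log (v.valuation K (algebraMap R K r)) := by
  have hne : (Ideal.span {r} : Ideal R) ≠ 0 := by
    rw [Ne, Ideal.zero_eq_bot, Ideal.span_singleton_eq_bot]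
    exact hr
  rw [count_coe K v hne, HeightOneSpectrum.valuation_of_algebraMap,
    HeightOneSpectrum.intValuation_if_neg v hr, WithZero.log_exp, neg_neg]

/-- The order of a principal fractional ideal is the (additive) valuation of its generator. -/
theorem cdnf_count_spanSingleton (a : K) (ha : a ≠ 0) :
    count K v (spanSingleton R⁰ a) = -WithZero.log (v.valuation K a) := by
  obtain ⟨n, d, hd, rfl⟩ := IsFractionRing.div_surjective (A := R) a
  have hd0 : d ≠ 0 := nonZeroDivisors.ne_zero hd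
  have hn0 : n ≠ 0 := by
    rintro rfl
    rw [map_zero, zero_div] at ha
    exact ha rfl
  have hdK : algebraMap R K d ≠ 0 :=
    (map_ne_zero_iff _ (IsFractionRing.injective R K)).mpr hd0
  have hnK : algebraMap R K n ≠ 0 :=
    (map_ne_zero_iff _ (IsFractionRing.injective R K)).mpr hn0
  have hsplit : spanSingleton R⁰ (algebraMap R K n / algebraMap R K d)
      = ((Ideal.span {n} : Ideal R) : FractionalIdeal R⁰ K)
        * (((Ideal.span {d} : Ideal R) : FractionalIdeal R⁰ K))⁻¹ := by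
    rw [coeIdeal_span_singleton, coeIdeal_span_singleton, spanSingleton_inv,
      spanSingleton_mul_spanSingleton, div_eq_mul_inv]
  have h1 : ((Ideal.span {n} : Ideal R) : FractionalIdeal R⁰ K) ≠ 0 := by
    rw [coeIdeal_span_singleton]
    exact spanSingleton_ne_zero_iff.mpr hnK
  have h2 : (((Ideal.span {d} : Ideal R) : FractionalIdeal R⁰ K))⁻¹ ≠ 0 := by
    rw [coeIdeal_span_singleton]
    exact inv_ne_zero (spanSingleton_ne_zero_iff.mpr hdK)
  rw [hsplit, count_mul K v h1 h2, count_inv, cdnf_count_span K v n hn0,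
    cdnf_count_span K v d hd0, map_div₀,
    WithZero.log_div ((Valuation.ne_zero_iff _).mpr hnK) ((Valuation.ne_zero_iff _).mpr hdK)]
  ring

end Count

section Main

variable (K : Type) [Field K] [NumberField K] (P : Set (HeightOneSpectrum (𝓞 K)))

/-- Extension by zero of a divisor supported on `P`. -/
def cdnfExt (x : P →₀ ℤ) : HeightOneSpectrum (𝓞 K) →₀ ℤ :=
  Finsupp.mapDomain Subtype.val x

theorem cdnfExt_apply (x : P →₀ ℤ) (v : P) : cdnfExt K P x v.1 = x v :=
  Finsupp.mapDomain_apply Subtype.val_injective x v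

/-- The fractional ideal of a divisor. -/
def cdnfIdeal (x : P →₀ ℤ) : FractionalIdeal (𝓞 K)⁰ K :=
  (cdnfExt K P x).prod (fun w n => (w.asIdeal : FractionalIdeal (𝓞 K)⁰ K) ^ n)

theorem cdnfIdeal_ne_zero (x : P →₀ ℤ) : cdnfIdeal K P x ≠ 0 := by
  unfold cdnfIdeal
  rw [Finsupp.prod]
  exact Finset.prod_ne_zero_iff.mpr fun w _ => zpow_ne_zero _ (coeIdeal_ne_zero.mpr w.ne_bot)

theorem cdnf_count_ideal (x : P →₀ ℤ) (v : P) :
    count K v.1 (cdnfIdeal K P x) = x v := by
  unfold cdnfIdeal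
  rw [count_finsuppProd K v.1 (cdnfExt K P x), cdnfExt_apply]

/-- The class of a divisor. -/
def cdnfClass (x : P →₀ ℤ) : ClassGroup (𝓞 K) :=
  ClassGroup.mk K (Units.mk0 (cdnfIdeal K P x) (cdnfIdeal_ne_zero K P x))

/-- Two divisors with the same class differ by a principal divisor. -/
theorem cdnf_of_class_eq (x f : P →₀ ℤ) (h : cdnfClass K P x = cdnfClass K P f) :
    ∃ a : K, a ≠ 0 ∧ ∀ v : P, x v = f v + ordAt v.1 a := by
  set Ux : (FractionalIdeal (𝓞 K)⁰ K)ˣ := Units.mk0 (cdnfIdeal K P x) (cdnfIdeal_ne_zero K P x)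
    with hUx
  set Uf : (FractionalIdeal (𝓞 K)⁰ K)ˣ := Units.mk0 (cdnfIdeal K P f) (cdnfIdeal_ne_zero K P f)
    with hUf
  have h1 : ClassGroup.mk K (Ux * Uf⁻¹) = 1 := by
    rw [map_mul, map_inv]
    change cdnfClass K P x * (cdnfClass K P f)⁻¹ = 1
    rw [h, mul_inv_cancel]
  have h2 := ClassGroup.mk_eq_one_iff.mp h1
  obtain ⟨a, ha⟩ := (isPrincipal_iff ((Ux * Uf⁻¹ : (FractionalIdeal (𝓞 K)⁰ K)ˣ) :
    FractionalIdeal (𝓞 K)⁰ K)).mp h2
  have hval : ((Ux * Uf⁻¹ : (FractionalIdeal (𝓞 K)⁰ K)ˣ) : FractionalIdeal (𝓞 K)⁰ K)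
      = cdnfIdeal K P x * (cdnfIdeal K P f)⁻¹ := by
    rw [Units.val_mul, Units.val_inv_eq_inv_val]
    rfl
  have ha0 : a ≠ 0 := by
    rintro rfl
    rw [spanSingleton_zero] at ha
    exact (Ux * Uf⁻¹).ne_zero ha
  refine ⟨a, ha0, fun v => ?_⟩
  have hc := congrArg (count K v.1) ha
  rw [hval, count_mul K v.1 (cdnfIdeal_ne_zero K P x) (inv_ne_zero (cdnfIdeal_ne_zero K P f)),
    count_inv, cdnf_count_ideal, cdnf_count_ideal, cdnf_count_spanSingleton K v.1 a ha0] at hc
  unfold ordAt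
  linarith

/-- **CD-NF**: `H6.Stmt_CD_NF`. -/
theorem stmt_CD_NF : Stmt_CD_NF := by
  intro K _ _ P
  classical
  let sec : ClassGroup (𝓞 K) → (P →₀ ℤ) := fun c =>
    if h : ∃ x, cdnfClass K P x = c then h.choose else 0
  have hsec : ∀ x, cdnfClass K P (sec (cdnfClass K P x)) = cdnfClass K P x := by
    intro x
    have h : ∃ y, cdnfClass K P y = cdnfClass K P x := ⟨x, rfl⟩
    simp only [sec, dif_pos h]
    exact h.choose_spec
  refine ⟨Finset.univ.image sec, fun x => ⟨sec (cdnfClass K P x),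
    Finset.mem_image_of_mem _ (Finset.mem_univ _), ?_⟩⟩
  obtain ⟨a, ha, hav⟩ := cdnf_of_class_eq K P x (sec (cdnfClass K P x)) (hsec x).symm
  exact ⟨a, ha, hav⟩

end Main

end Fermat.Agent.S55.CFT.GS.H93
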