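/-
S55 package E4, island GS, leaf GS-UR, part **UR-TC** (helper1): a number field containing a
primitive `p`-th root of unity, `p` odd, is totally complex; hence
`2 (rank of the units + 1) = [K : ℚ]`.
-/
import Fermat.Agent.S55.CFT.GS.H6_UR_Defs

set_option autoImplicit false

open scoped NumberField

namespace Fermat.Agent.S55.CFT.GS.H01

open NumberField

/-- No real places: `K` contains a root of unity of order `> 2`. -/
theorem card_infinitePlace_of_primitiveRoot (K : Type) [Field K] [NumberField K] (n : ℕ)
    (hn : 2 < n) {ζ : K} (hζ : IsPrimitiveRoot ζ n) :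
    2 * Fintype.card (InfinitePlace K) = Module.finrank ℚ K := by
  have h0 := NumberField.InfinitePlace.IsPrimitiveRoot.nrRealPlaces_eq_zero_of_two_lt hn hζ
  have h1 := InfinitePlace.card_add_two_mul_card_eq_rank K
  have h3 := InfinitePlace.card_eq_nrRealPlaces_add_nrComplexPlaces K
  omega

/-- **UR-TC.** -/
theorem stmt_UR_TC : H6.Stmt_UR_TC := by
  intro K _ _ p hp hp2 hζ
  obtain ⟨ζ, hζ⟩ := hζ
  have h2 : 2 < p := lt_of_le_of_ne hp.two_le (Ne.symm hp2)
  have h1 := card_infinitePlace_of_primitiveRoot K p h2 hζ
  have h4 : 0 < Fintype.card (InfinitePlace K) := Fintype.card_pos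
  unfold NumberField.Units.rank
  omega

end Fermat.Agent.S55.CFT.GS.H01
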