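/-
S55 / E4 / CFT island GS, Layer A (helper13): the unconditional forms of the general-Galois
Brauer statements whose inputs are all proved.

* `stmt_BrHasseG`, `stmt_BrOneG`, `stmt_BrH3G` : unconditional;
* `stmt_BrTwoG_of_unn : Stmt_UnrNorm → Stmt_BrTwoG`.
-/
import Fermat.Agent.S55.CFT.H13_BRFinalOne
import Fermat.Agent.S55.CFT.GS.H72_HasseG
import Fermat.Agent.S55.CFT.GS.H58_OneG
import Fermat.Agent.S55.CFT.GS.H19_BrTwoG
import Fermat.Agent.S55.CFT.GS.H31_H3G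

set_option autoImplicit false

namespace Fermat.Agent.S55.CFT.GS.H13

open Fermat.Agent.S55.CFT Fermat.Agent.S55.CFT.GS

/-- **A-Hasse**, unconditional. -/
theorem stmt_BrHasseG : Stmt_BrHasseG := H72.stmt_BrHasseG_of CFT.H13.stmt_BrHasse

/-- **A-One**, unconditional. -/
theorem stmt_BrOneG : Stmt_BrOneG := H58.stmt_BrOneG_of CFT.H13.stmt_BrHasse CFT.H13.stmt_BrOne

/-- **A-H3**, unconditional. -/
theorem stmt_BrH3G : Stmt_BrH3G := H31.stmt_BrH3G_of CFT.H13.stmt_BrH3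

/-- **A-Two** from UNN. -/
theorem stmt_BrTwoG_of_unn (hUNN : Stmt_UnrNorm) : Stmt_BrTwoG :=
  H19.stmt_BrTwoG_of (CFT.H13.stmt_BrTwo_of_unn hUNN) CFT.H13.stmt_BrOne CFT.H13.stmt_BrHasse

end Fermat.Agent.S55.CFT.GS.H13
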