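/-
S55 / E4 / CFT island GS, Layer A (helper13): `Stmt_BrTwoG`, unconditional.
-/
import Fermat.Agent.S55.CFT.GS.H13_LayerA
import Fermat.Agent.S55.CFT.H13_BRFinalTwo

set_option autoImplicit false

namespace Fermat.Agent.S55.CFT.GS.H13

open Fermat.Agent.S55.CFT Fermat.Agent.S55.CFT.GS

/-- **A-Two**, unconditional. -/
theorem stmt_BrTwoG : Stmt_BrTwoG := stmt_BrTwoG_of_unn H96.stmt_UnrNorm

end Fermat.Agent.S55.CFT.GS.H13
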