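/-
S55/E4 island GS (helper24), wave 2, Layer C: the assemblies
  `asmHasse : Stmt_GS_AsmHasse`  (`GSB_Hasse → GS_Hasse`),
  `asmOne   : Stmt_GS_AsmOne`    (`GSB_One → LocKum → GS_One`).
Both use the class `(c, b) = (ζ^a, 1)`: it is a `p`-torsion datum, its residues vanish, and it is
locally trivial wherever `a` is locally a coboundary.
-/
import Fermat.Agent.S55.CFT.Defs_GS3
import Fermat.Agent.S55.CFT.GS.H24_MTwo

set_option autoImplicit false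
set_option linter.unusedSectionVars false
set_option linter.unusedVariables false
set_option linter.style.haveILetI false

open CategoryTheory Module groupCohomology ExtCitation

open scoped Pointwise

noncomputable section

namespace Fermat.Agent.S55.CFT.GS.H24

open Fermat.Agent.S55 Fermat.Agent.S55.Top Fermat.Agent.S55.CFT.GS

local notation "Qb" => AlgebraicClosure ℚ

section zp

variable {p : ℕ} [Fact p.Prime] {S : Finset Nat.Primes} {K : IntermediateField ℚ Qb}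

/-- `G_K` fixes the elements of `Kˣ`. -/
theorem smul_eq_of_mem_K {ζ : Qbˣ} (hζK : (ζ : Qb) ∈ K) (g : ↥K.fixingSubgroup) : g • ζ = ζ := by
  apply Units.ext
  have := g.2
  rw [IntermediateField.mem_fixingSubgroup_iff] at this
  exact this _ hζK

/-- The datum `(ζ^a, 1)`. -/
theorem pTorsData_zp (hK : K.IsUnramifiedOutside S) {ζ : Qbˣ} (hζK : (ζ : Qb) ∈ K)
    (hζ : IsPrimitiveRoot ζ p) {a : ↥K.fixingSubgroup × ↥K.fixingSubgroup → ZMod p}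
    (ha : IsZ2K S K a) :
    PTorsData S p K (fun t => ζ ^ (a t).val) (fun _ => 1) where
  levc := ha.2.comp (fun x : ZMod p => ζ ^ x.val)
  omc := fun t => by
    refine inOm_of_mem hK ?_
    rw [Units.val_pow_eq_pow_val]
    exact pow_mem hζK _
  coc := by
    rw [mTwo_zp hζ.pow_eq_one (smul_eq_of_mem_K hζK), ha.1]
    funext t
    simp
  levb := ⟨K, hK, fun _ _ _ => rfl⟩
  omb := fun _ => by simpa using inOm_one
  pow := fun t => by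
    have e : (fun _ : ↥K.fixingSubgroup => (1 : Qbˣ)) = 1 := rfl
    rw [e, mOne_one, Pi.one_apply]
    exact zp_pow_p hζ.pow_eq_one _

/-- The residues of `(ζ^a, 1)` vanish. -/
theorem resTrivAt_one (A : ValuationSubring Qb) (q : ℕ) :
    ResTrivAt p K A q (fun _ => 1) := by
  intro g _
  refine ⟨0, ?_⟩
  simp [OrdIs]

end zp

section loc

variable {p : ℕ} [Fact p.Prime] {S : Finset Nat.Primes} {K : IntermediateField ℚ Qb}
  (𝔓 : PlaceSys S K)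

/-- `rl h ∘ σ_w = σ_w ∘ ρ_w h`. -/
theorem rl_sigma (q : ↥S) (w : 𝔓.W q) (h : 𝔓.Γw q w) (x : Qb) :
    rl q.1 h.1 (𝔓.σ q w x) = 𝔓.σ q w ((𝔓.ρw q w h : GQ) x) := by
  have : ((𝔓.ρw q w h : ↥K.fixingSubgroup) : GQ) = (𝔓.σ q w)⁻¹ * rl q.1 h.1 * 𝔓.σ q w := rfl
  rw [this]
  simp [AlgEquiv.mul_apply]

/-- The local embedding `j_w = ι_q ∘ σ_w` of an element of `K` is fixed by `Γ_w`. -/
theorem glAut_jw_of_mem_K (q : ↥S) (w : 𝔓.W q) (h : 𝔓.Γw q w) {x : Qb} (hx : x ∈ K) :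
    haveI : Fact ((q.1 : ℕ)).Prime := ⟨q.1.2⟩
    glAut q.1 (h : Gl q.1) (padicEmbedding (q.1 : ℕ) (𝔓.σ q w x)) =
      padicEmbedding (q.1 : ℕ) (𝔓.σ q w x) := by
  haveI : Fact ((q.1 : ℕ)).Prime := ⟨q.1.2⟩
  have h1 := padicEmbedding_localGaloisToGlobal (q.1 : ℕ) (glAut q.1 (h : Gl q.1)) (𝔓.σ q w x)
  have h2 : localGaloisToGlobal (q.1 : ℕ) (glAut q.1 (h : Gl q.1)) (𝔓.σ q w x) =
      rl q.1 h.1 (𝔓.σ q w x) := rfl
  rw [← h1, h2, rl_sigma]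
  have h3 := (𝔓.ρw q w h).2
  rw [IntermediateField.mem_fixingSubgroup_iff] at h3
  rw [h3 x hx]

/-- If `a` is locally a coboundary at `w`, then `ζ^a` is locally trivial at `w`. -/
theorem locTrivS_of_mem_B2w {ζ : Qbˣ} (hζK : (ζ : Qb) ∈ K) (hζ : IsPrimitiveRoot ζ p)
    (a : ↥K.fixingSubgroup × ↥K.fixingSubgroup → ZMod p) (q : ↥S) (w : 𝔓.W q)
    (h : 𝔓.res₂ q w a ∈ B2w (ZMod p) 𝔓 q w) :
    LocTrivS 𝔓 q w (fun t => ζ ^ (a t).val) := by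
  haveI : Fact ((q.1 : ℕ)).Prime := ⟨q.1.2⟩
  obtain ⟨g, hg, hga⟩ := h
  set ξ : PadicAlgCl (q.1 : ℕ) := padicEmbedding (q.1 : ℕ) (𝔓.σ q w (ζ : Qb)) with hξ
  have hξ1 : ξ ^ p = 1 := by
    rw [hξ, ← map_pow, ← map_pow, ← Units.val_pow_eq_pow_val, hζ.pow_eq_one]
    simp
  have hξ0 : ξ ≠ 0 := by
    intro h0
    rw [h0, zero_pow (Fact.out : p.Prime).ne_zero] at hξ1
    exact zero_ne_one hξ1
  refine ⟨fun h => ξ ^ (g h).val, fun h => pow_ne_zero _ hξ0,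
    hg.comp (fun x : ZMod p => ξ ^ x.val), ?_⟩
  intro h₁ h₂
  have e1 : a (𝔓.ρw q w h₁, 𝔓.ρw q w h₂) = g h₂ - g (h₁ * h₂) + g h₁ := by
    have := congrFun hga (h₁, h₂)
    simpa [PlaceSys.res₂, tOne] using this.symm
  have e2 : glAut q.1 (h₁ : Gl q.1) (ξ ^ (g h₂).val) = ξ ^ (g h₂).val := by
    rw [map_pow, hξ, glAut_jw_of_mem_K 𝔓 q w h₁ hζK]
  rw [e2]
  simp only [Units.val_pow_eq_pow_val, map_pow]
  rw [← hξ, e1]
  -- units of the local field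
  set ξu : (PadicAlgCl (q.1 : ℕ))ˣ := Units.mk0 ξ hξ0 with hξu
  have hξu1 : ξu ^ p = 1 := by
    apply Units.ext
    simpa [hξu] using hξ1
  have key : ξu ^ (g h₂ - g (h₁ * h₂) + g h₁).val * ξu ^ (g (h₁ * h₂)).val =
      ξu ^ (g h₂).val * ξu ^ (g h₁).val := by
    rw [zp_add hξu1, zp_sub hξu1]
    apply Additive.ofMul.injective
    simp only [ofMul_mul, ofMul_div]
    abel
  have := congrArg (fun u : (PadicAlgCl (q.1 : ℕ))ˣ => (u : PadicAlgCl (q.1 : ℕ))) key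
  simpa [hξu] using this

end loc

/-- **GS-AsmHasse.** -/
theorem asmHasse : Stmt_GS_AsmHasse := by
  intro hB p _ hp2 S hp K hK 𝔓 ζ hζK hζ a ha hloc
  obtain ⟨b', hb', hb'Ω, hcb⟩ := hB p hp2 S hp K hK 𝔓 _ _ (pTorsData_zp hK.1 hζK hζ ha)
    (fun q w => locTrivS_of_mem_B2w 𝔓 hζK hζ a q w (hloc q w))
    (fun q _ A _ => resTrivAt_one A q)
  exact ⟨b', hb', hb'Ω, fun g h => hcb (g, h)⟩

/-- **GS-AsmOne.** -/
theorem asmOne : Stmt_GS_AsmOne := by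
  intro hB hLK p _ hp2 S hp K hK 𝔓 a ha q₀ w₀ hloc
  have hpp : p.Prime := Fact.out
  obtain ⟨ζ₀, hζ₀K, hζ₀⟩ := hK.2
  have hζ₀0 : ζ₀ ≠ 0 := hζ₀.ne_zero hpp.ne_zero
  obtain ⟨ζ, rfl⟩ : ∃ ζ : Qbˣ, (ζ : Qb) = ζ₀ := ⟨Units.mk0 ζ₀ hζ₀0, rfl⟩
  have hζ : IsPrimitiveRoot ζ p := IsPrimitiveRoot.coe_units_iff.1 hζ₀
  refine hLK p hp2 S hp K hK 𝔓 ζ hζ₀K hζ a ha q₀ w₀ ?_
  exact hB p hp2 S hp K hK 𝔓 _ _ (pTorsData_zp hK.1 hζ₀K hζ ha) q₀ w₀
    (fun q w hne => locTrivS_of_mem_B2w 𝔓 hζ₀K hζ a q w (hloc q w hne))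
    (fun q _ A _ => resTrivAt_one A q)

end Fermat.Agent.S55.CFT.GS.H24

end
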