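/-
S55/E4 island GS (helper24), assembly GS-ASM2:
* `asmLift2 : Stmt_GS_AsmLift2`  (`DivBr → ResOnto → Lift2`),
* `asmI2 : Stmt_GS_AsmI2`        (`H3 → Lift2 → I2`).
Cochain algebra only.
-/
import Fermat.Agent.S55.CFT.GS.H24_MTwo

set_option autoImplicit false
set_option linter.unusedSectionVars false
set_option linter.unusedVariables false
set_option linter.style.haveILetI false

open CategoryTheory Module groupCohomology ExtCitation

noncomputable section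

namespace Fermat.Agent.S55.CFT.GS.H24

open Fermat.Agent.S55 Fermat.Agent.S55.Top Fermat.Agent.S55.CFT.GS

local notation "Qb" => AlgebraicClosure ℚ

/-- **GS-AsmLift2.** -/
theorem asmLift2 : Stmt_GS_AsmLift2 := by
  intro hDiv hRes p _ hp2 S hp K hK w hw hwW hwc
  have hwΩ : ∀ t, InOm S (w t : Qb) := fun t => inOm_of_inW (hwW t)
  obtain ⟨z₁, b₁, hz₁, hz₁Ω, hz₁c, hb₁, hb₁Ω, hw1⟩ := hDiv p hp2 S hp K hK w hw hwΩ hwc
  have hb₁W : ∀ t, InW S p (mOne b₁ t) := by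
    intro t
    have e : mOne b₁ t = w t / z₁ t ^ p := by
      rw [hw1 t, mul_div_cancel_left]
    rw [e]
    exact inW_div (hwW t) (inW_pow (hz₁Ω t))
  obtain ⟨z', b'', t, hz', hz'Ω, hz'c, hb'', hb''Ω, htΩ, hzb, hbW⟩ :=
    hRes p hp2 S hp K hK b₁ hb₁ hb₁Ω hb₁W
  refine ⟨z₁ * z', fun g => b₁ g / (b'' g * (g • t / t)), ?_, ?_, ?_, ?_, hbW, ?_⟩
  · exact (hz₁.pair hz').comp (fun x : Qbˣ × Qbˣ => x.1 * x.2)
  · intro u
    rw [Pi.mul_apply, Units.val_mul]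
    exact inOm_mul (hz₁Ω u) (hz'Ω u)
  · rw [mTwo_mul, hz₁c, hz'c, one_mul]
  · exact (hb₁.pair (hb''.pair (isLevK₁_bdry htΩ))).comp
      (fun x : Qbˣ × Qbˣ × Qbˣ => x.1 / (x.2.1 * x.2.2))
  · intro u
    have e : (fun g : ↥K.fixingSubgroup => b₁ g / (b'' g * (g • t / t))) =
        b₁ / (b'' * fun g : ↥K.fixingSubgroup => g • t / t) := rfl
    rw [e, mOne_div, mOne_mul, mOne_bdry, mul_one, Pi.div_apply, Pi.mul_apply, mul_pow,
      hw1 u, ← hzb u]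
    apply Additive.ofMul.injective
    simp only [ofMul_mul, ofMul_div]
    abel

/-- **GS-AsmI2.** -/
theorem asmI2 : Stmt_GS_AsmI2 := by
  classical
  intro hH3 hLift p _ hp2 S hp K hK x hx hxlev
  have hpp : p.Prime := Fact.out
  -- the root of unity
  obtain ⟨ζ₀, hζ₀K, hζ₀⟩ := hK.2
  have hζ₀0 : ζ₀ ≠ 0 := hζ₀.ne_zero hpp.ne_zero
  obtain ⟨ζ, rfl⟩ : ∃ ζ : Qbˣ, (ζ : Qb) = ζ₀ := ⟨Units.mk0 ζ₀ hζ₀0, rfl⟩
  have hζ : IsPrimitiveRoot ζ p := IsPrimitiveRoot.coe_units_iff.1 hζ₀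
  have hζK : ζ ∈ KxS K := hζ₀K
  obtain ⟨y₀, hy₀, hy₀Ω, hxy⟩ := hH3 p hp2 S hp K hK ζ hζK hζ x hx hxlev
  -- `w = y₀ᵖ`
  have hw : IsLevK₂ S K (fun t => y₀ t ^ p) := hy₀.comp (fun u : Qbˣ => u ^ p)
  have hwW : ∀ t, InW S p ((fun t => y₀ t ^ p) t) := fun t => inW_pow (hy₀Ω t)
  have hwc : mTwo (fun t => y₀ t ^ p) = 1 := by
    have e : (fun t => y₀ t ^ p) = y₀ ^ p := rfl
    rw [e, mTwo_pow]
    funext t
    rw [Pi.pow_apply, ← hxy t, Pi.one_apply]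
    exact zp_pow_p hζ.pow_eq_one _
  obtain ⟨z, b, hz, hzΩ, hzc, hb, hbW, hwzb⟩ := hLift p hp2 S hp K hK _ hw hwW hwc
  -- `p`-th roots of `b`
  have hb' : IsLevK₁ S K (fun g => rootW S p (b g)) := hb.comp (rootW S p)
  have hb'Ω : ∀ g, InOm S ((rootW S p (b g) : Qbˣ) : Qb) := fun g => rootW_inOm _
  have hb'p : (fun g => rootW S p (b g)) ^ p = b := funext (fun g => rootW_pow (hbW g))
  -- `y₁ = y₀ / (z · d b')` is `μ_p`-valued
  have hy₁lev : IsLevK₂ S K (y₀ / (z * mOne (fun g => rootW S p (b g)))) :=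
    (hy₀.pair (hz.pair (isLevK₂_mOne hK.1 hb' hb'Ω))).comp
      (fun u : Qbˣ × Qbˣ × Qbˣ => u.1 / (u.2.1 * u.2.2))
  have hy₁p : ∀ t, (y₀ / (z * mOne (fun g => rootW S p (b g)))) t ^ p = 1 := by
    intro t
    have h1 : mOne (fun g => rootW S p (b g)) t ^ p = mOne b t := by
      rw [← Pi.pow_apply, ← mOne_pow, hb'p]
    rw [Pi.div_apply, Pi.mul_apply, div_pow, mul_pow, h1, ← hwzb t, div_self']
  let φ : Qbˣ → ZMod p := fun u =>
    if h : u ^ p = 1 then Classical.choose (exists_zp hζ h) else 0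
  have hφ : ∀ t, ζ ^ (φ ((y₀ / (z * mOne (fun g => rootW S p (b g)))) t)).val =
      (y₀ / (z * mOne (fun g => rootW S p (b g)))) t := by
    intro t
    show ζ ^ (dite _ _ _ : ZMod p).val = _
    rw [dif_pos (hy₁p t)]
    exact Classical.choose_spec (exists_zp hζ (hy₁p t))
  refine ⟨fun t => φ ((y₀ / (z * mOne (fun g => rootW S p (b g)))) t), hy₁lev.comp φ, ?_⟩
  have hm : mTwo (y₀ / (z * mOne (fun g => rootW S p (b g)))) = fun t => ζ ^ (x t).val := by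
    rw [mTwo_div, mTwo_mul, hzc, mTwo_mOne, mul_one, div_one]
    funext t
    exact (hxy t).symm
  have hm2 : mTwo (y₀ / (z * mOne (fun g => rootW S p (b g)))) =
      fun t => ζ ^ (tTwo (fun t => φ ((y₀ / (z * mOne (fun g => rootW S p (b g)))) t)) t).val := by
    have e : (y₀ / (z * mOne (fun g => rootW S p (b g)))) =
        fun t => ζ ^ (φ ((y₀ / (z * mOne (fun g => rootW S p (b g)))) t)).val :=
      funext (fun t => (hφ t).symm)
    conv_lhs => rw [e]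
    exact mTwo_zp hζ.pow_eq_one (fun g => smul_eq_of_mem hζK g) _
  funext t
  apply zp_inj hζ
  exact congrFun (hm2.symm.trans hm) t

end Fermat.Agent.S55.CFT.GS.H24

end
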