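/-
S55/E4 island GS (helper24), assembly GS-ASM3, part (c): restriction to the local groups.
* `res₂ q w` maps `Z²_S(G_K)` to `Z²(Γ_w)` and `B²_S(G_K)` to `B²(Γ_w)`;
* `ZL` = the locally trivial level-`S` 2-cocycles;
* `[Z²_S : ZL] ≤ p ^ (#V - 1)` from `One` and `dim H²(K_w) = 1`.
-/
import Fermat.Agent.S55.CFT.GS.H24_Basic

set_option autoImplicit false
set_option linter.unusedSectionVars false
set_option linter.unusedVariables false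
set_option linter.style.haveILetI false

open CategoryTheory Module groupCohomology ExtCitation

noncomputable section

namespace Fermat.Agent.S55.CFT.GS.H24

open Fermat.Agent.S55 Fermat.Agent.S55.Top Fermat.Agent.S55.CFT.GS

local notation "Qb" => AlgebraicClosure ℚ

section res

variable {k : Type} [Field k] {S : Finset Nat.Primes} {K : IntermediateField ℚ Qb}
  (𝔓 : PlaceSys S K)

/-- If `rl h` fixes a field with normal fixing subgroup then so does `ρ_w h`. -/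
theorem rho_mem_of_normal (q : ↥S) (w : 𝔓.W q) {F : IntermediateField ℚ Qb}
    (hN : F.fixingSubgroup.Normal) (s : 𝔓.Γw q w) (hs : 𝔓.rw q w s ∈ F.fixingSubgroup) :
    ((𝔓.ρw q w s : ↥K.fixingSubgroup) : GQ) ∈ F.fixingSubgroup := by
  have h := hN.conj_mem _ hs (𝔓.σ q w)⁻¹
  simpa [PlaceSys.ρw, PlaceSys.rw] using h

theorem isLevelConstant₁_res₁ (q : ↥S) (w : 𝔓.W q) {X : Type*} {f : ↥K.fixingSubgroup → X}
    (hf : IsLevK₁ S K f) : IsLevelConstant₁ (𝔓.rw q w) (𝔓.res₁ q w f) := by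
  obtain ⟨F, hF, h⟩ := hf
  obtain ⟨F', hle, hF', hN⟩ := H48.exists_normal_level S F hF
  refine ⟨F', hF'.1, fun g s hs => ?_⟩
  show f (𝔓.ρw q w (g * s)) = f (𝔓.ρw q w g)
  rw [map_mul]
  exact h _ _ (IntermediateField.fixingSubgroup_antitone hle (rho_mem_of_normal 𝔓 q w hN s hs))

theorem isLevelConstant₂_res₂ (q : ↥S) (w : 𝔓.W q) {X : Type*}
    {f : ↥K.fixingSubgroup × ↥K.fixingSubgroup → X}
    (hf : IsLevK₂ S K f) : IsLevelConstant₂ (𝔓.rw q w) (𝔓.res₂ q w f) := by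
  obtain ⟨F, hF, h⟩ := hf
  obtain ⟨F', hle, hF', hN⟩ := H48.exists_normal_level S F hF
  refine ⟨F', hF'.1, fun g g' s s' hs hs' => ?_⟩
  show f (𝔓.ρw q w (g * s), 𝔓.ρw q w (g' * s')) = f (𝔓.ρw q w g, 𝔓.ρw q w g')
  rw [map_mul, map_mul]
  exact h _ _ _ _
    (IntermediateField.fixingSubgroup_antitone hle (rho_mem_of_normal 𝔓 q w hN s hs))
    (IntermediateField.fixingSubgroup_antitone hle (rho_mem_of_normal 𝔓 q w hN s' hs'))

theorem res₂_tOne (q : ↥S) (w : 𝔓.W q) (f : ↥K.fixingSubgroup → k) :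
    𝔓.res₂ q w (tOne f) = tOne (𝔓.res₁ q w f) := by
  funext ⟨g, h⟩
  simp only [PlaceSys.res₂, PlaceSys.res₁, tOne, map_mul]

theorem tTwo_res₂ (q : ↥S) (w : 𝔓.W q) (a : ↥K.fixingSubgroup × ↥K.fixingSubgroup → k) :
    tTwo (𝔓.res₂ q w a) = 𝔓.res₃ q w (tTwo a) := by
  funext ⟨g, h, j⟩
  simp only [PlaceSys.res₂, PlaceSys.res₃, tTwo, map_mul]

theorem res₂_mem_Z2w (q : ↥S) (w : 𝔓.W q) {a : ↥K.fixingSubgroup × ↥K.fixingSubgroup → k}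
    (ha : a ∈ Z2K k S K) : 𝔓.res₂ q w a ∈ Z2w k 𝔓 q w := by
  refine ⟨?_, isLevelConstant₂_res₂ 𝔓 q w ha.2⟩
  rw [tTwo_res₂, ha.1]
  rfl

theorem res₂_mem_B2w (q : ↥S) (w : 𝔓.W q) {a : ↥K.fixingSubgroup × ↥K.fixingSubgroup → k}
    (ha : a ∈ B2K k S K) : 𝔓.res₂ q w a ∈ B2w k 𝔓 q w := by
  obtain ⟨f, hf, rfl⟩ := ha
  exact ⟨𝔓.res₁ q w f, isLevelConstant₁_res₁ 𝔓 q w hf, (res₂_tOne 𝔓 q w f).symm⟩

theorem res₂_add (q : ↥S) (w : 𝔓.W q) (a a' : ↥K.fixingSubgroup × ↥K.fixingSubgroup → k) :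
    𝔓.res₂ q w (a + a') = 𝔓.res₂ q w a + 𝔓.res₂ q w a' := rfl

theorem res₂_smul (q : ↥S) (w : 𝔓.W q) (c : k)
    (a : ↥K.fixingSubgroup × ↥K.fixingSubgroup → k) :
    𝔓.res₂ q w (c • a) = c • 𝔓.res₂ q w a := rfl

variable (k) in
/-- The locally trivial level-`S` 2-cocycles. -/
def ZL : Submodule k (↥K.fixingSubgroup × ↥K.fixingSubgroup → k) where
  carrier := {a | a ∈ Z2K k S K ∧ ∀ (q : ↥S) (w : 𝔓.W q), 𝔓.res₂ q w a ∈ B2w k 𝔓 q w}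
  add_mem' := by
    intro a a' ha ha'
    refine ⟨(Z2K k S K).add_mem ha.1 ha'.1, fun q w => ?_⟩
    rw [res₂_add]
    exact (B2w k 𝔓 q w).add_mem (ha.2 q w) (ha'.2 q w)
  zero_mem' := ⟨(Z2K k S K).zero_mem, fun q w => (B2w k 𝔓 q w).zero_mem⟩
  smul_mem' := by
    intro c a ha
    refine ⟨(Z2K k S K).smul_mem c ha.1, fun q w => ?_⟩
    rw [res₂_smul]
    exact (B2w k 𝔓 q w).smul_mem c (ha.2 q w)

theorem ZL_le_Z2K : ZL k 𝔓 ≤ Z2K k S K := fun _ ha => ha.1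

/-- The coboundary of a level-`S` 1-cochain is of level `S`. -/
theorem isLevK₂_tOne {f : ↥K.fixingSubgroup → k} (hf : IsLevK₁ S K f) :
    IsLevK₂ S K (tOne f) := by
  obtain ⟨F, hF, h⟩ := hf
  obtain ⟨F', hle, hF', hN⟩ := H48.exists_normal_level S F hF
  have h' : ∀ g s : ↥K.fixingSubgroup, (s : GQ) ∈ F'.fixingSubgroup → f (g * s) = f g :=
    fun g s hs => h g s (IntermediateField.fixingSubgroup_antitone hle hs)
  refine ⟨F', hF', fun g₁ g₂ s₁ s₂ h₁ h₂ => ?_⟩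
  simp only [tOne]
  have e : g₁ * s₁ * (g₂ * s₂) = g₁ * g₂ * ((g₂⁻¹ * s₁ * g₂) * s₂) := by group
  have hc : (((g₂⁻¹ * s₁ * g₂) * s₂ : ↥K.fixingSubgroup) : GQ) ∈ F'.fixingSubgroup := by
    have h3 := hN.conj_mem _ h₁ ((g₂ : GQ)⁻¹)
    have h4 := F'.fixingSubgroup.mul_mem h3 h₂
    simpa using h4
  rw [e, h' _ _ hc, h' _ _ h₁, h' _ _ h₂]

theorem tTwo_tOne (f : ↥K.fixingSubgroup → k) : tTwo (tOne f) = 0 := by
  funext ⟨g, h, j⟩
  simp only [tTwo, tOne, Pi.zero_apply, mul_assoc]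
  ring

theorem B2K_le_Z2K : B2K k S K ≤ Z2K k S K := by
  rintro a ⟨f, hf, rfl⟩
  exact ⟨tTwo_tOne f, isLevK₂_tOne hf⟩

theorem B2K_le_ZL : B2K k S K ≤ ZL k 𝔓 := fun a ha =>
  ⟨B2K_le_Z2K ha, fun q w => res₂_mem_B2w 𝔓 q w ha⟩

end res

end Fermat.Agent.S55.CFT.GS.H24

end
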