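/-
S55/E4 island GS (helper24), assembly GS-ASM3, part (c), counting:
`[Z²_S(G_K) : ZL] ≤ p ^ m` with `m + 1 ≤ #V`, from `Stmt_GS_One` and `dim H²(K_w) = 1`.
(`ZL` is the intersection of the `#V - 1` kernels `Z_i` of `Z²_S → H²(K_{w_i})`, `i ≠ i₀`.)
-/
import Fermat.Agent.S55.CFT.GS.H24_Loc

set_option autoImplicit false
set_option linter.unusedSectionVars false
set_option linter.unusedVariables false
set_option linter.style.haveILetI false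

open CategoryTheory Module groupCohomology ExtCitation

noncomputable section

namespace Fermat.Agent.S55.CFT.GS.H24

open Fermat.Agent.S55 Fermat.Agent.S55.Top Fermat.Agent.S55.CFT.GS

local notation "Qb" => AlgebraicClosure ℚ

section loc

variable {p : ℕ} [Fact p.Prime] {S : Finset Nat.Primes} {K : IntermediateField ℚ Qb}
  (𝔓 : PlaceSys S K)

/-- The index type of the places of `K` over `S`. -/
abbrev PlI : Type := Σ q : ↥S, 𝔓.W q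

/-- There is a place over `p`. -/
theorem exists_place (hp : pPrime p ∈ S) : Nonempty (PlI 𝔓) :=
  ⟨⟨⟨pPrime p, hp⟩, @OrbitData.o _ _ _ (locAct K (pPrime p)) _ (𝔓.loc ⟨pPrime p, hp⟩) (x0 K)⟩⟩

variable (p) in
/-- The cochains which are locally a coboundary at the place `i`. -/
def Zi (i : PlI 𝔓) : AddSubgroup (↥K.fixingSubgroup × ↥K.fixingSubgroup → ZMod p) where
  carrier := {a | 𝔓.res₂ i.1 i.2 a ∈ B2w (ZMod p) 𝔓 i.1 i.2}
  add_mem' := by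
    intro a a' ha ha'
    show 𝔓.res₂ i.1 i.2 (a + a') ∈ B2w (ZMod p) 𝔓 i.1 i.2
    rw [res₂_add]
    exact (B2w (ZMod p) 𝔓 i.1 i.2).add_mem ha ha'
  zero_mem' := (B2w (ZMod p) 𝔓 i.1 i.2).zero_mem
  neg_mem' := by
    intro a ha
    show 𝔓.res₂ i.1 i.2 (-a) ∈ B2w (ZMod p) 𝔓 i.1 i.2
    have : 𝔓.res₂ i.1 i.2 (-a) = -(𝔓.res₂ i.1 i.2 a) := rfl
    rw [this]
    exact (B2w (ZMod p) 𝔓 i.1 i.2).neg_mem ha

theorem mem_Zi (i : PlI 𝔓) (a : ↥K.fixingSubgroup × ↥K.fixingSubgroup → ZMod p) :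
    a ∈ Zi p 𝔓 i ↔ 𝔓.res₂ i.1 i.2 a ∈ B2w (ZMod p) 𝔓 i.1 i.2 := Iff.rfl

/-- The localisation homomorphism at the place `i`. -/
def locHomI (i : PlI 𝔓) :
    ↥((Z2K (ZMod p) S K).toAddSubgroup) →+ H2w (ZMod p) 𝔓 i.1 i.2 where
  toFun a := Submodule.Quotient.mk
    (⟨𝔓.res₂ i.1 i.2 (a : ↥K.fixingSubgroup × ↥K.fixingSubgroup → ZMod p),
      res₂_mem_Z2w 𝔓 i.1 i.2 a.2⟩ : ↥(Z2w (ZMod p) 𝔓 i.1 i.2))
  map_zero' := rfl
  map_add' := by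
    intro a a'
    rfl

theorem ker_locHomI (i : PlI 𝔓) :
    (locHomI (p := p) 𝔓 i).ker = (Zi p 𝔓 i).addSubgroupOf (Z2K (ZMod p) S K).toAddSubgroup := by
  ext a
  rw [AddMonoidHom.mem_ker, AddSubgroup.mem_addSubgroupOf, mem_Zi]
  show Submodule.Quotient.mk _ = 0 ↔ _
  rw [Submodule.Quotient.mk_eq_zero]
  rfl

theorem card_H2w (i : PlI 𝔓)
    (h1 : Module.finrank (ZMod p) (H2w (ZMod p) 𝔓 i.1 i.2) = 1) :
    Finite (H2w (ZMod p) 𝔓 i.1 i.2) ∧ Nat.card (H2w (ZMod p) 𝔓 i.1 i.2) = p := by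
  haveI : Module.Finite (ZMod p) (H2w (ZMod p) 𝔓 i.1 i.2) := by
    apply Module.finite_of_finrank_pos
    rw [h1]
    exact Nat.one_pos
  refine ⟨Module.finite_of_finite (ZMod p), ?_⟩
  rw [Module.natCard_eq_pow_finrank (K := ZMod p), h1, pow_one, Nat.card_zmod]

theorem relIndex_Zi (i : PlI 𝔓)
    (h1 : Module.finrank (ZMod p) (H2w (ZMod p) 𝔓 i.1 i.2) = 1) :
    (Zi p 𝔓 i).relIndex (Z2K (ZMod p) S K).toAddSubgroup ≠ 0 ∧
      (Zi p 𝔓 i).relIndex (Z2K (ZMod p) S K).toAddSubgroup ≤ p := by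
  obtain ⟨hfin, hcard⟩ := card_H2w 𝔓 i h1
  have hidx : (Zi p 𝔓 i).relIndex (Z2K (ZMod p) S K).toAddSubgroup =
      Nat.card ↥(locHomI (p := p) 𝔓 i).range := by
    rw [← AddSubgroup.index_ker, ker_locHomI]
    rfl
  rw [hidx]
  constructor
  · exact Nat.card_pos.ne'
  · have := Nat.card_le_card_of_injective
      (fun x : ↥(locHomI (p := p) 𝔓 i).range => (x : H2w (ZMod p) 𝔓 i.1 i.2))
      Subtype.val_injective
    exact this.trans hcard.le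

/-- `ZL` is the intersection of `Z²_S` with the `Z_i`, `i ≠ i₀`. -/
theorem ZL_eq_iInf (hOne : Stmt_GS_One) (hp2 : p ≠ 2) (hp : pPrime p ∈ S)
    (hK : IsBaseField S p K) (i₀ : PlI 𝔓) :
    (ZL (ZMod p) 𝔓).toAddSubgroup =
      (⨅ i : {i : PlI 𝔓 // i ≠ i₀}, Zi p 𝔓 i.1) ⊓ (Z2K (ZMod p) S K).toAddSubgroup := by
  ext a
  rw [AddSubgroup.mem_inf, AddSubgroup.mem_iInf]
  constructor
  · intro ha
    exact ⟨fun i => ha.2 i.1.1 i.1.2, ha.1⟩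
  · rintro ⟨h1, h2⟩
    refine ⟨h2, ?_⟩
    have h3 : ∀ (q : ↥S) (w : 𝔓.W q), (⟨q, w⟩ : Σ q : ↥S, 𝔓.W q) ≠ ⟨i₀.1, i₀.2⟩ →
        𝔓.res₂ q w a ∈ B2w (ZMod p) 𝔓 q w := by
      intro q w hne
      exact h1 ⟨⟨q, w⟩, hne⟩
    have h4 := hOne p hp2 S hp K hK 𝔓 a h2 i₀.1 i₀.2 h3
    intro q w
    by_cases h : (⟨q, w⟩ : Σ q : ↥S, 𝔓.W q) = ⟨i₀.1, i₀.2⟩
    · have e : (⟨q, w⟩ : PlI 𝔓) = i₀ := h
      have h5 : a ∈ Zi p 𝔓 i₀ := h4
      rw [← e] at h5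
      exact h5
    · exact h3 q w h

/-- `[Z²_S : ZL] ≤ p ^ m` with `m + 1 ≤ #V`; the index is finite. -/
theorem relIndex_ZL (hOne : Stmt_GS_One) (hp2 : p ≠ 2) (hp : pPrime p ∈ S)
    (hK : IsBaseField S p K)
    (h1 : ∀ (q : ↥S) (w : 𝔓.W q), Module.finrank (ZMod p) (H2w (ZMod p) 𝔓 q w) = 1) :
    (ZL (ZMod p) 𝔓).toAddSubgroup.relIndex (Z2K (ZMod p) S K).toAddSubgroup ≠ 0 ∧
    ∃ m : ℕ, m + 1 ≤ nPl 𝔓 ∧
      (ZL (ZMod p) 𝔓).toAddSubgroup.relIndex (Z2K (ZMod p) S K).toAddSubgroup ≤ p ^ m := by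
  classical
  letI : ∀ q, Fintype (𝔓.W q) := 𝔓.fin
  obtain ⟨i₀⟩ := exists_place 𝔓 hp
  rw [ZL_eq_iInf 𝔓 hOne hp2 hp hK i₀, AddSubgroup.inf_relIndex_right]
  constructor
  · exact AddSubgroup.relIndex_iInf_ne_zero (fun i => (relIndex_Zi 𝔓 i.1 (h1 _ _)).1)
  · refine ⟨Fintype.card {i : PlI 𝔓 // i ≠ i₀}, ?_, ?_⟩
    · have hlt : Fintype.card {i : PlI 𝔓 // i ≠ i₀} < Fintype.card (PlI 𝔓) :=
        Fintype.card_subtype_lt (x := i₀) (fun h => h rfl)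
      have hc : Fintype.card (PlI 𝔓) = nPl 𝔓 := by
        rw [Fintype.card_sigma]
        rfl
      omega
    · refine (AddSubgroup.relIndex_iInf_le _).trans ?_
      have := Finset.prod_le_pow_card (Finset.univ : Finset {i : PlI 𝔓 // i ≠ i₀})
        (fun i => (Zi p 𝔓 i.1).relIndex (Z2K (ZMod p) S K).toAddSubgroup) p
        (fun i _ => (relIndex_Zi 𝔓 i.1 (h1 _ _)).2)
      simpa using this

end loc

end Fermat.Agent.S55.CFT.GS.H24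

end
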