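/-
S55/E4 island GS (helper24), assembly GS-ASM3, part (b): the locally trivial classes.
`[ZL : B²_S] ≤ [T : Kˣ W]`, where `ZL` = locally trivial level-`S` 2-cocycles of `G_K` with values
in `𝔽_p`, `T = {t ∈ Ωˣ : g t / t ∈ W ∀ g}`, `W = (Ωˣ)ᵖ`.
The correspondence `a ↔ t`: `ζ^a = d b` (Hasse), `bᵖ = (g ↦ g t / t)` (Hilbert 90).
-/
import Fermat.Agent.S55.CFT.GS.H24_KummerH1
import Fermat.Agent.S55.CFT.GS.H24_Loc

set_option autoImplicit false
set_option linter.unusedSectionVars false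
set_option linter.unusedVariables false
set_option linter.style.haveILetI false

open CategoryTheory Module groupCohomology ExtCitation

noncomputable section

namespace Fermat.Agent.S55.CFT.GS.H24

open Fermat.Agent.S55 Fermat.Agent.S55.Top Fermat.Agent.S55.CFT.GS

local notation "Qb" => AlgebraicClosure ℚ

/-! ### An abstract counting lemma -/

section abstract

variable {A : Type*} [AddCommGroup A] {G : Type*} [CommGroup G]

/-- If a relation `R` between `Z` and `T` is total on `Z`, compatible with differences and sends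
`T'` back into `B`, then `[Z : B] ≤ [T : T']`. -/
theorem relIndex_le_of_rel (B Z : AddSubgroup A) (T' T : Subgroup G) (R : A → G → Prop)
    (h1 : ∀ a ∈ Z, ∃ t ∈ T, R a t)
    (h2 : ∀ a a' t t', R a t → R a' t' → R (a - a') (t / t'))
    (h3 : ∀ a t, R a t → t ∈ T' → a ∈ B)
    (hfin : T'.relIndex T ≠ 0) :
    B.relIndex Z ≠ 0 ∧ B.relIndex Z ≤ T'.relIndex T := by
  classical
  choose! τ hτT hτR using h1
  let φ : (↥Z ⧸ B.addSubgroupOf Z) → (↥T ⧸ T'.subgroupOf T) := fun x =>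
    QuotientGroup.mk ⟨τ ((Quotient.out x : ↥Z) : A), hτT _ (Quotient.out x).2⟩
  have hφ : Function.Injective φ := by
    intro x y hxy
    have h := QuotientGroup.eq.1 hxy
    rw [Subgroup.mem_subgroupOf] at h
    have hR := h2 _ _ _ _ (hτR _ (Quotient.out y).2) (hτR _ (Quotient.out x).2)
    have e : τ ((Quotient.out y : ↥Z) : A) / τ ((Quotient.out x : ↥Z) : A) =
        (τ ((Quotient.out x : ↥Z) : A))⁻¹ * τ ((Quotient.out y : ↥Z) : A) := by
      rw [div_eq_mul_inv, mul_comm]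
    rw [e] at hR
    have hB := h3 _ _ hR h
    have hxy' : ((Quotient.out x : ↥Z) : ↥Z ⧸ B.addSubgroupOf Z) = (Quotient.out y : ↥Z) := by
      rw [QuotientAddGroup.eq, AddSubgroup.mem_addSubgroupOf]
      have e2 : ((-(Quotient.out x : ↥Z) + (Quotient.out y : ↥Z) : ↥Z) : A) =
          ((Quotient.out y : ↥Z) : A) - ((Quotient.out x : ↥Z) : A) := by
        push_cast
        abel
      rw [e2]
      exact hB
    have hx : ((Quotient.out x : ↥Z) : ↥Z ⧸ B.addSubgroupOf Z) = x := Quotient.out_eq x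
    have hy : ((Quotient.out y : ↥Z) : ↥Z ⧸ B.addSubgroupOf Z) = y := Quotient.out_eq y
    rw [← hx, ← hy]
    exact hxy'
  haveI hfinT : Finite (↥T ⧸ T'.subgroupOf T) := Nat.finite_of_card_ne_zero hfin
  haveI : Finite (↥Z ⧸ B.addSubgroupOf Z) := Finite.of_injective φ hφ
  constructor
  · exact Nat.card_pos.ne'
  · exact Nat.card_le_card_of_injective φ hφ

end abstract

/-! ### The correspondence -/

section sha

variable {p : ℕ} [Fact p.Prime] {S : Finset Nat.Primes} {K : IntermediateField ℚ Qb}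
  {ζ : Qbˣ}

/-- The correspondence between 2-cocycles `a` with values in `𝔽_p` and elements `t ∈ Ωˣ`:
`ζ^a = d b` and `bᵖ = (g ↦ g t / t)` for some level-`S` 1-cochain `b` with values in `Ωˣ`. -/
def RelSha (S : Finset Nat.Primes) (p : ℕ) (K : IntermediateField ℚ Qb) (ζ : Qbˣ)
    (a : ↥K.fixingSubgroup × ↥K.fixingSubgroup → ZMod p) (t : Qbˣ) : Prop :=
  InOm S (t : Qb) ∧ ∃ b : ↥K.fixingSubgroup → Qbˣ, IsLevK₁ S K b ∧ (∀ g, InOm S (b g : Qb)) ∧
    (∀ g h, ζ ^ (a (g, h)).val = mOne b (g, h)) ∧ ∀ g, b g ^ p = g • t / t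

/-- (R1) Every locally trivial cocycle corresponds to some `t ∈ T`. -/
theorem relSha_exists (hHasse : Stmt_GS_Hasse) (hH90 : Stmt_GS_H90) (hp2 : p ≠ 2)
    (hp : pPrime p ∈ S) (hK : IsBaseField S p K) (𝔓 : PlaceSys S K)
    (hζ : IsPrimitiveRoot ζ p) (hζK : ζ ∈ KxS K)
    {a : ↥K.fixingSubgroup × ↥K.fixingSubgroup → ZMod p} (ha : a ∈ ZL (ZMod p) 𝔓) :
    ∃ t : Qbˣ, t ∈ TK S p K ∧ RelSha S p K ζ a t := by
  obtain ⟨b, hb, hbΩ, hab⟩ := hHasse p hp2 S hp K hK 𝔓 ζ hζK hζ a ha.1 ha.2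
  have hc1 : IsLevK₁ S K (fun g => b g ^ p) := hb.comp (fun x : Qbˣ => x ^ p)
  have hc2 : ∀ g, InOm S (((fun g => b g ^ p) g : Qbˣ) : Qb) := by
    intro g
    show InOm S ((b g ^ p : Qbˣ) : Qb)
    rw [Units.val_pow_eq_pow_val]
    exact inOm_pow (hbΩ g) p
  have hc3 : mOne (fun g => b g ^ p) = 1 := by
    have e : (fun g => b g ^ p) = b ^ p := rfl
    rw [e, mOne_pow]
    funext ⟨g, h⟩
    rw [Pi.pow_apply, Pi.one_apply, ← hab g h]
    exact zp_pow_p hζ.pow_eq_one _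
  obtain ⟨t, htΩ, ht⟩ := hH90 S K hK.1 _ hc1 hc2 hc3
  refine ⟨t, ⟨htΩ, fun g => ⟨b g, hbΩ g, ht g⟩⟩, htΩ, b, hb, hbΩ, hab, ht⟩

/-- (R2) The correspondence is compatible with differences. -/
theorem relSha_sub (hζ : IsPrimitiveRoot ζ p)
    {a a' : ↥K.fixingSubgroup × ↥K.fixingSubgroup → ZMod p} {t t' : Qbˣ}
    (h : RelSha S p K ζ a t) (h' : RelSha S p K ζ a' t') :
    RelSha S p K ζ (a - a') (t / t') := by
  obtain ⟨htΩ, b, hb, hbΩ, hab, hbt⟩ := h
  obtain ⟨htΩ', b', hb', hbΩ', hab', hbt'⟩ := h'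
  refine ⟨?_, b / b', ?_, ?_, ?_, ?_⟩
  · rw [Units.val_div_eq_div_val]
    exact inOm_div htΩ htΩ'
  · exact (hb.pair hb').comp (fun x : Qbˣ × Qbˣ => x.1 / x.2)
  · intro g
    rw [Pi.div_apply, Units.val_div_eq_div_val]
    exact inOm_div (hbΩ g) (hbΩ' g)
  · intro g h
    rw [mOne_div, Pi.div_apply, ← hab g h, ← hab' g h, Pi.sub_apply, zp_sub hζ.pow_eq_one]
  · intro g
    rw [Pi.div_apply, div_pow, hbt g, hbt' g, smul_div']
    apply Additive.ofMul.injective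
    simp only [ofMul_div]
    abel

/-- (R3) If `t ∈ Kˣ W` then the cocycle is a coboundary. -/
theorem relSha_mem_B2K (hζ : IsPrimitiveRoot ζ p) (hζK : ζ ∈ KxS K)
    {a : ↥K.fixingSubgroup × ↥K.fixingSubgroup → ZMod p} {t : Qbˣ}
    (h : RelSha S p K ζ a t) (ht : t ∈ KW S p K) : a ∈ B2K (ZMod p) S K := by
  classical
  obtain ⟨htΩ, b, hb, hbΩ, hab, hbt⟩ := h
  obtain ⟨c, s, hc, hs, rfl⟩ := ht
  -- `b g / (g s / s)` is a `p`-th root of unity
  have h1 : ∀ g : ↥K.fixingSubgroup, (b g / (g • s / s)) ^ p = 1 := by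
    intro g
    rw [div_pow, hbt g, smul_mul', smul_eq_of_mem hc g, div_pow, smul_pow']
    apply Additive.ofMul.injective
    simp only [ofMul_div, ofMul_mul, ofMul_one]
    abel
  let φ : Qbˣ × Qbˣ → ZMod p := fun x =>
    if hx : (x.1 / x.2) ^ p = 1 then Classical.choose (exists_zp hζ hx) else 0
  have hφ : ∀ g : ↥K.fixingSubgroup, ζ ^ (φ (b g, g • s / s)).val = b g / (g • s / s) := by
    intro g
    show ζ ^ (dite _ _ _ : ZMod p).val = _
    rw [dif_pos (h1 g)]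
    exact Classical.choose_spec (exists_zp hζ (h1 g))
  refine ⟨fun g => φ (b g, g • s / s), (hb.pair (isLevK₁_bdry hs)).comp φ, ?_⟩
  have hb2 : b = (fun g : ↥K.fixingSubgroup => ζ ^ (φ (b g, g • s / s)).val) *
      (fun g : ↥K.fixingSubgroup => g • s / s) := by
    funext g
    rw [Pi.mul_apply, hφ g, div_mul_cancel]
  have hm : mOne b = fun x : ↥K.fixingSubgroup × ↥K.fixingSubgroup =>
      ζ ^ (tOne (fun g => φ (b g, g • s / s)) x).val := by
    conv_lhs => rw [hb2]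
    rw [mOne_mul, mOne_bdry, mul_one,
      mOne_zp hζ.pow_eq_one (fun g => smul_eq_of_mem hζK g)]
  funext ⟨g, h⟩
  apply zp_inj hζ
  rw [hab g h, hm]

/-- **Part (b)**: `[ZL : B²_S] ≤ [T : Kˣ W]`. -/
theorem relIndex_B2K_ZL (hHasse : Stmt_GS_Hasse) (hH90 : Stmt_GS_H90) (hp2 : p ≠ 2)
    (hp : pPrime p ∈ S) (hK : IsBaseField S p K) (𝔓 : PlaceSys S K)
    (hζ : IsPrimitiveRoot ζ p) (hζK : ζ ∈ KxS K)
    (T T' : Subgroup Qbˣ) (hT : (T : Set Qbˣ) = TK S p K) (hT' : (T' : Set Qbˣ) = KW S p K)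
    (hfin : T'.relIndex T ≠ 0) :
    (B2K (ZMod p) S K).toAddSubgroup.relIndex (ZL (ZMod p) 𝔓).toAddSubgroup ≠ 0 ∧
      (B2K (ZMod p) S K).toAddSubgroup.relIndex (ZL (ZMod p) 𝔓).toAddSubgroup ≤
        T'.relIndex T := by
  refine relIndex_le_of_rel _ _ T' T (RelSha S p K ζ) ?_ ?_ ?_ hfin
  · intro a ha
    obtain ⟨t, ht, hR⟩ := relSha_exists hHasse hH90 hp2 hp hK 𝔓 hζ hζK
      (a := a) ha
    refine ⟨t, ?_, hR⟩
    have : t ∈ (T : Set Qbˣ) := by rw [hT]; exact ht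
    exact this
  · intro a a' t t' h h'
    exact relSha_sub hζ h h'
  · intro a t h ht
    have ht' : t ∈ KW S p K := by rw [← hT']; exact ht
    exact relSha_mem_B2K hζ hζK h ht'

end sha

end Fermat.Agent.S55.CFT.GS.H24

end
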