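/-
S55/E4 island GS (helper24), assembly GS-ASM3: `Stmt_GS_AsmI3`, i.e.
`H90 → Hasse → One → UnitRank → ClassDim → I1 → I3`.

Count (all groups are `𝔽_p`-vector spaces, `#V` = number of places of `K` over `S`):
* `#H¹_S = [V_S : Kˣᵖ] = [V_S : U_K Kˣᵖ] · [U_K Kˣᵖ : Kˣᵖ] = [V_S : U_K Kˣᵖ] · pⁿ`
  (Kummer + Hilbert 90 + Dirichlet), `2 n = [K : ℚ] + 2 #V`;
* `#H²_S = [Z² : ZL] · [ZL : B²] ≤ p ^ (#V - 1) · [T : Kˣ W] ≤ p ^ (#V - 1) · [V_S : U_K Kˣᵖ]`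
  (reciprocity + Hasse principle + class group).
Hence `h² + n ≤ h¹ + #V - 1`, i.e. `2 h² + [K : ℚ] + 2 ≤ 2 h¹`.
-/
import Fermat.Agent.S55.CFT.GS.H24_KumUnr
import Fermat.Agent.S55.CFT.GS.H24_Sha2
import Fermat.Agent.S55.CFT.GS.H24_LocCount

set_option autoImplicit false
set_option linter.unusedSectionVars false
set_option linter.unusedVariables false
set_option linter.style.haveILetI false

open CategoryTheory Module groupCohomology ExtCitation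

noncomputable section

namespace Fermat.Agent.S55.CFT.GS.H24

open Fermat.Agent.S55 Fermat.Agent.S55.Top Fermat.Agent.S55.CFT.GS

local notation "Qb" => AlgebraicClosure ℚ

section units

variable {p : ℕ} [Fact p.Prime] {S : Finset Nat.Primes} {K : IntermediateField ℚ Qb}

/-- `U_K ∩ Kˣᵖ = U_Kᵖ`. -/
theorem subgroupOf_KPs_eq_range (hK : K.IsUnramifiedOutside S) (H : Subgroup Qbˣ)
    (hH : (H : Set Qbˣ) = UK S K) :
    (KPs p K).subgroupOf H = (powMonoidHom p : ↥H →* ↥H).range := by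
  have hmem : ∀ x : Qbˣ, x ∈ H ↔ x ∈ UK S K := fun x => by
    rw [← hH]
    rfl
  ext x
  rw [Subgroup.mem_subgroupOf, MonoidHom.mem_range]
  constructor
  · intro hx
    obtain ⟨b, hb, hbx⟩ := mem_KPs.1 hx
    have hxU := (hmem _).1 x.2
    have hbU : b ∈ H := by
      rw [hmem]
      refine ⟨hb, inOm_of_mem hK hb, fun q hq A hA => ?_⟩
      have h1 := hxU.2.2 q hq A hA
      rw [← hbx, Units.val_pow_eq_pow_val, map_pow] at h1
      exact val_eq_one_of_pow A (Fact.out : p.Prime).ne_zero h1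
    refine ⟨⟨b, hbU⟩, ?_⟩
    apply Subtype.ext
    exact hbx
  · rintro ⟨y, rfl⟩
    exact mem_KPs.2 ⟨(y : Qbˣ), ((hmem _).1 y.2).1, rfl⟩

/-- `U_K Kˣᵖ = U_K ⊔ Kˣᵖ`. -/
theorem UKP_eq_sup (H V' : Subgroup Qbˣ) (hH : (H : Set Qbˣ) = UK S K)
    (hV' : (V' : Set Qbˣ) = UKP S p K) : V' = H ⊔ KPs p K := by
  have hmem : ∀ x : Qbˣ, x ∈ H ↔ x ∈ UK S K := fun x => by
    rw [← hH]
    rfl
  have hmem' : ∀ x : Qbˣ, x ∈ V' ↔ x ∈ UKP S p K := fun x => by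
    rw [← hV']
    rfl
  ext x
  rw [hmem', Subgroup.mem_sup]
  constructor
  · rintro ⟨u, b, hu, hb, rfl⟩
    exact ⟨u, (hmem u).2 hu, b ^ p, mem_KPs.2 ⟨b, hb, rfl⟩, rfl⟩
  · rintro ⟨u, hu, z, hz, rfl⟩
    obtain ⟨b, hb, rfl⟩ := mem_KPs.1 hz
    exact ⟨u, b, (hmem u).1 hu, hb, rfl⟩

/-- `[U_K Kˣᵖ : Kˣᵖ] = [U_K : U_Kᵖ]`. -/
theorem relIndex_KPs_UKP (hK : K.IsUnramifiedOutside S) (H V' : Subgroup Qbˣ)
    (hH : (H : Set Qbˣ) = UK S K) (hV' : (V' : Set Qbˣ) = UKP S p K) :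
    (KPs p K).relIndex V' = (powMonoidHom p : ↥H →* ↥H).range.index := by
  rw [UKP_eq_sup H V' hH hV', Subgroup.relIndex_sup_right,
    ← subgroupOf_KPs_eq_range hK H hH]
  rfl

end units

/-- `#H²_S(G_K, 𝔽_p) = [Z²_S : B²_S]`. -/
theorem card_H2K (p : ℕ) [Fact p.Prime] (S : Finset Nat.Primes) (K : IntermediateField ℚ Qb) :
    Nat.card (H2K (ZMod p) S K) =
      (B2K (ZMod p) S K).toAddSubgroup.relIndex (Z2K (ZMod p) S K).toAddSubgroup := rfl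

/-- **GS-AsmI3.** -/
theorem asmI3 : Stmt_GS_AsmI3 := by
  intro hH90 hHasse hOne hUR hCD hI1 p _ hp2 S hp K hK
  have hpp : p.Prime := Fact.out
  -- the root of unity
  obtain ⟨ζ₀, hζ₀K, hζ₀⟩ := hK.2
  have hζ₀0 : ζ₀ ≠ 0 := hζ₀.ne_zero hpp.ne_zero
  obtain ⟨ζ, rfl⟩ : ∃ ζ : Qbˣ, (ζ : Qb) = ζ₀ := ⟨Units.mk0 ζ₀ hζ₀0, rfl⟩
  have hζ : IsPrimitiveRoot ζ p := IsPrimitiveRoot.coe_units_iff.1 hζ₀
  have hζK : ζ ∈ KxS K := hζ₀K
  -- a place system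
  haveI : Finite (XK K) := finite_XK hK.1
  let 𝔓 : PlaceSys S K := placeSysOut S K
  -- the inputs
  obtain ⟨H, n, hH, hidx, hn⟩ := hUR p hp2 S hp K hK 𝔓
  obtain ⟨V, V', T, T', hV, hV', hT, hT', hVfin, hTfin, hle⟩ := hCD p hp2 S hp K hK
  obtain ⟨-, h2w, -, -⟩ := hI1 p hp2 S hp K hK 𝔓
  -- `V = V_S`
  have hVeq : V = VSs S p K := SetLike.coe_injective (hV.trans coe_VSs.symm)
  subst hVeq
  have hmemV' : ∀ x : Qbˣ, x ∈ V' ↔ x ∈ UKP S p K := fun x => by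
    rw [← hV']
    rfl
  have h1H : (1 : Qbˣ) ∈ UK S K := by
    rw [← hH]
    exact H.one_mem
  have hKV' : KPs p K ≤ V' := by
    intro a ha
    obtain ⟨b, hb, rfl⟩ := mem_KPs.1 ha
    exact (hmemV' _).2 ⟨1, b, h1H, hb, (one_mul _).symm⟩
  have hV'V : V' ≤ VSs S p K := by
    intro a ha
    have h1 := UKP_subset_VS (p := p) hp hK.1 ((hmemV' a).1 ha)
    exact mem_VSs.2 h1
  -- `#H¹`
  have hc1 : Nat.card ↥(Z1K (ZMod p) S K) = p ^ n * V'.relIndex (VSs S p K) := by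
    rw [card_Z1K hζ hH90 hK.1 hζK, ← Subgroup.relIndex_mul_relIndex _ _ _ hKV' hV'V,
      relIndex_KPs_UKP hK.1 H V' hH hV', hidx]
  -- `#H²`
  obtain ⟨hb0, hble⟩ := relIndex_B2K_ZL hHasse hH90 hp2 hp hK 𝔓 hζ hζK T T' hT hT' hTfin
  obtain ⟨hc0, m, hm, hcle⟩ := relIndex_ZL 𝔓 hOne hp2 hp hK h2w
  have hc2 : Nat.card (H2K (ZMod p) S K) =
      (B2K (ZMod p) S K).toAddSubgroup.relIndex (ZL (ZMod p) 𝔓).toAddSubgroup *
        (ZL (ZMod p) 𝔓).toAddSubgroup.relIndex (Z2K (ZMod p) S K).toAddSubgroup := by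
    rw [card_H2K, AddSubgroup.relIndex_mul_relIndex _ _ _ (B2K_le_ZL 𝔓) (ZL_le_Z2K 𝔓)]
  have hp0 : 0 < p := hpp.pos
  have hc1ne : Nat.card ↥(Z1K (ZMod p) S K) ≠ 0 := by
    rw [hc1]
    exact mul_ne_zero (pow_ne_zero _ hpp.ne_zero) hVfin
  have hc2ne : Nat.card (H2K (ZMod p) S K) ≠ 0 := by
    rw [hc2]
    exact mul_ne_zero hb0 hc0
  haveI hf1 : Finite ↥(Z1K (ZMod p) S K) := Nat.finite_of_card_ne_zero hc1ne
  haveI hf2 : Finite (H2K (ZMod p) S K) := Nat.finite_of_card_ne_zero hc2ne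
  haveI hm1 : Module.Finite (ZMod p) ↥(Z1K (ZMod p) S K) := Module.Finite.of_finite
  haveI hm2 : Module.Finite (ZMod p) (H2K (ZMod p) S K) := Module.Finite.of_finite
  refine ⟨hm1, hm2, ?_⟩
  have e1 : Nat.card ↥(Z1K (ZMod p) S K) =
      p ^ Module.finrank (ZMod p) ↥(Z1K (ZMod p) S K) := by
    rw [Module.natCard_eq_pow_finrank (K := ZMod p), Nat.card_zmod]
  have e2 : Nat.card (H2K (ZMod p) S K) =
      p ^ Module.finrank (ZMod p) (H2K (ZMod p) S K) := by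
    rw [Module.natCard_eq_pow_finrank (K := ZMod p), Nat.card_zmod]
  -- the inequality
  have hmain : p ^ (Module.finrank (ZMod p) (H2K (ZMod p) S K) + n) ≤
      p ^ (Module.finrank (ZMod p) ↥(Z1K (ZMod p) S K) + m) := by
    rw [pow_add, pow_add, ← e1, ← e2, hc1, hc2]
    calc (B2K (ZMod p) S K).toAddSubgroup.relIndex (ZL (ZMod p) 𝔓).toAddSubgroup *
          (ZL (ZMod p) 𝔓).toAddSubgroup.relIndex (Z2K (ZMod p) S K).toAddSubgroup * p ^ n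
        ≤ V'.relIndex (VSs S p K) * p ^ m * p ^ n := by
          gcongr
          exact hble.trans hle
      _ = p ^ n * V'.relIndex (VSs S p K) * p ^ m := by ring
  have hexp := (Nat.pow_le_pow_iff_right hpp.one_lt).1 hmain
  omega

end Fermat.Agent.S55.CFT.GS.H24

end
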