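/-
S55/E4 island GS (helper24), assembly GS-ASM4: `Stmt_GS_AsmI4`, i.e. `One → Two → I1 → I4`.

(a) the cokernel of `H²_S(G_K) → ⊕_w H²(K_w)` has dimension `≤ 1`: fix a place `i₀`; by `Two` and
    `dim H²(K_w) = 1` every family of local classes agrees, away from `i₀`, with the restriction
    of a global class; two families therefore differ from global classes by classes supported at
    `i₀`, and two elements of the line `H²(K_{i₀})` are linearly dependent.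
(b) is `One`.
-/
import Fermat.Agent.S55.CFT.GS.H24_LocCount

set_option autoImplicit false
set_option linter.unusedSectionVars false
set_option linter.unusedVariables false
set_option linter.style.haveILetI false

open CategoryTheory Module groupCohomology ExtCitation

noncomputable section

namespace Fermat.Agent.S55.CFT.GS.H24

open Fermat.Agent.S55 Fermat.Agent.S55.Top Fermat.Agent.S55.CFT.GS

local notation "Qb" => AlgebraicClosure ℚ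

section asm4

variable {p : ℕ} [Fact p.Prime] {S : Finset Nat.Primes} {K : IntermediateField ℚ Qb}
  (𝔓 : PlaceSys S K)

/-- Restriction to the place `i` as a linear map. -/
def resL (i : PlI 𝔓) :
    (↥K.fixingSubgroup × ↥K.fixingSubgroup → ZMod p) →ₗ[ZMod p]
      (𝔓.Γw i.1 i.2 × 𝔓.Γw i.1 i.2 → ZMod p) where
  toFun a := 𝔓.res₂ i.1 i.2 a
  map_add' _ _ := rfl
  map_smul' _ _ := rfl

theorem resL_apply (i : PlI 𝔓) (a : ↥K.fixingSubgroup × ↥K.fixingSubgroup → ZMod p) :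
    resL 𝔓 i a = 𝔓.res₂ i.1 i.2 a := rfl

/-- In the line `H²(K_w)` a nonzero class spans. -/
theorem exists_smul_sub_mem (i : PlI 𝔓)
    (h1 : Module.finrank (ZMod p) (H2w (ZMod p) 𝔓 i.1 i.2) = 1)
    {x y : 𝔓.Γw i.1 i.2 × 𝔓.Γw i.1 i.2 → ZMod p}
    (hx : x ∈ Z2w (ZMod p) 𝔓 i.1 i.2) (hxB : x ∉ B2w (ZMod p) 𝔓 i.1 i.2)
    (hy : y ∈ Z2w (ZMod p) 𝔓 i.1 i.2) :
    ∃ c : ZMod p, y - c • x ∈ B2w (ZMod p) 𝔓 i.1 i.2 := by
  have hx0 : (Submodule.Quotient.mk (⟨x, hx⟩ : ↥(Z2w (ZMod p) 𝔓 i.1 i.2)) :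
      H2w (ZMod p) 𝔓 i.1 i.2) ≠ 0 := by
    intro h
    rw [Submodule.Quotient.mk_eq_zero] at h
    exact hxB h
  obtain ⟨c, hc⟩ := (finrank_eq_one_iff_of_nonzero' _ hx0).1 h1
    (Submodule.Quotient.mk (⟨y, hy⟩ : ↥(Z2w (ZMod p) 𝔓 i.1 i.2)))
  refine ⟨c, ?_⟩
  have h2 : (Submodule.Quotient.mk ((⟨y, hy⟩ : ↥(Z2w (ZMod p) 𝔓 i.1 i.2)) -
      c • (⟨x, hx⟩ : ↥(Z2w (ZMod p) 𝔓 i.1 i.2))) : H2w (ZMod p) 𝔓 i.1 i.2) = 0 := by
    rw [Submodule.Quotient.mk_sub, Submodule.Quotient.mk_smul, hc, sub_self]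
  rw [Submodule.Quotient.mk_eq_zero] at h2
  exact h2

/-- Two elements of the line `H²(K_w)` are linearly dependent. -/
theorem exists_dep (i : PlI 𝔓)
    (h1 : Module.finrank (ZMod p) (H2w (ZMod p) 𝔓 i.1 i.2) = 1)
    {x y : 𝔓.Γw i.1 i.2 × 𝔓.Γw i.1 i.2 → ZMod p}
    (hx : x ∈ Z2w (ZMod p) 𝔓 i.1 i.2) (hy : y ∈ Z2w (ZMod p) 𝔓 i.1 i.2) :
    ∃ α β : ZMod p, (α ≠ 0 ∨ β ≠ 0) ∧ α • x + β • y ∈ B2w (ZMod p) 𝔓 i.1 i.2 := by
  by_cases hxB : x ∈ B2w (ZMod p) 𝔓 i.1 i.2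
  · refine ⟨1, 0, Or.inl one_ne_zero, ?_⟩
    rw [one_smul, zero_smul, add_zero]
    exact hxB
  · obtain ⟨c, hc⟩ := exists_smul_sub_mem 𝔓 i h1 hx hxB hy
    refine ⟨-c, 1, Or.inr one_ne_zero, ?_⟩
    have e : -c • x + (1 : ZMod p) • y = y - c • x := by
      rw [one_smul, neg_smul]
      abel
    rw [e]
    exact hc

/-- Away from a fixed place `i₀`, every family of local classes is the restriction of a global
class. -/
theorem exists_global_away (hTwo : Stmt_GS_Two) (hp2 : p ≠ 2) (hp : pPrime p ∈ S)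
    (hK : IsBaseField S p K)
    (h1 : ∀ (q : ↥S) (w : 𝔓.W q), Module.finrank (ZMod p) (H2w (ZMod p) 𝔓 q w) = 1)
    (i₀ : PlI 𝔓)
    (c : ∀ (q : ↥S) (w : 𝔓.W q), 𝔓.Γw q w × 𝔓.Γw q w → ZMod p)
    (hc : ∀ q w, c q w ∈ Z2w (ZMod p) 𝔓 q w) :
    ∃ f : ↥K.fixingSubgroup × ↥K.fixingSubgroup → ZMod p, f ∈ Z2K (ZMod p) S K ∧
      ∀ j : PlI 𝔓, j ≠ i₀ → c j.1 j.2 - resL 𝔓 j f ∈ B2w (ZMod p) 𝔓 j.1 j.2 := by
  classical
  letI : ∀ q, Fintype (𝔓.W q) := 𝔓.fin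
  -- the classes of `Two`
  have hex : ∀ i : PlI 𝔓, ∃ a : ↥K.fixingSubgroup × ↥K.fixingSubgroup → ZMod p,
      i ≠ i₀ → (a ∈ Z2K (ZMod p) S K ∧ resL 𝔓 i a ∉ B2w (ZMod p) 𝔓 i.1 i.2 ∧
        ∀ j : PlI 𝔓, j ≠ i → j ≠ i₀ → resL 𝔓 j a ∈ B2w (ZMod p) 𝔓 j.1 j.2) := by
    intro i
    by_cases hi : i = i₀
    · exact ⟨0, fun h => (h hi).elim⟩
    · obtain ⟨a, ha, ha1, ha2⟩ := hTwo p hp2 S hp K hK 𝔓 i.1 i.2 i₀.1 i₀.2 hi
      exact ⟨a, fun _ => ⟨ha, ha1, fun j hj hj0 => ha2 j.1 j.2 hj hj0⟩⟩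
  choose a ha using hex
  -- the coefficients
  have hlam : ∀ i : PlI 𝔓, ∃ l : ZMod p, i ≠ i₀ →
      c i.1 i.2 - l • resL 𝔓 i (a i) ∈ B2w (ZMod p) 𝔓 i.1 i.2 := by
    intro i
    by_cases hi : i = i₀
    · exact ⟨0, fun h => (h hi).elim⟩
    · obtain ⟨l, hl⟩ := exists_smul_sub_mem 𝔓 i (h1 _ _)
        (res₂_mem_Z2w 𝔓 i.1 i.2 (ha i hi).1) (ha i hi).2.1 (hc i.1 i.2)
      exact ⟨l, fun _ => hl⟩
  choose l hl using hlam
  refine ⟨∑ i ∈ Finset.univ.erase i₀, l i • a i, ?_, ?_⟩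
  · refine Submodule.sum_mem _ (fun i hi => ?_)
    exact Submodule.smul_mem _ _ (ha i (Finset.ne_of_mem_erase hi)).1
  · intro j hj
    have hjmem : j ∈ Finset.univ.erase i₀ := Finset.mem_erase.2 ⟨hj, Finset.mem_univ _⟩
    rw [map_sum, ← Finset.add_sum_erase _ _ hjmem, ← sub_sub]
    refine Submodule.sub_mem _ ?_ (Submodule.sum_mem _ (fun i hi => ?_))
    · rw [map_smul]
      exact hl j hj
    · rw [map_smul]
      have hi0 : i ≠ i₀ := Finset.ne_of_mem_erase (Finset.mem_of_mem_erase hi)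
      have hij : j ≠ i := fun h => (Finset.ne_of_mem_erase hi) h.symm
      exact Submodule.smul_mem _ _ ((ha i hi0).2.2 j hij hj)

/-- **GS-AsmI4.** -/
theorem asmI4 : Stmt_GS_AsmI4 := by
  intro hOne hTwo hI1 p _ hp2 S hp K hK 𝔓
  obtain ⟨-, h2w, -, -⟩ := hI1 p hp2 S hp K hK 𝔓
  constructor
  · intro c c' hc hc'
    obtain ⟨i₀⟩ := exists_place 𝔓 hp
    obtain ⟨f, hf, hfc⟩ := exists_global_away 𝔓 hTwo hp2 hp hK h2w i₀ c hc
    obtain ⟨f', hf', hfc'⟩ := exists_global_away 𝔓 hTwo hp2 hp hK h2w i₀ c' hc'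
    have hu : c i₀.1 i₀.2 - resL 𝔓 i₀ f ∈ Z2w (ZMod p) 𝔓 i₀.1 i₀.2 :=
      Submodule.sub_mem _ (hc _ _) (res₂_mem_Z2w 𝔓 i₀.1 i₀.2 hf)
    have hu' : c' i₀.1 i₀.2 - resL 𝔓 i₀ f' ∈ Z2w (ZMod p) 𝔓 i₀.1 i₀.2 :=
      Submodule.sub_mem _ (hc' _ _) (res₂_mem_Z2w 𝔓 i₀.1 i₀.2 hf')
    obtain ⟨α, β, hαβ, hdep⟩ := exists_dep 𝔓 i₀ (h2w _ _) hu hu'
    refine ⟨α, β, hαβ, ?_⟩
    -- the global cocycle
    have hF : α • f + β • f' ∈ Z2K (ZMod p) S K :=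
      Submodule.add_mem _ (Submodule.smul_mem _ _ hf) (Submodule.smul_mem _ _ hf')
    have hall : ∀ j : PlI 𝔓, resL 𝔓 j (α • f + β • f') - (α • c j.1 j.2 + β • c' j.1 j.2) ∈
        B2w (ZMod p) 𝔓 j.1 j.2 := by
      intro j
      have e : resL 𝔓 j (α • f + β • f') - (α • c j.1 j.2 + β • c' j.1 j.2) =
          -(α • (c j.1 j.2 - resL 𝔓 j f) + β • (c' j.1 j.2 - resL 𝔓 j f')) := by
        rw [map_add, map_smul, map_smul, smul_sub, smul_sub]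
        abel
      rw [e]
      apply Submodule.neg_mem
      by_cases hj : j = i₀
      · subst hj
        exact hdep
      · exact Submodule.add_mem _ (Submodule.smul_mem _ _ (hfc j hj))
          (Submodule.smul_mem _ _ (hfc' j hj))
    have hall' : ∀ (q : ↥S) (w : 𝔓.W q), ∃ g : 𝔓.Γw q w → ZMod p,
        IsLevelConstant₁ (𝔓.rw q w) g ∧
          tOne g = 𝔓.res₂ q w (α • f + β • f') - (α • c q w + β • c' q w) :=
      fun q w => hall ⟨q, w⟩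
    choose g hg1 hg2 using hall'
    refine ⟨α • f + β • f', g, hF.2, hg1, hF.1.symm, fun q w => ?_⟩
    show α • c q w + β • c' q w = 𝔓.res₂ q w (α • f + β • f') - tOne (g q w)
    rw [hg2 q w]
    abel
  · intro c hc hB q₀ w₀ h0
    obtain ⟨f, g, hf, hg, hf0, hcfg⟩ := hB
    have hfZ : f ∈ Z2K (ZMod p) S K := ⟨hf0.symm, hf⟩
    have hloc : ∀ (q : ↥S) (w : 𝔓.W q), (⟨q, w⟩ : Σ q : ↥S, 𝔓.W q) ≠ ⟨q₀, w₀⟩ →
        𝔓.res₂ q w f ∈ B2w (ZMod p) 𝔓 q w := by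
      intro q w hne
      have h1 : c q w = 𝔓.res₂ q w f - tOne (g q w) := hcfg q w
      rw [h0 q w hne] at h1
      have h2 : 𝔓.res₂ q w f = tOne (g q w) := sub_eq_zero.1 h1.symm
      rw [h2]
      exact ⟨g q w, hg q w, rfl⟩
    have h3 := hOne p hp2 S hp K hK 𝔓 f hfZ q₀ w₀ hloc
    have h4 : c q₀ w₀ = 𝔓.res₂ q₀ w₀ f - tOne (g q₀ w₀) := hcfg q₀ w₀
    rw [h4]
    exact Submodule.sub_mem _ h3 ⟨g q₀ w₀, hg q₀ w₀, rfl⟩

end asm4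

end Fermat.Agent.S55.CFT.GS.H24

end
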