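/-
S55/E4 island GS (helper24), wave 2, Layer C: `asmResOnto : Stmt_GS_AsmResOnto`.

The residue map `H²(G_S, Ωˣ)[p] → H¹(G_S, Ωˣ/W)` is onto: the bad places of a cochain `b` (level
`S`, values in `Ωˣ`, coboundary in `W`) lie in finitely many `G_K`-orbits; by `GSB_TwoOut` there is
a `p`-torsion datum with nonzero residue exactly on one orbit; decomposition groups are cyclic
modulo the level (`RES_Cyc`), so a multiple of it removes that orbit; induction on the number of
orbits, and `resInj` when no bad place is left.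
-/
import Fermat.Agent.S55.CFT.GS.H24_ResCalc

set_option autoImplicit false
set_option linter.unusedSectionVars false
set_option linter.unusedVariables false
set_option linter.style.haveILetI false

open CategoryTheory Module groupCohomology ExtCitation

open scoped Pointwise

noncomputable section

namespace Fermat.Agent.S55.CFT.GS.H24

open Fermat.Agent.S55 Fermat.Agent.S55.Top Fermat.Agent.S55.CFT.GS

local notation "Qb" => AlgebraicClosure ℚ

section onto

variable {p : ℕ} [Fact p.Prime] {S : Finset Nat.Primes} {K : IntermediateField ℚ Qb}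

/-- The conclusion of `GS-ResOnto` for the cochain `b`. -/
def ResConcl (S : Finset Nat.Primes) (p : ℕ) (K : IntermediateField ℚ Qb)
    (b : ↥K.fixingSubgroup → Qbˣ) : Prop :=
  ∃ (z' : ↥K.fixingSubgroup × ↥K.fixingSubgroup → Qbˣ) (b'' : ↥K.fixingSubgroup → Qbˣ)
    (t : Qbˣ),
    IsLevK₂ S K z' ∧ (∀ u, InOm S (z' u : Qb)) ∧ mTwo z' = 1 ∧
    IsLevK₁ S K b'' ∧ (∀ g, InOm S (b'' g : Qb)) ∧ InOm S (t : Qb) ∧
    (∀ u, z' u ^ p = mOne b'' u) ∧
    ∀ g, InW S p (b g / (b'' g * (g • t / t)))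

theorem resHyp_of_pTors {c : ↥K.fixingSubgroup × ↥K.fixingSubgroup → Qbˣ}
    {b : ↥K.fixingSubgroup → Qbˣ} (hD : PTorsData S p K c b) : ResHyp S p K b where
  lev := hD.levb
  om := hD.omb
  w := fun t => by
    rw [← hD.pow t]
    exact inW_pow (hD.omc t)

theorem inOm_units_pow {x : Qbˣ} (hx : InOm S (x : Qb)) (k : ℕ) : InOm S ((x ^ k : Qbˣ) : Qb) := by
  rw [Units.val_pow_eq_pow_val]
  exact inOm_pow hx k

theorem inOm_units_mul {x y : Qbˣ} (hx : InOm S (x : Qb)) (hy : InOm S (y : Qb)) :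
    InOm S ((x * y : Qbˣ) : Qb) := by
  rw [Units.val_mul]
  exact inOm_mul hx hy

theorem inOm_units_div {x y : Qbˣ} (hx : InOm S (x : Qb)) (hy : InOm S (y : Qb)) :
    InOm S ((x / y : Qbˣ) : Qb) := by
  rw [Units.val_div_eq_div_val]
  exact inOm_div hx hy

theorem resHyp_div {b : ↥K.fixingSubgroup → Qbˣ} (hb : ResHyp S p K b)
    {c₁ : ↥K.fixingSubgroup × ↥K.fixingSubgroup → Qbˣ} {b₁ : ↥K.fixingSubgroup → Qbˣ}
    (hD : PTorsData S p K c₁ b₁) (k : ℕ) :
    ResHyp S p K (fun g => b g / b₁ g ^ k) where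
  lev := (hb.lev.pair hD.levb).comp (fun x : Qbˣ × Qbˣ => x.1 / x.2 ^ k)
  om := fun g => inOm_units_div (hb.om g) (inOm_units_pow (hD.omb g) k)
  w := fun t => by
    have e : (fun g => b g / b₁ g ^ k) = b / b₁ ^ k := rfl
    rw [e, mOne_div, mOne_pow, Pi.div_apply, Pi.pow_apply, ← hD.pow t, ← pow_mul, mul_comm,
      pow_mul]
    exact inW_div (hb.w t) (inW_pow (inOm_units_pow (hD.omc t) k))

theorem resConcl_of_div {b : ↥K.fixingSubgroup → Qbˣ}
    {c₁ : ↥K.fixingSubgroup × ↥K.fixingSubgroup → Qbˣ} {b₁ : ↥K.fixingSubgroup → Qbˣ}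
    (hD : PTorsData S p K c₁ b₁) (k : ℕ)
    (h : ResConcl S p K (fun g => b g / b₁ g ^ k)) : ResConcl S p K b := by
  obtain ⟨z', b'', t, hz', hz'Ω, hz'c, hb'', hb''Ω, htΩ, hzb, hW⟩ := h
  refine ⟨fun u => z' u * c₁ u ^ k, fun g => b'' g * b₁ g ^ k, t,
    (hz'.pair hD.levc).comp (fun x : Qbˣ × Qbˣ => x.1 * x.2 ^ k),
    fun u => inOm_units_mul (hz'Ω u) (inOm_units_pow (hD.omc u) k), ?_,
    (hb''.pair hD.levb).comp (fun x : Qbˣ × Qbˣ => x.1 * x.2 ^ k),
    fun g => inOm_units_mul (hb''Ω g) (inOm_units_pow (hD.omb g) k), htΩ, ?_, ?_⟩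
  · have e : (fun u => z' u * c₁ u ^ k) = z' * c₁ ^ k := rfl
    rw [e, mTwo_mul, mTwo_pow, hz'c, hD.coc, one_pow, one_mul]
  · intro u
    have e : (fun g => b'' g * b₁ g ^ k) = b'' * b₁ ^ k := rfl
    rw [e, mOne_mul, mOne_pow, Pi.mul_apply, Pi.pow_apply, ← hzb u, ← hD.pow u, mul_pow,
      ← pow_mul, ← pow_mul, mul_comm k p]
  · intro g
    have e : b g / (b'' g * b₁ g ^ k * (g • t / t)) =
        b g / b₁ g ^ k / (b'' g * (g • t / t)) := by
      apply Additive.ofMul.injective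
      simp only [ofMul_mul, ofMul_div]
      abel
    rw [e]
    exact hW g

theorem resConcl_of_noBad (hCap : Stmt_RES_Cap) (hp : pPrime p ∈ S)
    (hK : K.IsUnramifiedOutside S) {b : ↥K.fixingSubgroup → Qbˣ} (hb : ResHyp S p K b)
    (h : ∀ A, ¬ IsBad S p b A) : ResConcl S p K b := by
  obtain ⟨t, htΩ, htW⟩ := resInj hCap hp hK hb.lev hb.om hb.w (not_isBad_of_forall h)
  refine ⟨fun _ => 1, fun _ => 1, t, isLevK₂_const 1, fun _ => by simpa using inOm_one, ?_,
    isLevK₁_const 1, fun _ => by simpa using inOm_one, htΩ, ?_, ?_⟩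
  · have e : (fun _ : ↥K.fixingSubgroup × ↥K.fixingSubgroup => (1 : Qbˣ)) = 1 := rfl
    rw [e, mTwo_one]
  · intro u
    have e : (fun _ : ↥K.fixingSubgroup => (1 : Qbˣ)) = 1 := rfl
    rw [e, mOne_one, Pi.one_apply, one_pow]
  · intro g
    rw [one_mul]
    exact htW g

/-- The residue at `A` is determined by its value at a generator of the decomposition group
modulo the level. -/
theorem resR_eq_of_gen (hp : pPrime p ∈ S) {b : ↥K.fixingSubgroup → Qbˣ}
    (hb : ResHyp S p K b) {F : IntermediateField ℚ Qb}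
    (hF : ∀ g s : ↥K.fixingSubgroup, (s : GQ) ∈ F.fixingSubgroup → b (g * s) = b g)
    (A : ValuationSubring Qb) (g₀ : ↥K.fixingSubgroup) (hg₀ : g₀ • A = A) (n : ℕ)
    (s : ↥K.fixingSubgroup) (hs : (s : GQ) ∈ F.fixingSubgroup) :
    resR S p b (g₀ ^ n * s) A = (n : ZMod p) * resR S p b g₀ A := by
  rw [resR_level hF (g₀ ^ n) s hs, resR_pow_stab hp hb g₀ A hg₀ n]

/-- The induction on the number of bad orbits. -/
theorem resOnto_aux (hTwoOut : Stmt_GSB_TwoOut) (hCap : Stmt_RES_Cap) (hCyc : Stmt_RES_Cyc)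
    (hp2 : p ≠ 2) (hp : pPrime p ∈ S) (hK : IsBaseField S p K)
    (T : Finset (ValuationSubring Qb)) :
    ∀ b : ↥K.fixingSubgroup → Qbˣ, ResHyp S p K b → Covered S p b T → ResConcl S p K b := by
  classical
  have hpp : p.Prime := Fact.out
  induction T using Finset.induction_on with
  | empty =>
    intro b hb hcov
    refine resConcl_of_noBad hCap hp hK.1 hb (fun A hA => ?_)
    obtain ⟨A', hA', _⟩ := hcov A hA
    simp at hA'
  | @insert A₁ T' hA₁T' ih =>
    intro b hb hcov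
    by_cases hbad : IsBad S p b A₁
    · -- remove the orbit of `A₁`
      obtain ⟨q₁, hq₁, hA₁q⟩ := hbad.outS
      obtain ⟨c₁, b₁, hD, hn, htriv⟩ := hTwoOut p hp2 S hp K hK q₁ hq₁ A₁ hA₁q
      have hb₁ : ResHyp S p K b₁ := resHyp_of_pTors hD
      have hbad₁ : ∃ g₁ : ↥K.fixingSubgroup, g₁ • A₁ = A₁ ∧ resR S p b₁ g₁ A₁ ≠ 0 := by
        by_contra hcon
        apply hn
        rw [resTrivAt_iff hD.omb q₁ hq₁ A₁ hA₁q]
        intro g hg
        by_contra hne
        exact hcon ⟨g, hg, hne⟩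
      obtain ⟨Fb, hFb, hFb'⟩ := hb.lev
      obtain ⟨F₁, hF₁, hF₁'⟩ := hb₁.lev
      obtain ⟨g₀, hg₀, hgen⟩ := hCyc S K (Fb ⊔ F₁) hK.1 (hFb.sup hF₁) q₁ hq₁ A₁ hA₁q
      have hval : ∀ g : ↥K.fixingSubgroup, g • A₁ = A₁ → ∃ n : ℕ,
          resR S p b g A₁ = (n : ZMod p) * resR S p b g₀ A₁ ∧
          resR S p b₁ g A₁ = (n : ZMod p) * resR S p b₁ g₀ A₁ := by
        intro g hg
        obtain ⟨n, s, hs, rfl⟩ := hgen g hg
        exact ⟨n, resR_eq_of_gen hp hb hFb' A₁ g₀ hg₀ n s
            (IntermediateField.fixingSubgroup_antitone le_sup_left hs),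
          resR_eq_of_gen hp hb₁ hF₁' A₁ g₀ hg₀ n s
            (IntermediateField.fixingSubgroup_antitone le_sup_right hs)⟩
      have hy : resR S p b₁ g₀ A₁ ≠ 0 := by
        intro h0
        obtain ⟨g₁, hg₁, hne⟩ := hbad₁
        obtain ⟨n, _, h2⟩ := hval g₁ hg₁
        rw [h0, mul_zero] at h2
        exact hne h2
      set x := resR S p b g₀ A₁ with hx
      set y := resR S p b₁ g₀ A₁ with hydef
      set m : ZMod p := x * y⁻¹ with hm
      have hkm : ((m.val : ℕ) : ZMod p) = m := ZMod.natCast_zmod_val m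
      have hb' : ResHyp S p K (fun g => b g / b₁ g ^ m.val) := resHyp_div hb hD m.val
      have hres' : ∀ g A, resR S p (fun g => b g / b₁ g ^ m.val) g A =
          resR S p b g A - m * resR S p b₁ g A := by
        intro g A
        rw [resR_div_pow hb.om hb₁.om, hkm]
      have hnb : ¬ IsBad S p (fun g => b g / b₁ g ^ m.val) A₁ := by
        rintro ⟨g, hg, hne⟩
        apply hne
        obtain ⟨n, h1, h2⟩ := hval g hg
        rw [hres', h1, h2, hm]
        field_simp
        ring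
      have hcov' : Covered S p (fun g => b g / b₁ g ^ m.val) T' := by
        intro A hA
        have hnc : ∀ k : ↥K.fixingSubgroup, k • A₁ ≠ A := by
          intro k hk
          apply hnb
          have h1 := isBad_smul hp hb' hA k⁻¹
          have h2 : k⁻¹ • A = A₁ := by
            rw [← hk]
            exact inv_smul_smul k A₁
          rwa [h2] at h1
        obtain ⟨q, hq, hAq⟩ := hA.outS
        have hb₁A := (resTrivAt_iff hD.omb q hq A hAq).1 (htriv q hq A hAq (fun g => hnc g))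
        obtain ⟨g, hg, hne⟩ := hA
        have hbadA : IsBad S p b A := by
          refine ⟨g, hg, ?_⟩
          rw [hres', hb₁A g hg, mul_zero, sub_zero] at hne
          exact hne
        obtain ⟨A', hA'T, k', hk'⟩ := hcov A hbadA
        rw [Finset.mem_insert] at hA'T
        rcases hA'T with rfl | hA'T
        · exact absurd hk' (hnc k')
        · exact ⟨A', hA'T, k', hk'⟩
      exact resConcl_of_div hD m.val (ih _ hb' hcov')
    · -- `A₁` is not needed
      refine ih b hb ?_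
      intro A hA
      obtain ⟨A', hA'T, k', hk'⟩ := hcov A hA
      rw [Finset.mem_insert] at hA'T
      rcases hA'T with rfl | hA'T
      · exfalso
        apply hbad
        have h1 := isBad_smul hp hb hA k'⁻¹
        have h2 : k'⁻¹ • A = A' := by
          rw [← hk']
          exact inv_smul_smul k' A'
        rwa [h2] at h1
      · exact ⟨A', hA'T, k', hk'⟩

end onto

/-- **GS-AsmResOnto.** -/
theorem asmResOnto : Stmt_GS_AsmResOnto := by
  intro hTwoOut _ hCap hCyc p _ hp2 S hp K hK b hb hbΩ hW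
  have hR : ResHyp S p K b := ⟨hb, hbΩ, hW⟩
  obtain ⟨T, hT⟩ := exists_cover hK.1 hR
  exact resOnto_aux hTwoOut hCap hCyc hp2 hp hK T b hR hT

end Fermat.Agent.S55.CFT.GS.H24

end
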