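/-
S55/E4 island GS (helper24), wave 2, Layer C: `asmTwo : Stmt_GS_AsmTwo`.

* `liftMu` : a `p`-torsion datum `(c, b)` of `H²(G_S, Ωˣ)` with vanishing residues outside `S`
  is `c = ζ^a · d β` with `a ∈ Z²_S(G_K, 𝔽_p)` and `β` a level-`S` cochain with values in `Ωˣ`
  (`H²(G_S, μ_p) → H²(G_S, Ωˣ)[p]` is onto the classes without residues);
* `locTrivS_mul_bdry` : local triviality is insensitive to global coboundaries.
-/
import Fermat.Agent.S55.CFT.GS.H24_ResInj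
import Fermat.Agent.S55.CFT.GS.H24_AsmHasse
import Fermat.Agent.S55.CFT.GS.H24_Loc

set_option autoImplicit false
set_option linter.unusedSectionVars false
set_option linter.unusedVariables false
set_option linter.style.haveILetI false

open CategoryTheory Module groupCohomology ExtCitation

open scoped Pointwise

noncomputable section

namespace Fermat.Agent.S55.CFT.GS.H24

open Fermat.Agent.S55 Fermat.Agent.S55.Top Fermat.Agent.S55.CFT.GS

local notation "Qb" => AlgebraicClosure ℚ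

section lift

variable {p : ℕ} [Fact p.Prime] {S : Finset Nat.Primes} {K : IntermediateField ℚ Qb}

/-- The exponent of a `p`-th root of unity (`0` for other elements). -/
def zpLog (p : ℕ) [Fact p.Prime] (ζ : Qbˣ) (x : Qbˣ) : ZMod p :=
  haveI := Classical.propDecidable (∃ a : ZMod p, ζ ^ a.val = x)
  if h : ∃ a : ZMod p, ζ ^ a.val = x then h.choose else 0

theorem zpLog_spec {ζ : Qbˣ} (hζ : IsPrimitiveRoot ζ p) {x : Qbˣ} (hx : x ^ p = 1) :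
    ζ ^ (zpLog p ζ x).val = x := by
  have h := exists_zp hζ hx
  unfold zpLog
  rw [dif_pos h]
  exact h.choose_spec

/-- A `W`-valued level-`S` cochain has a level-`S` `p`-th root with values in `Ωˣ`. -/
theorem exists_root_lev {b : ↥K.fixingSubgroup → Qbˣ} (hb : IsLevK₁ S K b)
    (hW : ∀ g, InW S p (b g)) :
    ∃ β : ↥K.fixingSubgroup → Qbˣ, IsLevK₁ S K β ∧ (∀ g, InOm S (β g : Qb)) ∧
      ∀ g, β g ^ p = b g :=
  ⟨fun g => rootW S p (b g), hb.comp (rootW S p), fun g => rootW_inOm _,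
    fun g => rootW_pow (hW g)⟩

/-- **LiftMu**: a `p`-torsion datum with vanishing residues comes from `μ_p`. -/
theorem liftMu (hCap : Stmt_RES_Cap) (hp : pPrime p ∈ S) (hK : K.IsUnramifiedOutside S)
    {ζ : Qbˣ} (hζK : (ζ : Qb) ∈ K) (hζ : IsPrimitiveRoot ζ p)
    {c : ↥K.fixingSubgroup × ↥K.fixingSubgroup → Qbˣ} {b : ↥K.fixingSubgroup → Qbˣ}
    (hD : PTorsData S p K c b)
    (hres : ∀ q : Nat.Primes, q ∉ S → ∀ A : ValuationSubring Qb, A.LiesOverPrime (q : ℕ) →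
      ResTrivAt p K A (q : ℕ) b) :
    ∃ (a : ↥K.fixingSubgroup × ↥K.fixingSubgroup → ZMod p) (β : ↥K.fixingSubgroup → Qbˣ),
      IsZ2K S K a ∧ IsLevK₁ S K β ∧ (∀ g, InOm S (β g : Qb)) ∧
      ∀ t, c t = ζ ^ (a t).val * mOne β t := by
  classical
  have hW : ∀ t, InW S p (mOne b t) := fun t => by
    rw [← hD.pow t]
    exact inW_pow (hD.omc t)
  obtain ⟨t, htΩ, htW⟩ := resInj hCap hp hK hD.levb hD.omb hW
    (fun g A hg => resR_stab hres g A hg)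
  -- the root `β`
  have hlev : IsLevK₁ S K (fun g : ↥K.fixingSubgroup => b g / (g • t / t)) :=
    (hD.levb.pair (isLevK₁_bdry htΩ)).comp (fun x : Qbˣ × Qbˣ => x.1 / x.2)
  obtain ⟨β, hβ, hβΩ, hβp⟩ := exists_root_lev hlev htW
  have hdβ : ∀ u, mOne β u ^ p = c u ^ p := by
    intro u
    have e1 : (β ^ p : ↥K.fixingSubgroup → Qbˣ) =
        b / (fun g : ↥K.fixingSubgroup => g • t / t) := by
      funext g
      exact hβp g
    have e2 : mOne (β ^ p) = mOne b := by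
      rw [e1, mOne_div, mOne_bdry, div_one]
    have e3 := congrFun (mOne_pow β p) u
    rw [e2] at e3
    rw [hD.pow u, e3, Pi.pow_apply]
  have hroot : ∀ u, (c u / mOne β u) ^ p = 1 := by
    intro u
    rw [div_pow, hdβ u, div_self']
  have hspec : ∀ u, ζ ^ (zpLog p ζ (c u / mOne β u)).val = c u / mOne β u :=
    fun u => zpLog_spec hζ (hroot u)
  have hβ2 : IsLevK₂ S K (mOne β) := isLevK₂_mOne hK hβ hβΩ
  refine ⟨fun u => zpLog p ζ (c u / mOne β u), β, ⟨?_, ?_⟩, hβ, hβΩ, ?_⟩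
  · -- cocycle
    have h1 := mTwo_zp hζ.pow_eq_one (smul_eq_of_mem_K (K := K) hζK)
      (fun u => zpLog p ζ (c u / mOne β u))
    have h2 : (fun u => ζ ^ (zpLog p ζ (c u / mOne β u)).val) = c / mOne β := by
      funext u
      exact hspec u
    rw [h2, mTwo_div, hD.coc, mTwo_mOne, div_one] at h1
    funext u
    have h3 := congrFun h1 u
    rw [Pi.one_apply] at h3
    have h4 : ζ ^ (tTwo (fun u => zpLog p ζ (c u / mOne β u)) u).val = ζ ^ (0 : ZMod p).val := by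
      rw [← h3, zp_zero]
    exact zp_inj hζ h4
  · exact (hD.levc.pair hβ2).comp (fun x : Qbˣ × Qbˣ => zpLog p ζ (x.1 / x.2))
  · intro u
    show c u = ζ ^ (zpLog p ζ (c u / mOne β u)).val * mOne β u
    rw [hspec u, div_mul_cancel]

end lift

section loc

variable {p : ℕ} [Fact p.Prime] {S : Finset Nat.Primes} {K : IntermediateField ℚ Qb}
  (𝔓 : PlaceSys S K)

/-- `j_w ∘ ρ_w h = h ∘ j_w`. -/
theorem jw_rho (q : ↥S) (w : 𝔓.W q) (h : 𝔓.Γw q w) (x : Qb) :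
    haveI : Fact ((q.1 : ℕ)).Prime := ⟨q.1.2⟩
    padicEmbedding (q.1 : ℕ) (𝔓.σ q w ((𝔓.ρw q w h : GQ) x)) =
      glAut q.1 (h : Gl q.1) (padicEmbedding (q.1 : ℕ) (𝔓.σ q w x)) := by
  haveI : Fact ((q.1 : ℕ)).Prime := ⟨q.1.2⟩
  have h1 := padicEmbedding_localGaloisToGlobal (q.1 : ℕ) (glAut q.1 (h : Gl q.1)) (𝔓.σ q w x)
  have h2 : localGaloisToGlobal (q.1 : ℕ) (glAut q.1 (h : Gl q.1)) (𝔓.σ q w x) =
      rl q.1 h.1 (𝔓.σ q w x) := rfl
  rw [← h1, h2, rl_sigma]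

/-- Local triviality is insensitive to global coboundaries. -/
theorem locTrivS_mul_bdry {c : ↥K.fixingSubgroup × ↥K.fixingSubgroup → Qbˣ}
    {β : ↥K.fixingSubgroup → Qbˣ} (hβ : IsLevK₁ S K β) (q : ↥S) (w : 𝔓.W q)
    (h : LocTrivS 𝔓 q w c) : LocTrivS 𝔓 q w (fun t => c t * mOne β t) := by
  haveI : Fact ((q.1 : ℕ)).Prime := ⟨q.1.2⟩
  obtain ⟨β₀, hβ₀, hlev, hco⟩ := h
  have hγlev : IsLevelConstant₁ (𝔓.rw q w)
      (fun h : 𝔓.Γw q w => padicEmbedding (q.1 : ℕ) (𝔓.σ q w ((β (𝔓.ρw q w h) : Qbˣ) : Qb))) :=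
    (isLevelConstant₁_res₁ 𝔓 q w hβ).comp
      (fun x : Qbˣ => padicEmbedding (q.1 : ℕ) (𝔓.σ q w (x : Qb)))
  have hγ0 : ∀ x : Qbˣ, padicEmbedding (q.1 : ℕ) (𝔓.σ q w (x : Qb)) ≠ 0 := by
    intro x
    exact (map_ne_zero (padicEmbedding (q.1 : ℕ))).2 ((map_ne_zero (𝔓.σ q w)).2 x.ne_zero)
  refine ⟨fun h => β₀ h * padicEmbedding (q.1 : ℕ) (𝔓.σ q w ((β (𝔓.ρw q w h) : Qbˣ) : Qb)),
    fun h => mul_ne_zero (hβ₀ h) (hγ0 _), ?_, ?_⟩
  · obtain ⟨F, hF, h1⟩ := hlev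
    obtain ⟨F', hF', h2⟩ := hγlev
    haveI := hF
    haveI := hF'
    refine ⟨F ⊔ F', inferInstance, fun g s hs => ?_⟩
    have e1 := h1 g s (IntermediateField.fixingSubgroup_antitone le_sup_left hs)
    have e2 := h2 g s (IntermediateField.fixingSubgroup_antitone le_sup_right hs)
    simp only at e2 ⊢
    rw [e1, e2]
  · intro h₁ h₂
    have e := hco h₁ h₂
    simp only [mOne_apply, Units.val_mul, Units.val_div_eq_div_val, map_mul, map_div₀]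
    have e1 : ((𝔓.ρw q w h₁ • β (𝔓.ρw q w h₂) : Qbˣ) : Qb) =
        (𝔓.ρw q w h₁ : GQ) ((β (𝔓.ρw q w h₂) : Qbˣ) : Qb) := rfl
    rw [e1, jw_rho]
    have h12 := hγ0 (β (𝔓.ρw q w h₁ * 𝔓.ρw q w h₂))
    field_simp
    exact e

end loc

/-- **GS-AsmTwo.** -/
theorem asmTwo : Stmt_GS_AsmTwo := by
  intro hB _ hCap hLK p _ hp2 S hp K hK 𝔓 q₁ w₁ q₂ w₂ hne
  have hpp : p.Prime := Fact.out
  obtain ⟨ζ₀, hζ₀K, hζ₀⟩ := hK.2
  have hζ₀0 : ζ₀ ≠ 0 := hζ₀.ne_zero hpp.ne_zero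
  obtain ⟨ζ, rfl⟩ : ∃ ζ : Qbˣ, (ζ : Qb) = ζ₀ := ⟨Units.mk0 ζ₀ hζ₀0, rfl⟩
  have hζ : IsPrimitiveRoot ζ p := IsPrimitiveRoot.coe_units_iff.1 hζ₀
  obtain ⟨c, b, hD, hn1, htriv, hres⟩ := hB p hp2 S hp K hK 𝔓 q₁ w₁ q₂ w₂ hne
  obtain ⟨a, β, ha, hβ, hβΩ, hcβ⟩ := liftMu hCap hp hK.1 hζ₀K hζ hD hres
  have hc : (fun t => ζ ^ (a t).val * mOne β t) = c := by
    funext t
    exact (hcβ t).symm
  have hc' : (fun t => c t * mOne (fun g => (β g)⁻¹) t) = fun t => ζ ^ (a t).val := by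
    funext t
    have e : (fun g => (β g)⁻¹) = β⁻¹ := rfl
    rw [e, mOne_inv, Pi.inv_apply, hcβ t, mul_inv_cancel_right]
  refine ⟨a, ha, ?_, ?_⟩
  · intro hmem
    apply hn1
    have h1 := locTrivS_of_mem_B2w 𝔓 hζ₀K hζ a q₁ w₁ hmem
    have h2 := locTrivS_mul_bdry 𝔓 hβ q₁ w₁ h1
    rwa [hc] at h2
  · intro q w h1 h2
    have h3 := htriv q w h1 h2
    have h4 := locTrivS_mul_bdry 𝔓 (hβ.comp (fun x : Qbˣ => x⁻¹)) q w h3
    rw [hc'] at h4
    exact hLK p hp2 S hp K hK 𝔓 ζ hζ₀K hζ a ha q w h4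

end Fermat.Agent.S55.CFT.GS.H24

end
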