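/-
S55 package E4, island GS (helper6): the order calculus at the places outside `S`.

`OutS S A` : `A` is a place of `ℚ̄` over a prime `q ∉ S`;  `ordS A x` : the order of `x ∈ Ωˣ` at
`A` (`|x|_A = |q|_A ^ ordS A x`; it exists because `Ω` is unramified at `q`).
* `ordS_mul`, `ordS_inv`, `ordS_div`, `ordS_pow`, `ordS_smul : ordS A (g x) = ordS (g⁻¹ • A) x`;
* `inW_iff_ordS` : the Kummer criterion `x ∈ W ↔ p ∣ ordS A x` for all places outside `S`;
* `exists_bound_ordS` : `ordS A x = 0` outside finitely many rational primes;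
* `exists_cap_ordS` : capitulation (uniformizers modulo `p`) in terms of `ordS`.
-/
import Fermat.Agent.S55.CFT.GS.H6_Cap
import Fermat.Agent.S55.CFT.GS.H6_UR_PL

set_option autoImplicit false
set_option linter.unusedSectionVars false
set_option linter.style.haveILetI false

open scoped Pointwise NumberField

noncomputable section

namespace Fermat.Agent.S55.CFT.GS.H6

open Fermat.Agent.S55 Fermat.Agent.S55.Top Fermat.Agent.Lib.FrobExists
  Fermat.Agent.Lib.InertiaBridge Fermat.Agent.Lib.Minkowski Fermat.Agent.Lib.UnramVal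
  IsDedekindDomain

local notation "Qb" => AlgebraicClosure ℚ

section ordS

variable {S : Finset Nat.Primes}

/-- `A` is a place of `ℚ̄` over a prime outside `S`. -/
def OutS (S : Finset Nat.Primes) (A : ValuationSubring Qb) : Prop :=
  ∃ q : Nat.Primes, q ∉ S ∧ A.LiesOverPrime (q : ℕ)

theorem OutS.smul {A : ValuationSubring Qb} (h : OutS S A) (g : GQ) : OutS S (g • A) := by
  obtain ⟨q, hq, hA⟩ := h
  exact ⟨q, hq, ur_liesOver_smul A g (q : ℕ) hA⟩

/-- A place lies over one rational prime only. -/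
theorem liesOver_unique (A : ValuationSubring Qb) (q q' : Nat.Primes)
    (hq : A.LiesOverPrime (q : ℕ)) (hq' : A.LiesOverPrime (q' : ℕ)) : q = q' := by
  by_contra hne
  have h2 : A.valuation ((q' : ℕ) : Qb) < 1 := val_q_lt_one A (q' : ℕ) hq'
  have hnd : ¬ ((q : ℕ) : ℤ) ∣ ((q' : ℕ) : ℤ) := by
    intro hdvd
    have h3 : (q : ℕ) ∣ (q' : ℕ) := by exact_mod_cast hdvd
    exact hne (Subtype.ext ((Nat.prime_dvd_prime_iff_eq q.2 q'.2).mp h3))
  have h4 := valuation_intCast_eq_one A q q.2 hq ((q' : ℕ) : ℤ) hnd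
  rw [Int.cast_natCast] at h4
  rw [h4] at h2
  exact lt_irrefl _ h2

/-- The residue characteristic of a place (`0` if there is none). -/
def resChar (A : ValuationSubring Qb) : ℕ :=
  haveI := Classical.propDecidable (∃ q : Nat.Primes, A.LiesOverPrime (q : ℕ))
  if h : ∃ q : Nat.Primes, A.LiesOverPrime (q : ℕ) then (h.choose : ℕ) else 0

theorem resChar_eq {A : ValuationSubring Qb} (q : Nat.Primes) (hA : A.LiesOverPrime (q : ℕ)) :
    resChar A = (q : ℕ) := by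
  have hex : ∃ q : Nat.Primes, A.LiesOverPrime (q : ℕ) := ⟨q, hA⟩
  rw [resChar, dif_pos hex]
  exact congrArg Subtype.val (liesOver_unique A _ q hex.choose_spec hA)

/-- The order of `x` at the place `A`. -/
def ordS (A : ValuationSubring Qb) (x : Qb) : ℤ := ordZ A (resChar A) x

theorem isOrd_ordS {A : ValuationSubring Qb} (q : Nat.Primes) (hq : q ∉ S)
    (hA : A.LiesOverPrime (q : ℕ)) {x : Qb} (hx0 : x ≠ 0) (hx : InOm S x) :
    IsOrd A (q : ℕ) x (ordS A x) := by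
  rw [ordS, resChar_eq q hA]
  exact isOrd_ordZ q hq A hA x hx0 hx

theorem ordS_eq {A : ValuationSubring Qb} (q : Nat.Primes) (hA : A.LiesOverPrime (q : ℕ))
    {x : Qb} {k : ℤ} (h : IsOrd A (q : ℕ) x k) : ordS A x = k := by
  rw [ordS, resChar_eq q hA]
  exact ordZ_eq q.2 hA h

variable {A : ValuationSubring Qb}

theorem ordS_one (hA : OutS S A) : ordS A 1 = 0 := by
  obtain ⟨q, _, hA⟩ := hA
  exact ordS_eq q hA isOrd_one

theorem ordS_mul (hA : OutS S A) {x y : Qb} (hx0 : x ≠ 0) (hx : InOm S x) (hy0 : y ≠ 0)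
    (hy : InOm S y) : ordS A (x * y) = ordS A x + ordS A y := by
  obtain ⟨q, hq, hA⟩ := hA
  exact ordS_eq q hA ((isOrd_ordS q hq hA hx0 hx).mul q.2 (isOrd_ordS q hq hA hy0 hy))

theorem ordS_inv (hA : OutS S A) {x : Qb} (hx0 : x ≠ 0) (hx : InOm S x) :
    ordS A x⁻¹ = -ordS A x := by
  obtain ⟨q, hq, hA⟩ := hA
  exact ordS_eq q hA (isOrd_ordS q hq hA hx0 hx).inv

theorem ordS_div (hA : OutS S A) {x y : Qb} (hx0 : x ≠ 0) (hx : InOm S x) (hy0 : y ≠ 0)
    (hy : InOm S y) : ordS A (x / y) = ordS A x - ordS A y := by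
  obtain ⟨q, hq, hA⟩ := hA
  exact ordS_eq q hA ((isOrd_ordS q hq hA hx0 hx).div q.2 (isOrd_ordS q hq hA hy0 hy))

theorem ordS_pow (hA : OutS S A) {x : Qb} (hx0 : x ≠ 0) (hx : InOm S x) (n : ℕ) :
    ordS A (x ^ n) = n * ordS A x := by
  obtain ⟨q, hq, hA⟩ := hA
  exact ordS_eq q hA ((isOrd_ordS q hq hA hx0 hx).pow n)

/-- Galois transport: `ord_A (g x) = ord_{g⁻¹ A} x`. -/
theorem ordS_smul (hA : OutS S A) (g : GQ) {x : Qb} (hx0 : x ≠ 0) (hx : InOm S x) :
    ordS A (g x) = ordS (g⁻¹ • A) x := by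
  obtain ⟨q, hq, hA⟩ := hA
  have hA' : (g⁻¹ • A).LiesOverPrime (q : ℕ) := ur_liesOver_smul A g⁻¹ (q : ℕ) hA
  have h1 : IsOrd (g⁻¹ • A) (q : ℕ) x (ordS (g⁻¹ • A) x) := isOrd_ordS q hq hA' hx0 hx
  have h2 : IsOrd (g • (g⁻¹ • A)) (q : ℕ) (g x) (ordS (g⁻¹ • A) x) :=
    (isOrd_smul_iff q.2 g).mpr h1
  rw [smul_inv_smul] at h2
  exact ordS_eq q hA h2

/-- The order at `g • A` of `g x`. -/
theorem ordS_smul_smul (hA : OutS S A) (g : GQ) {x : Qb} (hx0 : x ≠ 0) (hx : InOm S x) :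
    ordS (g • A) (g x) = ordS A x := by
  rw [ordS_smul (hA.smul g) g hx0 hx, inv_smul_smul]

/-- **Kummer criterion** in terms of `ordS`. -/
theorem inW_iff_ordS {p : ℕ} (hp : p.Prime) (hpS : ∀ q : Nat.Primes, q ∉ S → (q : ℕ) ≠ p)
    (x : Qbˣ) (hx : InOm S (x : Qb)) :
    InW S p x ↔ ∀ A : ValuationSubring Qb, OutS S A → (p : ℤ) ∣ ordS A (x : Qb) := by
  rw [inW_iff S p hp hpS x hx]
  constructor
  · rintro h A ⟨q, hq, hA⟩
    obtain ⟨m, hm⟩ := h q hq A hA
    rw [ordS_eq q hA hm]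
    exact dvd_mul_right _ _
  · intro h q hq A hA
    obtain ⟨m, hm⟩ := h A ⟨q, hq, hA⟩
    refine ⟨m, ?_⟩
    rw [← hm]
    exact isOrd_ordS q hq hA x.ne_zero hx

/-- The order of `x ∈ Ωˣ` vanishes outside finitely many rational primes. -/
theorem exists_bound_ordS (x : Qb) (hx0 : x ≠ 0) :
    ∃ N : ℤ, N ≠ 0 ∧ ∀ (q : Nat.Primes), ¬ ((q : ℕ) : ℤ) ∣ N → ∀ A : ValuationSubring Qb,
      A.LiesOverPrime (q : ℕ) → ordS A x = 0 := by
  obtain ⟨N, hN0, hN⟩ := exists_bound_unit x hx0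
  refine ⟨N, hN0, fun q hq A hA => ?_⟩
  exact ordS_eq q hA (isOrd_zero_iff.mpr (hN (q : ℕ) q.2 hq A hA))

/-- The order of an element of `F` depends only on the prime of `F` under the place. -/
theorem ordS_eq_of_primeBelow (F : IntermediateField ℚ Qb) [NumberField ↥F]
    {A A' : ValuationSubring Qb} (hA : OutS S A) (hA' : OutS S A')
    (h : primeBelow F A = primeBelow F A') {x : Qb} (hx0 : x ≠ 0) (hx : InOm S x)
    (hxF : x ∈ F) : ordS A' x = ordS A x := by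
  obtain ⟨q, hq, hAq⟩ := hA
  obtain ⟨q', hq', hAq'⟩ := hA'
  have hqq : q' = q := by
    have h1 : (((q : ℕ) : 𝓞 ↥F)) ∈ primeBelow F A' := by
      rw [← h]
      exact natCast_mem_primeBelow F A (q : ℕ) hAq
    have h2 : A'.valuation ((q : ℕ) : Qb) < 1 := by
      have := (mem_primeBelow F A' ((q : ℕ) : 𝓞 ↥F)).mp h1
      rwa [map_natCast] at this
    exact liesOver_unique A' q' q hAq' (A'.mem_nonunits_iff.mpr h2)
  subst hqq
  obtain ⟨g, hgF, hg⟩ := ur_exists_fixing F A A' (q' : ℕ) q'.2 hAq hAq' h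
  have hgx : g x = x := (IntermediateField.mem_fixingSubgroup_iff F g).mp hgF x hxF
  rw [hg]
  have := ordS_smul_smul (S := S) ⟨q', hq, hAq⟩ g hx0 hx
  rwa [hgx] at this

/-- **Capitulation** in terms of `ordS`. -/
theorem exists_cap_ordS {p : ℕ} (hp : p.Prime) (hpS : ∀ q : Nat.Primes, q ∉ S → (q : ℕ) ≠ p)
    {F : IntermediateField ℚ Qb} (hF : F.IsUnramifiedOutside S) (A : ValuationSubring Qb)
    (hA : OutS S A) :
    ∃ (t : Qbˣ) (c : ℤ), InOm S (t : Qb) ∧
      ∀ A' : ValuationSubring Qb, OutS S A' →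
        (primeBelow F A' = primeBelow F A → ordS A' (t : Qb) = 1 + p * c) ∧
        (primeBelow F A' ≠ primeBelow F A → ordS A' (t : Qb) = 0) := by
  obtain ⟨q, hq, hAq⟩ := hA
  have hfd : FiniteDimensional ℚ F := hF.1
  obtain ⟨t, c, ht, h⟩ := stmt_cap hp hpS hF q hq A hAq
  refine ⟨t, c, ht, ?_⟩
  rintro A' ⟨q', hq', hA'⟩
  exact ⟨fun h1 => ordS_eq q' hA' ((h q' hq' A' hA').1 h1),
    fun h1 => ordS_eq q' hA' ((h q' hq' A' hA').2 h1)⟩

end ordS

end Fermat.Agent.S55.CFT.GS.H6
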