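/-
S55 package E4, island GS, leaf **GS-UR** (helper6): assembly.
`stmt_GS_UnitRank_of : Stmt_UR_TC → Stmt_UR_U → Stmt_GS_UnitRank`
(with `H6.stmt_UR_PL` and helper12's `H12.stmt_SUnitRank`).
-/
import Fermat.Agent.S55.CFT.GS.H6_UR_PL
import Fermat.Agent.S55.CFT.H12_SUnit

set_option autoImplicit false
set_option linter.unusedSectionVars false
set_option linter.style.haveILetI false

open scoped Pointwise NumberField

noncomputable section

namespace Fermat.Agent.S55.CFT.GS.H6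

open Fermat.Agent.S55 Fermat.Agent.S55.Top Fermat.Agent.Lib.FrobExists
  Fermat.Agent.Lib.InertiaBridge Fermat.Agent.Lib.Minkowski Fermat.Agent.Lib.UnramVal
  IsDedekindDomain ExtCitation

local notation "Qb" => AlgebraicClosure ℚ

section assemblyUR

/-- The primes of `𝓞 K` over `q` are finitely many. -/
theorem ur_finite_over (K : IntermediateField ℚ Qb) [NumberField ↥K] (q : Nat.Primes) :
    {v : HeightOneSpectrum (𝓞 ↥K) | (((q : ℕ) : 𝓞 ↥K)) ∈ v.asIdeal}.Finite := by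
  have h0 : Ideal.span {(((q : ℕ) : 𝓞 ↥K))} ≠ 0 := by
    rw [Ne, Ideal.zero_eq_bot, Ideal.span_singleton_eq_bot]
    exact_mod_cast q.2.ne_zero
  refine (Ideal.finite_factors h0).subset ?_
  intro v hv
  show v.asIdeal ∣ Ideal.span {(((q : ℕ) : 𝓞 ↥K))}
  rw [Ideal.dvd_iff_le, Ideal.span_singleton_le_iff_mem]
  exact hv

/-- A prime of `𝓞 K` lies over one rational prime only. -/
theorem ur_prime_unique (K : IntermediateField ℚ Qb) [NumberField ↥K] (q q' : Nat.Primes)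
    (v : HeightOneSpectrum (𝓞 ↥K)) (hq : (((q : ℕ) : 𝓞 ↥K)) ∈ v.asIdeal)
    (hq' : (((q' : ℕ) : 𝓞 ↥K)) ∈ v.asIdeal) : q = q' := by
  by_contra hne
  have hcop : Nat.Coprime (q : ℕ) (q' : ℕ) :=
    (Nat.coprime_primes q.2 q'.2).mpr (fun h => hne (Subtype.ext h))
  have hcop' : IsCoprime ((q : ℕ) : ℤ) ((q' : ℕ) : ℤ) := Nat.isCoprime_iff_coprime.mpr hcop
  obtain ⟨a, b, hab⟩ := hcop'
  have h1 : ((a : 𝓞 ↥K)) * (((q : ℕ) : 𝓞 ↥K)) + ((b : 𝓞 ↥K)) * (((q' : ℕ) : 𝓞 ↥K)) = 1 := by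
    have := congrArg (fun n : ℤ => (n : 𝓞 ↥K)) hab
    simpa using this
  have h2 : (1 : 𝓞 ↥K) ∈ v.asIdeal := by
    rw [← h1]
    exact Ideal.add_mem _ (Ideal.mul_mem_left _ _ hq) (Ideal.mul_mem_left _ _ hq')
  exact v.isPrime.ne_top ((Ideal.eq_top_iff_one _).mpr h2)

/-- **GS-UR** from the leaves UR-TC and UR-U. -/
theorem stmt_GS_UnitRank_of (htc : Stmt_UR_TC) (hu : Stmt_UR_U) : Stmt_GS_UnitRank := by
  intro p _ hp2 S hpS K hK 𝔓
  have hp : p.Prime := Fact.out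
  have hKS : K.IsUnramifiedOutside S := hK.1
  obtain ⟨ζ, hζK, hζ⟩ := hK.2
  have hfd : FiniteDimensional ℚ K := hKS.1
  haveI : NumberField ↥K := numberField_K K
  classical
  obtain ⟨SK, hSKdef⟩ : ∃ SK : Finset (HeightOneSpectrum (𝓞 ↥K)),
      SK = S.biUnion (fun q => (ur_finite_over K q).toFinset) := ⟨_, rfl⟩
  have hSK : ∀ v : HeightOneSpectrum (𝓞 ↥K),
      v ∈ SK ↔ ∃ q ∈ S, (((q : ℕ) : 𝓞 ↥K)) ∈ v.asIdeal := by
    intro v
    rw [hSKdef]
    simp only [Finset.mem_biUnion, Set.Finite.mem_toFinset]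
    rfl
  obtain ⟨H, hH, hidx⟩ := hu S K hKS SK hSK p
  have hζ' : ∃ ζ' : ↥K, IsPrimitiveRoot ζ' p := by
    refine ⟨⟨ζ, hζK⟩, ?_⟩
    refine IsPrimitiveRoot.of_map_of_injective (f := algebraMap ↥K Qb) ?_
      (FaithfulSMul.algebraMap_injective ↥K Qb)
    exact hζ
  have h12 := ((Fermat.Agent.S55.CFT.H12.stmt_SUnitRank ↥K SK).2 p hp).1 hζ'
  refine ⟨H, NumberField.Units.rank ↥K + SK.card + 1, hH, hidx.trans h12, ?_⟩
  have h1 := htc ↥K p hp hp2 hζ'
  have hcard : SK.card = nPl 𝔓 := by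
    rw [hSKdef, Finset.card_biUnion]
    · unfold nPl
      rw [← Finset.sum_coe_sort S]
      refine Finset.sum_congr rfl (fun q _ => ?_)
      rw [@stmt_UR_PL K _ q.1 (𝔓.W q) (𝔓.fin q) (𝔓.loc q)]
      exact (Set.ncard_eq_toFinset_card _ (ur_finite_over K q.1)).symm
    · intro q _ q' _ hne
      show Disjoint (ur_finite_over K q).toFinset (ur_finite_over K q').toFinset
      rw [Finset.disjoint_left]
      intro v hv hv'
      rw [Set.Finite.mem_toFinset] at hv hv'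
      exact hne (ur_prime_unique K q q' v hv hv')
  omega

end assemblyUR

end Fermat.Agent.S55.CFT.GS.H6
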