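/-
S55 package E4, island GS, leaf **RES-Cap** (helper6): `Stmt_RES_Cap` (`Defs_GS3.lean`):
every divisor outside `S` of a level field is principal in `Ω` modulo `p`.
-/
import Fermat.Agent.S55.CFT.Defs_GS3
import Fermat.Agent.S55.CFT.GS.H6_Ord
import Fermat.Agent.S55.CFT.GS.H6_UR

set_option autoImplicit false
set_option linter.unusedSectionVars false
set_option linter.style.haveILetI false

open scoped Pointwise NumberField

noncomputable section

namespace Fermat.Agent.S55.CFT.GS.H6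

open Fermat.Agent.S55 Fermat.Agent.S55.Top Fermat.Agent.Lib.FrobExists
  Fermat.Agent.Lib.InertiaBridge Fermat.Agent.Lib.Minkowski Fermat.Agent.Lib.UnramVal
  IsDedekindDomain ExtCitation

local notation "Qb" => AlgebraicClosure ℚ

section resCap

variable {S : Finset Nat.Primes}

theorem inOm_prod_pow {ι : Type} (T : Finset ι) (f : ι → Qbˣ) (e : ι → ℕ)
    (hf : ∀ i, InOm S (f i : Qb)) : InOm S ((∏ i ∈ T, f i ^ e i : Qbˣ) : Qb) := by
  classical
  induction T using Finset.induction_on with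
  | empty =>
    rw [Finset.prod_empty, Units.val_one]
    exact inOm_one
  | insert a s ha ih =>
    rw [Finset.prod_insert ha, Units.val_mul, Units.val_pow_eq_pow_val]
    exact inOm_mul (inOm_pow (hf a) _) ih

theorem ordS_prod_pow {A : ValuationSubring Qb} (hA : OutS S A) {ι : Type} (T : Finset ι)
    (f : ι → Qbˣ) (e : ι → ℕ) (hf : ∀ i, InOm S (f i : Qb)) :
    ordS A ((∏ i ∈ T, f i ^ e i : Qbˣ) : Qb) = ∑ i ∈ T, (e i : ℤ) * ordS A (f i : Qb) := by
  classical
  induction T using Finset.induction_on with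
  | empty =>
    rw [Finset.prod_empty, Finset.sum_empty, Units.val_one]
    exact ordS_one hA
  | insert a s ha ih =>
    rw [Finset.prod_insert ha, Finset.sum_insert ha, Units.val_mul,
      ordS_mul hA (Units.ne_zero _) (by rw [Units.val_pow_eq_pow_val]; exact inOm_pow (hf a) _)
        (Units.ne_zero _) (inOm_prod_pow s f e hf), ih, Units.val_pow_eq_pow_val,
      ordS_pow hA (Units.ne_zero _) (hf a)]

/-- **RES-Cap**. -/
theorem stmt_RES_Cap : Stmt_RES_Cap := by
  intro p _ S hpS φ F hF hφ hfin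
  have hp : p.Prime := Fact.out
  have hpS' : ∀ q : Nat.Primes, q ∉ S → (q : ℕ) ≠ p := by
    intro q hq h
    apply hq
    have h1 : q = pPrime p := Subtype.ext h
    rw [h1]
    exact hpS
  have hfd : FiniteDimensional ℚ F := hF.1
  haveI : NumberField ↥F := numberField_K F
  classical
  -- `φ` depends only on the prime of `F` under the place
  have hφF : ∀ A A' : ValuationSubring Qb, OutS S A → OutS S A' →
      primeBelow F A = primeBelow F A' → φ A' = φ A := by
    rintro A A' ⟨q, hq, hA⟩ ⟨q', hq', hA'⟩ h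
    have hqq : q' = q := by
      have h1 : (((q : ℕ) : 𝓞 ↥F)) ∈ primeBelow F A' := by
        rw [← h]
        exact natCast_mem_primeBelow F A (q : ℕ) hA
      have h2 : A'.valuation ((q : ℕ) : Qb) < 1 := by
        have := (mem_primeBelow F A' ((q : ℕ) : 𝓞 ↥F)).mp h1
        rwa [map_natCast] at this
      exact liesOver_unique A' q' q hA' (A'.mem_nonunits_iff.mpr h2)
    subst hqq
    obtain ⟨g, hgF, hg⟩ := ur_exists_fixing F A A' (q' : ℕ) q'.2 hA hA' h
    rw [hg]
    exact hφ g hgF A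
  -- the finite set of primes of `F`
  obtain ⟨T₀, hT₀⟩ : ∃ T₀ : Finset (HeightOneSpectrum (𝓞 ↥F)),
      ∀ w : HeightOneSpectrum (𝓞 ↥F), w ∈ T₀ ↔ ∃ q : Nat.Primes, q ∈ hfin.toFinset ∧ q ∉ S ∧
        (((q : ℕ) : 𝓞 ↥F)) ∈ w.asIdeal := by
    refine ⟨(hfin.toFinset.filter (· ∉ S)).biUnion (fun q => (ur_finite_over F q).toFinset),
      fun w => ?_⟩
    simp only [Finset.mem_biUnion, Finset.mem_filter, Set.Finite.mem_toFinset]
    constructor
    · rintro ⟨q, ⟨h1, h2⟩, h3⟩
      exact ⟨q, h1, h2, h3⟩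
    · rintro ⟨q, h1, h2, h3⟩
      exact ⟨q, ⟨h1, h2⟩, h3⟩
  -- uniformizers modulo `p`
  have hex : ∀ w : HeightOneSpectrum (𝓞 ↥F), ∃ (t : Qbˣ) (c : ℤ) (e : ℕ), InOm S (t : Qb) ∧
      (w ∈ T₀ → ∀ A' : ValuationSubring Qb, OutS S A' →
        (primeBelow F A' = w.asIdeal → ordS A' (t : Qb) = 1 + p * c ∧ (e : ZMod p) = φ A') ∧
        (primeBelow F A' ≠ w.asIdeal → ordS A' (t : Qb) = 0)) := by
    intro w
    by_cases hw : w ∈ T₀
    · obtain ⟨q, -, hqS, hqw⟩ := (hT₀ w).mp hw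
      obtain ⟨A, hA, hAw⟩ := ur_exists_place F w (q : ℕ) hqw
      have hAout : OutS S A := ⟨q, hqS, hA⟩
      obtain ⟨t, c, ht, h⟩ := exists_cap_ordS hp hpS' hF A hAout
      refine ⟨t, c, (φ A).val, ht, fun _ A' hA' => ⟨fun h1 => ⟨?_, ?_⟩, fun h1 => ?_⟩⟩
      · exact (h A' hA').1 (h1.trans hAw.symm)
      · rw [ZMod.natCast_zmod_val]
        exact (hφF A A' hAout hA' (hAw.trans h1.symm)).symm
      · exact (h A' hA').2 (fun h2 => h1 (h2.trans hAw))
    · exact ⟨1, 0, 0, by rw [Units.val_one]; exact inOm_one, fun h => absurd h hw⟩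
  choose tw cw ew htw hw using hex
  refine ⟨∏ w ∈ T₀, tw w ^ ew w, inOm_prod_pow T₀ tw ew htw, ?_⟩
  intro q hq A hA
  have hAout : OutS S A := ⟨q, hq, hA⟩
  refine ⟨ordS A ((∏ w ∈ T₀, tw w ^ ew w : Qbˣ) : Qb),
    isOrd_ordS q hq hA (Units.ne_zero _) (inOm_prod_pow T₀ tw ew htw), ?_⟩
  rw [ordS_prod_pow hAout T₀ tw ew htw]
  obtain ⟨wA, hwA⟩ : ∃ wA : HeightOneSpectrum (𝓞 ↥F), wA = vBelow F (q : ℕ) q.2 A hA := ⟨_, rfl⟩
  have hwA' : primeBelow F A = wA.asIdeal := by rw [hwA]; rfl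
  have hqwA : (((q : ℕ) : 𝓞 ↥F)) ∈ wA.asIdeal := by
    rw [← hwA']
    exact natCast_mem_primeBelow F A (q : ℕ) hA
  by_cases hmem : wA ∈ T₀
  · rw [Finset.sum_eq_single_of_mem wA hmem]
    · obtain ⟨h1, h2⟩ := ((hw wA hmem) A hAout).1 hwA'
      rw [h1, ← h2]
      push_cast
      rw [ZMod.natCast_self]
      ring
    · intro w hwT hne
      have h3 : primeBelow F A ≠ w.asIdeal := by
        rw [hwA']
        intro h4
        exact hne (HeightOneSpectrum.ext h4).symm
      rw [((hw w hwT) A hAout).2 h3, mul_zero]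
  · have h0 : ∑ w ∈ T₀, (ew w : ℤ) * ordS A (tw w : Qb) = 0 := by
      refine Finset.sum_eq_zero (fun w hwT => ?_)
      have h3 : primeBelow F A ≠ w.asIdeal := by
        rw [hwA']
        intro h4
        exact hmem ((HeightOneSpectrum.ext h4) ▸ hwT)
      rw [((hw w hwT) A hAout).2 h3, mul_zero]
    rw [h0, Int.cast_zero]
    by_contra hne
    apply hmem
    rw [hT₀]
    refine ⟨q, ?_, hq, hqwA⟩
    rw [Set.Finite.mem_toFinset]
    exact ⟨A, hA, fun h => hne h.symm⟩

end resCap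

end Fermat.Agent.S55.CFT.GS.H6
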