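/-
S55 package E4, island GS, leaf **GS-UR** (helper6, with helper1's UR-TC + UR-U and helper12's
S-unit theorem): `stmt_GS_UnitRank : Stmt_GS_UnitRank`.
-/
import Fermat.Agent.S55.CFT.GS.H6_UR
import Fermat.Agent.S55.CFT.GS.H01_UR_TC
import Fermat.Agent.S55.CFT.GS.H01_UR_U

set_option autoImplicit false

namespace Fermat.Agent.S55.CFT.GS.H6

/-- **GS-UR** (`Stmt_GS_UnitRank`): `[U_K : U_Kᵖ] = p ^ n` with `2 n = [K : ℚ] + 2 #V`. -/
theorem stmt_GS_UnitRank : Stmt_GS_UnitRank :=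
  stmt_GS_UnitRank_of Fermat.Agent.S55.CFT.GS.H01.stmt_UR_TC
    Fermat.Agent.S55.CFT.GS.H01.stmt_UR_U

end Fermat.Agent.S55.CFT.GS.H6
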