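/-
S55/E4 island GS (helper24, coordinator): the final wiring of the island.

`gs_I2`, `gs_I3`, `gs_I4` : the targets `Top.Stmt_I2/I3/I4` of PT-LIN from
* Layer A (abstract general-Galois Brauer statements, `Defs_GS2.lean`),
* Layer B (the six bridges, `Defs_GS4.lean`),
* the local Kummer leaf `Stmt_GS_LocKum` and `Top.Stmt_I1` (island LOC).
Everything else of the island (H90, ClassDim, UnitRank, RES-Sh1/Cap/Cyc and all assemblies) is
proved unconditionally.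
-/
import Fermat.Agent.S55.CFT.Defs_GS4
import Fermat.Agent.S55.CFT.GS.H24_AsmI2
import Fermat.Agent.S55.CFT.GS.H24_AsmI3
import Fermat.Agent.S55.CFT.GS.H24_AsmI4
import Fermat.Agent.S55.CFT.GS.H24_AsmTwo
import Fermat.Agent.S55.CFT.GS.H24_AsmResOnto
import Fermat.Agent.S55.CFT.GS.H6_H90
import Fermat.Agent.S55.CFT.GS.H6_CD
import Fermat.Agent.S55.CFT.GS.H6_URFinal
import Fermat.Agent.S55.CFT.GS.H6_ResCap
import Fermat.Agent.S55.CFT.GS.H6_ResCyc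

set_option autoImplicit false

noncomputable section

namespace Fermat.Agent.S55.CFT.GS.H24

open Fermat.Agent.S55 Fermat.Agent.S55.Top Fermat.Agent.S55.CFT.GS

/-- `Stmt_GS_Hasse` from Layer A + bridge. -/
theorem gs_Hasse (hA : Stmt_BrHasseG) (hB : Stmt_GS_BriHasse) : Stmt_GS_Hasse :=
  asmHasse (hB hA)

/-- `Stmt_GS_One` from Layer A + bridge + local Kummer theory. -/
theorem gs_One (hA : Stmt_BrOneG) (hB : Stmt_GS_BriOne) (hLK : Stmt_GS_LocKum) : Stmt_GS_One :=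
  asmOne (hB hA) hLK

/-- `Stmt_GS_Two` from Layer A + bridge + local Kummer theory. -/
theorem gs_Two (hA : Stmt_BrTwoG) (hB : Stmt_GS_BriTwoIn) (hLK : Stmt_GS_LocKum) : Stmt_GS_Two :=
  asmTwo (hB hA) resSh1 H6.stmt_RES_Cap hLK

/-- `Stmt_GS_ResOnto` from Layer A + bridge. -/
theorem gs_ResOnto (hA : Stmt_BrTwoG) (hB : Stmt_GS_BriTwoOut) : Stmt_GS_ResOnto :=
  asmResOnto (hB hA) resSh1 H6.stmt_RES_Cap H6.stmt_RES_Cyc

/-- **I2** of PT-LIN. -/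
theorem gs_I2 (hTwo : Stmt_BrTwoG) (hH3 : Stmt_BrH3G) (hDiv : Stmt_BrDivG)
    (bTwoOut : Stmt_GS_BriTwoOut) (bH3 : Stmt_GS_BriH3) (bDiv : Stmt_GS_BriDiv) : Stmt_I2 :=
  asmI2 (bH3 hH3) (asmLift2 (bDiv hDiv) (gs_ResOnto hTwo bTwoOut))

/-- **I3** of PT-LIN. -/
theorem gs_I3 (hHasse : Stmt_BrHasseG) (hOne : Stmt_BrOneG)
    (bHasse : Stmt_GS_BriHasse) (bOne : Stmt_GS_BriOne) (hLK : Stmt_GS_LocKum)
    (hI1 : Stmt_I1) : Stmt_I3 :=
  asmI3 H6.stmt_GS_H90 (gs_Hasse hHasse bHasse) (gs_One hOne bOne hLK) H6.stmt_GS_UnitRank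
    H6.stmt_GS_ClassDim hI1

/-- **I4** of PT-LIN. -/
theorem gs_I4 (hOne : Stmt_BrOneG) (hTwo : Stmt_BrTwoG)
    (bOne : Stmt_GS_BriOne) (bTwoIn : Stmt_GS_BriTwoIn) (hLK : Stmt_GS_LocKum)
    (hI1 : Stmt_I1) : Stmt_I4 :=
  asmI4 (gs_One hOne bOne hLK) (gs_Two hTwo bTwoIn hLK) hI1

end Fermat.Agent.S55.CFT.GS.H24

end
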