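/-
S55/E4 island GS (helper24), wave 2, Layer C: `resSh1 : Stmt_RES_Sh1` (Shapiro in degree 1 for
functions on a `G`-set, by hand).
-/
import Fermat.Agent.S55.CFT.Defs_GS3

set_option autoImplicit false
set_option linter.unusedSectionVars false
set_option linter.unusedVariables false

noncomputable section

namespace Fermat.Agent.S55.CFT.GS.H24

section sh1

variable {G X M : Type} [Group G] [MulAction G X] [AddCommGroup M] (r : G → X → M)

/-- A representative of the orbit of `x`. -/
def sh1Rep (x : X) : X := (Quotient.mk (MulAction.orbitRel G X) x).out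

theorem sh1Rep_spec (x : X) : ∃ k : G, k • sh1Rep (G := G) x = x := by
  have h : (MulAction.orbitRel G X).r (sh1Rep (G := G) x) x := by
    have := Quotient.out_eq (Quotient.mk (MulAction.orbitRel G X) x)
    exact Quotient.exact this
  have h' : (MulAction.orbitRel G X).r x (sh1Rep (G := G) x) := (MulAction.orbitRel G X).symm h
  rw [MulAction.orbitRel_apply] at h'
  obtain ⟨k, hk⟩ := h'
  exact ⟨k, hk⟩

theorem sh1Rep_smul (g : G) (x : X) : sh1Rep (G := G) (g • x) = sh1Rep (G := G) x := by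
  unfold sh1Rep
  congr 1
  apply Quotient.sound
  show (MulAction.orbitRel G X).r (g • x) x
  rw [MulAction.orbitRel_apply]
  exact ⟨g, rfl⟩

/-- The chosen element moving the representative to `x`. -/
def sh1K (x : X) : G := (sh1Rep_spec (G := G) x).choose

theorem sh1K_spec (x : X) : sh1K (G := G) x • sh1Rep (G := G) x = x :=
  (sh1Rep_spec (G := G) x).choose_spec

variable {r}

theorem sh1_one (h0 : ∀ g x, g • x = x → r g x = 0) (x : X) : r 1 x = 0 := h0 1 x (one_smul _ _)

theorem sh1_inv (hr : ∀ g h x, r (g * h) x = r h (g⁻¹ • x) + r g x)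
    (h0 : ∀ g x, g • x = x → r g x = 0) (g : G) (x : X) : r g⁻¹ (g⁻¹ • x) = - r g x := by
  have h := hr g g⁻¹ x
  rw [mul_inv_cancel, sh1_one h0] at h
  exact eq_neg_of_add_eq_zero_left h.symm

/-- Independence of the chosen element. -/
theorem sh1_indep (hr : ∀ g h x, r (g * h) x = r h (g⁻¹ • x) + r g x)
    (h0 : ∀ g x, g • x = x → r g x = 0) (x₀ : X) (k₁ k₂ : G) (h : k₁ • x₀ = k₂ • x₀) :
    r k₁ (k₁ • x₀) = r k₂ (k₂ • x₀) := by
  have hs : (k₂⁻¹ * k₁) • x₀ = x₀ := by
    rw [mul_smul, h, inv_smul_smul]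
  have e : k₁ = k₂ * (k₂⁻¹ * k₁) := by group
  have h1 := hr k₂ (k₂⁻¹ * k₁) (k₂ • x₀)
  rw [← e, inv_smul_smul, h0 _ _ hs, zero_add] at h1
  rw [h, h1]

/-- **RES-Sh1.** -/
theorem resSh1 : Stmt_RES_Sh1 := by
  intro G X M _ _ _ r hr h0
  refine ⟨fun x => - r (sh1K (G := G) x) x, ?_, ?_, ?_⟩
  · intro g x
    -- `g⁻¹ x = (g⁻¹ k) x₀`
    have hk := sh1K_spec (G := G) x
    have hk' := sh1K_spec (G := G) (g⁻¹ • x)
    rw [sh1Rep_smul] at hk'
    set x₀ := sh1Rep (G := G) x with hx₀
    set k := sh1K (G := G) x with hkdef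
    set k' := sh1K (G := G) (g⁻¹ • x) with hk'def
    have e1 : k' • x₀ = (g⁻¹ * k) • x₀ := by rw [hk', mul_smul, hk]
    have e2 := sh1_indep hr h0 x₀ k' (g⁻¹ * k) e1
    rw [hk'] at e2
    have e3 : (g⁻¹ * k) • x₀ = g⁻¹ • x := by rw [mul_smul, hk]
    rw [e3] at e2
    have e4 := hr g⁻¹ k (g⁻¹ • x)
    rw [inv_inv, smul_inv_smul, sh1_inv hr h0] at e4
    show r g x = - r k' (g⁻¹ • x) - - r k x
    rw [e2, e4]
    abel
  · intro s hs x
    -- first clause with `g = s⁻¹`
    have h1 : r s⁻¹ = 0 := by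
      have := hs s⁻¹
      rw [inv_mul_cancel] at this
      rw [← this]
      funext x
      exact sh1_one h0 x
    -- reuse the first clause
    have hk := sh1K_spec (G := G) x
    have hk' := sh1K_spec (G := G) (s • x)
    rw [sh1Rep_smul] at hk'
    set x₀ := sh1Rep (G := G) x with hx₀
    set k := sh1K (G := G) x with hkdef
    set k' := sh1K (G := G) (s • x) with hk'def
    have e1 : k' • x₀ = (s * k) • x₀ := by rw [hk', mul_smul, hk]
    have e2 := sh1_indep hr h0 x₀ k' (s * k) e1
    rw [hk'] at e2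
    have e3 : (s * k) • x₀ = s • x := by rw [mul_smul, hk]
    rw [e3] at e2
    have e4 := hr s k (s • x)
    rw [inv_smul_smul] at e4
    have e5 : r s (s • x) = 0 := by
      have := sh1_inv hr h0 s⁻¹ x
      rw [inv_inv] at this
      rw [this, h1]
      simp
    show - r k' (s • x) = - r k x
    rw [e2, e4, e5, add_zero]
  · intro x hx
    have := hx (sh1K (G := G) x) 1
    rw [one_smul] at this
    show - r (sh1K (G := G) x) x = 0
    rw [this, neg_zero]

end sh1

end Fermat.Agent.S55.CFT.GS.H24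

end
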