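/-
S55/E4 island GS (helper24), wave 2, Layer C: the residue cochain and RES-INJ.

For a level-`S` 1-cochain `b : G_K → Ωˣ` whose coboundary has values in `W = (Ωˣ)ᵖ`:
* `resR S p b g A = ord_A(b g) mod p` (`A` a place outside `S`) is a 1-cocycle of `G_K` with values
  in the functions on the places (`resR_cocycle`), of the level of `b`, supported over finitely
  many primes;
* `resR_conj` : the residues at conjugate places are conjugate;
* `resInj` (from `Stmt_RES_Cap`): if the residue vanishes on every decomposition group, then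
  `b g / (g t / t) ∈ W` for some `t ∈ Ωˣ`.
-/
import Fermat.Agent.S55.CFT.GS.H24_Sh1
import Fermat.Agent.S55.CFT.GS.H24_MTwo
import Fermat.Agent.S55.CFT.GS.H6_Ord

set_option autoImplicit false
set_option linter.unusedSectionVars false
set_option linter.unusedVariables false
set_option linter.style.haveILetI false

open CategoryTheory Module groupCohomology ExtCitation

open scoped Pointwise

noncomputable section

namespace Fermat.Agent.S55.CFT.GS.H24

open Fermat.Agent.S55 Fermat.Agent.S55.Top Fermat.Agent.S55.CFT.GS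

local notation "Qb" => AlgebraicClosure ℚ

section resR

variable {p : ℕ} [Fact p.Prime] {S : Finset Nat.Primes} {K : IntermediateField ℚ Qb}

/-- `p ∉` the primes outside `S`. -/
theorem hpS_of_mem (hp : pPrime p ∈ S) : ∀ q : Nat.Primes, q ∉ S → (q : ℕ) ≠ p := by
  intro q hq h
  apply hq
  have h1 : q = pPrime p := Subtype.ext h
  rw [h1]
  exact hp

/-- The residue cochain: `(g, A) ↦ ord_A(b g) mod p` at the places outside `S`. -/
def resR (S : Finset Nat.Primes) (p : ℕ) (b : ↥K.fixingSubgroup → Qbˣ)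
    (g : ↥K.fixingSubgroup) (A : ValuationSubring Qb) : ZMod p :=
  haveI := Classical.propDecidable (H6.OutS S A)
  if H6.OutS S A then ((H6.ordS A (b g : Qb) : ℤ) : ZMod p) else 0

theorem resR_of_outS {b : ↥K.fixingSubgroup → Qbˣ} (g : ↥K.fixingSubgroup)
    {A : ValuationSubring Qb} (hA : H6.OutS S A) :
    resR S p b g A = ((H6.ordS A (b g : Qb) : ℤ) : ZMod p) := by
  unfold resR
  rw [if_pos hA]

theorem resR_of_not_outS {b : ↥K.fixingSubgroup → Qbˣ} (g : ↥K.fixingSubgroup)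
    {A : ValuationSubring Qb} (hA : ¬ H6.OutS S A) : resR S p b g A = 0 := by
  unfold resR
  rw [if_neg hA]

theorem outS_smul_iff (g : GQ) (A : ValuationSubring Qb) : H6.OutS S (g • A) ↔ H6.OutS S A := by
  constructor
  · intro h
    have := h.smul g⁻¹
    rwa [inv_smul_smul] at this
  · intro h
    exact h.smul g

theorem smul_def_K (g : ↥K.fixingSubgroup) (A : ValuationSubring Qb) :
    g • A = (g : GQ) • A := rfl

/-- The cocycle identity of the residue cochain. -/
theorem resR_cocycle (hp : pPrime p ∈ S) {b : ↥K.fixingSubgroup → Qbˣ}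
    (hbΩ : ∀ g, InOm S (b g : Qb)) (hW : ∀ t, InW S p (mOne b t))
    (g h : ↥K.fixingSubgroup) (A : ValuationSubring Qb) :
    resR S p b (g * h) A = resR S p b h (g⁻¹ • A) + resR S p b g A := by
  have hpp : p.Prime := Fact.out
  by_cases hA : H6.OutS S A
  · have hA' : H6.OutS S (g⁻¹ • A) := by
      rw [smul_def_K]
      exact hA.smul _
    rw [resR_of_outS _ hA, resR_of_outS _ hA, resR_of_outS _ hA']
    have hΩ : InOm S ((mOne b (g, h) : Qbˣ) : Qb) := inOm_mOne hbΩ (g, h)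
    have h1 := (H6.inW_iff_ordS hpp (hpS_of_mem hp) _ hΩ).1 (hW (g, h)) A hA
    have e : ((mOne b (g, h) : Qbˣ) : Qb) =
        (g : GQ) (b h : Qb) / (b (g * h) : Qb) * (b g : Qb) := by
      rw [mOne_apply, Units.val_mul, Units.val_div_eq_div_val]
      rfl
    rw [e] at h1
    have hgb : InOm S ((g : GQ) (b h : Qb)) := inOm_map (hbΩ h) _
    have hgb0 : (g : GQ) (b h : Qb) ≠ 0 := by
      rw [Ne, map_eq_zero_iff _ (g : GQ).injective]
      exact (b h).ne_zero
    rw [H6.ordS_mul hA (div_ne_zero hgb0 (b (g * h)).ne_zero) (inOm_div hgb (hbΩ _))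
      (b g).ne_zero (hbΩ g), H6.ordS_div hA hgb0 hgb (b (g * h)).ne_zero (hbΩ _),
      H6.ordS_smul hA (g : GQ) (b h).ne_zero (hbΩ h)] at h1
    have h2 := (ZMod.intCast_zmod_eq_zero_iff_dvd _ p).2 h1
    push_cast at h2
    have e2 : (g⁻¹ : ↥K.fixingSubgroup) • A = ((g : GQ))⁻¹ • A := rfl
    rw [e2]
    linear_combination -h2
  · have hA' : ¬ H6.OutS S (g⁻¹ • A) := by
      rw [smul_def_K, outS_smul_iff]
      exact hA
    rw [resR_of_not_outS _ hA, resR_of_not_outS _ hA, resR_of_not_outS _ hA', add_zero]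

/-- Vanishing residues. -/
theorem resR_stab {b : ↥K.fixingSubgroup → Qbˣ}
    (hres : ∀ q : Nat.Primes, q ∉ S → ∀ A : ValuationSubring Qb, A.LiesOverPrime (q : ℕ) →
      ResTrivAt p K A (q : ℕ) b)
    (g : ↥K.fixingSubgroup) (A : ValuationSubring Qb) (hg : g • A = A) :
    resR S p b g A = 0 := by
  by_cases hA : H6.OutS S A
  · rw [resR_of_outS _ hA]
    obtain ⟨q, hq, hAq⟩ := hA
    obtain ⟨k, hk⟩ := hres q hq A hAq g hg
    rw [H6.ordS_eq q hAq hk]
    push_cast
    simp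
  · exact resR_of_not_outS _ hA

/-- The level of the residue cochain. -/
theorem resR_level {b : ↥K.fixingSubgroup → Qbˣ} {F : IntermediateField ℚ Qb}
    (hF : ∀ g s : ↥K.fixingSubgroup, (s : GQ) ∈ F.fixingSubgroup → b (g * s) = b g)
    (g s : ↥K.fixingSubgroup) (hs : (s : GQ) ∈ F.fixingSubgroup) :
    resR S p b (g * s) = resR S p b g := by
  funext A
  unfold resR
  rw [hF g s hs]

/-- The residue cochain is supported over finitely many primes. -/
theorem resR_support (hK : K.IsUnramifiedOutside S) {b : ↥K.fixingSubgroup → Qbˣ}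
    (hb : IsLevK₁ S K b) :
    ∃ N : ℤ, N ≠ 0 ∧ ∀ q : Nat.Primes, ¬ ((q : ℕ) : ℤ) ∣ N → ∀ A : ValuationSubring Qb,
      A.LiesOverPrime (q : ℕ) → ∀ g, resR S p b g A = 0 := by
  classical
  have hfin := H6.finite_range_of_isLevK₁ (S := S) K hK b hb
  choose N hN0 hN using fun x : Qbˣ => H6.exists_bound_ordS (x : Qb) x.ne_zero
  refine ⟨∏ x ∈ hfin.toFinset, N x, Finset.prod_ne_zero_iff.2 fun x _ => hN0 x, ?_⟩
  intro q hq A hA g
  have hg : b g ∈ hfin.toFinset := by
    rw [Set.Finite.mem_toFinset]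
    exact ⟨g, rfl⟩
  have h1 : ¬ ((q : ℕ) : ℤ) ∣ N (b g) := fun h => hq (h.trans (Finset.dvd_prod_of_mem N hg))
  unfold resR
  split_ifs
  · rw [hN (b g) q h1 A hA]
    simp
  · rfl

/-- The set of primes dividing a nonzero integer is finite. -/
theorem finite_primes_dvd {N : ℤ} (hN : N ≠ 0) :
    {q : Nat.Primes | ((q : ℕ) : ℤ) ∣ N}.Finite := by
  have h1 : {q : Nat.Primes | ((q : ℕ) : ℤ) ∣ N} ⊆
      (fun q : Nat.Primes => (q : ℕ)) ⁻¹' (Set.Iic N.natAbs) := by
    intro q hq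
    have h2 : (q : ℕ) ∣ N.natAbs := Int.natCast_dvd.1 hq
    exact Nat.le_of_dvd (Int.natAbs_pos.2 hN) h2
  exact ((Set.finite_Iic N.natAbs).preimage
    (Set.injOn_of_injective Subtype.coe_injective)).subset h1

/-- Conjugation invariance of the residues: `r(h g h⁻¹)(h A) = r(g)(A)` for `g ∈ D_A`. -/
theorem resR_conj {X M : Type} {G : Type} [Group G] [MulAction G X] [AddCommGroup M]
    {r : G → X → M} (hr : ∀ g h x, r (g * h) x = r h (g⁻¹ • x) + r g x)
    (h1 : ∀ x, r 1 x = 0) (g h : G) (x : X) (hg : g • x = x) :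
    r (h * g * h⁻¹) (h • x) = r g x := by
  have e1 := hr (h * g) h⁻¹ (h • x)
  have e2 := hr h g (h • x)
  have e3 := hr h h⁻¹ (h • x)
  rw [mul_inv_cancel, h1] at e3
  rw [inv_smul_smul] at e2
  have e4 : (h * g)⁻¹ • h • x = x := by
    rw [mul_inv_rev, mul_smul, inv_smul_smul]
    have : g⁻¹ • g • x = g⁻¹ • x := by rw [hg]
    rw [inv_smul_smul] at this
    exact this.symm
  rw [e4] at e1
  rw [inv_smul_smul] at e3
  rw [e1, e2]
  have e5 : r h⁻¹ x = - r h (h • x) := eq_neg_of_add_eq_zero_left e3.symm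
  rw [e5]
  abel

/-- **RES-INJ**: a cochain with coboundary in `W` and vanishing residues is a coboundary modulo
`W`. -/
theorem resInj (hCap : Stmt_RES_Cap) (hp : pPrime p ∈ S) (hK : K.IsUnramifiedOutside S)
    {b : ↥K.fixingSubgroup → Qbˣ} (hb : IsLevK₁ S K b) (hbΩ : ∀ g, InOm S (b g : Qb))
    (hW : ∀ t, InW S p (mOne b t))
    (hres : ∀ g : ↥K.fixingSubgroup, ∀ A : ValuationSubring Qb, g • A = A →
      resR S p b g A = 0) :
    ∃ t : Qbˣ, InOm S (t : Qb) ∧ ∀ g, InW S p (b g / (g • t / t)) := by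
  classical
  have hpp : p.Prime := Fact.out
  obtain ⟨φ, hφ1, hφ2, hφ3⟩ := resSh1 ↥K.fixingSubgroup (ValuationSubring Qb) (ZMod p)
    (resR S p b) (resR_cocycle hp hbΩ hW) hres
  obtain ⟨F, hF, hFb⟩ := hb
  obtain ⟨N, hN0, hN⟩ := resR_support (p := p) hK ⟨F, hF, hFb⟩
  obtain ⟨t, htΩ, ht⟩ := hCap p S hp φ (K ⊔ F) (hK.sup hF)
    (by
      intro s hs A
      have hsK : s ∈ K.fixingSubgroup :=
        IntermediateField.fixingSubgroup_antitone le_sup_left hs
      have hsF : s ∈ F.fixingSubgroup :=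
        IntermediateField.fixingSubgroup_antitone le_sup_right hs
      exact hφ2 ⟨s, hsK⟩ (fun g => resR_level hFb g ⟨s, hsK⟩ hsF) A)
    (by
      refine (finite_primes_dvd hN0).subset ?_
      rintro q ⟨A, hA, hφA⟩
      by_contra hq
      apply hφA
      apply hφ3
      intro g h
      have hA' : (h • A).LiesOverPrime (q : ℕ) := H6.ur_liesOver_smul A (h : GQ) (q : ℕ) hA
      exact hN q hq (h • A) hA' g)
  refine ⟨t, htΩ, fun g => ?_⟩
  have hxΩ : InOm S ((b g / (g • t / t) : Qbˣ) : Qb) := by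
    rw [Units.val_div_eq_div_val]
    exact inOm_div (hbΩ g) (inOm_bdry htΩ g)
  rw [H6.inW_iff_ordS hpp (hpS_of_mem hp) _ hxΩ]
  intro A hA
  have hA' : H6.OutS S ((g : GQ)⁻¹ • A) := hA.smul _
  have e : ((b g / (g • t / t) : Qbˣ) : Qb) = (b g : Qb) / ((g : GQ) (t : Qb) / (t : Qb)) := by
    rw [Units.val_div_eq_div_val, Units.val_div_eq_div_val]
    rfl
  have hgt : InOm S ((g : GQ) (t : Qb)) := inOm_map htΩ _
  have hgt0 : (g : GQ) (t : Qb) ≠ 0 := by
    rw [Ne, map_eq_zero_iff _ (g : GQ).injective]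
    exact t.ne_zero
  rw [e, H6.ordS_div hA (b g).ne_zero (hbΩ g) (div_ne_zero hgt0 t.ne_zero) (inOm_div hgt htΩ),
    H6.ordS_div hA hgt0 hgt t.ne_zero htΩ, H6.ordS_smul hA (g : GQ) t.ne_zero htΩ]
  rw [← ZMod.intCast_zmod_eq_zero_iff_dvd]
  push_cast
  -- the values of `φ`
  have key : ∀ B : ValuationSubring Qb, H6.OutS S B → ((H6.ordS B (t : Qb) : ℤ) : ZMod p) = φ B := by
    rintro B ⟨q, hq, hB⟩
    obtain ⟨k, hk, hkφ⟩ := ht q hq B hB
    rw [H6.ordS_eq q hB hk, hkφ]
  rw [key A hA, key _ hA']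
  have h1 : resR S p b g A = φ (((g : GQ))⁻¹ • A) - φ A := hφ1 g A
  rw [resR_of_outS _ hA] at h1
  rw [h1]
  ring

end resR

end Fermat.Agent.S55.CFT.GS.H24

end
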