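/-
S55 package E4, island GS, Layer B, package REAL (helper49): the degree-2 statements
`stmt_R2_ex`, `stmt_R2_surj`, `stmt_R2_uniq`, `stmt_R2_mul`, `stmt_R2_zero`, `stmt_R2_lev`,
`stmt_R2_inf` (interfaces: `GS/H64_BriDefs.lean`, `GS/H64_BriDefs2.lean`).
-/
import Fermat.Agent.S55.CFT.GS.H49_Real2

set_option autoImplicit false
set_option linter.unusedSectionVars false

open CategoryTheory groupCohomology ExtCitation

open scoped Pointwise

noncomputable section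

namespace Fermat.Agent.S55.CFT.GS.H49

open Fermat.Agent.S55 Fermat.Agent.S55.Top Fermat.Agent.S55.CFT Fermat.Agent.S55.CFT.GS.Bri

local notation "Qb" => AlgebraicClosure ℚ

attribute [local instance 10000] smulGalUnits

/-- **R2-ex**. -/
theorem stmt_R2_ex : Stmt_R2_ex := by
  intro K N hKN _ _ _ c hlev hcoc
  have hmem : desc₂ hKN c hlev.2 ∈ cocycles₂ (repL ↥K ↥(H6.NK hKN)) := by
    rw [mem_cocycles₂_iff_mTwo, infl₂_desc₂ hKN c hlev]
    exact hcoc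
  exact ⟨H2π _ ⟨_, hmem⟩, ⟨_, hmem⟩, infl₂_desc₂ hKN c hlev, rfl⟩

/-- **R2-surj**. -/
theorem stmt_R2_surj : Stmt_R2_surj := by
  intro K N hKN _ _ _ x
  induction x using H2_induction_on with
  | h f =>
    exact ⟨infl₂ hKN f.1, isLevN₂_infl₂ hKN f.1, (mem_cocycles₂_iff_mTwo hKN f.1).1 f.2,
      f, rfl, rfl⟩

/-- **R2-uniq**. -/
theorem stmt_R2_uniq : Stmt_R2_uniq := by
  rintro K N hKN _ _ _ c x x' ⟨f, hf, hx⟩ ⟨f', hf', hx'⟩
  have : f = f' := Subtype.ext (infl₂_injective hKN (hf.trans hf'.symm))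
  rw [← hx, ← hx', this]

/-- **R2-lev**. -/
theorem stmt_R2_lev : Stmt_R2_lev := by
  rintro K N hKN _ _ _ c x ⟨f, hf, hx⟩
  rw [← hf]
  exact ⟨isLevN₂_infl₂ hKN f.1, (mem_cocycles₂_iff_mTwo hKN f.1).1 f.2⟩

/-- **R2-mul**. -/
theorem stmt_R2_mul : Stmt_R2_mul := by
  rintro K N hKN _ _ _ c c' x x' ⟨f, hf, hx⟩ ⟨f', hf', hx'⟩
  refine ⟨⟨f + f', ?_, ?_⟩, ⟨f - f', ?_, ?_⟩, fun n => ⟨n • f, ?_, ?_⟩⟩
  · rw [← hf, ← hf']
    exact infl₂_add hKN f.1 f'.1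
  · rw [← hx, ← hx']
    exact map_add (H2π (repL ↥K ↥(H6.NK hKN))).hom f f'
  · rw [← hf, ← hf']
    exact infl₂_sub hKN f.1 f'.1
  · rw [← hx, ← hx']
    exact map_sub (H2π (repL ↥K ↥(H6.NK hKN))).hom f f'
  · rw [← hf]
    exact infl₂_nsmul hKN n f.1
  · rw [← hx]
    exact (map_nsmul (H2π (repL ↥K ↥(H6.NK hKN))).hom n f).trans
      (natCast_zsmul _ n).symm

/-- **R2-zero**. -/
theorem stmt_R2_zero : Stmt_R2_zero := by
  rintro K N hKN _ _ _ c x ⟨f, hf, hx⟩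
  rw [← hx, H2π_eq_zero_iff]
  constructor
  · rintro ⟨b, hb⟩
    refine ⟨infl₁ hKN b, isLevN₁_infl₁ hKN b, fun t => ?_⟩
    rw [mOne_infl₁', ← hf]
    exact congrArg (fun u => infl₂ hKN u t) hb.symm
  · rintro ⟨b, hb, hcb⟩
    refine ⟨desc₁ hKN b hb.2, ?_⟩
    apply infl₂_injective hKN
    rw [← mOne_infl₁', infl₁_desc₁ hKN b hb]
    funext t
    rw [← hcb t, ← hf]
    rfl

end Fermat.Agent.S55.CFT.GS.H49

end
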