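import Fermat.Agent.S55.CFT.GS.H58_LocSplitG

/-!
# GS Layer A (helper58): `Stmt_LocSplit` (LSP) as a corollary of the general form `locSplitG`
-/

set_option autoImplicit false
set_option linter.unusedSectionVars false

noncomputable section

namespace Fermat.Agent.S55.CFT.GS.H58

open CategoryTheory groupCohomology Rep NumberField TensorProduct
open Fermat.Agent.S55.CFT Fermat.Agent.S55.CFT.H58

/-- **LOC-SPLIT** (`Defs_BR3.lean`), unconditional. -/
theorem stmt_LocSplit : Stmt_LocSplit := by
  intro p m K L N _ _ _ _ _ _ _ _ _ _ hN hL q v u huv hdeg x hx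
  have hp : p.Prime := hN.prime
  have hNgal : IsGalois K N := hN.gal
  -- `[L : K]` is a power of `p`
  have hmul : Module.finrank K L * Module.finrank L N = Module.finrank K N :=
    Module.finrank_mul_finrank K L N
  have hdvd : Module.finrank K L ∣ p ^ m := by
    rw [← hN.deg, ← hmul]
    exact dvd_mul_right _ _
  obtain ⟨k, -, hk⟩ := (Nat.dvd_prime_pow hp).1 hdvd
  have hL3 : Hyp3 K L p k :=
    { prime := hp, odd := hN.odd, zeta := hN.zeta, gal := hL, deg := hk }
  have hv : v = (H72.placeBelow K L ⟨q, u⟩).2 := MaximalSpectrum.ext huv.symm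
  subst hv
  rw [H72.locMap_resL K L N ⟨q, u⟩ 2 x]
  apply locSplitG p k K L N hL3 hNgal ⟨q, u⟩ hdeg
  rw [natCast_zsmul]
  exact hx

end Fermat.Agent.S55.CFT.GS.H58
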