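import Fermat.Agent.S55.CFT.H58_SHL

/-!
# GS Layer A (helper58), part 1: the `p`-torsion of the semi-local `H²` is cyclic

For `L/K` finite Galois (any group) and a place `v` of `K`: two classes of
`H²(Gal(L/K), (K_v ⊗_K L)ˣ)` killed by `p` are linearly dependent modulo `p`.
(Shapiro `unitsShapiro`, Artin `fixedIso`, `LOC.H68.stmt_BrauerPTors`.)
-/

set_option autoImplicit false
set_option linter.unusedSectionVars false

noncomputable section

namespace Fermat.Agent.S55.CFT.GS.H58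

open CategoryTheory groupCohomology Rep NumberField TensorProduct
open Fermat.Agent.S55.CFT Fermat.Agent.S55.CFT.H58

section Abs

variable (q : ℕ) [Fact q.Prime] (p : ℕ) [Fact p.Prime]
  {G : Type} [Group G] [Finite G] {B : Type} [CommRing B] [MulSemiringAction G B]
  [Algebra ℚ_[q] B] [Module.Finite ℚ_[q] B] (M : Ideal B) [hM : M.IsMaximal]

theorem brauerPTors_abstract (hJ : OrbitSeparates G M)
    (hfaith : ∀ g : G, (∀ b : B, g • b - b ∈ M) → g = 1)
    (hk : ∀ (g : G) (c : ℚ_[q]), g • algebraMap ℚ_[q] B c = algebraMap ℚ_[q] B c)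
    (x y : groupCohomology (unitsRepOf G B) 2) (hx : (p : ℤ) • x = 0) (hy : (p : ℤ) • y = 0) :
    ∃ a b : ℤ, (¬ (p : ℤ) ∣ a ∨ ¬ (p : ℤ) ∣ b) ∧ a • x + b • y = 0 := by
  classical
  let _ : Field (B ⧸ M) := Ideal.Quotient.field M
  have hfaith' : ∀ d : decomp G M, (∀ x : B ⧸ M, d • x = x) → d = 1 := by
    intro d hd
    apply Subtype.ext
    apply hfaith
    intro b
    have h1 := hd (Ideal.Quotient.mk M b)
    rw [quot_smul_mk] at h1
    exact Ideal.Quotient.eq.1 h1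
  have : FaithfulSMul (decomp G M) (B ⧸ M) := ⟨fun {d₁ d₂} h => by
    have h1 : d₂⁻¹ * d₁ = 1 := hfaith' _ (fun x => by
      rw [mul_smul, h x, inv_smul_smul])
    exact (inv_mul_eq_one.1 h1).symm⟩
  have hk' : ∀ (d : decomp G M) (c : ℚ_[q]),
      d • algebraMap ℚ_[q] (B ⧸ M) c = algebraMap ℚ_[q] (B ⧸ M) c := by
    intro d c
    have h1 : algebraMap ℚ_[q] (B ⧸ M) c = Ideal.Quotient.mk M (algebraMap ℚ_[q] B c) := rfl
    rw [h1, quot_smul_mk, hk]
  let _ : Algebra ℚ_[q] (FixedPoints.subfield (decomp G M) (B ⧸ M)) :=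
    fixedAlgebra (decomp G M) (B ⧸ M) ℚ_[q] hk'
  have : FiniteDimensional ℚ_[q] (FixedPoints.subfield (decomp G M) (B ⧸ M)) :=
    fixed_finiteDimensional (decomp G M) (B ⧸ M) ℚ_[q] hk'
  let e : groupCohomology (unitsRepOf G B) 2 ≃ₗ[ℤ]
      groupCohomology (Rep.ofAlgebraAutOnUnits (FixedPoints.subfield (decomp G M) (B ⧸ M))
        (B ⧸ M)) 2 :=
    (unitsShapiro hJ 2 ≪≫ fixedIso (decomp G M) (B ⧸ M) 2).toLinearEquiv
  obtain ⟨a, b, hab, h⟩ := LOC.H68.stmt_BrauerPTors q p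
    (FixedPoints.subfield (decomp G M) (B ⧸ M)) (B ⧸ M) (e x) (e y)
    (by rw [← map_zsmul, hx, map_zero]) (by rw [← map_zsmul, hy, map_zero])
  refine ⟨a, b, hab, ?_⟩
  apply e.injective
  rw [map_add, map_zsmul, map_zsmul, map_zero]
  exact h

end Abs

section Place

variable (K L : Type) [Field K] [Field L] [NumberField K] [NumberField L] [Algebra K L]
  (v : Place K)

/-- The `p`-torsion of `H²(Gal(L/K), (K_v ⊗_K L)ˣ)` is cyclic. -/
theorem brauerPTors_place [IsGalois K L] (p : ℕ) (hp : p.Prime)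
    (x y : groupCohomology (repJv K L v) 2) (hx : (p : ℤ) • x = 0) (hy : (p : ℤ) • y = 0) :
    ∃ a b : ℤ, (¬ (p : ℤ) ∣ a ∨ ¬ (p : ℤ) ∣ b) ∧ a • x + b • y = 0 := by
  have hq : Fact ((v.1 : ℕ)).Prime := fact_primes v.1
  have hp' : Fact p.Prime := ⟨hp⟩
  obtain ⟨M, hM⟩ := Ideal.exists_maximal (LocAlg K L v)
  let e : groupCohomology (repJv K L v) 2 ≃ₗ[ℤ]
      groupCohomology (unitsRepOf (L ≃ₐ[K] L) (LocAlg K L v)) 2 :=
    (repJvIso K L v 2).toLinearEquiv
  obtain ⟨a, b, hab, h⟩ := brauerPTors_abstract (v.1 : ℕ) p M (locAlg_orbitSeparates K L v M)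
    (locAlg_faithful K L v M) (locAlg_smul_algebraMap K L v) (e x) (e y)
    (by rw [← map_zsmul, hx, map_zero]) (by rw [← map_zsmul, hy, map_zero])
  refine ⟨a, b, hab, ?_⟩
  apply e.injective
  rw [map_add, map_zsmul, map_zsmul, map_zero]
  exact h

end Place

end Fermat.Agent.S55.CFT.GS.H58
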