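/-
S55 package E4, island GS, LAYER B (owner-planner: helper64): the final wiring of the layer.

`bridges_of` : the six bridges `Stmt_GS_Bri*` (`CFT/Defs_GS4.lean`) from the leaves which are still
open (package REAL `Stmt_R2_*`, `Stmt_R3_*`; `Stmt_LocS`; `Stmt_ResLoc_fwd`; the local leaves
`Stmt_UnrH2`, `Stmt_UnrVal`).  Done and used here: the assemblies (`H64_BriAsm*.lean`), PL
(`H24.plEx/plEq/plS`), CYC (`H19.stmt_CycBase/CycTop`), the reduction of LOC-OUT (`H24.locOut_of`)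
and RESLOC (⟸) (`H64.stmt_ResLoc_bwd_of`).
`gs_I2_of_leaves`, `gs_I3_of_leaves`, `gs_I4_of_leaves` : the targets of the island.
-/
import Fermat.Agent.S55.CFT.GS.H64_BriAsm2
import Fermat.Agent.S55.CFT.GS.H64_ResLocBwd
import Fermat.Agent.S55.CFT.GS.H24_Pl
import Fermat.Agent.S55.CFT.GS.H24_LocOutRed
import Fermat.Agent.S55.CFT.GS.H19_BriCyc
import Fermat.Agent.S55.CFT.GS.H24_Final

set_option autoImplicit false

noncomputable section

namespace Fermat.Agent.S55.CFT.GS.H64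

open Fermat.Agent.S55 Fermat.Agent.S55.Top Fermat.Agent.S55.CFT Fermat.Agent.S55.CFT.GS.Bri

/-- The open leaves of Layer B. -/
structure LayerBLeaves : Prop where
  r2ex : Stmt_R2_ex
  r2surj : Stmt_R2_surj
  r2mul : Stmt_R2_mul
  r2zero : Stmt_R2_zero
  r2inf : Stmt_R2_inf
  r2lev : Stmt_R2_lev
  r3ex : Stmt_R3_ex
  r3mul : Stmt_R3_mul
  r3zero : Stmt_R3_zero
  r3inf : Stmt_R3_inf
  locS : Stmt_LocS
  resFwd : Stmt_ResLoc_fwd
  unrH2 : Stmt_UnrH2
  unrVal : Stmt_UnrVal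

theorem LayerBLeaves.locOut (h : LayerBLeaves) : Stmt_LocOut :=
  H24.locOut_of h.locS h.r2lev h.resFwd (stmt_ResLoc_bwd_of h.unrH2 h.unrVal)

theorem LayerBLeaves.briHasse (h : LayerBLeaves) : Stmt_GS_BriHasse :=
  briHasse_of h.r2ex h.r2mul h.r2zero H24.plEx H24.plS h.locS h.locOut

theorem LayerBLeaves.briOne (h : LayerBLeaves) : Stmt_GS_BriOne :=
  briOne_of h.r2ex h.r2mul h.r2zero H24.plEx H24.plS h.locS h.locOut

theorem LayerBLeaves.briTwoIn (h : LayerBLeaves) : Stmt_GS_BriTwoIn :=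
  briTwoIn_of h.r2surj h.r2mul h.r2zero H19.stmt_CycBase H24.plS h.locS h.locOut

theorem LayerBLeaves.briTwoOut (h : LayerBLeaves) : Stmt_GS_BriTwoOut :=
  briTwoOut_of h.r2surj h.r2mul h.r2zero H19.stmt_CycBase H24.plEq h.locOut

theorem LayerBLeaves.briDiv (h : LayerBLeaves) : Stmt_GS_BriDiv :=
  briDiv_of h.r2ex h.r2surj h.r2mul h.r2zero h.r2inf H19.stmt_CycTop

theorem LayerBLeaves.briH3 (h : LayerBLeaves) : Stmt_GS_BriH3 :=
  briH3_of h.r3ex h.r3mul h.r3zero h.r3inf H19.stmt_CycTop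

/-- **I2** from Layer A, the leaves of Layer B. -/
theorem gs_I2_of_leaves (hTwo : Stmt_BrTwoG) (hH3 : Stmt_BrH3G) (hDiv : Stmt_BrDivG)
    (h : LayerBLeaves) : Stmt_I2 :=
  H24.gs_I2 hTwo hH3 hDiv h.briTwoOut h.briH3 h.briDiv

/-- **I3** from Layer A, the leaves of Layer B, local Kummer theory and `I1`. -/
theorem gs_I3_of_leaves (hHasse : Stmt_BrHasseG) (hOne : Stmt_BrOneG) (h : LayerBLeaves)
    (hLK : Stmt_GS_LocKum) (hI1 : Stmt_I1) : Stmt_I3 :=
  H24.gs_I3 hHasse hOne h.briHasse h.briOne hLK hI1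

/-- **I4** from Layer A, the leaves of Layer B, local Kummer theory and `I1`. -/
theorem gs_I4_of_leaves (hOne : Stmt_BrOneG) (hTwo : Stmt_BrTwoG) (h : LayerBLeaves)
    (hLK : Stmt_GS_LocKum) (hI1 : Stmt_I1) : Stmt_I4 :=
  H24.gs_I4 hOne hTwo h.briOne h.briTwoIn hLK hI1

end Fermat.Agent.S55.CFT.GS.H64

end
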