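/-
S55 package E4, island GS, Layer B, leaf UNR-H2: the final statement
`H68.stmt_UnrH2 : Bri.Stmt_UnrH2` = descent (helper25) applied to the core (helper68).
-/
import Fermat.Agent.S55.CFT.GS.H68_UnrH2
import Fermat.Agent.S55.CFT.GS.H25_UnrH2Desc

set_option autoImplicit false

namespace Fermat.Agent.S55.CFT.GS.H68

/-- **UNR-H2** (`H²(Gal(E/F₀), U_E) = 0` for unramified `E/F₀`, cochain form). -/
theorem stmt_UnrH2 : Bri.Stmt_UnrH2 :=
  H25.stmt_UnrH2_of stmt_UnrH2_Core

end Fermat.Agent.S55.CFT.GS.H68
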