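/-
S55 package E4, island GS, LAYER B (owner-planner: helper64): the leaves which have landed,
plugged into `LayerBLeaves` (`GS/H64_BriFinal.lean`).

`layerBLeaves_of` : `LayerBLeaves` from the leaves which are still open.  This file is updated
whenever a leaf lands; the final form is `layerBLeaves : LayerBLeaves`.

Landed and used here: REAL degree 2 (`H49.stmt_R2_*`, helper49), REAL degree 3
(`H80.stmt_R3_*`, helper80), UNR-VAL (`H78.stmt_UnrVal`, helper78).
LOC-S (`H68.stmt_LocS_Fwd/Bwd` of helper68 with the leaves of helper5, helper9, helper25, helper47,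
helper80).
RESLOC (⟹) (`H6.stmt_ResLoc_fwd`, helper6), UNR-H2 (`H68.stmt_UnrH2`, helper68 + helper25).
Nothing is open: `layerBLeaves : LayerBLeaves` and the six bridges `stmt_GS_Bri*` are
unconditional.
-/
import Fermat.Agent.S55.CFT.GS.H64_BriFinal
import Fermat.Agent.S55.CFT.GS.H49_Real2Stmts
import Fermat.Agent.S55.CFT.GS.H49_Real2Inf
import Fermat.Agent.S55.CFT.GS.H80_Real3
import Fermat.Agent.S55.CFT.GS.H78_UnrVal
import Fermat.Agent.S55.CFT.GS.H68_LocS_Fwd
import Fermat.Agent.S55.CFT.GS.H68_LocS_Bwd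
import Fermat.Agent.S55.CFT.GS.H5_H2Zero
import Fermat.Agent.S55.CFT.GS.H5_LocSRngMem
import Fermat.Agent.S55.CFT.GS.H9_LocSShapiro2
import Fermat.Agent.S55.CFT.GS.H25_LocSH90
import Fermat.Agent.S55.CFT.GS.H47_LocSDesc
import Fermat.Agent.S55.CFT.GS.H80_LocSDec
import Fermat.Agent.S55.CFT.GS.H6_ResLocFwdFinal
import Fermat.Agent.S55.CFT.GS.H68_UnrH2_Final

set_option autoImplicit false

noncomputable section

namespace Fermat.Agent.S55.CFT.GS.H64

open Fermat.Agent.S55 Fermat.Agent.S55.Top Fermat.Agent.S55.CFT Fermat.Agent.S55.CFT.GS.Bri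

/-- **LOC-S** (helper68's assembly with the leaves of helper5, helper9, helper25, helper47,
helper80). -/
theorem stmt_LocS : Stmt_LocS :=
  H68.stmt_LocS_of (H68.stmt_LocS_Fwd H5.stmt_LocS_H2Zero)
    (H68.stmt_LocS_Bwd H9.stmt_LocS_Shapiro2 H5.stmt_LocS_H2Zero H80.stmt_LocS_Dec
      (H47.stmt_LocS_Desc_of H25.stmt_LocS_H90) H5.stmt_LocS_Rng H5.stmt_LocS_Mem)

/-- `LayerBLeaves` from the leaves which are still open. -/
theorem layerBLeaves_of (resFwd : Stmt_ResLoc_fwd) (unrH2 : Stmt_UnrH2) :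
    LayerBLeaves where
  r2ex := H49.stmt_R2_ex
  r2surj := H49.stmt_R2_surj
  r2mul := H49.stmt_R2_mul
  r2zero := H49.stmt_R2_zero
  r2inf := H49.stmt_R2_inf
  r2lev := H49.stmt_R2_lev
  r3ex := H80.stmt_R3_ex
  r3mul := H80.stmt_R3_mul
  r3zero := H80.stmt_R3_zero
  r3inf := H80.stmt_R3_inf
  locS := stmt_LocS
  resFwd := resFwd
  unrH2 := unrH2
  unrVal := H78.stmt_UnrVal

/-- The bridges which do not need the local leaves: `Stmt_GS_BriDiv`, `Stmt_GS_BriH3`. -/
theorem stmt_GS_BriDiv : Stmt_GS_BriDiv :=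
  briDiv_of H49.stmt_R2_ex H49.stmt_R2_surj H49.stmt_R2_mul H49.stmt_R2_zero H49.stmt_R2_inf
    H19.stmt_CycTop

theorem stmt_GS_BriH3 : Stmt_GS_BriH3 :=
  briH3_of H80.stmt_R3_ex H80.stmt_R3_mul H80.stmt_R3_zero H80.stmt_R3_inf H19.stmt_CycTop

/-- **All the leaves of Layer B.** -/
theorem layerBLeaves : LayerBLeaves :=
  layerBLeaves_of H6.stmt_ResLoc_fwd H68.stmt_UnrH2

theorem stmt_LocOut : Stmt_LocOut := layerBLeaves.locOut

theorem stmt_GS_BriHasse : Stmt_GS_BriHasse := layerBLeaves.briHasse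

theorem stmt_GS_BriOne : Stmt_GS_BriOne := layerBLeaves.briOne

theorem stmt_GS_BriTwoIn : Stmt_GS_BriTwoIn := layerBLeaves.briTwoIn

theorem stmt_GS_BriTwoOut : Stmt_GS_BriTwoOut := layerBLeaves.briTwoOut

end Fermat.Agent.S55.CFT.GS.H64

end
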